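/-
Level lowering by Ihara avoidance: the data of the argument.

`Setup` packages what is used about the residual representation; `AuxPrimes` the Taylor-Wiles
primes of one step; `Point` a congruent system of eigenvalues on twisted cohomology at the level
`base · ∏ Σ · ∏ Q`.
-/
import Fermat.Agent.Ribet.Twisted.Level
import Fermat.Agent.TW.GlobalDefs
import Fermat.Prelude.Def_FLTPrelim_Ramification
import Fermat.Prelude.Def_GaloisRep_LocalConditions
import Fermat.Prelude.Def_GaloisRep_Flat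

set_option autoImplicit false

noncomputable section

namespace Fermat.Agent.Ribet.Avoid

open Polynomial IsLocalRing Twisted

local notation "ℚbar" => AlgebraicClosure ℚ
local notation "Γℚ" => AlgebraicClosure ℚ ≃ₐ[ℚ] AlgebraicClosure ℚ

/-- The residual data: `ρbar` is semistable with ramified primes other than `p` those of `M₀`,
flat at `p` or (`ordP`) ordinary and `p`-new, scalar at the finitely many primes of `Sc`, all
`≡ 1` modulo `p`; `Aux` are auxiliary level primes at which no level raising is possible. -/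
structure Setup : Type 1 where
  /-- the residue characteristic -/
  p : ℕ
  [hp : Fact p.Prime]
  hp2 : p ≠ 2
  /-- the coefficients -/
  O : Type
  [instCommRing : CommRing O]
  [instDomain : IsDomain O]
  [instDVR : IsDiscreteValuationRing O]
  [instComplete : IsAdicComplete (maximalIdeal O) O]
  [instFinite : Finite (ResidueField O)]
  [instCharZero : CharZero O]
  hpO : (p : O) ∈ maximalIdeal O
  /-- a root of unity of order `p` -/
  ξ : O
  hξ : IsPrimitiveRoot ξ p
  hξ1 : Irreducible (ξ - 1)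
  /-- the residual representation -/
  ρbar : ResidualGaloisRep (ResidueField O)
  habs : ρbar.IsAbsolutelyIrreducible
  hodd : ρbar.IsOdd
  hdet : (GaloisRepAdic.ofResidualGaloisRep ρbar).DetIsCyclotomic p
  hsplit : ∀ σ : Γℚ, ∃ α β : ResidueField O,
    LinearMap.charpoly (ρbar.ρ σ) = (X - C α) * (X - C β)
  hTW : ∀ (K : Type) [Field K] [Algebra (ResidueField O) K] (G : Subgroup Γℚ), G.index = 2 →
    ∀ V : Submodule K (ρbar.baseChange K).V,
      (∀ σ ∈ G, ∀ x ∈ V, (ρbar.baseChange K).ρ σ x ∈ V) → V = ⊥ ∨ V = ⊤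
  /-- the minimal level -/
  M₀ : ℕ
  hM₀ : Squarefree M₀
  hpM₀ : ¬ p ∣ M₀
  hmin : ∀ q : ℕ, q.Prime → q ≠ p → (q ∣ M₀ ↔ ¬ ρbar.IsUnramifiedAt q)
  hunip : ∀ q : ℕ, q.Prime → q ∣ M₀ → ∀ A : ValuationSubring ℚbar, A.LiesOverPrime q →
    ∀ g ∈ A.inertiaSubgroupIn ℚ, (TW.matRep ρbar g).charpoly = (X - 1) ^ 2
  /-- whether `p` is in the level -/
  ordP : Bool
  hordP : ordP = true → (GaloisRepAdic.ofResidualGaloisRep ρbar).IsOrdinaryAt p
  /-- auxiliary primes of the level -/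
  Aux : Finset ℕ
  hAuxPrime : ∀ q ∈ Aux, q.Prime ∧ q ≠ p ∧ ¬ q ∣ M₀
  hAux : ∀ q ∈ Aux, ∀ A : ValuationSubring ℚbar, A.LiesOverPrime q → ∀ φ : Γℚ,
    A.IsFrobeniusAt φ q →
      LinearMap.trace (ResidueField O) ρbar.V (ρbar.ρ φ) ^ 2 ≠ ((q : ResidueField O) + 1) ^ 2
  hAux1 : ∀ q ∈ Aux, (q : ZMod p) ≠ 1
  hthree : p = 3 → ∃ x : ℕ, x % 3 = 2 ∧ x.Prime ∧ (x ∣ M₀ ∨ x ∈ Aux)
  /-- the scalar primes -/
  Sc : Finset ℕ
  hScPrime : ∀ q ∈ Sc, q.Prime
  hScM₀ : ∀ q ∈ Sc, ¬ q ∣ M₀
  hScAux : Disjoint Sc Aux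
  hone : ∀ q ∈ Sc, (q : ZMod p) = 1
  hscalar : ∀ q ∈ Sc, ∀ A : ValuationSubring ℚbar, A.LiesOverPrime q →
    ∀ g ∈ A.decompositionSubgroup ℚ, ∃ ε : ResidueField O, TW.matRep ρbar g = ε • 1
  /-- finitely many primes which are left out -/
  S₀ : Finset ℕ
  hpS₀ : p ∈ S₀
  hM₀S₀ : ∀ q : ℕ, q.Prime → q ∣ M₀ → q ∈ S₀
  hScS₀ : ∀ q ∈ Sc, q ∈ S₀
  hAuxS₀ : ∀ q ∈ Aux, q ∈ S₀
  /-- the residual eigenvalues -/
  abar : ℕ → ResidueField O
  hfrob : ∀ ℓ : ℕ, ℓ.Prime → ℓ ∉ S₀ → ∀ A : ValuationSubring ℚbar, A.LiesOverPrime ℓ →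
    ∀ σ : Γℚ, A.IsFrobeniusAt σ ℓ →
      LinearMap.charpoly (ρbar.ρ σ) = X ^ 2 - C (abar ℓ) * X + C ((ℓ : ResidueField O))
  hEis : ∀ (m : ℕ) (T : Finset ℕ), 0 < m → ∃ ℓ : ℕ, ℓ.Prime ∧ ℓ ∉ T ∧ (ℓ : ZMod m) = 1 ∧
    (ℓ : ResidueField O) = 1 ∧ abar ℓ ≠ 2
  hnewP : ordP = true → ∀ (L : ℕ) [NeZero L],
    L = M₀ * (∏ x ∈ Aux, x) * (∏ x ∈ Sc, x) →
      ∀ (S : Finset ℕ) (a : ℕ → AlgebraicClosure (FractionRing O)), S₀ ⊆ S →
        HasSystem (one_dvd L) (1 : DirichletCharacter (AlgebraicClosure (FractionRing O)) 1) S a →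
          ¬ (RingHom.ker (MvPolynomial.eval₂Hom
              (algebraMap O (AlgebraicClosure (FractionRing O)))
              fun ℓ : {ℓ : ℕ // ℓ.Prime ∧ ℓ ∉ S} => a ℓ.1) ≤
            RingHom.ker (MvPolynomial.eval₂Hom (residue O)
              fun ℓ : {ℓ : ℕ // ℓ.Prime ∧ ℓ ∉ S} => abar ℓ.1))

attribute [instance] Setup.hp Setup.instCommRing Setup.instDomain Setup.instDVR
  Setup.instComplete Setup.instFinite Setup.instCharZero

namespace Setup

variable (s : Setup)

/-- The residue field. -/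
abbrev k : Type := ResidueField s.O

/-- An algebraic closure of the fraction field of the coefficients. -/
abbrev K : Type := AlgebraicClosure (FractionRing s.O)

/-- The uniformiser `ξ - 1`. -/
def ϖ : s.O := s.ξ - 1

theorem irreducible_ϖ : Irreducible s.ϖ := s.hξ1

theorem ξ_pow : s.ξ ^ s.p = 1 := s.hξ.pow_eq_one

/-- The fixed part of the level: `M₀`, the auxiliary primes and, in the ordinary case, `p`. -/
def base : ℕ := s.M₀ * (∏ x ∈ s.Aux, x) * (if s.ordP then s.p else 1)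

theorem base_ne_zero : s.base ≠ 0 := by
  have hp0 : (if s.ordP then s.p else 1) ≠ 0 := by split <;> simp [s.hp.out.ne_zero]
  exact mul_ne_zero (mul_ne_zero s.hM₀.ne_zero
    (Finset.prod_ne_zero_iff.mpr fun x hx => (s.hAuxPrime x hx).1.ne_zero)) hp0

end Setup

open Classical in
/-- The hom on `(ℤ/q)ˣ` with value `ζ` at the generator `c`, as a Dirichlet character (trivial
when the data do not define one). -/
def charOfGen {A : Type*} [CommRing A] (q : ℕ) (c : ℕ) (ζ : A) : DirichletCharacter A q :=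
  if h : ∃ χ : DirichletCharacter A q, χ (c : ZMod q) = ζ then h.choose else 1

theorem exists_charOfGen {A : Type*} [CommRing A] {q c : ℕ} (hq : q.Prime)
    (hc : orderOf (c : ZMod q) = q - 1) {ζ : A} {N : ℕ} (hN : N ∣ q - 1) (hζ : ζ ^ N = 1) :
    ∃ χ : DirichletCharacter A q, χ (c : ZMod q) = ζ := by
  haveI : Fact q.Prime := ⟨hq⟩
  have h0 : q - 1 ≠ 0 := by have := hq.two_le; omega
  obtain ⟨g, hg⟩ : IsUnit (c : ZMod q) :=
    IsUnit.of_pow_eq_one (hc ▸ pow_orderOf_eq_one (c : ZMod q)) h0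
  obtain ⟨w, hw⟩ : IsUnit ζ := IsUnit.of_pow_eq_one hζ fun h => h0 (Nat.zero_dvd.mp (h ▸ hN))
  have hg1 : orderOf g = q - 1 := by rw [← orderOf_units, hg, hc]
  have hgen : ∀ x : (ZMod q)ˣ, x ∈ Subgroup.zpowers g := fun x => by
    have hcard : Nat.card (Subgroup.zpowers g) = Nat.card (ZMod q)ˣ := by
      rw [Nat.card_zpowers, hg1, Nat.card_eq_fintype_card, ZMod.card_units]
    rw [Subgroup.eq_top_of_card_eq _ hcard]
    trivial
  have hw1 : orderOf w ∣ orderOf g := by
    refine hg1 ▸ (orderOf_dvd_of_pow_eq_one ?_).trans hN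
    exact Units.ext (by rw [Units.val_pow_eq_pow_val, hw, hζ, Units.val_one])
  refine ⟨MulChar.ofUnitHom (monoidHomOfForallMemZpowers hgen hw1), ?_⟩
  rw [← hg, MulChar.ofUnitHom_coe, monoidHomOfForallMemZpowers_apply_gen, hw]

theorem charOfGen_apply {A : Type*} [CommRing A] {q c : ℕ} (hq : q.Prime)
    (hc : orderOf (c : ZMod q) = q - 1) {ζ : A} {N : ℕ} (hN : N ∣ q - 1) (hζ : ζ ^ N = 1) :
    charOfGen q c ζ (c : ZMod q) = ζ := by
  have h := exists_charOfGen hq hc hN hζ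
  rw [charOfGen, dif_pos h]
  exact h.choose_spec

/-- The auxiliary primes of step `n`, with distinguished Frobenius and inertia elements at the
primes of `Sc` and at the auxiliary ones. -/
structure AuxPrimes (s : Setup) (r n : ℕ) where
  /-- the primes -/
  q : Fin r → ℕ
  inj : Function.Injective q
  prime : ∀ i, (q i).Prime
  notMem : ∀ i, q i ≠ s.p ∧ ¬ q i ∣ s.M₀ ∧ q i ∉ s.Sc ∧ q i ∉ s.Aux
  dvd : ∀ i, s.p ^ (n + 1) ∣ q i - 1
  distinct : ∀ i, ∀ A : ValuationSubring ℚbar, A.LiesOverPrime (q i) →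
    ∀ φ : Γℚ, A.IsFrobeniusAt φ (q i) → ∃ α β : s.k, α ≠ β ∧
      LinearMap.charpoly (s.ρbar.ρ φ) = (X - C α) * (X - C β)
  /-- a place over each relevant prime -/
  place : ℕ → ValuationSubring ℚbar
  /-- a Frobenius element at it -/
  frob : ℕ → Γℚ
  /-- an inertia element at it -/
  tau : ℕ → Γℚ
  /-- the cyclotomic value of the inertia element -/
  gen : ℕ → ℕ
  place_spec : ∀ x : ℕ, x ∈ s.Sc ∨ x ∈ Finset.univ.image q →
    (place x).LiesOverPrime x ∧ (place x).IsFrobeniusAt (frob x) x ∧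
      frob x ∈ (place x).decompositionSubgroup ℚ ∧
      tau x ∈ (place x).inertiaSubgroupIn ℚ ∧
      (∀ μ : ℚbar, μ ^ x = 1 → tau x μ = μ ^ gen x) ∧
      orderOf ((gen x : ℕ) : ZMod x) = x - 1 ∧
      ∀ (H : Type) [Group H] [Finite H] (f : Γℚ →* H),
        (∃ E : IntermediateField ℚ ℚbar, FiniteDimensional ℚ E ∧
          ∀ g : Γℚ, (∀ y ∈ E, g y = y) → f g = 1) →
        (∀ g ∈ (place x).inertiaSubgroupIn ℚ, ∃ m : ℕ, f g ^ s.p ^ m = 1) →
        f (frob x) * f (tau x) * (f (frob x))⁻¹ = f (tau x) ^ x ∧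
          (∀ g ∈ (place x).inertiaSubgroupIn ℚ, f g ∈ Subgroup.zpowers (f (tau x))) ∧
          ∀ g ∈ (place x).decompositionSubgroup ℚ,
            f g ∈ Subgroup.closure {f (frob x), f (tau x)}

namespace AuxPrimes

variable {s : Setup} {r n : ℕ} (d : AuxPrimes s r n)

/-- The modulus `∏ Sc · ∏ Q`. -/
def D : ℕ := (∏ x ∈ s.Sc, x) * ∏ i, d.q i

/-- The level `base · ∏ Sc · ∏ Q`. -/
def L : ℕ := s.base * d.D

theorem D_dvd_L : d.D ∣ d.L := Dvd.intro_left _ rfl

instance : NeZero d.D :=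
  ⟨mul_ne_zero (Finset.prod_ne_zero_iff.mpr fun x hx => (s.hScPrime x hx).ne_zero)
    (Finset.prod_ne_zero_iff.mpr fun i _ => (d.prime i).ne_zero)⟩

instance : NeZero d.L := ⟨mul_ne_zero s.base_ne_zero (NeZero.ne _)⟩

/-- The primes left out at this step. -/
def S : Finset ℕ := s.S₀ ∪ Finset.univ.image d.q

theorem mem_S_of_mem {x : ℕ} (h : x ∈ s.S₀) : x ∈ d.S := Finset.mem_union_left _ h

theorem q_mem_S (i : Fin r) : d.q i ∈ d.S :=
  Finset.mem_union_right _ (Finset.mem_image_of_mem _ (Finset.mem_univ i))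

theorem sc_dvd_D {x : ℕ} (hx : x ∈ s.Sc) : x ∣ d.D :=
  Dvd.dvd.mul_right (Finset.dvd_prod_of_mem _ hx) _

theorem q_dvd_D (i : Fin r) : d.q i ∣ d.D :=
  Dvd.dvd.mul_left (Finset.dvd_prod_of_mem _ (Finset.mem_univ i)) _

/-- The modulus `∏ Q`. -/
def DQ : ℕ := ∏ i, d.q i

/-- The level `base · ∏ Q`. -/
def LQ : ℕ := s.base * d.DQ

theorem DQ_dvd_LQ : d.DQ ∣ d.LQ := Dvd.intro_left _ rfl

instance : NeZero d.DQ := ⟨Finset.prod_ne_zero_iff.mpr fun i _ => (d.prime i).ne_zero⟩

instance : NeZero d.LQ := ⟨mul_ne_zero s.base_ne_zero (NeZero.ne _)⟩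

theorem q_dvd_DQ (i : Fin r) : d.q i ∣ d.DQ := Finset.dvd_prod_of_mem _ (Finset.mem_univ i)

/-- The character at the auxiliary primes alone. -/
def auxChar {A : Type*} [CommRing A] (u : Fin r → A) : DirichletCharacter A d.DQ :=
  ∏ i, DirichletCharacter.changeLevel (d.q_dvd_DQ i) (charOfGen (d.q i) (d.gen (d.q i)) (u i))

/-- The character with value `x` at the generators for the primes of `Sc` and `u i` at the one
for the `i`th auxiliary prime. -/
def levelChar {A : Type*} [CommRing A] (x : A) (u : Fin r → A) : DirichletCharacter A d.D :=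
  (∏ v : s.Sc, DirichletCharacter.changeLevel (d.sc_dvd_D v.2) (charOfGen v.1 (d.gen v.1) x)) *
    ∏ i, DirichletCharacter.changeLevel (d.q_dvd_D i) (charOfGen (d.q i) (d.gen (d.q i)) (u i))

/-- The character of a component: `ξ` at `Sc` in the twisted case, trivial otherwise. -/
def compChar (twisted : Bool) (u : Fin r → s.K) : DirichletCharacter s.K d.D :=
  d.levelChar (if twisted then algebraMap s.O s.K s.ξ else 1) u

end AuxPrimes

/-- The good primes. -/
abbrev GoodPrime (S : Finset ℕ) : Type := {ℓ : ℕ // ℓ.Prime ∧ ℓ ∉ S}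

/-- Polynomials in the good Hecke operators. -/
abbrev HeckePoly (A : Type*) [CommRing A] (S : Finset ℕ) : Type _ := MvPolynomial (GoodPrime S) A

/-- Evaluation at a family of eigenvalues. -/
def evalSystem {A B : Type*} [CommRing A] [CommRing B] (φ : A →+* B) (a : ℕ → B) (S : Finset ℕ) :
    HeckePoly A S →+* B :=
  MvPolynomial.eval₂Hom φ fun ℓ => a ℓ.1

/-- The ideal of the residual system. -/
def residualIdeal {A : Type*} [CommRing A] {k : Type*} [Field k] (κ : A →+* k) (abar : ℕ → k)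
    (S : Finset ℕ) : Ideal (HeckePoly A S) :=
  RingHom.ker (evalSystem κ abar S)

instance residualIdeal_isPrime {A : Type*} [CommRing A] {k : Type*} [Field k] (κ : A →+* k)
    (abar : ℕ → k) (S : Finset ℕ) : (residualIdeal κ abar S).IsPrime :=
  RingHom.ker_isPrime _

/-- The system `a` specialises to the residual one: every relation it satisfies holds there. -/
def IsCongruent {A B : Type*} [CommRing A] [CommRing B] {k : Type*} [Field k] (φ : A →+* B)
    (κ : A →+* k) (abar : ℕ → k) (S : Finset ℕ) (a : ℕ → B) : Prop :=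
  RingHom.ker (evalSystem φ a S) ≤ residualIdeal κ abar S

namespace AuxPrimes

variable {s : Setup} {r n : ℕ} (d : AuxPrimes s r n)

/-- A congruent system at the level of step `n`. -/
structure Point where
  /-- whether the component is twisted at `Sc` -/
  twisted : Bool
  /-- the values at the auxiliary generators -/
  u : Fin r → s.K
  hu : ∀ i, u i ^ s.p ^ (n + 1) = 1
  /-- the eigenvalues -/
  a : ℕ → s.K
  system : HasSystem d.D_dvd_L (d.compChar twisted u) d.S a
  congr : IsCongruent (algebraMap s.O s.K) (residue s.O) s.abar d.S a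

/-- Evaluation of a Hecke polynomial at a point. -/
def Point.eval {d : AuxPrimes s r n} (P : d.Point) : HeckePoly s.O d.S →+* s.K :=
  evalSystem (algebraMap s.O s.K) P.a d.S

/-- The residual ideal of the step. -/
abbrev resIdeal : Ideal (HeckePoly s.O d.S) := residualIdeal (residue s.O) s.abar d.S

end AuxPrimes

/-- In the ordinary case no congruent system exists without `p` in the level. -/
theorem Setup.not_isCongruent_newP (s : Setup) (h : s.ordP = true) (L : ℕ) [NeZero L]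
    (hL : L = s.M₀ * (∏ x ∈ s.Aux, x) * (∏ x ∈ s.Sc, x)) (S : Finset ℕ) (a : ℕ → s.K)
    (hS : s.S₀ ⊆ S) (ha : HasSystem (one_dvd L) (1 : DirichletCharacter s.K 1) S a) :
    ¬ IsCongruent (algebraMap s.O s.K) (residue s.O) s.abar S a :=
  s.hnewP h L hL S a hS ha

end Fermat.Agent.Ribet.Avoid
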