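/-
The data of Ihara avoidance attached to a semistable curve with irreducible `p`-torsion.
-/
import Fermat.Agent.Ribet.Avoid.Setup
import Fermat.Agent.Ribet.GeneralFacts
import Fermat.Agent.Galois.TamePlace

set_option autoImplicit false
set_option linter.style.haveILetI false

noncomputable section

namespace Fermat.Agent.Ribet.Avoid

open Polynomial IsLocalRing Twisted
open scoped WeierstrassCurve.Affine

local notation "ℚbar" => AlgebraicClosure ℚ
local notation "Γℚ" => AlgebraicClosure ℚ ≃ₐ[ℚ] AlgebraicClosure ℚ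

/-- The product of the primes `q ≠ p` at which `W[p]` is ramified, for semistable `W`. -/
def residualLevel (W : WeierstrassCurve ℤ) (p : ℕ) : ℕ :=
  ∏ q ∈ W.Δ.natAbs.primeFactors.filter fun q => q ≠ p ∧ ¬ p ∣ padicValInt q W.Δ, q

theorem prime_dvd_residualLevel_iff {W : WeierstrassCurve ℤ} {p q : ℕ} (hΔ : W.Δ ≠ 0)
    (hq : q.Prime) :
    q ∣ residualLevel W p ↔ q ≠ p ∧ (q : ℤ) ∣ W.Δ ∧ ¬ p ∣ padicValInt q W.Δ := by
  rw [residualLevel, hq.prime.dvd_finsetProd_iff]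
  simp only [Finset.mem_filter, Nat.mem_primeFactors]
  constructor
  · rintro ⟨r, ⟨⟨hr, hrΔ, -⟩, hrp, hv⟩, hqr⟩
    obtain rfl := (Nat.prime_dvd_prime_iff_eq hq hr).mp hqr
    exact ⟨hrp, Int.natCast_dvd.mpr hrΔ, hv⟩
  · rintro ⟨hqp, hd, hv⟩
    exact ⟨q, ⟨⟨hq, Int.natCast_dvd.mp hd, Int.natAbs_ne_zero.mpr hΔ⟩, hqp, hv⟩, dvd_rfl⟩

theorem squarefree_residualLevel (W : WeierstrassCurve ℤ) (p : ℕ) :
    Squarefree (residualLevel W p) := by
  refine Finset.squarefree_prod_of_pairwise_isCoprime ?_ fun q hq =>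
    (Nat.prime_of_mem_primeFactors (Finset.mem_filter.mp hq).1).squarefree
  intro a ha b hb hab
  exact Nat.coprime_iff_isRelPrime.mp ((Nat.coprime_primes
    (Nat.prime_of_mem_primeFactors (Finset.mem_filter.mp (Finset.mem_coe.mp ha)).1)
    (Nat.prime_of_mem_primeFactors (Finset.mem_filter.mp (Finset.mem_coe.mp hb)).1)).mpr hab)

theorem residualLevel_ne_zero (W : WeierstrassCurve ℤ) (p : ℕ) : residualLevel W p ≠ 0 :=
  (squarefree_residualLevel W p).ne_zero

theorem not_dvd_residualLevel {W : WeierstrassCurve ℤ} {p : ℕ} (hΔ : W.Δ ≠ 0) (hp : p.Prime) :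
    ¬ p ∣ residualLevel W p :=
  fun h => ((prime_dvd_residualLevel_iff hΔ hp).mp h).1 rfl

/-- Coefficients and residual representation attached to a semistable curve `W` and an odd prime
`p` at which `W[p]` is irreducible. -/
structure CurveResidual (W : WeierstrassCurve ℤ) (p : ℕ) [Fact p.Prime] : Type 1 where
  /-- the coefficients -/
  O : Type
  [instCommRing : CommRing O]
  [instDomain : IsDomain O]
  [instDVR : IsDiscreteValuationRing O]
  [instComplete : IsAdicComplete (maximalIdeal O) O]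
  [instFinite : Finite (ResidueField O)]
  [instCharZero : CharZero O]
  hpO : (p : O) ∈ maximalIdeal O
  /-- a root of unity of order `p` -/
  ξ : O
  hξ : IsPrimitiveRoot ξ p
  hξ1 : Irreducible (ξ - 1)
  /-- the residual representation -/
  ρbar : ResidualGaloisRep (ResidueField O)
  hΔ : W.Δ ≠ 0
  hp2 : p ≠ 2
  habs : ρbar.IsAbsolutelyIrreducible
  hodd : ρbar.IsOdd
  hdet : (GaloisRepAdic.ofResidualGaloisRep ρbar).DetIsCyclotomic p
  hsplit : ∀ σ : Γℚ, ∃ α β : ResidueField O,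
    LinearMap.charpoly (ρbar.ρ σ) = (X - C α) * (X - C β)
  hTW : ∀ (K : Type) [Field K] [Algebra (ResidueField O) K] (G : Subgroup Γℚ), G.index = 2 →
    ∀ V : Submodule K (ρbar.baseChange K).V,
      (∀ σ ∈ G, ∀ x ∈ V, (ρbar.baseChange K).ρ σ x ∈ V) → V = ⊥ ∨ V = ⊤
  hram : ∀ q : ℕ, q.Prime → q ≠ p →
    (((q : ℤ) ∣ W.Δ ∧ ¬ p ∣ padicValInt q W.Δ) ↔ ¬ ρbar.IsUnramifiedAt q)
  hunip : ∀ q : ℕ, q.Prime → q ≠ p → (q : ℤ) ∣ W.Δ →
    ∀ A : ValuationSubring ℚbar, A.LiesOverPrime q → ∀ g ∈ A.inertiaSubgroupIn ℚ,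
      (TW.matRep ρbar g).charpoly = (X - 1) ^ 2
  hscal : ∀ g : Γℚ, ∀ ε : ℤ, (∀ x : Lifting.Tors W p, g • x = ε • x) →
    TW.matRep ρbar g = (ε : ResidueField O) • 1
  hfrob : ∀ q : ℕ, q.Prime → q ≠ p → W.IsGoodPrimeFor q →
    ∀ A : ValuationSubring ℚbar, A.LiesOverPrime q → ∀ σ : Γℚ, A.IsFrobeniusAt σ q →
      LinearMap.charpoly (ρbar.ρ σ) = X ^ 2 -
        C ((W.apOfModel q : ℤ) : ResidueField O) * X + C ((q : ResidueField O))
  hord : (p : ℤ) ∣ W.Δ → (GaloisRepAdic.ofResidualGaloisRep ρbar).IsOrdinaryAt p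
  hne2 : ∀ (m : ℕ) (T : Finset ℕ), 0 < m → ∃ ℓ : ℕ, ℓ.Prime ∧ ℓ ∉ T ∧ (ℓ : ZMod m) = 1 ∧
    (ℓ : ZMod p) = 1 ∧ W.IsGoodPrimeFor ℓ ∧ ((W.apOfModel ℓ : ℤ) : ZMod p) ≠ 2

attribute [instance] CurveResidual.instCommRing CurveResidual.instDomain CurveResidual.instDVR
  CurveResidual.instComplete CurveResidual.instFinite CurveResidual.instCharZero

variable {W : WeierstrassCurve ℤ} {p : ℕ} [Fact p.Prime]

theorem nonempty_curveResidual (hΔ : W.Δ ≠ 0) (hss : W.IsSemistableModel) (hp2 : p ≠ 2)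
    (hirr : W.ModRepIsIrreducible p) : Nonempty (CurveResidual W p) := by
  obtain ⟨O, i1, i2, i3, i4, i5, i6, ξ, ρbar, hpO, hξ, hξ1, h1, h2, h3, h4, h5, h6, h7, h8, h9,
    h10, h11⟩ := exists_residualSetup hΔ hss hp2 hirr
  exact ⟨{
    O := O, hpO := hpO, ξ := ξ, hξ := hξ, hξ1 := hξ1, ρbar := ρbar, hΔ := hΔ, hp2 := hp2,
    habs := h1, hodd := h2, hdet := h3, hsplit := h4, hTW := h5, hram := h6, hunip := h7,
    hscal := h8, hfrob := h9, hord := h10, hne2 := h11 }⟩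

namespace CurveResidual

variable (d : CurveResidual W p)

/-- The residue field. -/
abbrev k : Type := ResidueField d.O

/-- An algebraic closure of the fraction field of the coefficients. -/
abbrev K : Type := AlgebraicClosure (FractionRing d.O)

/-- The residual eigenvalues. -/
def abar (ℓ : ℕ) : d.k := ((W.apOfModel ℓ : ℤ) : d.k)

theorem natCast_prime_eq_zero : ((p : ℕ) : d.k) = 0 := by
  rw [← map_natCast (residue d.O) p]
  exact (residue_eq_zero_iff _).mpr d.hpO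

theorem charP_k : CharP d.k p :=
  (CharP.charP_iff_prime_eq_zero Fact.out).mpr d.natCast_prime_eq_zero

theorem trace_frobenius {q : ℕ} (hq : q.Prime) (hqp : q ≠ p) (hg : W.IsGoodPrimeFor q)
    {A : ValuationSubring ℚbar} (hA : A.LiesOverPrime q) {φ : Γℚ} (hφ : A.IsFrobeniusAt φ q) :
    LinearMap.trace d.k d.ρbar.V (d.ρbar.ρ φ) = d.abar q := by
  rw [LinearMap.trace_eq_matrix_trace d.k (TW.residualBasis d.ρbar),
    Matrix.trace_eq_neg_charpoly_coeff, LinearMap.charpoly_toMatrix, d.hfrob q hq hqp hg A hA φ hφ]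
  simp [abar]

/-- A prime congruent to `1` modulo `p` at which the decomposition group acts by scalars. -/
structure IsScalarPrime (q : ℕ) : Prop where
  prime : q.Prime
  ne : q ≠ p
  one : (q : ZMod p) = 1
  unramified : d.ρbar.IsUnramifiedAt q
  scalar : ∀ A : ValuationSubring ℚbar, A.LiesOverPrime q →
    ∀ g ∈ A.decompositionSubgroup ℚ, ∃ ε : d.k, TW.matRep d.ρbar g = ε • 1

/-- `q ≡ 1 (mod p)` is a scalar prime if `W[p]` is unramified at `q` and one Frobenius at each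
place over `q` acts as an integer. -/
theorem isScalarPrime_of_curve {q : ℕ} (hq : q.Prime) (hqp : q ≠ p) (h1 : (q : ZMod p) = 1)
    (hv : (q : ℤ) ∣ W.Δ → p ∣ padicValInt q W.Δ)
    (hfr : ∀ A : ValuationSubring ℚbar, A.LiesOverPrime q → ∃ φ : Γℚ, A.IsFrobeniusAt φ q ∧
      ∃ ε : ℤ, ∀ x : Lifting.Tors W p, φ • x = ε • x) :
    d.IsScalarPrime q := by
  have hun : d.ρbar.IsUnramifiedAt q := by
    by_contra h
    obtain ⟨hd, hnv⟩ := (d.hram q hq hqp).mpr h
    exact hnv (hv hd)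
  refine ⟨hq, hqp, h1, hun, fun A hA g hg => ?_⟩
  obtain ⟨φ, hφ, ε, hε⟩ := hfr A hA
  obtain ⟨L, hL, hfix⟩ := d.ρbar.factorsThroughFiniteLevel
  haveI := hL
  haveI : IsGalois ℚ (IntermediateField.normalClosure ℚ L ℚbar) := IsGalois.normalClosure ℚ L ℚbar
  obtain ⟨j, h, hh, hgh⟩ := Galois.exists_decomposition_eq (L := IntermediateField.normalClosure ℚ L ℚbar) hq hA hφ hg
  refine ⟨(ε : d.k) ^ j, ?_⟩
  have hker : d.ρbar.ρ ((φ ^ j * h)⁻¹ * g) = 1 := hfix _ fun x hx => by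
    rw [AlgEquiv.mul_apply, hgh x (L.le_normalClosure hx), ← AlgEquiv.mul_apply, inv_mul_cancel,
      AlgEquiv.one_apply]
  have hh1 : TW.matRep d.ρbar h = 1 := (TW.matRep_eq_one_iff _ h).mpr (hun A hA h hh)
  conv_lhs => rw [← mul_inv_cancel_left (φ ^ j * h) g, map_mul,
    (TW.matRep_eq_one_iff _ _).mpr hker, mul_one, map_mul, hh1, mul_one, map_pow,
    d.hscal φ ε hε, _root_.smul_pow, one_pow]

/-- A good prime at which no level raising is possible. -/
structure IsAuxPrime (r : ℕ) : Prop where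
  prime : r.Prime
  ne : r ≠ p
  good : W.IsGoodPrimeFor r
  abar_sq_ne : d.abar r ^ 2 ≠ ((r : d.k) + 1) ^ 2
  ne_one : (r : ZMod p) ≠ 1

/-- Auxiliary primes outside a given set, one of them `≡ 2 (mod 3)` if `p = 3`. -/
theorem exists_aux (hss : W.IsSemistableModel) (hirr : W.ModRepIsIrreducible p) (T : Finset ℕ) :
    ∃ Aux : Finset ℕ, (∀ r ∈ Aux, d.IsAuxPrime r) ∧ Disjoint T Aux ∧
      (p = 3 → ∃ x : ℕ, x % 3 = 2 ∧ x.Prime ∧ (x ∣ residualLevel W p ∨ x ∈ Aux)) := by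
  by_cases hp3 : p = 3
  · obtain ⟨r, hr, hrT, hr2, hg, ha⟩ :=
      exists_auxPrime_ap_ne_zero d.hΔ hss hp3 hirr T
    haveI := d.charP_k
    refine ⟨{r}, fun x hx => ?_, Finset.disjoint_singleton_right.mpr hrT,
      fun _ => ⟨r, hr2, hr, Or.inr (Finset.mem_singleton_self r)⟩⟩
    obtain rfl := Finset.mem_singleton.mp hx
    have hrp : x ≠ p := by omega
    have hr1 : (x : d.k) + 1 = 0 := by
      have : ((x + 1 : ℕ) : d.k) = 0 := (CharP.cast_eq_zero_iff d.k p _).mpr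
        (by rw [hp3]; omega)
      simpa using this
    refine ⟨hr, hrp, hg, ?_, fun h => ?_⟩
    swap
    · have h1 : ((x : ℕ) : ZMod p) = ((1 : ℕ) : ZMod p) := by simpa using h
      rw [ZMod.natCast_eq_natCast_iff', hp3, hr2] at h1
      omega
    rw [hr1, zero_pow two_ne_zero]
    refine pow_ne_zero 2 fun h => ha ?_
    exact (ZMod.intCast_zmod_eq_zero_iff_dvd _ _).mpr
      ((CharP.intCast_eq_zero_iff d.k p _).mp h)
  · exact ⟨∅, by simp, Finset.disjoint_empty_right T, fun h => absurd h hp3⟩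

/-- The primes left out. -/
def leftOut (_d : CurveResidual W p) (Sc Aux extra : Finset ℕ) : Finset ℕ :=
  {p} ∪ W.Δ.natAbs.primeFactors ∪ Sc ∪ Aux ∪ extra

theorem extra_subset_leftOut (Sc Aux extra : Finset ℕ) : extra ⊆ d.leftOut Sc Aux extra :=
  Finset.subset_union_right

/-- The data of Ihara avoidance at level `residualLevel · ∏ Aux · p^ordP`, scalar primes `Sc`. -/
def toSetup (Sc Aux extra : Finset ℕ) (hSc : ∀ q ∈ Sc, d.IsScalarPrime q)
    (hAux : ∀ r ∈ Aux, d.IsAuxPrime r) (hdisj : Disjoint Sc Aux)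
    (hthree : p = 3 → ∃ x : ℕ, x % 3 = 2 ∧ x.Prime ∧ (x ∣ residualLevel W p ∨ x ∈ Aux))
    (ordP : Bool)
    (hordP : ordP = true → (GaloisRepAdic.ofResidualGaloisRep d.ρbar).IsOrdinaryAt p)
    (hnewP : ordP = true → ∀ (L : ℕ) [NeZero L],
      L = residualLevel W p * (∏ x ∈ Aux, x) * (∏ x ∈ Sc, x) →
        ∀ (S : Finset ℕ) (a : ℕ → d.K), d.leftOut Sc Aux extra ⊆ S →
          HasSystem (one_dvd L) (1 : DirichletCharacter d.K 1) S a →
            ¬ IsCongruent (algebraMap d.O d.K) (residue d.O) d.abar S a) :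
    Setup where
  p := p
  hp2 := d.hp2
  O := d.O
  hpO := d.hpO
  ξ := d.ξ
  hξ := d.hξ
  hξ1 := d.hξ1
  ρbar := d.ρbar
  habs := d.habs
  hodd := d.hodd
  hdet := d.hdet
  hsplit := d.hsplit
  hTW := d.hTW
  M₀ := residualLevel W p
  hM₀ := squarefree_residualLevel W p
  hpM₀ := not_dvd_residualLevel d.hΔ Fact.out
  hmin q hq hqp := by
    rw [prime_dvd_residualLevel_iff d.hΔ hq, ← d.hram q hq hqp]
    exact and_iff_right hqp
  hunip q hq hqM A hA g hg :=
    let h := (prime_dvd_residualLevel_iff d.hΔ hq).mp hqM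
    d.hunip q hq h.1 h.2.1 A hA g hg
  ordP := ordP
  hordP := hordP
  Aux := Aux
  hAuxPrime r hr := ⟨(hAux r hr).prime, (hAux r hr).ne, fun h =>
    (hAux r hr).good ((prime_dvd_residualLevel_iff d.hΔ (hAux r hr).prime).mp h).2.1⟩
  hAux r hr A hA φ hφ := by
    rw [d.trace_frobenius (hAux r hr).prime (hAux r hr).ne (hAux r hr).good hA hφ]
    exact (hAux r hr).abar_sq_ne
  hAux1 r hr := (hAux r hr).ne_one
  hthree := hthree
  Sc := Sc
  hScPrime q hq := (hSc q hq).prime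
  hScM₀ q hq h :=
    (d.hram q (hSc q hq).prime (hSc q hq).ne).mp
      ((prime_dvd_residualLevel_iff d.hΔ (hSc q hq).prime).mp h).2 (hSc q hq).unramified
  hScAux := hdisj
  hone q hq := (hSc q hq).one
  hscalar q hq := (hSc q hq).scalar
  S₀ := d.leftOut Sc Aux extra
  hpS₀ := by simp [leftOut]
  hM₀S₀ q hq hqM := by
    have h := ((prime_dvd_residualLevel_iff d.hΔ hq).mp hqM).2.1
    simp [leftOut, hq, Int.natCast_dvd.mp h, d.hΔ]
  hScS₀ q hq := by simp [leftOut, hq]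
  hAuxS₀ q hq := by simp [leftOut, hq]
  abar := d.abar
  hfrob ℓ hℓ hℓS A hA σ hσ := by
    simp only [leftOut, Finset.mem_union, Finset.mem_singleton, Nat.mem_primeFactors, not_or,
      not_and] at hℓS
    exact d.hfrob ℓ hℓ hℓS.1.1.1.1 (fun h => hℓS.1.1.1.2 hℓ (Int.natCast_dvd.mp h)
      (Int.natAbs_ne_zero.mpr d.hΔ)) A hA σ hσ
  hEis m T hm := by
    obtain ⟨ℓ, hℓ, hℓT, h1, hp1, -, hne⟩ := d.hne2 m T hm
    haveI := d.charP_k
    refine ⟨ℓ, hℓ, hℓT, h1, ?_, fun h => hne ?_⟩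
    · have := congrArg (ZMod.castHom dvd_rfl d.k) hp1
      rwa [map_natCast, map_one] at this
    · have h' : ((W.apOfModel ℓ - 2 : ℤ) : d.k) = 0 := by
        rw [Int.cast_sub, Int.cast_ofNat, sub_eq_zero]; exact h
      have h'' := (ZMod.intCast_zmod_eq_zero_iff_dvd _ p).mpr
        ((CharP.intCast_eq_zero_iff d.k p _).mp h')
      rwa [Int.cast_sub, Int.cast_ofNat, sub_eq_zero] at h''
  hnewP := hnewP

end CurveResidual

end Fermat.Agent.Ribet.Avoid
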