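/-
The algebra of good Hecke operators acting on twisted cohomology and its part at a prime ideal.
-/
import Fermat.Agent.Ribet.Avoid.Setup
import Fermat.Agent.Ribet.Twisted.Lift

set_option autoImplicit false

noncomputable section

namespace Fermat.Agent.Ribet.Avoid

open Twisted

/-- No torsion of order `3` obstructs lifting: `3` is invertible or some prime `≡ 2` modulo `3`
divides the level. -/
def EllipticOK (A : Type*) [Semiring A] (L : ℕ) : Prop :=
  IsUnit (3 : A) ∨ ∃ x : ℕ, x % 3 = 2 ∧ x.Prime ∧ x ∣ L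

/-- Some good prime `≡ 1` modulo `D` is residually not Eisenstein. -/
def HasNonEisenstein (D : ℕ) {k : Type*} [Field k] (abar : ℕ → k) (S : Finset ℕ) : Prop :=
  ∃ ℓ : ℕ, ℓ.Prime ∧ ℓ ∉ S ∧ (ℓ : ZMod D) = 1 ∧ abar ℓ ≠ (ℓ : k) + 1

variable {L D : ℕ} [NeZero L] {A : Type*} [CommRing A] (hD : D ∣ L) (ψ : DirichletCharacter A D)
  (M : Type*) [AddCommGroup M] [Module A M] (S : Finset ℕ)

/-- The algebra generated by the good operators. -/
def goodAlgebra : Subalgebra A (Module.End A (CohL hD ψ M)) :=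
  Algebra.adjoin A (Set.range fun ℓ : GoodPrime S => heckeT' hD ψ M ℓ.1)

instance isMulCommutative_goodAlgebra : IsMulCommutative (goodAlgebra hD ψ M S) :=
  Algebra.isMulCommutative_adjoin A fun _ ⟨ℓ, hℓ⟩ _ ⟨m, hm⟩ =>
    hℓ ▸ hm ▸ heckeT'_comm hD ψ ℓ.1 m.1

open scoped IsMulCommutative in
/-- The good operators on twisted cohomology. -/
def act : HeckePoly A S →ₐ[A] Module.End A (CohL hD ψ M) :=
  (goodAlgebra hD ψ M S).val.comp
    (MvPolynomial.aeval fun ℓ => (⟨heckeT' hD ψ M ℓ.1, Algebra.subset_adjoin ⟨ℓ, rfl⟩⟩ :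
      goodAlgebra hD ψ M S))

theorem act_X (ℓ : GoodPrime S) : act hD ψ M S (MvPolynomial.X ℓ) = heckeT' hD ψ M ℓ.1 := by
  simp [act]

variable (P : Ideal (HeckePoly A S)) [hP : P.IsPrime]

/-- The classes killed by an operator outside `P`. -/
def locKer : Submodule A (CohL hD ψ M) where
  carrier := {x | ∃ t, t ∉ P ∧ act hD ψ M S t x = 0}
  zero_mem' := ⟨1, fun h => hP.ne_top ((Ideal.eq_top_iff_one P).2 h), map_zero _⟩
  add_mem' := by
    rintro x y ⟨t, ht, hx⟩ ⟨t', ht', hy⟩
    refine ⟨t * t', fun h => (hP.mem_or_mem h).elim ht ht', ?_⟩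
    rw [map_add]
    nth_rw 1 [mul_comm t t']
    rw [map_mul, map_mul, Module.End.mul_apply, Module.End.mul_apply, hx, hy, map_zero, map_zero,
      add_zero]
  smul_mem' := by
    rintro c x ⟨t, ht, hx⟩
    exact ⟨t, ht, by rw [map_smul, hx, smul_zero]⟩

theorem mem_locKer {x : CohL hD ψ M} :
    x ∈ locKer hD ψ M S P ↔ ∃ t, t ∉ P ∧ act hD ψ M S t x = 0 := Iff.rfl

/-- The part of twisted cohomology at `P`. -/
abbrev LocCoh : Type _ := CohL hD ψ M ⧸ locKer hD ψ M S P

theorem act_mem_locKer (f : HeckePoly A S) :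
    locKer hD ψ M S P ≤ (locKer hD ψ M S P).comap (act hD ψ M S f) := by
  rintro x ⟨t, ht, hx⟩
  refine ⟨t, ht, ?_⟩
  rw [← Module.End.mul_apply, ← map_mul, mul_comm, map_mul, Module.End.mul_apply, hx, map_zero]

/-- The operators on the part at `P`. -/
def locAct : HeckePoly A S →ₐ[A] Module.End A (LocCoh hD ψ M S P) where
  toFun f := Submodule.mapQ _ _ (act hD ψ M S f) (act_mem_locKer hD ψ M S P f)
  map_one' := Submodule.linearMap_qext _ (LinearMap.ext fun x => by simp)
  map_mul' f g := Submodule.linearMap_qext _ (LinearMap.ext fun x => by simp)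
  map_zero' := Submodule.linearMap_qext _ (LinearMap.ext fun x => by simp)
  map_add' f g := Submodule.linearMap_qext _ (LinearMap.ext fun x => by simp)
  commutes' c := Submodule.linearMap_qext _ (LinearMap.ext fun x => by
    rw [LinearMap.comp_apply, Submodule.mkQ_apply, Submodule.mapQ_apply, AlgHom.commutes,
      Module.algebraMap_end_apply, LinearMap.comp_apply, Submodule.mkQ_apply,
      Module.algebraMap_end_apply, Submodule.Quotient.mk_smul])

@[simp] theorem locAct_mk (f : HeckePoly A S) (x : CohL hD ψ M) :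
    locAct hD ψ M S P f (Submodule.Quotient.mk x) =
      Submodule.Quotient.mk (act hD ψ M S f x) := rfl

end Fermat.Agent.Ribet.Avoid
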