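/-
Change of coefficients for the operators and for the congruent part.
-/
import Fermat.Agent.Ribet.Avoid.Act

set_option autoImplicit false

noncomputable section

namespace Fermat.Agent.Ribet.Avoid

open Twisted

variable {L D : ℕ} [NeZero L] (hD : D ∣ L)
  {A B : Type*} [CommRing A] [CommRing B] (φ : A →+* B) (ψ : DirichletCharacter A D)
  {M N : Type*} [AddCommGroup M] [Module A M] [AddCommGroup N] [Module B N]

/-- Change of coefficients on twisted cohomology. -/
def coeffMap (f : M →ₛₗ[φ] N) : CohL hD ψ M →ₛₗ[φ] CohL hD (ψ.ringHomComp φ) N :=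
  Coh.map (chr_ringHomComp φ hD ψ) f

omit [NeZero L] in
theorem heckeWeight_ringHomComp (ℓ : ℕ) (i : Fermat.Agent.HeckeCohom.HeckeIdx L ℓ) :
    heckeWeight L (ψ.ringHomComp φ) ℓ i = φ (heckeWeight L ψ ℓ i) := by
  obtain ⟨i, hi⟩ := i
  rcases i with _ | x
  · simp [heckeWeight, MulChar.ringHomComp_apply]
  · show (ψ.ringHomComp φ)⁻¹ (ℓ : ZMod D) = φ (ψ⁻¹ (ℓ : ZMod D))
    rw [MulChar.ringHomComp_inv, MulChar.ringHomComp_apply]

theorem coeffMap_heckeT' (f : M →ₛₗ[φ] N) (ℓ : ℕ) (x : CohL hD ψ M) :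
    coeffMap hD φ ψ f (heckeT' hD ψ M ℓ x) =
      heckeT' hD (ψ.ringHomComp φ) N ℓ (coeffMap hD φ ψ f x) := by
  by_cases h : ℓ.Prime ∧ ¬ ℓ ∣ D
  · haveI : Fact ℓ.Prime := ⟨h.1⟩
    rw [heckeT'_eq hD ψ M h.2, heckeT'_eq hD (ψ.ringHomComp φ) N h.2]
    set hA := heckeOpData hD ψ (Fact.out : ℓ.Prime) h.2
    have hB := hA.pushforward φ (chr_ringHomComp φ hD ψ) (chr_ringHomComp φ hD ψ)
    have e : (heckeOpData hD (ψ.ringHomComp φ) (Fact.out : ℓ.Prime) h.2).op N = hB.op N :=
      OpData.op_eq_of_equiv _ hB (Equiv.refl _) (fun _ => 1) (fun i => by simp) fun i => by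
        simp [heckeWeight_ringHomComp]
    rw [e]
    exact hA.map_op hB _ _ f x
  · simp only [heckeT', dif_neg h, LinearMap.zero_apply, map_zero]

theorem coeffMap_act (f : M →ₛₗ[φ] N) (S : Finset ℕ) (t : HeckePoly A S) (x : CohL hD ψ M) :
    coeffMap hD φ ψ f (act hD ψ M S t x) =
      act hD (ψ.ringHomComp φ) N S (MvPolynomial.map φ t) (coeffMap hD φ ψ f x) := by
  induction t using MvPolynomial.induction_on generalizing x with
  | C a =>
    rw [MvPolynomial.map_C, ← MvPolynomial.algebraMap_eq, ← MvPolynomial.algebraMap_eq,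
      AlgHom.commutes, AlgHom.commutes, Module.algebraMap_end_apply, Module.algebraMap_end_apply,
      LinearMap.map_smulₛₗ]
  | add s t hs ht => simp only [map_add, LinearMap.add_apply, hs, ht]
  | mul_X s ℓ hs =>
    simp only [map_mul, MvPolynomial.map_X, Module.End.mul_apply, act_X, hs, coeffMap_heckeT']

/-- The residual ideal only depends on the residual system up to field embeddings. -/
theorem residualIdeal_comp {k k' : Type*} [Field k] [Field k'] (e : k →+* k') (κ : A →+* k)
    (abar : ℕ → k) (S : Finset ℕ) :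
    residualIdeal (e.comp κ) (fun ℓ => e (abar ℓ)) S = residualIdeal κ abar S := by
  have h : evalSystem (e.comp κ) (fun ℓ => e (abar ℓ)) S = e.comp (evalSystem κ abar S) := by
    refine MvPolynomial.ringHom_ext (fun a => ?_) (fun ℓ => ?_) <;> simp [evalSystem]
  ext t
  rw [residualIdeal, residualIdeal, RingHom.mem_ker, RingHom.mem_ker, h, RingHom.comp_apply,
    map_eq_zero_iff _ e.injective]

theorem evalSystem_map {k : Type*} [CommRing k] (φ : A →+* B) (κ : B →+* k) (abar : ℕ → k)
    (S : Finset ℕ) (t : HeckePoly A S) :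
    evalSystem κ abar S (MvPolynomial.map φ t) = evalSystem (κ.comp φ) abar S t :=
  MvPolynomial.eval₂Hom_map_hom φ _ κ t

/-- The residual ideal of a quotient. -/
theorem map_mem_residualIdeal {k : Type*} [Field k] (φ : A →+* B) (κ : B →+* k) (abar : ℕ → k)
    (S : Finset ℕ) (t : HeckePoly A S) :
    MvPolynomial.map φ t ∈ residualIdeal κ abar S ↔ t ∈ residualIdeal (κ.comp φ) abar S := by
  rw [residualIdeal, residualIdeal, RingHom.mem_ker, RingHom.mem_ker, evalSystem_map]

/-- Change of coefficients on the congruent parts. -/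
theorem coeffMap_mem_locKer (f : M →ₛₗ[φ] N) {k : Type*} [Field k] (κ : B →+* k)
    (abar : ℕ → k) (S : Finset ℕ) {x : CohL hD ψ M}
    (hx : x ∈ locKer hD ψ M S (residualIdeal (κ.comp φ) abar S)) :
    coeffMap hD φ ψ f x ∈ locKer hD (ψ.ringHomComp φ) N S (residualIdeal κ abar S) := by
  obtain ⟨t, ht, hx⟩ := hx
  refine ⟨MvPolynomial.map φ t, fun h => ht ((map_mem_residualIdeal φ κ abar S t).mp h), ?_⟩
  rw [← coeffMap_act, hx, map_zero]

/-- Change of coefficients on the congruent parts. -/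
def locCoeffMap (f : M →ₛₗ[φ] N) {k : Type*} [Field k] (κ : B →+* k) (abar : ℕ → k)
    (S : Finset ℕ) :
    LocCoh hD ψ M S (residualIdeal (κ.comp φ) abar S) →ₛₗ[φ]
      LocCoh hD (ψ.ringHomComp φ) N S (residualIdeal κ abar S) :=
  Submodule.mapQ _ _ (coeffMap hD φ ψ f) fun _ hx => coeffMap_mem_locKer hD φ ψ f κ abar S hx

theorem locCoeffMap_mk (f : M →ₛₗ[φ] N) {k : Type*} [Field k] (κ : B →+* k) (abar : ℕ → k)
    (S : Finset ℕ) (x : CohL hD ψ M) :
    locCoeffMap hD φ ψ f κ abar S (Submodule.Quotient.mk x) =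
      Submodule.Quotient.mk (coeffMap hD φ ψ f x) := rfl

/-- Operators on the congruent parts commute with change of coefficients. -/
theorem locCoeffMap_locAct (f : M →ₛₗ[φ] N) {k : Type*} [Field k] (κ : B →+* k) (abar : ℕ → k)
    (S : Finset ℕ) (t : HeckePoly A S)
    (x : LocCoh hD ψ M S (residualIdeal (κ.comp φ) abar S)) :
    locCoeffMap hD φ ψ f κ abar S (locAct hD ψ M S _ t x) =
      locAct hD (ψ.ringHomComp φ) N S _ (MvPolynomial.map φ t)
        (locCoeffMap hD φ ψ f κ abar S x) := by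
  obtain ⟨x, rfl⟩ := Submodule.Quotient.mk_surjective _ x
  rw [locAct_mk, locCoeffMap_mk, locCoeffMap_mk, locAct_mk, coeffMap_act]

omit [NeZero L] in
/-- The ideal only matters up to equality. -/
theorem finrank_locCoh_congr [NeZero L] (S : Finset ℕ) (P Q : Ideal (HeckePoly A S)) [P.IsPrime]
    [Q.IsPrime] (h : P = Q) (M : Type*) [AddCommGroup M] [Module A M] :
    Module.finrank A (LocCoh hD ψ M S P) = Module.finrank A (LocCoh hD ψ M S Q) := by
  subst h; rfl

/-- The congruent rank is invariant under isomorphisms of the coefficient field. -/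
theorem finrank_locCoh_equiv {k k' : Type} [Field k] [Field k'] (e : k ≃+* k')
    (χ : DirichletCharacter k D) (abar : ℕ → k) (S : Finset ℕ) :
    Module.finrank k (LocCoh hD χ k S (residualIdeal (RingHom.id k) abar S)) =
      Module.finrank k' (LocCoh hD (χ.ringHomComp e.toRingHom) k' S
        (residualIdeal (RingHom.id k') (fun ℓ => e (abar ℓ)) S)) := by
  set φ : k →+* k' := e.toRingHom
  have hid : residualIdeal ((RingHom.id k').comp φ) (fun ℓ => φ (abar ℓ)) S =
      residualIdeal (RingHom.id k) abar S := by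
    rw [show (RingHom.id k').comp φ = φ.comp (RingHom.id k) by simp, residualIdeal_comp]
  let σ : k' →+* k := e.symm.toRingHom
  let g : k →ₛₗ[φ] k' := RingHom.toSemilinearMap φ
  let G := locCoeffMap hD φ χ g (RingHom.id k') (fun ℓ => φ (abar ℓ)) S
  have hG : Function.Bijective G := by
    have hinj : ∀ x : CohL hD χ k, coeffMap hD φ χ g x = 0 → x = 0 := by
      intro x hx
      obtain ⟨z, rfl⟩ := Coh.mk_surjective x
      rw [coeffMap, Coh.map_mk, Coh.mk_eq_zero] at hx
      obtain ⟨a, ha⟩ := hx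
      rw [Coh.mk_eq_zero]
      refine ⟨e.symm a, Subtype.ext (funext fun γ => e.injective ?_)⟩
      have h := congrFun (congrArg Subtype.val ha) γ
      simp only [coboundary_apply, smul_eq_mul, cocyclesMap_apply, chr_ringHomComp] at h ⊢
      rw [map_sub, map_mul, RingEquiv.apply_symm_apply]
      exact h
    have hsurj : ∀ y : CohL hD (χ.ringHomComp φ) k', ∃ x, coeffMap hD φ χ g x = y := by
      intro y
      obtain ⟨z, rfl⟩ := Coh.mk_surjective y
      refine ⟨Coh.mk (chr hD χ) k ⟨fun γ => e.symm ((z : _ → k') γ), fun γ δ => e.injective ?_⟩, ?_⟩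
      · rw [map_add, RingEquiv.apply_symm_apply, RingEquiv.apply_symm_apply, smul_eq_mul, map_mul,
          RingEquiv.apply_symm_apply, z.2 γ δ, chr_ringHomComp, smul_eq_mul]
        rfl
      · rw [coeffMap, Coh.map_mk]
        exact congrArg _ (Subtype.ext (funext fun γ => e.apply_symm_apply _))
    constructor
    · refine (injective_iff_map_eq_zero _).mpr fun x hx => ?_
      obtain ⟨x, rfl⟩ := Submodule.Quotient.mk_surjective _ x
      rw [show G _ = _ from locCoeffMap_mk hD φ χ g _ _ S x, Submodule.Quotient.mk_eq_zero] at hx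
      obtain ⟨t, ht, htx⟩ := hx
      rw [Submodule.Quotient.mk_eq_zero]
      obtain ⟨t, rfl⟩ := MvPolynomial.map_surjective φ e.surjective t
      exact ⟨t, fun h => ht ((map_mem_residualIdeal φ _ _ S t).mpr h),
        hinj _ (by rw [coeffMap_act, htx])⟩
    · intro y
      obtain ⟨y, rfl⟩ := Submodule.Quotient.mk_surjective _ y
      obtain ⟨x, rfl⟩ := hsurj y
      exact ⟨Submodule.Quotient.mk x, rfl⟩
  have h := rank_eq_of_equiv_equiv (R := k) (R' := k') e (AddEquiv.ofBijective G.toAddMonoidHom hG)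
    e.bijective fun c x => G.map_smulₛₗ c x
  have h' := congrArg Cardinal.toNat h
  rw [← finrank_locCoh_congr hD χ S _ _ hid k]
  exact h'

end Fermat.Agent.Ribet.Avoid
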