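/-
Coefficients of twisted cohomology: lifting of cocycles, the kernel of a reduction, spanning by
images, surjectivity of the operators outside the residual ideal.
-/
import Fermat.Agent.Ribet.Avoid.Transport
import Fermat.Agent.Lifting.CBridge
import Fermat.Prelude.Thm_IsAdicComplete_of_module_finite
import Mathlib.RingTheory.Henselian
import Mathlib.RingTheory.Artinian.Module
import Mathlib.RingTheory.Nakayama

set_option autoImplicit false

set_option linter.style.haveILetI false

noncomputable section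

namespace Fermat.Agent.Ribet.Avoid

open Twisted IsLocalRing CongruenceSubgroup

theorem EllipticOK.elliptic3 {A : Type*} [CommRing A] {L : ℕ} (h : EllipticOK A L) :
    Lifting.Elliptic3 A L :=
  h.imp id fun ⟨x, h3, hx, hxL⟩ => ⟨x, hx, hxL, h3⟩

theorem EllipticOK.map {A B : Type*} [CommRing A] [CommRing B] {L : ℕ} (h : EllipticOK A L)
    (φ : A →+* B) : EllipticOK B L :=
  h.imp (fun h3 => map_ofNat φ 3 ▸ h3.map φ) id

theorem isUnit_two_map {A B : Type*} [CommRing A] [CommRing B] (h : IsUnit (2 : A))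
    (φ : A →+* B) : IsUnit (2 : B) := by
  exact map_ofNat φ 2 ▸ h.map φ

variable {L D : ℕ} [NeZero L] (hD : D ∣ L) {A : Type*} [CommRing A] (ψ : DirichletCharacter A D)
  {N : Type*} [AddCommGroup N] [Module A N]

theorem finite_generators_Gamma0 (L : ℕ) [NeZero L] :
    ∃ s : Set (Gamma0 L), Subgroup.closure s = ⊤ ∧ s.Finite := by
  have := ParHom.group_fg_SL2Z
  have : Group.FG (Gamma0 L) := Subgroup.fg_of_index_ne_zero _
  exact Group.fg_iff.1 this

/-- A cocycle with values in any module is a combination of its values with lifted scalar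
cocycles as coefficients. -/
theorem exists_scalar_decomposition (h2 : IsUnit (2 : A)) (h3 : EllipticOK A L)
    (z : cocycles (chr hD ψ) N) :
    ∃ (n : ℕ) (v : Fin n → N) (y : Fin n → cocycles (chr hD ψ) A),
      (∀ i, ∃ γ, v i = (z : Gamma0 L → N) γ) ∧
      ∀ γ, (z : Gamma0 L → N) γ = ∑ i, (y i : Gamma0 L → A) γ • v i := by
  obtain ⟨s, hs, hfin⟩ := finite_generators_Gamma0 L
  obtain ⟨n, g, hgs⟩ : ∃ (n : ℕ) (g : Fin n → Gamma0 L), Set.range g = s := by
    obtain ⟨n, ⟨e⟩⟩ := Finite.exists_equiv_fin s (h := hfin.to_subtype)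
    exact ⟨n, fun i => (e.symm i).1, by ext x; exact ⟨by rintro ⟨i, rfl⟩; exact (e.symm i).2,
      fun hx => ⟨e ⟨x, hx⟩, by simp⟩⟩⟩
  let v : Fin n → N := fun i => (z : Gamma0 L → N) (g i)
  let Q : Submodule A N := Submodule.span A (Set.range v)
  have hQ : ∀ γ, (z : Gamma0 L → N) γ ∈ Q := by
    intro γ
    have hγ : γ ∈ Subgroup.closure s := by rw [hs]; trivial
    induction hγ using Subgroup.closure_induction with
    | mem x hx =>
      obtain ⟨i, rfl⟩ : x ∈ Set.range g := hgs ▸ hx
      exact Submodule.subset_span ⟨i, rfl⟩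
    | one => rw [cocycle_one]; exact zero_mem _
    | mul a b _ _ ha hb => rw [z.2]; exact add_mem ha (Q.smul_mem _ hb)
    | inv a _ ha => rw [cocycle_inv]; exact neg_mem (Q.smul_mem _ ha)
  let zQ : cocycles (chr hD ψ) Q :=
    ⟨fun γ => ⟨_, hQ γ⟩, fun a b => Subtype.ext (z.2 a b)⟩
  let π : (Fin n → A) →ₗ[A] Q :=
    (Fintype.linearCombination A v).codRestrict Q fun c => by
      rw [Fintype.linearCombination_apply]
      exact sum_mem fun i _ => Q.smul_mem _ (Submodule.subset_span ⟨i, rfl⟩)
  have hπ : Function.Surjective π := by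
    rintro ⟨x, hx⟩
    obtain ⟨c, hc⟩ := (Submodule.mem_span_range_iff_exists_fun A).1 hx
    exact ⟨c, Subtype.ext (by simpa [π, Fintype.linearCombination_apply] using hc)⟩
  obtain ⟨Y, hY⟩ := Lifting.exists_cocycle_lift' hD ψ h2 h3.elliptic3 π hπ zQ
  refine ⟨n, v, fun i => cocyclesMap (Φ := chr hD ψ) (Ψ := chr hD ψ) (φ := RingHom.id A)
    (fun _ => rfl) (LinearMap.proj i : (Fin n → A) →ₗ[A] A) Y, fun i => ⟨g i, rfl⟩, fun γ => ?_⟩
  have := congrArg Subtype.val (hY γ)
  simp [π, zQ, Fintype.linearCombination_apply] at this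
  exact this.symm

section Coeff

variable {B : Type*} [CommRing B] (φ : A →+* B)

/-- The change of coefficients along a ring map. -/
abbrev redMap : CohL hD ψ A →ₛₗ[φ] CohL hD (ψ.ringHomComp φ) B :=
  coeffMap hD φ ψ φ.toSemilinearMap

/-- The images span the cohomology with coefficients in any algebra. -/
theorem exists_sum_smul_redMap (h2 : IsUnit (2 : A)) (h3 : EllipticOK A L)
    (x : CohL hD (ψ.ringHomComp φ) B) :
    ∃ (n : ℕ) (c : Fin n → B) (y : Fin n → CohL hD ψ A), x = ∑ i, c i • redMap hD ψ φ (y i) := by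
  obtain ⟨z, rfl⟩ := Coh.mk_surjective x
  letI : Module A B := φ.toModule
  let z' : cocycles (chr hD ψ) B :=
    ⟨fun γ => (z : Gamma0 L → B) γ, fun a b => by
      show (z : Gamma0 L → B) (a * b) = _ + φ (chr hD ψ a) * _
      rw [z.2 a b, chr_ringHomComp, smul_eq_mul]⟩
  obtain ⟨n, v, y, -, hy⟩ := exists_scalar_decomposition hD ψ h2 h3 z'
  refine ⟨n, v, fun i => Coh.mk _ A (y i), ?_⟩
  have e : z = ∑ i, v i • cocyclesMap (chr_ringHomComp φ hD ψ) φ.toSemilinearMap (y i) := by
    refine Subtype.ext (funext fun γ => ?_)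
    rw [Submodule.coe_sum, Finset.sum_apply]
    refine (hy γ).trans (Finset.sum_congr rfl fun i _ => ?_)
    show (y i : Gamma0 L → A) γ • v i = v i * φ ((y i : Gamma0 L → A) γ)
    exact mul_comm (φ ((y i : Gamma0 L → A) γ)) (v i)
  rw [e, map_sum]
  exact Finset.sum_congr rfl fun i _ => map_smul _ _ _

/-- Reduction along a surjection is surjective. -/
theorem redMap_surjective (h2 : IsUnit (2 : A)) (h3 : EllipticOK A L)
    (hφ : Function.Surjective φ) : Function.Surjective (redMap hD ψ φ) := by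
  intro x
  obtain ⟨n, c, y, rfl⟩ := exists_sum_smul_redMap hD ψ φ h2 h3 x
  choose a ha using fun i => hφ (c i)
  exact ⟨∑ i, a i • y i, by simp [map_sum, LinearMap.map_smulₛₗ, ha]⟩

/-- The kernel of a reduction. -/
theorem mem_ker_smul_of_redMap_eq_zero (h2 : IsUnit (2 : A)) (h3 : EllipticOK A L)
    (hφ : Function.Surjective φ) {x : CohL hD ψ A} (hx : redMap hD ψ φ x = 0) :
    x ∈ RingHom.ker φ • (⊤ : Submodule A (CohL hD ψ A)) := by
  obtain ⟨z, rfl⟩ := Coh.mk_surjective x
  rw [redMap, coeffMap, Coh.map_mk, Coh.mk_eq_zero] at hx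
  obtain ⟨b, hb⟩ := hx
  obtain ⟨a, rfl⟩ := hφ b
  set z' := z - coboundary (chr hD ψ) A a with hz'
  have hval : ∀ γ, (z' : Gamma0 L → A) γ ∈ RingHom.ker φ := fun γ => by
    have h : chr hD (ψ.ringHomComp φ) γ • φ a - φ a = φ ((z : Gamma0 L → A) γ) :=
      congrFun (congrArg Subtype.val hb) γ
    rw [RingHom.mem_ker, hz', Submodule.coe_sub, Pi.sub_apply, map_sub, coboundary_apply, map_sub,
      smul_eq_mul, map_mul, ← chr_ringHomComp, ← h, smul_eq_mul]
    ring
  obtain ⟨n, v, y, hv, hy⟩ := exists_scalar_decomposition hD ψ h2 h3 z'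
  have e : z' = ∑ i, v i • y i := by
    refine Subtype.ext (funext fun γ => ?_)
    rw [Submodule.coe_sum, Finset.sum_apply]
    exact (hy γ).trans (Finset.sum_congr rfl fun i _ => mul_comm _ _)
  have hmk : Coh.mk (chr hD ψ) A z = Coh.mk (chr hD ψ) A z' := by
    rw [hz', map_sub, Coh.mk_eq_zero.2 ⟨a, rfl⟩, sub_zero]
  rw [hmk, e, map_sum]
  refine sum_mem fun i _ => ?_
  obtain ⟨γ, hγ⟩ := hv i
  rw [map_smul]
  exact Submodule.smul_mem_smul (hγ ▸ hval γ) Submodule.mem_top

end Coeff

/-- Linear maps respect `I • ⊤`. -/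
theorem map_mem_smul_top {R V W : Type*} [CommRing R] [AddCommGroup V] [Module R V]
    [AddCommGroup W] [Module R W] (g : V →ₗ[R] W) (I : Ideal R) {v : V}
    (hv : v ∈ I • (⊤ : Submodule R V)) : g v ∈ I • (⊤ : Submodule R W) :=
  (Submodule.map_smul'' I ⊤ g).le.trans (Submodule.smul_mono le_rfl le_top)
    (Submodule.mem_map_of_mem hv)

/-- Semilinear maps send `ker φ • ⊤` to zero. -/
theorem map_eq_zero_of_mem_ker_smul {R R' V W : Type*} [CommRing R] [CommRing R'] {φ : R →+* R'}
    [AddCommGroup V] [Module R V] [AddCommGroup W] [Module R' W] (g : V →ₛₗ[φ] W) {v : V}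
    (hv : v ∈ RingHom.ker φ • (⊤ : Submodule R V)) : g v = 0 := by
  refine Submodule.smul_induction_on hv (fun r hr w _ => ?_) fun a b ha hb => by
    rw [map_add, ha, hb, add_zero]
  rw [LinearMap.map_smulₛₗ, RingHom.mem_ker.1 hr, zero_smul]

section Idempotent

variable {B : Type*} [CommRing B] [Algebra A B]

/-- In a finite algebra over a complete local ring, some idempotent is congruent to a multiple of
a power of `b` and fixes such a power modulo the maximal ideal. -/
theorem exists_idempotent_lift [IsLocalRing A] [IsNoetherianRing A]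
    [IsAdicComplete (maximalIdeal A) A] [Module.Finite A B] (b : B) :
    ∃ (N : ℕ) (y e : B),
      b ^ (N + 1) - b ^ (N + 1 + (N + 1)) * y ∈ (maximalIdeal A).map (algebraMap A B) ∧
      e * e = e ∧ e - b ^ (N + 1) * y ∈ (maximalIdeal A).map (algebraMap A B) := by
  set J : Ideal B := (maximalIdeal A).map (algebraMap A B) with hJ
  have : IsAdicComplete J B :=
    (IsAdicComplete.map_algebraMap_iff _ _).2 (IsAdicComplete.of_module_finite (maximalIdeal A) B)
  obtain ⟨p, hp, hp0⟩ := IsIntegral.of_finite A b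
  let ρ : ResidueField A →+* B ⧸ J :=
    Ideal.Quotient.lift (maximalIdeal A) ((Ideal.Quotient.mk J).comp (algebraMap A B)) fun a ha =>
      Ideal.Quotient.eq_zero_iff_mem.2 (Ideal.mem_map_of_mem _ ha)
  set τ : B ⧸ J := Ideal.Quotient.mk J b
  have hev : (p.map (residue A)).eval₂ ρ τ = 0 := by
    rw [Polynomial.eval₂_map, show ρ.comp (residue A) =
      (Ideal.Quotient.mk J).comp (algebraMap A B) from RingHom.ext fun a => rfl,
      ← Polynomial.hom_eval₂, hp0, map_zero]
  obtain ⟨r, hr, hr0⟩ := (p.map (residue A)).exists_eq_pow_rootMultiplicity_mul_and_not_dvd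
    (hp.map _).ne_zero 0
  generalize (p.map (residue A)).rootMultiplicity 0 = N at hr
  simp only [map_zero, sub_zero] at hr hr0
  have hc : r.coeff 0 ≠ 0 := fun h => hr0 (Polynomial.X_dvd_iff.2 h)
  have hsplit : r.eval₂ ρ τ = τ * r.divX.eval₂ ρ τ + ρ (r.coeff 0) := by
    conv_lhs => rw [← Polynomial.X_mul_divX_add r]
    rw [Polynomial.eval₂_add, Polynomial.eval₂_mul, Polynomial.eval₂_X, Polynomial.eval₂_C]
  rw [hr, Polynomial.eval₂_mul, Polynomial.eval₂_X_pow, hsplit] at hev
  set w := -(r.divX.eval₂ ρ τ) * ρ (r.coeff 0)⁻¹ with hw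
  have hinv : ρ (r.coeff 0) * ρ (r.coeff 0)⁻¹ = 1 := by
    rw [← map_mul, mul_inv_cancel₀ hc, map_one]
  have h1 : τ ^ N = τ ^ (N + 1) * w := by
    rw [hw]; linear_combination (ρ (r.coeff 0)⁻¹) * hev - τ ^ N * hinv
  have h2 : ∀ m, τ ^ N = τ ^ (N + m) * w ^ m := by
    intro m
    induction m with
    | zero => simp
    | succ m ih => rw [ih, pow_add τ N m, h1]; ring
  obtain ⟨y, hy⟩ := Ideal.Quotient.mk_surjective (w ^ (N + 1))
  have hmem : b ^ (N + 1) - b ^ (N + 1 + (N + 1)) * y ∈ J := by
    refine Ideal.Quotient.eq_zero_iff_mem.1 ?_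
    rw [map_sub, map_mul, map_pow, map_pow, hy]
    show τ ^ (N + 1) - τ ^ (N + 1 + (N + 1)) * w ^ (N + 1) = 0
    have := h2 (N + 1)
    linear_combination τ * this
  set e₀ : B := b ^ (N + 1) * y with he₀
  have hidem : e₀ ^ 2 - e₀ ∈ J := by
    have : e₀ ^ 2 - e₀ = -(y * (b ^ (N + 1) - b ^ (N + 1 + (N + 1)) * y)) := by
      simp only [he₀]; ring
    rw [this]; exact neg_mem (Ideal.mul_mem_left _ _ hmem)
  obtain ⟨e, he, he0⟩ := HenselianRing.is_henselian (I := J)
    (Polynomial.X ^ 2 - Polynomial.X : Polynomial B)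
    (Polynomial.monic_X_pow_sub (Polynomial.degree_X_le.trans_lt (by decide))) e₀
    (by simpa using hidem) (by
      have h : (Ideal.Quotient.mk J (2 * e₀ - 1)) ^ 2 = 1 := by
        rw [← map_pow, ← map_one (Ideal.Quotient.mk J), Ideal.Quotient.eq,
          show (2 * e₀ - 1) ^ 2 - 1 = 4 * (e₀ ^ 2 - e₀) by ring]
        exact Ideal.mul_mem_left _ _ hidem
      simpa [one_add_one_eq_two] using IsUnit.of_pow_eq_one h two_ne_zero)
  refine ⟨N, y, e, hmem, ?_, he0⟩
  have h : e ^ 2 - e = 0 := by simpa [Polynomial.IsRoot] using he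
  linear_combination h

end Idempotent

section Operators

variable (S : Finset ℕ) (M : Type*) [AddCommGroup M] [Module A M] (P : Ideal (HeckePoly A S))
  [P.IsPrime]

/-- Every operator outside `P` is surjective on the part at `P`. -/
def OpsSurjective : Prop :=
  ∀ t : HeckePoly A S, t ∉ P → Function.Surjective (locAct hD ψ M S P t)

theorem locAct_injective {t : HeckePoly A S} (ht : t ∉ P) :
    Function.Injective (locAct hD ψ M S P t) := by
  rw [injective_iff_map_eq_zero]
  intro x hx
  obtain ⟨x, rfl⟩ := Submodule.Quotient.mk_surjective _ x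
  rw [locAct_mk, Submodule.Quotient.mk_eq_zero] at hx
  obtain ⟨t', ht', hx⟩ := hx
  rw [Submodule.Quotient.mk_eq_zero]
  exact ⟨t' * t, fun h => ((inferInstance : P.IsPrime).mem_or_mem h).elim ht' ht,
    by rw [map_mul, Module.End.mul_apply, hx]⟩

theorem finite_locCoh [IsNoetherianRing A] [Module.Finite A M] :
    Module.Finite A (LocCoh hD ψ M S P) :=
  haveI : Module.Finite A (CohL hD ψ M) := finite_cohL hD ψ
  Module.Finite.quotient A _

theorem opsSurjective_of_isArtinianRing [IsArtinianRing A] [Module.Finite A M] :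
    OpsSurjective hD ψ S M P := fun t ht => by
  haveI := finite_locCoh hD ψ S M P
  exact (IsArtinian.bijective_of_injective_endomorphism _ (locAct_injective hD ψ S M P ht)).2

set_option maxHeartbeats 600000 in
/-- Over a complete local ring the operators outside `P` are surjective: idempotents lift to the
algebra of operators. -/
theorem opsSurjective_of_isAdicComplete [IsLocalRing A] [IsNoetherianRing A]
    [IsAdicComplete (maximalIdeal A) A] [Module.Finite A M]
    (hP : ∀ c ∈ maximalIdeal A, (MvPolynomial.C c : HeckePoly A S) ∈ P) :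
    OpsSurjective hD ψ S M P := by
  haveI := finite_locCoh hD ψ S M P
  haveI : Module.Finite A (CohL hD ψ M) := finite_cohL hD ψ
  intro t ht
  let K : Ideal (HeckePoly A S) := RingHom.ker (act hD ψ M S).toRingHom
  by_cases hK : K ≤ P
  swap
  · obtain ⟨u, hu, huP⟩ := Set.not_subset.1 hK
    intro y
    refine ⟨y, ?_⟩
    have h0 : ∀ z : LocCoh hD ψ M S P, z = 0 := by
      intro z
      obtain ⟨z, rfl⟩ := Submodule.Quotient.mk_surjective _ z
      rw [Submodule.Quotient.mk_eq_zero]
      exact ⟨u, huP, by rw [show act hD ψ M S u = 0 from hu]; rfl⟩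
    rw [h0 y, map_zero]
  -- the finite algebra of operators
  let liftAct : (HeckePoly A S ⧸ K) →ₐ[A] Module.End A (CohL hD ψ M) :=
    Ideal.Quotient.liftₐ K (act hD ψ M S) fun _ h => h
  haveI : Module.Finite A (HeckePoly A S ⧸ K) := by
    obtain ⟨n, g, hg⟩ := Module.Finite.exists_fin (R := A) (M := CohL hD ψ M)
    let ev : (HeckePoly A S ⧸ K) →ₗ[A] (Fin n → CohL hD ψ M) :=
      LinearMap.pi fun i => (LinearMap.applyₗ (R := A) (g i)) ∘ₗ liftAct.toLinearMap
    refine Module.Finite.of_injective ev ?_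
    rw [← LinearMap.ker_eq_bot, LinearMap.ker_eq_bot']
    intro b hb
    obtain ⟨s, rfl⟩ := Ideal.Quotient.mk_surjective b
    refine (Ideal.Quotient.eq_zero_iff_mem).2 ?_
    show act hD ψ M S s = 0
    refine LinearMap.ext_on_range hg fun i => ?_
    exact congrFun hb i
  obtain ⟨N, y, e, hy, he2, he0⟩ :=
    exists_idempotent_lift (A := A) (Ideal.Quotient.mk K t)
  obtain ⟨E, rfl⟩ := Ideal.Quotient.mk_surjective e
  obtain ⟨Y, rfl⟩ := Ideal.Quotient.mk_surjective y
  rw [← map_pow, ← map_pow, ← map_mul, ← map_sub] at hy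
  rw [← map_pow, ← map_mul, ← map_sub] at he0
  have hJP : (maximalIdeal A).map (algebraMap A (HeckePoly A S ⧸ K))
      ≤ P.map (Ideal.Quotient.mk K) := by
    rw [Ideal.map_le_iff_le_comap]
    intro c hc
    exact Ideal.mem_map_of_mem (Ideal.Quotient.mk K) (hP c hc)
  have hmemP : ∀ s : HeckePoly A S,
      Ideal.Quotient.mk K s ∈ (maximalIdeal A).map (algebraMap A (HeckePoly A S ⧸ K)) → s ∈ P := by
    intro s hs
    have := hJP hs
    rwa [Ideal.mem_quotient_iff_mem hK] at this
  have hE : E ∉ P := by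
    intro hEP
    have h3 : t ^ (N + 1) * Y ∈ P := by simpa using sub_mem hEP (hmemP _ he0)
    have h4 : t ^ (N + 1) ∈ P := by
      have : t ^ (N + 1 + (N + 1)) * Y ∈ P := by
        rw [pow_add, mul_assoc]; exact Ideal.mul_mem_left _ _ h3
      simpa using add_mem (hmemP _ hy) this
    exact ht ((inferInstance : P.IsPrime).mem_of_pow_mem _ h4)
  -- every class is fixed by `E`
  have hfix : ∀ x, locAct hD ψ M S P E x = x := by
    intro x
    obtain ⟨x, rfl⟩ := Submodule.Quotient.mk_surjective _ x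
    rw [locAct_mk, Submodule.Quotient.eq]
    refine ⟨E, hE, ?_⟩
    have h : act hD ψ M S (E * E) = act hD ψ M S E :=
      congrArg liftAct ((map_mul (Ideal.Quotient.mk K) E E).trans he2)
    rw [map_sub, ← Module.End.mul_apply, ← map_mul, h, sub_self]
  have htop : (⊤ : Submodule A (LocCoh hD ψ M S P)) ≤
      LinearMap.range (locAct hD ψ M S P t) ⊔ maximalIdeal A • ⊤ := by
    rintro x -
    rw [← hfix x]
    obtain ⟨x, rfl⟩ := Submodule.Quotient.mk_surjective _ x
    let g : (HeckePoly A S ⧸ K) →ₗ[A] LocCoh hD ψ M S P :=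
      (locKer hD ψ M S P).mkQ ∘ₗ (LinearMap.applyₗ (R := A) x) ∘ₗ liftAct.toLinearMap
    have hg : ∀ s, g (Ideal.Quotient.mk K s) = Submodule.Quotient.mk (act hD ψ M S s x) :=
      fun s => rfl
    rw [locAct_mk, ← hg, ← sub_add_cancel (Ideal.Quotient.mk K E)
      (Ideal.Quotient.mk K (t ^ (N + 1) * Y)), map_add]
    refine add_mem (Submodule.mem_sup_right ?_) (Submodule.mem_sup_left ?_)
    · rw [← map_sub (Ideal.Quotient.mk K)]
      have hmem : Ideal.Quotient.mk K (E - t ^ (N + 1) * Y) ∈
          maximalIdeal A • (⊤ : Submodule A (HeckePoly A S ⧸ K)) := by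
        rw [Ideal.smul_top_eq_map]; exact he0
      exact map_mem_smul_top g (maximalIdeal A) hmem
    · rw [hg, pow_succ', mul_assoc, map_mul, Module.End.mul_apply, ← locAct_mk]
      exact LinearMap.mem_range_self _ _
  intro x
  exact Submodule.le_of_le_smul_of_le_jacobson_bot (Module.Finite.fg_top)
    (IsLocalRing.jacobson_eq_maximalIdeal (⊥ : Ideal A) bot_ne_top).ge htop Submodule.mem_top

end Operators

section Reduction

variable {B : Type*} [CommRing B] (φ : A →+* B) {k : Type*} [Field k] (κ : B →+* k)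
  (abar : ℕ → k) (S : Finset ℕ)

/-- Reduction of the congruent part is surjective. -/
theorem locCoeffMap_surjective (h2 : IsUnit (2 : A)) (h3 : EllipticOK A L)
    (hφ : Function.Surjective φ) :
    Function.Surjective (locCoeffMap hD φ ψ φ.toSemilinearMap κ abar S) := by
  intro y
  obtain ⟨y, rfl⟩ := Submodule.Quotient.mk_surjective _ y
  obtain ⟨x, rfl⟩ := redMap_surjective hD ψ φ h2 h3 hφ y
  exact ⟨Submodule.Quotient.mk x, rfl⟩

/-- The kernel of the reduction of the congruent part. -/
theorem mem_ker_smul_of_locCoeffMap_eq_zero (h2 : IsUnit (2 : A)) (h3 : EllipticOK A L)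
    (hφ : Function.Surjective φ)
    (hops : OpsSurjective hD ψ S A (residualIdeal (κ.comp φ) abar S))
    {x : LocCoh hD ψ A S (residualIdeal (κ.comp φ) abar S)}
    (hx : locCoeffMap hD φ ψ φ.toSemilinearMap κ abar S x = 0) :
    x ∈ RingHom.ker φ •
      (⊤ : Submodule A (LocCoh hD ψ A S (residualIdeal (κ.comp φ) abar S))) := by
  obtain ⟨x, rfl⟩ := Submodule.Quotient.mk_surjective _ x
  rw [locCoeffMap_mk, Submodule.Quotient.mk_eq_zero] at hx
  obtain ⟨t, ht, hx⟩ := hx
  obtain ⟨t, rfl⟩ := MvPolynomial.map_surjective φ hφ t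
  rw [← coeffMap_act] at hx
  have ht' : t ∉ residualIdeal (κ.comp φ) abar S := fun h =>
    ht ((map_mem_residualIdeal φ κ abar S t).2 h)
  have hmem := map_mem_smul_top
    (locKer hD ψ A S (residualIdeal (κ.comp φ) abar S)).mkQ (RingHom.ker φ)
    (mem_ker_smul_of_redMap_eq_zero hD ψ φ h2 h3 hφ hx)
  set G := LinearEquiv.ofBijective (locAct hD ψ A S (residualIdeal (κ.comp φ) abar S) t)
    ⟨locAct_injective hD ψ S A _ ht', hops t ht'⟩
  have h := map_mem_smul_top G.symm.toLinearMap (RingHom.ker φ) hmem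
  rwa [Submodule.mkQ_apply, ← locAct_mk, LinearEquiv.coe_toLinearMap,
    show locAct hD ψ A S _ t (Submodule.Quotient.mk x) = G (Submodule.Quotient.mk x) from rfl,
    LinearEquiv.symm_apply_apply] at h

end Reduction

/-- A free module over a local ring has the rank of a reduction with kernel `ker φ • ⊤`. -/
theorem finrank_eq_of_semilinear {R k V W : Type*} [CommRing R] [Nontrivial R] [Field k]
    {φ : R →+* k} (hφ : Function.Surjective φ) [AddCommGroup V] [Module R V] [Module.Free R V]
    [Module.Finite R V] [AddCommGroup W] [Module k W] (F : V →ₛₗ[φ] W)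
    (hF : Function.Surjective F)
    (hker : ∀ v, F v = 0 → v ∈ RingHom.ker φ • (⊤ : Submodule R V)) :
    Module.finrank R V = Module.finrank k W := by
  classical
  let b := Module.Free.chooseBasis R V
  have hli : LinearIndependent k fun i => F (b i) := by
    rw [Fintype.linearIndependent_iff]
    intro g hg i
    choose G hG using fun j => hφ (g j)
    have h0 : F (∑ j, G j • b j) = 0 := by
      simp only [map_sum, LinearMap.map_smulₛₗ, hG]; exact hg
    have hmem := map_mem_smul_top (Finsupp.lapply i ∘ₗ b.repr.toLinearMap) (RingHom.ker φ)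
      (hker _ h0)
    rw [Ideal.smul_eq_mul, Ideal.mul_top, LinearMap.comp_apply] at hmem
    simp only [LinearEquiv.coe_toLinearMap, Finsupp.lapply_apply, Module.Basis.repr_sum_self]
      at hmem
    rw [← hG i]
    exact RingHom.mem_ker.1 hmem
  have hspan : ⊤ ≤ Submodule.span k (Set.range fun i => F (b i)) := by
    intro w _
    obtain ⟨v, rfl⟩ := hF w
    rw [← b.sum_repr v, map_sum]
    exact sum_mem fun i _ => by
      rw [LinearMap.map_smulₛₗ]
      exact Submodule.smul_mem _ _ (Submodule.subset_span ⟨i, rfl⟩)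
  rw [Module.finrank_eq_card_basis b, Module.finrank_eq_card_basis (Module.Basis.mk hli hspan)]

end Fermat.Agent.Ribet.Avoid
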