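/-
The universal component: the group ring of the auxiliary `p`-group, its evaluations, and the
characters of a step under change of coefficients.
-/
import Fermat.Agent.Ribet.Avoid.Setup
import Fermat.Agent.Ribet.ThirdWrap
import Mathlib.NumberTheory.LegendreSymbol.AddCharacter

set_option autoImplicit false

noncomputable section

namespace Fermat.Agent.Ribet.Avoid

section Gen

variable {A B : Type*} [CommRing A] [CommRing B] {q c : ℕ}

theorem char_eq_of_gen (hq : q.Prime) (hc : orderOf (c : ZMod q) = q - 1)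
    {χ χ' : DirichletCharacter A q} (h : χ (c : ZMod q) = χ' (c : ZMod q)) : χ = χ' := by
  have : Fact q.Prime := ⟨hq⟩
  have h0 : q - 1 ≠ 0 := by have := hq.two_le; omega
  obtain ⟨g, hg⟩ : IsUnit (c : ZMod q) :=
    IsUnit.of_pow_eq_one (hc ▸ pow_orderOf_eq_one (c : ZMod q)) h0
  have hcard : Nat.card (Subgroup.zpowers g) = Nat.card (ZMod q)ˣ := by
    rw [Nat.card_zpowers, ← orderOf_units, hg, hc, Nat.card_eq_fintype_card, ZMod.card_units]
  refine MulChar.ext fun u => ?_
  have hu : u ∈ Subgroup.zpowers g := by rw [Subgroup.eq_top_of_card_eq _ hcard]; trivial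
  rw [← (isOfFinOrder_of_finite g).mem_powers_iff_mem_zpowers, Submonoid.mem_powers_iff] at hu
  obtain ⟨k, rfl⟩ := hu
  simp only [Units.val_pow_eq_pow_val, map_pow, hg, h]

variable {N : ℕ}

theorem charOfGen_ringHomComp (φ : A →+* B) (hq : q.Prime) (hc : orderOf (c : ZMod q) = q - 1)
    {ζ : A} (hN : N ∣ q - 1) (hζ : ζ ^ N = 1) :
    (charOfGen q c ζ).ringHomComp φ = charOfGen q c (φ ζ) :=
  char_eq_of_gen hq hc (by
    rw [MulChar.ringHomComp_apply, charOfGen_apply hq hc hN hζ,
      charOfGen_apply hq hc hN (by rw [← map_pow, hζ, map_one])])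

theorem charOfGen_one (hq : q.Prime) (hc : orderOf (c : ZMod q) = q - 1) :
    charOfGen q c (1 : A) = 1 :=
  char_eq_of_gen hq hc (by
    rw [charOfGen_apply hq hc (one_dvd _) (pow_one _)]
    refine (MulChar.one_apply ?_).symm
    exact IsUnit.of_pow_eq_one (hc ▸ pow_orderOf_eq_one (c : ZMod q))
      (by have := hq.two_le; omega))

theorem changeLevel_ringHomComp {m n : ℕ} [NeZero m] (φ : A →+* B) (h : n ∣ m)
    (χ : DirichletCharacter A n) :
    (DirichletCharacter.changeLevel h χ).ringHomComp φ =
      DirichletCharacter.changeLevel h (χ.ringHomComp φ) :=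
  MulChar.ext fun u => by
    rw [MulChar.ringHomComp_apply, DirichletCharacter.changeLevel_eq_cast_of_dvd,
      DirichletCharacter.changeLevel_eq_cast_of_dvd, MulChar.ringHomComp_apply]

theorem ringHomComp_prod {m : ℕ} {ι : Type*} (φ : A →+* B) (s : Finset ι)
    (f : ι → DirichletCharacter A m) :
    (∏ i ∈ s, f i).ringHomComp φ = ∏ i ∈ s, (f i).ringHomComp φ :=
  map_prod (MulChar.ringHomCompHom φ) f s

end Gen

namespace AuxPrimes

variable {s : Setup} {r n : ℕ} (d : AuxPrimes s r n)
  {A B : Type*} [CommRing A] [CommRing B]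

theorem orderOf_gen_sc {x : ℕ} (hx : x ∈ s.Sc) : orderOf ((d.gen x : ℕ) : ZMod x) = x - 1 :=
  (d.place_spec x (Or.inl hx)).2.2.2.2.2.1

theorem orderOf_gen_q (i : Fin r) :
    orderOf ((d.gen (d.q i) : ℕ) : ZMod (d.q i)) = d.q i - 1 :=
  (d.place_spec (d.q i) (Or.inr (Finset.mem_image_of_mem _ (Finset.mem_univ i)))).2.2.2.2.2.1

theorem p_dvd_sub_one {x : ℕ} (hx : x ∈ s.Sc) : s.p ∣ x - 1 := by
  have h := s.hone x hx
  rw [← Nat.cast_one, ZMod.natCast_eq_natCast_iff] at h
  exact (Nat.modEq_iff_dvd' (s.hScPrime x hx).one_le).mp h.symm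

theorem auxChar_ringHomComp (φ : A →+* B) (u : Fin r → A) (hu : ∀ i, u i ^ s.p ^ (n + 1) = 1) :
    (d.auxChar u).ringHomComp φ = d.auxChar fun i => φ (u i) := by
  simp only [auxChar, ringHomComp_prod, changeLevel_ringHomComp]
  refine Finset.prod_congr rfl fun i _ => ?_
  rw [charOfGen_ringHomComp φ (d.prime i) (d.orderOf_gen_q i) (d.dvd i) (hu i)]

theorem auxChar_one : d.auxChar (fun _ => (1 : A)) = 1 := by
  simp only [auxChar]
  refine Finset.prod_eq_one fun i _ => ?_
  rw [charOfGen_one (d.prime i) (d.orderOf_gen_q i), DirichletCharacter.changeLevel_one]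

theorem levelChar_ringHomComp (φ : A →+* B) (x : A) (hx : x ^ s.p = 1) (u : Fin r → A)
    (hu : ∀ i, u i ^ s.p ^ (n + 1) = 1) :
    (d.levelChar x u).ringHomComp φ = d.levelChar (φ x) fun i => φ (u i) := by
  simp only [levelChar, MulChar.ringHomComp_mul, ringHomComp_prod, changeLevel_ringHomComp]
  congr 1
  · refine Finset.prod_congr rfl fun v _ => ?_
    rw [charOfGen_ringHomComp φ (s.hScPrime v.1 v.2) (d.orderOf_gen_sc v.2)
      (p_dvd_sub_one v.2) hx]
  · refine Finset.prod_congr rfl fun i _ => ?_
    rw [charOfGen_ringHomComp φ (d.prime i) (d.orderOf_gen_q i) (d.dvd i) (hu i)]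

theorem levelChar_one : d.levelChar (1 : A) (fun _ => (1 : A)) = 1 := by
  simp only [levelChar]
  rw [Finset.prod_eq_one fun v _ => ?_, Finset.prod_eq_one fun i _ => ?_, one_mul]
  · rw [charOfGen_one (d.prime i) (d.orderOf_gen_q i), DirichletCharacter.changeLevel_one]
  · rw [charOfGen_one (s.hScPrime v.1 v.2) (d.orderOf_gen_sc v.2),
      DirichletCharacter.changeLevel_one]

end AuxPrimes

/-- The auxiliary `p`-group, written multiplicatively. -/
abbrev UGroup (P r : ℕ) : Type := Multiplicative (Fin r → ZMod P)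

/-- The universal coefficients: the group ring. -/
abbrev Univ (O : Type) [CommRing O] (P r : ℕ) : Type := MonoidAlgebra O (UGroup P r)

namespace Univ

variable {O : Type} [CommRing O] {P r : ℕ} [NeZero P] {B : Type*} [CommRing B]

instance : Module.Finite O (Univ O P r) := Module.Finite.of_basis (MonoidAlgebra.basis (UGroup P r) O)

instance [IsNoetherianRing O] : IsNoetherianRing (Univ O P r) :=
  isNoetherian_of_tower O (inferInstance : IsNoetherian O (Univ O P r))

/-- The generators. -/
def gen (i : Fin r) : Univ O P r :=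
  MonoidAlgebra.of O (UGroup P r) (Multiplicative.ofAdd (Pi.single i 1))

theorem gen_pow (i : Fin r) : (gen i : Univ O P r) ^ P = 1 := by
  have h : (Multiplicative.ofAdd (Pi.single i (1 : ZMod P) : Fin r → ZMod P)) ^ P = 1 := by
    rw [← ofAdd_nsmul]
    refine congrArg Multiplicative.ofAdd ?_
    funext j
    simp
  rw [gen, ← map_pow, h, map_one]

/-- The character of the group with values `u i` at the generators. -/
def groupHom (u : Fin r → B) (hu : ∀ i, u i ^ P = 1) : UGroup P r →* B where
  toFun e := ∏ i, u i ^ (Multiplicative.toAdd e i).val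
  map_one' := by simp
  map_mul' e f := by
    rw [← Finset.prod_mul_distrib]
    refine Finset.prod_congr rfl fun i _ => ?_
    rw [toAdd_mul, Pi.add_apply, ZMod.val_add, ← pow_eq_pow_mod _ (hu i), pow_add]

/-- Evaluation at `u`. -/
def eval [Algebra O B] (u : Fin r → B) (hu : ∀ i, u i ^ P = 1) : Univ O P r →ₐ[O] B :=
  MonoidAlgebra.lift O B (UGroup P r) (groupHom u hu)

theorem eval_gen [Algebra O B] [Fact (1 < P)] (u : Fin r → B) (hu : ∀ i, u i ^ P = 1) (i : Fin r) :
    eval u hu (gen i : Univ O P r) = u i := by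
  rw [eval, gen, MonoidAlgebra.lift_of]
  show ∏ j, u j ^ ((Pi.single i (1 : ZMod P) : Fin r → ZMod P) j).val = u i
  rw [Finset.prod_eq_single i (fun j _ hj => by simp [hj]) (by simp)]
  simp [ZMod.val_one]

omit [NeZero P] in
theorem addChar_sum {M K : Type*} [AddCommMonoid M] [CommMonoid K] (χ : AddChar M K)
    {ι : Type*} (f : ι → M) (t : Finset ι) : χ (∑ i ∈ t, f i) = ∏ i ∈ t, χ (f i) := by
  classical
  induction t using Finset.induction with
  | empty => simp
  | insert a t ha ih => rw [Finset.sum_insert ha, Finset.prod_insert ha, AddChar.map_add_eq_mul, ih]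

/-- The evaluations separate the group ring. -/
theorem eq_zero_of_eval {K : Type*} [Field K] [IsAlgClosed K] [CharZero K] [Algebra O K]
    (hinj : Function.Injective (algebraMap O K)) (x : Univ O P r)
    (hx : ∀ (u : Fin r → K) (hu : ∀ i, u i ^ P = 1), eval u hu x = 0) : x = 0 := by
  classical
  haveI : NeZero (P : K) := ⟨Nat.cast_ne_zero.mpr (NeZero.ne P)⟩
  obtain ⟨ζ, hζ⟩ := HasEnoughRootsOfUnity.exists_primitiveRoot K P
  set χ := AddChar.zmodChar P ((IsPrimitiveRoot.iff_def ζ P).mp hζ).left with hχdef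
  have hχ : AddChar.IsPrimitive χ := AddChar.zmodChar_primitive_of_primitive_root P hζ
  ext h
  apply hinj
  have hu : ∀ (e : Fin r → ZMod P) (i : Fin r), χ (e i) ^ P = 1 := fun e i => by
    rw [← AddChar.map_nsmul_eq_pow]; simp
  have key : (∑ e : Fin r → ZMod P,
      χ (-∑ i, e i * Multiplicative.toAdd h i) * eval (fun i => χ (e i)) (hu e) x) =
      algebraMap O K (x.coeff h) * (P : K) ^ r := by
    have hexp : ∀ e : Fin r → ZMod P, eval (fun i => χ (e i)) (hu e) x =
        ∑ g : UGroup P r, algebraMap O K (x.coeff g) * χ (∑ i, e i * Multiplicative.toAdd g i) := by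
      intro e
      rw [eval, MonoidAlgebra.lift_apply, Finsupp.sum_fintype _ _ (by simp)]
      refine Finset.sum_congr rfl fun g _ => ?_
      rw [Algebra.smul_def]
      congr 1
      show ∏ i, χ (e i) ^ (Multiplicative.toAdd g i).val = _
      rw [addChar_sum]
      refine Finset.prod_congr rfl fun i _ => ?_
      rw [← AddChar.map_nsmul_eq_pow, nsmul_eq_mul, ZMod.natCast_zmod_val, mul_comm]
    have hsum : ∀ g : UGroup P r, (∑ e : Fin r → ZMod P,
        χ (-∑ i, e i * Multiplicative.toAdd h i) * χ (∑ i, e i * Multiplicative.toAdd g i)) =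
          if g = h then (P : K) ^ r else 0 := by
      intro g
      have hstep : ∀ e : Fin r → ZMod P,
          χ (-∑ i, e i * Multiplicative.toAdd h i) * χ (∑ i, e i * Multiplicative.toAdd g i) =
            ∏ i, χ (e i * (Multiplicative.toAdd g i - Multiplicative.toAdd h i)) := fun e => by
        rw [← AddChar.map_add_eq_mul, neg_add_eq_sub, ← Finset.sum_sub_distrib, addChar_sum]
        simp only [mul_sub]
      simp only [hstep]
      rw [← Fintype.prod_sum fun i a => χ (a * (Multiplicative.toAdd g i - Multiplicative.toAdd h i))]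
      simp only [AddChar.sum_mulShift _ hχ, ZMod.card, sub_eq_zero]
      split_ifs with hg
      · subst hg; simp
      · obtain ⟨i, hi⟩ : ∃ i, Multiplicative.toAdd g i ≠ Multiplicative.toAdd h i := by
          by_contra hall
          push Not at hall
          exact hg (Multiplicative.toAdd.injective (funext hall))
        exact Finset.prod_eq_zero (Finset.mem_univ i) (by simp [hi])
    simp only [hexp, Finset.mul_sum]
    rw [Finset.sum_comm]
    simp only [mul_left_comm _ (algebraMap O K _), ← Finset.mul_sum, hsum, mul_ite, mul_zero,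
      Finset.sum_ite_eq', Finset.mem_univ, if_true]
  simp only [hx, mul_zero, Finset.sum_const_zero] at key
  have h0 : (P : K) ^ r ≠ 0 := pow_ne_zero _ (Nat.cast_ne_zero.mpr (NeZero.ne P))
  simpa [h0] using key.symm

end Univ

end Fermat.Agent.Ribet.Avoid
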