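/-
Characters of the levels of the level lowering and change of modulus of the nebentype.
-/
import Fermat.Agent.Ribet.Avoid.Universal
import Fermat.Agent.Ribet.Twisted.TwistDefs

set_option autoImplicit false
set_option linter.style.haveILetI false

noncomputable section

namespace Fermat.Agent.Ribet

namespace Twisted

open CongruenceSubgroup

variable {L D D' : ℕ} {A : Type*} [CommRing A]

theorem changeLevel_intCast (h : D' ∣ D) (χ : DirichletCharacter A D') {d : ℤ}
    (hd : IsUnit (d : ZMod D)) :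
    DirichletCharacter.changeLevel h χ (d : ZMod D) = χ (d : ZMod D') := by
  exact DirichletCharacter.changeLevel_eq_cast_of_dvd' χ h ((ZMod.coe_int_isUnit_iff_isCoprime d D).mp hd).symm

theorem prod_changeLevel_intCast {ι : Type*} (s : Finset ι) {m : ι → ℕ} (hm : ∀ i, m i ∣ D)
    (χ : ∀ i, DirichletCharacter A (m i)) {d : ℤ} (hd : IsUnit (d : ZMod D)) :
    (∏ i ∈ s, DirichletCharacter.changeLevel (hm i) (χ i)) (d : ZMod D)
      = ∏ i ∈ s, χ i (d : ZMod (m i)) := by
  classical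
  induction s using Finset.induction_on with
  | empty => simp [MulChar.one_apply hd]
  | insert j s hj ih =>
    rw [Finset.prod_insert hj, Finset.prod_insert hj, MulChar.mul_apply, ih,
      changeLevel_intCast (hm j) (χ j) hd]

theorem chr_changeLevel [NeZero L] (hD : D ∣ L) (hD' : D' ∣ D) (ψ' : DirichletCharacter A D')
    (γ : Gamma0 L) :
    chr hD (DirichletCharacter.changeLevel hD' ψ') γ = chr (hD'.trans hD) ψ' γ := by
  rw [chr_apply, chr_apply, changeLevel_intCast hD' ψ']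
  have hdet := (γ : Matrix.SpecialLinearGroup (Fin 2) ℤ).det_coe
  rw [Matrix.det_fin_two] at hdet
  have hc : (((γ : Matrix.SpecialLinearGroup (Fin 2) ℤ) 1 0 : ℤ) : ZMod D) = 0 :=
    (ZMod.intCast_zmod_eq_zero_iff_dvd _ _).mpr
      ((Int.natCast_dvd_natCast.mpr hD).trans (HeckeCohom.dvd_apply_one_zero L γ))
  have h := congrArg (Int.cast : ℤ → ZMod D) hdet
  push_cast at h
  rw [hc, mul_zero, sub_zero] at h
  exact IsUnit.of_mul_eq_one _ ((mul_comm _ _).trans h)

theorem exists_coh_changeLevel [NeZero L] (hD : D ∣ L) (hD' : D' ∣ D)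
    (ψ' : DirichletCharacter A D') (M : Type*) [AddCommGroup M] [Module A M] :
    ∃ e : CohL hD (DirichletCharacter.changeLevel hD' ψ') M →ₗ[A] CohL (hD'.trans hD) ψ' M,
      Function.Injective e ∧
      ∀ (ℓ : ℕ), ℓ.Prime → ¬ ℓ ∣ D → ∀ x,
        e (heckeT' hD (DirichletCharacter.changeLevel hD' ψ') M ℓ x)
          = heckeT' (hD'.trans hD) ψ' M ℓ (e x) := by
  have hchr : ∀ γ : Gamma0 L, chr (hD'.trans hD) ψ' γ
      = RingHom.id A (chr hD (DirichletCharacter.changeLevel hD' ψ') γ) := fun γ =>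
    (chr_changeLevel hD hD' ψ' γ).symm
  refine ⟨Coh.map hchr LinearMap.id, ?_, ?_⟩
  · rw [injective_iff_map_eq_zero]
    intro x hx
    obtain ⟨z, rfl⟩ := Coh.mk_surjective x
    rw [Coh.map_mk, Coh.mk_eq_zero] at hx
    obtain ⟨b, hb⟩ := hx
    refine Coh.mk_eq_zero.mpr ⟨b, Subtype.ext (funext fun γ => ?_)⟩
    have := congrFun (congrArg Subtype.val hb) γ
    simpa [chr_changeLevel hD hD' ψ'] using this
  · intro ℓ hℓ hℓD x
    have hℓD' : ¬ ℓ ∣ D' := fun h => hℓD (h.trans hD')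
    haveI : Fact ℓ.Prime := ⟨hℓ⟩
    rw [heckeT'_eq hD _ M hℓD, heckeT'_eq (hD'.trans hD) ψ' M hℓD']
    obtain ⟨z, rfl⟩ := Coh.mk_surjective x
    rw [OpData.op_mk, Coh.map_mk, Coh.map_mk, OpData.op_mk]
    congr 1
    refine Subtype.ext (funext fun γ => ?_)
    have hw : ∀ i, heckeWeight L (DirichletCharacter.changeLevel hD' ψ') ℓ i
        = heckeWeight L ψ' ℓ i := by
      have hu : IsUnit ((ℓ : ℤ) : ZMod D) := by
        rw [Int.cast_natCast]
        exact (ZMod.isUnit_iff_coprime ℓ D).mpr ((Nat.Prime.coprime_iff_not_dvd hℓ).mpr hℓD)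
      have h1 := changeLevel_intCast hD' ψ' hu
      have h2 := changeLevel_intCast hD' ψ'⁻¹ hu
      rw [map_inv] at h2
      simp only [Int.cast_natCast] at h1 h2
      rintro ⟨_ | i, hi⟩
      · exact h1
      · exact h2
    simp only [cocyclesMap_apply, OpData.opCocycle_apply, LinearMap.id_coe, id_eq]
    exact Finset.sum_congr rfl fun i _ => by rw [hw]; rfl

end Twisted

namespace Avoid

open Twisted

namespace AuxPrimes

variable {s : Setup} {r n : ℕ} (d : AuxPrimes s r n)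

theorem DQ_dvd_D : d.DQ ∣ d.D := Dvd.intro_left _ rfl

theorem sc_not_dvd_DQ {x : ℕ} (hx : x ∈ s.Sc) : ¬ x ∣ d.DQ := fun h => by
  obtain ⟨i, -, hi⟩ := ((s.hScPrime x hx).prime.dvd_finsetProd_iff _).mp h
  exact (d.notMem i).2.2.1 ((Nat.prime_dvd_prime_iff_eq (s.hScPrime x hx) (d.prime i)).mp hi ▸ hx)

theorem compChar_false (u : Fin r → s.K) :
    d.compChar false u = DirichletCharacter.changeLevel d.DQ_dvd_D (d.auxChar u) := by
  rw [compChar, levelChar, auxChar, map_prod]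
  simp only [Bool.false_eq_true, if_false]
  rw [Finset.prod_eq_one fun v _ => by rw [charOfGen_one (s.hScPrime v.1 v.2) (d.orderOf_gen_sc v.2),
    map_one], one_mul]
  exact Finset.prod_congr rfl fun i _ => DirichletCharacter.changeLevel_trans _ _ _

theorem isPrimitiveSq_reduced (u : Fin r → s.K) (hu : ∀ i, u i ^ s.p ^ (n + 1) = 1) :
    ∃ (D₁ : ℕ) (h₁ : D₁ ∣ d.DQ) (ψ₁ : DirichletCharacter s.K D₁), Squarefree D₁ ∧
      IsPrimitiveSq ψ₁ ∧ d.auxChar u = DirichletCharacter.changeLevel h₁ ψ₁ := by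
  classical
  set I : Finset (Fin r) := Finset.univ.filter fun i => u i ≠ 1 with hI
  set D₁ := ∏ i ∈ I, d.q i with hD₁
  have h₁ : D₁ ∣ d.DQ := Finset.prod_dvd_prod_of_subset _ _ _ (Finset.filter_subset _ _)
  set m : Fin r → ℕ := fun i => if i ∈ I then d.q i else 1 with hm
  have hmI : ∀ i ∈ I, m i = d.q i := fun i hi => if_pos hi
  have hmD : ∀ i, m i ∣ D₁ := fun i => by
    by_cases hi : i ∈ I
    · rw [hmI i hi]; exact Finset.dvd_prod_of_mem _ hi
    · rw [hm]; simp [hi]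
  have hqD : ∀ i : I, d.q i.1 ∣ D₁ := fun i => Finset.dvd_prod_of_mem _ i.2
  set ψ₁ : DirichletCharacter s.K D₁ :=
    ∏ i : I, DirichletCharacter.changeLevel (hqD i) (charOfGen (d.q i.1) (d.gen (d.q i.1)) (u i.1))
    with hψ₁
  have hcop : Pairwise fun i j : Fin r => Nat.Coprime (d.q i) (d.q j) := fun i j hij =>
    (Nat.coprime_primes (d.prime i) (d.prime j)).mpr fun h => hij (d.inj h)
  refine ⟨D₁, h₁, ψ₁, ?_, ?_, ?_⟩
  · refine Finset.squarefree_prod_of_pairwise_isCoprime (fun i _ j _ hij => ?_)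
      fun i _ => (d.prime i).squarefree
    exact Nat.coprime_iff_isRelPrime.mp (hcop hij)
  · intro q hq hqD₁
    obtain ⟨i, hi, hiq⟩ := (hq.prime.dvd_finsetProd_iff _).mp hqD₁
    obtain rfl : q = d.q i := (Nat.prime_dvd_prime_iff_eq hq (d.prime i)).mp hiq
    have hdiv : D₁ / d.q i = ∏ j ∈ I.erase i, d.q j := by
      rw [hD₁, ← Finset.mul_prod_erase I _ hi, Nat.mul_div_cancel_left _ (d.prime i).pos]
    have hc1 : Nat.Coprime (d.q i) (D₁ / d.q i) := by
      rw [hdiv]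
      exact Nat.Coprime.prod_right fun j hj => hcop (Ne.symm (Finset.ne_of_mem_erase hj))
    obtain ⟨z, hz1, hz2⟩ := Nat.chineseRemainder hc1 (d.gen (d.q i)) 1
    have hzi : ((z : ℤ) : ZMod (d.q i)) = (d.gen (d.q i) : ZMod (d.q i)) := by
      rw [Int.cast_natCast, ZMod.natCast_eq_natCast_iff]; exact hz1
    have hzd : ((z : ℤ) : ZMod (D₁ / d.q i)) = 1 := by
      rw [Int.cast_natCast, ← Nat.cast_one, ZMod.natCast_eq_natCast_iff]; exact hz2
    have hne : ((d.gen (d.q i) : ℕ) : ZMod (d.q i)) ≠ 0 := fun h0 => by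
      haveI : Fact (d.q i).Prime := ⟨d.prime i⟩
      have h := d.orderOf_gen_q i
      rw [h0, orderOf_zero] at h
      have := (d.prime i).two_le
      omega
    have hunit : IsUnit ((z : ℤ) : ZMod D₁) := by
      rw [Int.cast_natCast, ZMod.isUnit_iff_coprime]
      rw [hD₁, ← Finset.mul_prod_erase I _ hi, ← hdiv]
      refine Nat.Coprime.mul_right ?_ ?_
      · refine ((Nat.Prime.coprime_iff_not_dvd (d.prime i)).mpr fun hdvd => hne ?_).symm
        rw [← hzi, Int.cast_natCast, ZMod.natCast_eq_zero_iff]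
        exact hdvd
      · rw [Nat.Coprime, hz2.gcd_eq, Nat.gcd_one_left]
    refine ⟨(z : ℤ), hzd, hunit, ?_⟩
    have hval : ψ₁ ((z : ℤ) : ZMod D₁) = u i := by
      rw [hψ₁, prod_changeLevel_intCast (m := fun j : I => d.q j.1) Finset.univ hqD
        (fun j => charOfGen (d.q j.1) (d.gen (d.q j.1)) (u j.1)) hunit]
      rw [Finset.prod_eq_single (⟨i, hi⟩ : I)]
      · rw [hzi, charOfGen_apply (d.prime i) (d.orderOf_gen_q i) (d.dvd i) (hu i)]
      · intro j _ hj
        have hji : j.1 ≠ i := fun h => hj (Subtype.ext h)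
        have hdj : d.q j.1 ∣ D₁ / d.q i := by
          rw [hdiv]
          exact Finset.dvd_prod_of_mem _ (Finset.mem_erase.mpr ⟨hji, j.2⟩)
        have h1 := congrArg (ZMod.castHom hdj (ZMod (d.q j.1))) hzd
        rw [map_intCast, map_one] at h1
        rw [h1, map_one]
      · intro h; exact absurd (Finset.mem_univ _) h
    rw [hval]
    intro h2
    have hi1 : u i ≠ 1 := (Finset.mem_filter.mp hi).2
    have hodd : Odd (s.p ^ (n + 1)) := ((s.hp.out.odd_of_ne_two s.hp2)).pow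
    obtain ⟨k, hk⟩ := hodd
    have := hu i
    rw [hk, pow_add, pow_mul, h2, one_pow, one_mul, pow_one] at this
    exact hi1 this
  · rw [hψ₁, auxChar, map_prod]
    rw [← Finset.prod_filter_mul_prod_filter_not (Finset.univ : Finset (Fin r)) fun i => u i ≠ 1,
      Finset.prod_eq_one (s := Finset.univ.filter fun i => ¬ u i ≠ 1) fun i hi => by
        rw [not_not.mp (Finset.mem_filter.mp hi).2, charOfGen_one (d.prime i) (d.orderOf_gen_q i),
          map_one], mul_one, ← hI, ← Finset.prod_coe_sort I]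
    exact Finset.prod_congr rfl fun i _ => DirichletCharacter.changeLevel_trans _ _ _

theorem squarefree_L : Squarefree d.L := by
  classical
  have hpSc : s.p ∉ s.Sc := fun h => by
    have h1 := s.hone s.p h
    rw [ZMod.natCast_self] at h1
    exact zero_ne_one h1
  have hS : ∀ t : Finset ℕ, (∀ x ∈ t, x.Prime) → Squarefree (∏ x ∈ t, x) := fun t ht =>
    Finset.squarefree_prod_of_pairwise_isCoprime (fun x hx y hy hxy =>
      Nat.coprime_iff_isRelPrime.mp ((Nat.coprime_primes (ht x hx) (ht y hy)).mpr hxy))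
      fun x hx => (ht x hx).squarefree
  have hdvd : ∀ (t : Finset ℕ), (∀ x ∈ t, x.Prime) → ∀ q : ℕ, q.Prime →
      q ∣ ∏ x ∈ t, x → q ∈ t := fun t ht q hq h => by
    obtain ⟨x, hx, hqx⟩ := (hq.prime.dvd_finsetProd_iff _).mp h
    exact (Nat.prime_dvd_prime_iff_eq hq (ht x hx)).mp hqx ▸ hx
  have hA : ∀ x ∈ s.Aux, x.Prime := fun x hx => (s.hAuxPrime x hx).1
  set P := if s.ordP then s.p else 1 with hP
  have hPsf : Squarefree P := by
    rw [hP]; split
    · exact s.hp.out.squarefree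
    · exact squarefree_one
  have hPdvd : ∀ q : ℕ, q.Prime → q ∣ P → q = s.p ∧ s.ordP = true := fun q hq h => by
    rw [hP] at h
    split at h
    · exact ⟨(Nat.prime_dvd_prime_iff_eq hq s.hp.out).mp h, by assumption⟩
    · exact absurd h hq.not_dvd_one
  have himg : ∏ i, d.q i = ∏ x ∈ Finset.univ.image d.q, x :=
    (Finset.prod_image (f := fun x : ℕ => x) fun i _ j _ h => d.inj h).symm
  have hQ : ∀ x ∈ Finset.univ.image d.q, x.Prime := fun x hx => by
    obtain ⟨i, -, rfl⟩ := Finset.mem_image.mp hx; exact d.prime i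
  have cop : ∀ {a b : ℕ}, (∀ q : ℕ, q.Prime → q ∣ a → q ∣ b → False) → Nat.Coprime a b :=
    fun h => Nat.coprime_of_dvd fun q hq h1 h2 => h q hq h1 h2
  rw [AuxPrimes.L, Setup.base, AuxPrimes.D, himg, ← hP]
  have hQmem : ∀ q : ℕ, q ∈ Finset.univ.image d.q →
      q ≠ s.p ∧ ¬ q ∣ s.M₀ ∧ q ∉ s.Sc ∧ q ∉ s.Aux := fun q h => by
    obtain ⟨i, -, rfl⟩ := Finset.mem_image.mp h
    exact d.notMem i
  have c1 : Nat.Coprime s.M₀ (∏ x ∈ s.Aux, x) := cop fun q hq h1 h2 =>
    (s.hAuxPrime q (hdvd _ hA q hq h2)).2.2 h1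
  have c2 : Nat.Coprime (s.M₀ * ∏ x ∈ s.Aux, x) P := cop fun q hq h1 h2 => by
    rcases hq.dvd_mul.mp h1 with h1 | h1
    · exact s.hpM₀ ((hPdvd q hq h2).1 ▸ h1)
    · exact (s.hAuxPrime q (hdvd _ hA q hq h1)).2.1 (hPdvd q hq h2).1
  have c3 : Nat.Coprime (∏ x ∈ s.Sc, x) (∏ x ∈ Finset.univ.image d.q, x) := cop fun q hq h1 h2 =>
    (hQmem q (hdvd _ hQ q hq h2)).2.2.1 (hdvd _ s.hScPrime q hq h1)
  have c4 : Nat.Coprime (s.M₀ * (∏ x ∈ s.Aux, x) * P)
      ((∏ x ∈ s.Sc, x) * ∏ x ∈ Finset.univ.image d.q, x) := cop fun q hq h1 h2 => by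
    rcases hq.dvd_mul.mp h2 with h2 | h2
    · have h2' := hdvd _ s.hScPrime q hq h2
      rcases hq.dvd_mul.mp h1 with h1 | h1
      · rcases hq.dvd_mul.mp h1 with h1 | h1
        · exact s.hScM₀ q h2' h1
        · exact Finset.disjoint_left.mp s.hScAux h2' (hdvd _ hA q hq h1)
      · exact hpSc ((hPdvd q hq h1).1 ▸ h2')
    · have h2' := hQmem q (hdvd _ hQ q hq h2)
      rcases hq.dvd_mul.mp h1 with h1 | h1
      · rcases hq.dvd_mul.mp h1 with h1 | h1
        · exact h2'.2.1 h1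
        · exact h2'.2.2.2 (hdvd _ hA q hq h1)
      · exact h2'.1 (hPdvd q hq h1).1
  exact (Nat.squarefree_mul c4).mpr ⟨(Nat.squarefree_mul c2).mpr
    ⟨(Nat.squarefree_mul c1).mpr ⟨s.hM₀, hS _ hA⟩, hPsf⟩,
    (Nat.squarefree_mul c3).mpr ⟨hS _ s.hScPrime, hS _ hQ⟩⟩

end AuxPrimes

end Avoid

end Fermat.Agent.Ribet
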