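/-
The representation attached to a character of the Hecke algebra with `U_q = ± 1`, `q ∥ N`: the
square of the Frobenius trace at `q` is `(1 + q)²`.
-/
import Fermat.Agent.Ribet.OldEigen
import Fermat.Agent.NewformRep.Main
import Fermat.Agent.Newform.Descent
import Fermat.Agent.CondLevel.Compare
import Fermat.Agent.Eigen.Lifting
import Fermat.Agent.Lifting.ETransfer

set_option autoImplicit false
set_option linter.style.haveILetI false

noncomputable section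

namespace Fermat.Agent.Ribet.Avoid

open Polynomial IsLocalRing ModularFormClass

local notation "ℚbar" => AlgebraicClosure ℚ
local notation "Γℚ" => AlgebraicClosure ℚ ≃ₐ[ℚ] AlgebraicClosure ℚ

/-- A ring of characteristic zero inside which a finite `ℤ`-algebra takes its values embeds into
the complex numbers. -/
theorem exists_embedding_range {T : Type*} [CommRing T] [Module.Finite ℤ T] {K : Type*} [Field K]
    [CharZero K] (χ : T →+* K) : ∃ j : χ.range →+* ℂ, Function.Injective j := by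
  haveI : Algebra.IsIntegral ℤ χ.range := ⟨fun y => by
    obtain ⟨t, ht⟩ := χ.rangeRestrict_surjective y
    rw [← ht]
    exact map_isIntegral_int χ.rangeRestrict (Algebra.IsIntegral.isIntegral t)⟩
  haveI : Algebra.IsAlgebraic ℤ χ.range := Algebra.IsIntegral.isAlgebraic
  haveI : Module.IsTorsionFree ℤ χ.range := by
    haveI := (faithfulSMul_iff_algebraMap_injective ℤ χ.range).mpr
      (algebraMap ℤ χ.range).injective_int
    infer_instance
  let g : χ.range →ₐ[ℤ] ℂ := IsAlgClosed.lift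
  refine ⟨g.toRingHom, (RingHom.injective_iff_ker_eq_bot g.toRingHom).mpr ?_⟩
  refine Ideal.eq_bot_of_comap_eq_bot (R := ℤ) ?_
  ext m
  simp only [Ideal.mem_comap, RingHom.mem_ker, Submodule.mem_bot]
  change g (algebraMap ℤ χ.range m) = 0 ↔ m = 0
  rw [AlgHom.commutes, eq_intCast, Int.cast_eq_zero]

/-- An eigencharacter of level `N` with `U_q = ε = ± 1`, `q ∥ N`, has a newform with the same good
system, whose `q`-th coefficient, if `q` does not divide its level, is `ε (1 + q)`. -/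
theorem exists_newform_of_hom {N q : ℕ} [NeZero N] (hq : q.Prime) (hqN : q ∣ N)
    (hq2 : ¬ q ^ 2 ∣ N) (S : Finset ℕ) {K : Type} [Field K] [CharZero K]
    (χ : CuspForm.heckeAlgebra N 2 (↑(S.erase q) : Set ℕ) →+* K)
    (ε : ℤ) (hε : ε = 1 ∨ ε = -1)
    (hU : ∀ h : q ∉ (↑(S.erase q) : Set ℕ), χ (CuspForm.heckeAlgebra.U hq hqN h) = ε) :
    ∃ (j : χ.range →+* ℂ) (M : ℕ) (g : CuspForm (CongruenceSubgroup.Gamma0 M) 2),
      Function.Injective j ∧ 0 < M ∧ M ∣ N ∧ g.IsNewform ∧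
      (∀ (ℓ : ℕ) (hℓ : ℓ.Prime) (hℓN : ¬ ℓ ∣ N) (hℓS : ℓ ∉ (↑(S.erase q) : Set ℕ)),
        qCoeff g ℓ = j (χ.rangeRestrict (CuspForm.heckeAlgebra.T hℓ hℓN hℓS))) ∧
      (¬ q ∣ M → qCoeff g q = (ε : ℂ) * (1 + q)) := by
  haveI := Eigen.heckeAlgebra_moduleFinite (Integral.hasIntegralStructure N 2)
    (↑(S.erase q) : Set ℕ)
  obtain ⟨j, hj⟩ := exists_embedding_range χ
  obtain ⟨F, hF, hFχ⟩ := Eigen.exists_eigenform_of_ringHom (Integral.hasIntegralStructure N 2)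
    (j.comp χ.rangeRestrict)
  have hqS : q ∉ (↑(S.erase q) : Set ℕ) := by simp
  have hFq : qCoeff F q = (ε : ℂ) := by
    rw [← Eigen.eigenChar_U hF hq hqN hqS, hFχ]
    have h1 : χ.rangeRestrict (CuspForm.heckeAlgebra.U hq hqN hqS) = (ε : χ.range) :=
      Subtype.ext (by rw [RingHom.coe_rangeRestrict, hU hqS]; simp)
    rw [RingHom.comp_apply, h1, map_intCast]
  obtain ⟨M, hMN, hM, g, hg, hgF⟩ := Newform.exists_newform_of_eigenform hF
  refine ⟨j, M, g, hj, hM, hMN, hg, fun ℓ hℓ hℓN hℓS => ?_, fun hqM => ?_⟩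
  · rw [hgF ℓ hℓ hℓN, ← Eigen.eigenChar_T hF hℓ hℓN hℓS, hFχ]
    rfl
  · obtain ⟨N', hN'⟩ := hqN
    haveI : NeZero N' := ⟨fun h0 => NeZero.ne N (by rw [hN', h0, mul_zero])⟩
    haveI : NeZero M := ⟨hM.ne'⟩
    have hqN' : ¬ q ∣ N' := fun h => hq2 (by rw [hN', pow_two]; exact mul_dvd_mul_left q h)
    have hMN' : M ∣ N' :=
      ((hq.coprime_iff_not_dvd.mpr hqM).symm).dvd_of_dvd_mul_left (hN' ▸ hMN)
    have h := qCoeff_sq_sub_mul_add_eq_zero hq hqN' hN' hMN' hF hg.1 ∅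
      (fun ℓ hℓ _ hℓN => hgF ℓ hℓ hℓN)
    rw [hFq] at h
    rcases hε with rfl | rfl <;> push_cast at h ⊢
    · linear_combination -h
    · linear_combination h

/-- Two representations with the same characteristic polynomials at almost all Frobenius elements
have equal traces and determinants. -/
theorem trace_det_eq {O : Type} [CommRing O] [IsLocalRing O] [IsNoetherianRing O]
    (ρ₁ ρ₂ : GaloisRepAdic O) (S : Finset ℕ)
    (h : ∀ ℓ : ℕ, ℓ.Prime → ℓ ∉ S → ∀ A : ValuationSubring ℚbar, A.LiesOverPrime ℓ →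
      ∀ τ : Γℚ, A.IsFrobeniusAt τ ℓ →
        ρ₁.trace τ = ρ₂.trace τ ∧ LinearMap.det (ρ₁.ρ τ) = LinearMap.det (ρ₂.ρ τ)) (σ : Γℚ) :
    ρ₁.trace σ = ρ₂.trace σ ∧ LinearMap.det (ρ₁.ρ σ) = LinearMap.det (ρ₂.ρ σ) := by
  have key : ∀ m, Ideal.Quotient.mk (maximalIdeal O ^ m) (ρ₁.trace σ) =
        Ideal.Quotient.mk _ (ρ₂.trace σ) ∧
      Ideal.Quotient.mk (maximalIdeal O ^ m) (LinearMap.det (ρ₁.ρ σ)) =
        Ideal.Quotient.mk _ (LinearMap.det (ρ₂.ρ σ)) := fun m => by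
    obtain ⟨L₁, hL₁, hc₁⟩ := ρ₁.isAdicContinuous m
    obtain ⟨L₂, hL₂, hc₂⟩ := ρ₂.isAdicContinuous m
    haveI := hL₁
    haveI := hL₂
    have := CondLevel.trace_det_eq_of_frobenius (CondLevel.adicMatrixRep ρ₁ (maximalIdeal O ^ m))
      (CondLevel.adicMatrixRep ρ₂ (maximalIdeal O ^ m)) (L₁ ⊔ L₂)
      (fun τ hτ => CondLevel.adicMatrixRep_eq_one ρ₁ (hc₁ τ fun x hx =>
        hτ x ((le_sup_left : L₁ ≤ L₁ ⊔ L₂) hx)))
      (fun τ hτ => CondLevel.adicMatrixRep_eq_one ρ₂ (hc₂ τ fun x hx =>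
        hτ x ((le_sup_right : L₂ ≤ L₁ ⊔ L₂) hx))) S
      (fun ℓ hℓ hℓS A hA τ hτ => by
        rw [CondLevel.trace_adicMatrixRep, CondLevel.trace_adicMatrixRep,
          CondLevel.det_adicMatrixRep, CondLevel.det_adicMatrixRep, (h ℓ hℓ hℓS A hA τ hτ).1,
          (h ℓ hℓ hℓS A hA τ hτ).2]
        exact ⟨rfl, rfl⟩) σ
    rwa [CondLevel.trace_adicMatrixRep, CondLevel.trace_adicMatrixRep,
      CondLevel.det_adicMatrixRep, CondLevel.det_adicMatrixRep] at this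
  exact ⟨CondLevel.eq_of_forall_quotient_mk_eq fun m => (key m).1,
    CondLevel.eq_of_forall_quotient_mk_eq fun m => (key m).2⟩

/-- A character of the Hecke algebra takes its values in any subring containing its values at
the generators. -/
theorem apply_mem_subring {M : ℕ} [NeZero M] {S : Set ℕ} {R : Type*} [CommRing R]
    (χ : CuspForm.heckeAlgebra M 2 S →+* R) (C : Subring R)
    (hT : ∀ (ℓ : ℕ) (hℓ : ℓ.Prime) (hℓM : ¬ ℓ ∣ M) (hℓS : ℓ ∉ S),
      χ (CuspForm.heckeAlgebra.T hℓ hℓM hℓS) ∈ C)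
    (hU : ∀ (r : ℕ) (hr : r.Prime) (hrM : r ∣ M) (hrS : r ∉ S),
      χ (CuspForm.heckeAlgebra.U hr hrM hrS) ∈ C)
    (t : CuspForm.heckeAlgebra M 2 S) : χ t ∈ C := by
  obtain ⟨t, ht⟩ := t
  induction ht using Algebra.adjoin_induction with
  | mem x hx =>
    rcases hx with ⟨ℓ, hℓ, hℓM, hℓS, rfl⟩ | ⟨r, hrM, hr, hrS, rfl⟩
    · exact hT ℓ hℓ hℓM hℓS
    · exact hU r hr hrM hrS
  | algebraMap m =>
    show χ (algebraMap ℤ _ m) ∈ C
    rw [eq_intCast, map_intCast]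
    exact intCast_mem C m
  | add x y hx hy ihx ihy =>
    show χ (⟨x, hx⟩ + ⟨y, hy⟩) ∈ C
    rw [map_add]; exact add_mem ihx ihy
  | mul x y hx hy ihx ihy =>
    show χ (⟨x, hx⟩ * ⟨y, hy⟩) ∈ C
    rw [map_mul]; exact mul_mem ihx ihy

/-- A subring of `ℂ` lying in the image of the values in `O'` maps to `O'`. -/
theorem exists_lift_subring {K : Type} [Field K] {O' : Type} [CommRing O'] (emb : O' →+* K)
    (hemb : Function.Injective emb) (A : Subring K) (j : A →+* ℂ) (hj : Function.Injective j)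
    (C : Subring ℂ) (hC : C ≤ (emb.range.comap A.subtype).map j) :
    ∃ iota : C →+* O', ∀ (z : C) (w : A), j w = (z : ℂ) → emb (iota z) = (w : K) := by
  have h : ∀ z : C, ∃ x : O', ∀ w : A, j w = (z : ℂ) → emb x = (w : K) := fun z => by
    obtain ⟨w, ⟨x, hx⟩, hw⟩ := hC z.2
    exact ⟨x, fun w' hw' => hx.trans (congrArg Subtype.val (hj (hw.trans hw'.symm)))⟩
  choose f hf using h
  have hw : ∀ z : C, ∃ w : A, j w = (z : ℂ) := fun z => by
    obtain ⟨w, -, hw⟩ := hC z.2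
    exact ⟨w, hw⟩
  refine ⟨{ toFun := f
            map_one' := hemb (by rw [hf 1 1 (map_one j), map_one]; rfl)
            map_zero' := hemb (by rw [hf 0 0 (map_zero j), map_zero]; rfl)
            map_mul' := fun x y => hemb ?_
            map_add' := fun x y => hemb ?_ }, hf⟩
  · obtain ⟨u, hu⟩ := hw x
    obtain ⟨v, hv⟩ := hw y
    rw [hf (x * y) (u * v) (by rw [map_mul, hu, hv]; rfl), map_mul, hf x u hu, hf y v hv]
    rfl
  · obtain ⟨u, hu⟩ := hw x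
    obtain ⟨v, hv⟩ := hw y
    rw [hf (x + y) (u + v) (by rw [map_add, hu, hv]; rfl), map_add, hf x u hu, hf y v hv]
    rfl

/-- **The representation of a system with `U_q = ± 1`.**  `q ∥ N`, `χ` a character of level `N`
with `T_ℓ ↦ a ℓ` outside `S` and `U_q ↦ ε`; the values `a ℓ` lie in `O'`.  Over a finite extension
of `O'` there is a representation with these Frobenius polynomials whose Frobenius elements at `q`
have trace of square `(q + 1)²` and determinant `q`. -/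
theorem exists_rep_of_hom {N q p : ℕ} [NeZero N] [Fact p.Prime] (hq : q.Prime) (hqp : q ≠ p)
    (hqN : q ∣ N) (hq2 : ¬ q ^ 2 ∣ N) (S : Finset ℕ) (hpS : p ∈ S)
    (hNS : ∀ r : ℕ, r.Prime → r ∣ N → r ∈ S)
    {K : Type} [Field K] [CharZero K]
    (χ : CuspForm.heckeAlgebra N 2 (↑(S.erase q) : Set ℕ) →+* K)
    (ε : ℤ) (hε : ε = 1 ∨ ε = -1)
    (hU : ∀ h : q ∉ (↑(S.erase q) : Set ℕ), χ (CuspForm.heckeAlgebra.U hq hqN h) = ε)
    {O' : Type} [CommRing O'] [IsDomain O'] [IsDiscreteValuationRing O']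
    [IsAdicComplete (maximalIdeal O') O'] [Finite (ResidueField O')] [CharZero O']
    (hpO : (p : O') ∈ maximalIdeal O') (emb : O' →+* K) (hemb : Function.Injective emb)
    (b : ℕ → O')
    (hb : ∀ (ℓ : ℕ) (hℓ : ℓ.Prime) (hℓN : ¬ ℓ ∣ N) (hℓS : ℓ ∉ (↑(S.erase q) : Set ℕ)),
      emb (b ℓ) = χ (CuspForm.heckeAlgebra.T hℓ hℓN hℓS)) :
    ∃ (O'' : Type) (_ : CommRing O'') (_ : IsDomain O'') (_ : IsDiscreteValuationRing O'')
      (_ : IsAdicComplete (maximalIdeal O'') O'') (_ : Finite (ResidueField O''))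
      (_ : CharZero O'') (_ : Algebra O' O'') (_ : IsLocalHom (algebraMap O' O'')),
      Function.Injective (algebraMap O' O'') ∧ ∃ ρ : GaloisRepAdic O'',
        (∀ ℓ : ℕ, ℓ.Prime → ℓ ∉ S → ∀ A : ValuationSubring ℚbar, A.LiesOverPrime ℓ →
          ∀ σ : Γℚ, A.IsFrobeniusAt σ ℓ →
            ρ.trace σ = algebraMap O' O'' (b ℓ) ∧ LinearMap.det (ρ.ρ σ) = (ℓ : O'')) ∧
        ∀ A : ValuationSubring ℚbar, A.LiesOverPrime q → ∀ σ : Γℚ, A.IsFrobeniusAt σ q →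
          ρ.trace σ ^ 2 = ((q : O'') + 1) ^ 2 ∧ LinearMap.det (ρ.ρ σ) = (q : O'') := by
  classical
  obtain ⟨j, M, g, hj, hM, hMN, hg, hgT, hgq⟩ := exists_newform_of_hom hq hqN hq2 S χ ε hε hU
  haveI : NeZero M := ⟨hM.ne'⟩
  set S' : Finset ℕ := if q ∣ M then S else S.erase q with hS'
  have hpS' : p ∈ S' := by
    rw [hS']; split
    · exact hpS
    · exact Finset.mem_erase.mpr ⟨hqp.symm, hpS⟩
  have hMS' : ∀ r : ℕ, r.Prime → r ∣ M → r ∈ S' := fun r hr hrM => by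
    have hrS := hNS r hr (hrM.trans hMN)
    rw [hS']; split
    · exact hrS
    · exact Finset.mem_erase.mpr ⟨fun h => ‹¬ q ∣ M› (h ▸ hrM), hrS⟩
  -- the target of the eigenvalues
  let D₀ : Subring χ.range := emb.range.comap χ.range.subtype
  let C₀ : Subring ℂ := D₀.map j
  have hval : ∀ (ℓ : ℕ) (hℓ : ℓ.Prime) (hℓM : ¬ ℓ ∣ M) (_ : ℓ ∉ (↑S' : Set ℕ)),
      ∃ w : χ.range, j w = qCoeff g ℓ ∧
        (((ℓ ∉ S) → emb (b ℓ) = (w : K)) ∧ (ℓ = q → (w : K) = (ε : K) * (1 + (q : K)))) ∧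
        (w : K) ∈ emb.range := by
    intro ℓ hℓ hℓM hℓS'
    rw [Finset.mem_coe] at hℓS'
    by_cases hℓq : ℓ = q
    · subst hℓq
      have hqS : ℓ ∈ S := hNS ℓ hq hqN
      refine ⟨(ε : χ.range) * (1 + (ℓ : χ.range)), ?_, ⟨fun h => absurd hqS h, fun _ => by simp⟩, ?_⟩
      · rw [map_mul, map_intCast, map_add, map_one, map_natCast, hgq hℓM]
      · exact ⟨(ε : O') * (1 + (ℓ : O')), by simp⟩
    · have hℓS : ℓ ∉ S := fun h => by
        apply hℓS'
        rw [hS']; split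
        · exact h
        · exact Finset.mem_erase.mpr ⟨hℓq, h⟩
      have hℓN : ¬ ℓ ∣ N := fun h => hℓS (hNS ℓ hℓ h)
      have hℓS'' : ℓ ∉ (↑(S.erase q) : Set ℕ) := fun h => hℓS (Finset.mem_of_mem_erase h)
      refine ⟨χ.rangeRestrict (CuspForm.heckeAlgebra.T hℓ hℓN hℓS''), (hgT ℓ hℓ hℓN hℓS'').symm,
        ⟨fun _ => hb ℓ hℓ hℓN hℓS'', fun h => absurd h hℓq⟩, ⟨b ℓ, hb ℓ hℓ hℓN hℓS''⟩⟩
  obtain ⟨chig, hchig⟩ : ∃ chig : CuspForm.heckeAlgebra M 2 (↑S' : Set ℕ) →+* ℂ,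
      ∀ (ℓ : ℕ) (hℓ : ℓ.Prime) (hℓM : ¬ ℓ ∣ M) (hℓS : ℓ ∉ (↑S' : Set ℕ)),
        chig (CuspForm.heckeAlgebra.T hℓ hℓM hℓS) = qCoeff g ℓ :=
    ⟨Eigen.eigenChar g hg.1 _, fun ℓ hℓ hℓM hℓS => Eigen.eigenChar_T hg.1 hℓ hℓM hℓS⟩
  have hrange : ∀ t, chig t ∈ C₀ := apply_mem_subring chig C₀
    (fun ℓ hℓ hℓM hℓS' => by
      obtain ⟨w, hw1, -, hw2⟩ := hval ℓ hℓ hℓM hℓS'
      exact ⟨w, hw2, hw1.trans (hchig ℓ hℓ hℓM hℓS').symm⟩)
    (fun r hr hrM hrS' => absurd (hMS' r hr hrM) hrS')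
  have hsub : chig.range ≤ C₀ := by rintro _ ⟨t, rfl⟩; exact hrange t
  obtain ⟨iota, hiota⟩ := exists_lift_subring emb hemb χ.range j hj chig.range hsub
  obtain ⟨O'', i1, i2, i3, i4, i5, i6, i7, -, i9, hinj, ρ, hgood, hbad⟩ :=
    NewformRep.exists_galoisRepAdic_newform hg p S' O' hpO chig
      hchig iota hpS' hMS'
  refine ⟨O'', i1, i2, i3, i4, i5, i6, i7, i9, hinj, ρ, fun ℓ hℓ hℓS A hA σ hσ => ?_,
    fun A hA σ hσ => ?_⟩
  · have hℓM : ¬ ℓ ∣ M := fun h => hℓS (hNS ℓ hℓ (h.trans hMN))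
    have hℓS' : ℓ ∉ (↑S' : Set ℕ) := fun h => by
      rw [Finset.mem_coe, hS'] at h
      split at h
      · exact hℓS h
      · exact hℓS (Finset.mem_of_mem_erase h)
    obtain ⟨h1, h2⟩ := CondLevel.trace_det_of_adic_charpoly_eq ρ σ (hgood ℓ hℓ hℓM hℓS' A hA σ hσ)
    refine ⟨h1.trans (congrArg _ (hemb ?_)), h2⟩
    obtain ⟨w, hw1, hw2, -⟩ := hval ℓ hℓ hℓM hℓS'
    rw [hw2.1 hℓS]
    exact hiota _ w (by rw [hw1, RingHom.coe_rangeRestrict, hchig])
  · by_cases hqM : q ∣ M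
    · rcases hbad q hq hqp hqM (fun h => hq2 (h.trans hMN)) A hA σ hσ with h | h
      · obtain ⟨h1, h2⟩ := CondLevel.trace_det_of_adic_charpoly_eq ρ σ h
        exact ⟨by rw [h1], h2⟩
      · rw [show (X : O''[X]) ^ 2 + C ((q : O'') + 1) * X = X ^ 2 - C (-((q : O'') + 1)) * X by
          rw [map_neg]; ring] at h
        obtain ⟨h1, h2⟩ := CondLevel.trace_det_of_adic_charpoly_eq ρ σ h
        exact ⟨by rw [h1, neg_sq], h2⟩
    · have hqS' : q ∉ (↑S' : Set ℕ) := by simp [hS', hqM]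
      obtain ⟨h1, h2⟩ :=
        CondLevel.trace_det_of_adic_charpoly_eq ρ σ (hgood q hq hqM hqS' A hA σ hσ)
      refine ⟨?_, h2⟩
      obtain ⟨w, hw1, hw2, -⟩ := hval q hq hqM hqS'
      have h3 : (iota.comp chig.rangeRestrict) (CuspForm.heckeAlgebra.T hq hqM hqS')
          = (ε : O') * (1 + (q : O')) := by
        refine hemb ?_
        rw [map_mul, map_intCast, map_add, map_one, map_natCast, ← hw2.2 rfl]
        exact hiota _ w (by rw [hw1, RingHom.coe_rangeRestrict, hchig])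
      rw [h1, h3]
      rcases hε with rfl | rfl <;> simp <;> ring

end Fermat.Agent.Ribet.Avoid
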