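/-
Systems killed by both degeneracy maps as characters of a Hecke algebra, and coefficient rings
carrying their values.
-/
import Fermat.Agent.Ribet.Avoid.OldChar
import Fermat.Agent.Ribet.Avoid.OldRep
import Fermat.Agent.Ribet.Inertia
import Fermat.Agent.RepLemmas.DVRExtension

set_option autoImplicit false
set_option linter.style.haveILetI false

noncomputable section

namespace Fermat.Agent.Ribet.Avoid

open Polynomial IsLocalRing Twisted

local notation "ℚbar" => AlgebraicClosure ℚ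
local notation "Γℚ" => AlgebraicClosure ℚ ≃ₐ[ℚ] AlgebraicClosure ℚ

/-- A congruent system is not Eisenstein. -/
theorem exists_ne_eisenstein (s : Setup) (S : Finset ℕ) (m : ℕ) (hm : 0 < m) (a : ℕ → s.K)
    (hcong : IsCongruent (algebraMap s.O s.K) (residue s.O) s.abar S a) :
    ∃ ℓ : ℕ, ℓ.Prime ∧ ℓ ∉ S ∧ (ℓ : ZMod m) = 1 ∧ a ℓ ≠ (ℓ : s.K) + 1 := by
  obtain ⟨ℓ, hℓ, hℓS, hℓm, hℓ1, hℓ2⟩ := s.hEis m S hm
  refine ⟨ℓ, hℓ, hℓS, hℓm, fun h => hℓ2 ?_⟩
  have hmem : MvPolynomial.X ⟨ℓ, hℓ, hℓS⟩ - MvPolynomial.C ((ℓ : s.O) + 1) ∈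
      RingHom.ker (evalSystem (algebraMap s.O s.K) a S) := by
    simp [RingHom.mem_ker, evalSystem, h]
  have h' := hcong hmem
  rw [residualIdeal, RingHom.mem_ker] at h'
  simp [evalSystem, hℓ1, one_add_one_eq_two, sub_eq_zero] at h'
  exact h'

/-- The same system seen with the primitive part of the modulus. -/
theorem hasSystem_of_changeLevel {L D D' : ℕ} [NeZero L] {K : Type} [Field K] (hD : D ∣ L)
    (hD' : D' ∣ D) (ψ' : DirichletCharacter K D') (S : Finset ℕ) (a : ℕ → K)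
    (hDS : ∀ q : ℕ, q.Prime → q ∣ D → q ∈ S)
    (h : HasSystem hD (DirichletCharacter.changeLevel hD' ψ') S a) :
    HasSystem (hD'.trans hD) ψ' S a := by
  obtain ⟨e, he, hcomm⟩ := exists_coh_changeLevel hD hD' ψ' K
  obtain ⟨x, hx0, hx⟩ := h
  exact ⟨e x, fun h0 => hx0 (he (h0.trans (map_zero e).symm)), fun ℓ hℓ hℓS => by
    rw [← hcomm ℓ hℓ (fun hd => hℓS (hDS ℓ hℓ hd)), hx ℓ hℓ hℓS, map_smul]⟩

/-- A system with `U'_q ^ 2 = 1` is a character of the Hecke algebra of level `L D` with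
`U_q = ± 1`. -/
theorem exists_hom_of_sq_eq {L D q : ℕ} [NeZero L] [NeZero (L * D)] {K : Type} [Field K]
    [CharZero K] (hD : D ∣ L) (hsqD : Squarefree D) (hcop : Nat.Coprime D (L / D))
    (ψ : DirichletCharacter K D) (hψ : IsPrimitiveSq ψ) (hq : q.Prime) (hqD : ¬ q ∣ D)
    (hqL : q ∣ L) (S : Finset ℕ) (hDS : ∀ r : ℕ, r.Prime → r ∣ D → r ∈ S) (a : ℕ → K)
    (x : CohL hD ψ K) (hx : x ≠ 0) (hU : heckeT' hD ψ K q (heckeT' hD ψ K q x) = x)
    (heig : ∀ ℓ : ℕ, ℓ.Prime → ℓ ∉ S → heckeT' hD ψ K ℓ x = a ℓ • x)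
    (hne : ∃ ℓ : ℕ, ℓ.Prime ∧ ℓ ∉ S ∧ (ℓ : ZMod (L * D)) = 1 ∧ a ℓ ≠ (ℓ : K) + 1) :
    ∃ (ε : ℤ) (χ : CuspForm.heckeAlgebra (L * D) 2 (↑(S.erase q) : Set ℕ) →+* K),
      (ε = 1 ∨ ε = -1) ∧
      (∀ h : q ∉ (↑(S.erase q) : Set ℕ),
        χ (CuspForm.heckeAlgebra.U hq (hqL.mul_right D) h) = ε) ∧
      ∀ (ℓ : ℕ) (hℓ : ℓ.Prime) (hℓN : ¬ ℓ ∣ L * D) (hℓS : ℓ ∉ (↑(S.erase q) : Set ℕ)),
        χ (CuspForm.heckeAlgebra.T hℓ hℓN hℓS) = a ℓ := by
  classical
  obtain ⟨ε, x', hε, hx', hUx', heig'⟩ : ∃ (ε : ℤ) (x' : CohL hD ψ K), (ε = 1 ∨ ε = -1) ∧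
      x' ≠ 0 ∧ heckeT' hD ψ K q x' = (ε : K) • x' ∧
      ∀ ℓ : ℕ, ℓ.Prime → ℓ ∉ S → heckeT' hD ψ K ℓ x' = a ℓ • x' := by
    have hcomm : ∀ ℓ : ℕ, ℓ.Prime → ℓ ∉ S →
        heckeT' hD ψ K ℓ (heckeT' hD ψ K q x) = a ℓ • heckeT' hD ψ K q x := fun ℓ hℓ hℓS => by
      rw [← Module.End.mul_apply, (heckeT'_comm hD ψ ℓ q).eq, Module.End.mul_apply,
        heig ℓ hℓ hℓS, map_smul]
    by_cases h : heckeT' hD ψ K q x + x = 0
    · refine ⟨-1, x, Or.inr rfl, hx, ?_, heig⟩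
      rw [Int.cast_neg, Int.cast_one, neg_one_smul]
      exact eq_neg_of_add_eq_zero_left h
    · refine ⟨1, heckeT' hD ψ K q x + x, Or.inl rfl, h, ?_, fun ℓ hℓ hℓS => ?_⟩
      · rw [Int.cast_one, one_smul, map_add, hU, add_comm]
      · rw [map_add, hcomm ℓ hℓ hℓS, heig ℓ hℓ hℓS, smul_add]
  obtain ⟨ℓ₀, hℓ₀, hℓ₀S, hℓ₀1, hℓ₀a⟩ := hne
  obtain ⟨r, hr, hr'⟩ : ∃ r : ℕ → K, r q = (ε : K) ∧ ∀ ℓ, ℓ ≠ q → r ℓ = a ℓ :=
    ⟨Function.update a q (ε : K), Function.update_self _ _ _,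
      fun ℓ h => Function.update_of_ne h _ _⟩
  have hℓ₀q : ℓ₀ ≠ q := fun h => by
    subst h
    haveI : Fact ℓ₀.Prime := ⟨hℓ₀⟩
    have h1 := congrArg (ZMod.castHom (hqL.mul_right D) (ZMod ℓ₀)) hℓ₀1
    rw [map_natCast, map_one, ZMod.natCast_self] at h1
    exact zero_ne_one h1
  obtain ⟨χ, hχT, hχU⟩ := exists_hom_of_hasSystem hD hsqD hcop ψ hψ (S.erase q)
    (fun t ht htD => Finset.mem_erase.mpr ⟨fun h => hqD (h ▸ htD), hDS t ht htD⟩) r
    ⟨x', hx', fun ℓ hℓ hℓS => by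
      by_cases h : ℓ = q
      · subst h; rw [hr]; exact hUx'
      · rw [hr' ℓ h]
        exact heig' ℓ hℓ fun hS => hℓS (Finset.mem_erase.mpr ⟨h, hS⟩)⟩
    ⟨ℓ₀, hℓ₀, fun h => hℓ₀S (Finset.mem_of_mem_erase h), hℓ₀1, by rw [hr' ℓ₀ hℓ₀q]; exact hℓ₀a⟩
  refine ⟨ε, χ, hε, fun h => (hχU q hq _ h).trans hr, fun ℓ hℓ hℓN hℓS => ?_⟩
  rw [hχT ℓ hℓ hℓN hℓS, hr' ℓ fun h => hℓN (h ▸ hqL.mul_right D)]

/-- A finite extension of the coefficients carrying the values of a character of the Hecke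
algebra, with the residual values of a congruent system. -/
theorem exists_coeff (s : Setup) {T : Type} [CommRing T] [Module.Finite ℤ T] (χ : T →+* s.K)
    (S : Finset ℕ) (a : ℕ → s.K) (ha : ∀ ℓ : ℕ, ℓ.Prime → ℓ ∉ S → ∃ t, χ t = a ℓ)
    (hcong : IsCongruent (algebraMap s.O s.K) (residue s.O) s.abar S a) :
    ∃ (O' : Type) (_ : CommRing O') (_ : IsDomain O') (_ : IsDiscreteValuationRing O')
      (_ : IsAdicComplete (maximalIdeal O') O') (_ : Finite (ResidueField O'))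
      (_ : CharZero O') (φ : s.O →+* O') (_ : IsLocalHom φ) (emb : O' →+* s.K) (b : ℕ → O'),
      Function.Injective emb ∧ ∀ ℓ : ℕ, ℓ.Prime → ℓ ∉ S →
        emb (b ℓ) = a ℓ ∧ ∀ c : s.O, residue s.O c = s.abar ℓ → b ℓ - φ c ∈ maximalIdeal O' := by
  classical
  obtain ⟨t, ht⟩ := (Module.finite_def.mp (inferInstance : Module.Finite ℤ T))
  let E : IntermediateField (FractionRing s.O) s.K :=
    IntermediateField.adjoin (FractionRing s.O) ((t.image χ : Finset s.K) : Set s.K)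
  haveI : FiniteDimensional (FractionRing s.O) E :=
    IntermediateField.finiteDimensional_adjoin fun x _ => Algebra.IsIntegral.isIntegral x
  haveI : CharZero (FractionRing s.O) :=
    charZero_of_injective_algebraMap (IsFractionRing.injective s.O (FractionRing s.O))
  have hmem : ∀ x : T, χ x ∈ E := fun x => by
    have hx : x ∈ Submodule.span ℤ (t : Set T) := by rw [ht]; exact Submodule.mem_top
    induction hx using Submodule.span_induction with
    | mem y hy =>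
      exact IntermediateField.subset_adjoin _ _ (Finset.mem_coe.mpr (Finset.mem_image_of_mem _ hy))
    | zero => rw [map_zero]; exact zero_mem _
    | add y z _ _ hy hz => rw [map_add]; exact add_mem hy hz
    | smul c y _ hy => rw [map_zsmul]; exact zsmul_mem hy c
  obtain ⟨hdvr, -, hloc, hinj, -, hcomp, hres⟩ :=
    RepLemmas.integralClosure_isDVR s.O (FractionRing s.O) E
  haveI := hdvr
  let emb : integralClosure s.O E →+* s.K :=
    E.val.toRingHom.comp (integralClosure s.O E).val.toRingHom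
  have hemb : Function.Injective emb := Subtype.val_injective.comp Subtype.val_injective
  have hint : ∀ x : T, (⟨χ x, hmem x⟩ : E) ∈ integralClosure s.O E := fun x => by
    have h1 : IsIntegral ℤ (⟨χ x, hmem x⟩ : E) :=
      map_isIntegral_int (χ.codRestrict E.toSubfield.toSubring hmem)
        (Algebra.IsIntegral.isIntegral x)
    exact h1.tower_top
  have hb' : ∀ ℓ, ∃ b : integralClosure s.O E, ℓ.Prime → ℓ ∉ S → emb b = a ℓ := fun ℓ => by
    by_cases h : ℓ.Prime ∧ ℓ ∉ S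
    · obtain ⟨x, hx⟩ := ha ℓ h.1 h.2
      exact ⟨⟨⟨χ x, hmem x⟩, hint x⟩, fun _ _ => hx⟩
    · exact ⟨0, fun h1 h2 => absurd ⟨h1, h2⟩ h⟩
  choose b hb using hb'
  haveI : CharZero (integralClosure s.O E) :=
    charZero_of_injective_ringHom (f := algebraMap s.O (integralClosure s.O E)) hinj
  refine ⟨integralClosure s.O E, inferInstance, inferInstance, hdvr, hcomp, hres inferInstance,
    inferInstance, algebraMap s.O (integralClosure s.O E), hloc, emb, b, hemb,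
    fun ℓ hℓ hℓS => ⟨hb ℓ hℓ hℓS, fun c hc => ?_⟩⟩
  -- the residual ideal is the trace of the maximal ideal
  let Φ : HeckePoly s.O S →ₐ[s.O] integralClosure s.O E := MvPolynomial.aeval fun x => b x.1
  letI : Algebra (HeckePoly s.O S) (integralClosure s.O E) := Φ.toRingHom.toAlgebra
  haveI : IsScalarTower s.O (HeckePoly s.O S) (integralClosure s.O E) :=
    IsScalarTower.of_algebraMap_eq fun x => (Φ.commutes x).symm
  haveI : Algebra.IsIntegral s.O (integralClosure s.O E) := inferInstance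
  haveI : Algebra.IsIntegral (HeckePoly s.O S) (integralClosure s.O E) :=
    Algebra.IsIntegral.tower_top (R := s.O)
  have hker : RingHom.ker (algebraMap (HeckePoly s.O S) (integralClosure s.O E)) ≤
      residualIdeal (residue s.O) s.abar S := fun f hf => by
    refine hcong ?_
    rw [RingHom.mem_ker] at hf ⊢
    have hev : evalSystem (algebraMap s.O s.K) a S = emb.comp Φ.toRingHom := by
      refine MvPolynomial.ringHom_ext (fun x => ?_) fun x => ?_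
      · rw [evalSystem, MvPolynomial.eval₂Hom_C, RingHom.comp_apply, AlgHom.toRingHom_eq_coe,
          RingHom.coe_coe, MvPolynomial.aeval_C]
        rfl
      · rw [evalSystem, MvPolynomial.eval₂Hom_X', RingHom.comp_apply, AlgHom.toRingHom_eq_coe,
          RingHom.coe_coe, MvPolynomial.aeval_X, hb x.1 x.2.1 x.2.2]
    rw [hev, RingHom.comp_apply]
    exact (congrArg emb hf).trans (map_zero emb)
  haveI : (residualIdeal (residue s.O) s.abar S).IsMaximal :=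
    RingHom.ker_isMaximal_of_surjective _ fun z => by
      obtain ⟨w, rfl⟩ := residue_surjective z
      exact ⟨MvPolynomial.C w, MvPolynomial.eval₂Hom_C _ _ w⟩
  obtain ⟨Q, hQ, hQc⟩ := Ideal.exists_ideal_over_maximal_of_isIntegral
    (S := integralClosure s.O E) (residualIdeal (residue s.O) s.abar S) hker
  have hf : MvPolynomial.X (⟨ℓ, hℓ, hℓS⟩ : GoodPrime S) - MvPolynomial.C c ∈
      residualIdeal (residue s.O) s.abar S := by
    simp [residualIdeal, RingHom.mem_ker, evalSystem, hc]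
  rw [← hQc, Ideal.mem_comap, eq_maximalIdeal hQ] at hf
  simpa [RingHom.algebraMap_toAlgebra, Φ] using hf

/-- A system either descends below `q` or has a vector with `U'_q ^ 2 = 1`. -/
theorem descends_or_sq_eq {L L₀ D q : ℕ} [NeZero L₀] {K : Type} [Field K] (hD : D ∣ L)
    (hD₀ : D ∣ L₀) (hL : L = L₀ * q) (hq : q.Prime) (hqL : ¬ q ∣ L₀)
    (ψ : DirichletCharacter K D) (S : Finset ℕ) (hqS : q ∈ S) (a : ℕ → K)
    (h : HasSystem hD ψ S a) :
    HasSystem hD₀ ψ S a ∨ ∃ v : CohL hD ψ K, v ≠ 0 ∧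
      (∀ ℓ : ℕ, ℓ.Prime → ℓ ∉ S → heckeT' hD ψ K ℓ v = a ℓ • v) ∧
      heckeT' hD ψ K q (heckeT' hD ψ K q v) = v := by
  subst hL
  obtain ⟨f, hf, hker⟩ := exists_lowering (M := K) hD₀ ψ hq hqL
  obtain ⟨x, hx0, hx⟩ := h
  have hcomp : ∀ ℓ : ℕ, ℓ.Prime → ℓ ∉ S →
      heckeT' hD₀ ψ K ℓ (f x).1 = a ℓ • (f x).1 ∧
        heckeT' hD₀ ψ K ℓ (f x).2 = a ℓ • (f x).2 := fun ℓ hℓ hℓS => by
    have h1 := hf ℓ hℓ (fun e => hℓS (e ▸ hqS)) x
    rw [hx ℓ hℓ hℓS, map_smul] at h1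
    exact ⟨(congrArg Prod.fst h1).symm, (congrArg Prod.snd h1).symm⟩
  by_cases h1 : (f x).1 = 0
  · by_cases h2 : (f x).2 = 0
    · exact Or.inr ⟨x, hx0, hx, hker x (Prod.ext h1 h2)⟩
    · exact Or.inl ⟨_, h2, fun ℓ hℓ hℓS => (hcomp ℓ hℓ hℓS).2⟩
  · exact Or.inl ⟨_, h1, fun ℓ hℓ hℓS => (hcomp ℓ hℓ hℓS).1⟩

end Fermat.Agent.Ribet.Avoid
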