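/-
No congruent system is new at a prime where the residual Frobenius trace is not `± (q + 1)`, in
particular at a prime `≡ 1` with distinct residual Frobenius eigenvalues.
-/
import Fermat.Agent.Ribet.Avoid.OldHom
import Fermat.Agent.Galois.Frobenius

set_option autoImplicit false
set_option linter.style.haveILetI false

noncomputable section

namespace Fermat.Agent.Ribet.Avoid

open Polynomial IsLocalRing Twisted

local notation "ℚbar" => AlgebraicClosure ℚ
local notation "Γℚ" => AlgebraicClosure ℚ ≃ₐ[ℚ] AlgebraicClosure ℚ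

/-- A congruent system with `U'_q² = 1` forces the residual Frobenius at `q` to have
`tr² = (q + 1)²` and determinant `q`. -/
theorem trace_sq_of_sq_eq (s : Setup) {L q : ℕ} [NeZero L] [NeZero q] (S : Finset ℕ)
    (hS₀ : s.S₀ ⊆ S) (hLS : ∀ x : ℕ, x.Prime → x ∣ L * q → x ∈ S) (hL : Squarefree (L * q))
    (hqp : q ≠ s.p) (hq : q.Prime)
    (a : ℕ → s.K) (x : CohL (one_dvd (L * q)) (1 : DirichletCharacter s.K 1) s.K) (hx : x ≠ 0)
    (hU : heckeT' (one_dvd (L * q)) (1 : DirichletCharacter s.K 1) s.K q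
      (heckeT' (one_dvd (L * q)) (1 : DirichletCharacter s.K 1) s.K q x) = x)
    (heig : ∀ ℓ : ℕ, ℓ.Prime → ℓ ∉ S →
      heckeT' (one_dvd (L * q)) (1 : DirichletCharacter s.K 1) s.K ℓ x = a ℓ • x)
    (hcong : IsCongruent (algebraMap s.O s.K) (residue s.O) s.abar S a)
    (A : ValuationSubring ℚbar) (hA : A.LiesOverPrime q) (φq : Γℚ) (hφq : A.IsFrobeniusAt φq q) :
    (TW.matRep s.ρbar φq).trace ^ 2 = ((q : s.k) + 1) ^ 2 ∧
      (TW.matRep s.ρbar φq).det = (q : s.k) := by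
  classical
  haveI : NeZero (L * q * 1) := by rw [mul_one]; infer_instance
  have hp : s.p.Prime := s.hp.out
  obtain ⟨ε, χ, hε, hχU, hχT⟩ := exists_hom_of_sq_eq (L := L * q) (one_dvd _) squarefree_one
    (Nat.coprime_one_left _) 1
    (fun t ht htd => absurd htd ht.not_dvd_one) hq hq.not_dvd_one (dvd_mul_left q L) S
    (fun t ht htd => absurd htd ht.not_dvd_one) a x hx hU heig
    (exists_ne_eisenstein s S _ (Nat.pos_of_ne_zero (NeZero.ne _)) a hcong)
  haveI := Eigen.heckeAlgebra_moduleFinite (Integral.hasIntegralStructure (L * q * 1) 2)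
    (↑(S.erase q) : Set ℕ)
  have hNS : ∀ t : ℕ, t.Prime → t ∣ L * q * 1 → t ∈ S := fun t ht h =>
    hLS t ht (by rwa [mul_one] at h)
  have haT : ∀ ℓ : ℕ, ℓ.Prime → ℓ ∉ S → ∃ t, χ t = a ℓ := fun ℓ hℓ hℓS =>
    ⟨_, hχT ℓ hℓ (fun h => hℓS (hNS ℓ hℓ h)) fun h => hℓS (Finset.mem_of_mem_erase h)⟩
  obtain ⟨O', i1, i2, i3, i4, i5, i6, φ, hφ, emb, b, hemb, hb⟩ := exists_coeff s χ S a haT hcong
  have hp' : (s.p : O') ∈ maximalIdeal O' := by
    rw [← map_natCast φ]
    exact haveI := hφ; map_nonunit φ (s.p : s.O) s.hpO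
  have hpS : s.p ∈ S := hS₀ s.hpS₀
  obtain ⟨O'', j1, j2, j3, j4, j5, j6, j7, j8, -, ρ, hgood, hbad⟩ :=
    exists_rep_of_hom hq hqp ((dvd_mul_left q L).mul_right 1)
      (fun h => by
        rw [mul_one] at h
        exact hq.ne_one (Nat.isUnit_iff.mp (hL q (by rwa [← pow_two]))))
      S hpS hNS χ ε hε hχU hp' emb hemb b (fun ℓ hℓ hℓN hℓS => by
        have hℓS' : ℓ ∉ S := fun h => hℓS (Finset.mem_erase.mpr
          ⟨fun e => hℓN (e ▸ (dvd_mul_left q L).mul_right 1), h⟩)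
        rw [(hb ℓ hℓ hℓS').1, hχT ℓ hℓ hℓN hℓS])
  -- compare with the residual representation
  set ψ : s.O →+* O'' ⧸ maximalIdeal O'' ^ 1 :=
    (Ideal.Quotient.mk _).comp ((algebraMap O' O'').comp φ) with hψ
  have hψm : ∀ y ∈ maximalIdeal s.O, ψ y = 0 := fun y hy => by
    rw [hψ, RingHom.comp_apply, RingHom.comp_apply, Ideal.Quotient.eq_zero_iff_mem, pow_one]
    exact map_nonunit (algebraMap O' O'') _ (haveI := hφ; map_nonunit φ y hy)
  let ψk : s.k →+* O'' ⧸ maximalIdeal O'' ^ 1 := Ideal.Quotient.lift (maximalIdeal s.O) ψ hψm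
  have hψk : ∀ y, ψk (residue s.O y) = ψ y := fun y => rfl
  haveI : Nontrivial (O'' ⧸ maximalIdeal O'' ^ 1) :=
    Ideal.Quotient.nontrivial_iff.mpr (by
      rw [pow_one]; exact (maximalIdeal.isMaximal O'').ne_top)
  let r₂ : Γℚ →* Matrix (Fin 2) (Fin 2) (O'' ⧸ maximalIdeal O'' ^ 1) :=
    ψk.mapMatrix.toMonoidHom.comp (TW.matRep s.ρbar)
  obtain ⟨L₁, hL₁, hc₁⟩ := ρ.isAdicContinuous 1
  obtain ⟨L₂, hL₂, hc₂⟩ := s.ρbar.factorsThroughFiniteLevel
  haveI := hL₁
  haveI := hL₂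
  have key := CondLevel.trace_det_eq_of_frobenius
    (CondLevel.adicMatrixRep ρ (maximalIdeal O'' ^ 1)) r₂ (L₁ ⊔ L₂)
    (fun τ hτ => CondLevel.adicMatrixRep_eq_one ρ (hc₁ τ fun y hy =>
      hτ y ((le_sup_left : L₁ ≤ L₁ ⊔ L₂) hy)))
    (fun τ hτ => by
      show ψk.mapMatrix (TW.matRep s.ρbar τ) = 1
      rw [(TW.matRep_eq_one_iff s.ρbar τ).mpr (hc₂ τ fun y hy =>
        hτ y ((le_sup_right : L₂ ≤ L₁ ⊔ L₂) hy)), map_one]) S
    (fun ℓ hℓ hℓS A hA τ hτ => by
      obtain ⟨h1, h2⟩ := hgood ℓ hℓ hℓS A hA τ hτ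
      have h3 := s.hfrob ℓ hℓ (fun h => hℓS (hS₀ h)) A hA τ hτ
      rw [← TW.charpoly_matRep, Matrix.charpoly_fin_two] at h3
      have htr : (TW.matRep s.ρbar τ).trace = s.abar ℓ := by
        simpa using congrArg (fun P : s.k[X] => P.coeff 1) h3
      have hdt : (TW.matRep s.ρbar τ).det = (ℓ : s.k) := by
        simpa using congrArg (fun P : s.k[X] => P.coeff 0) h3
      obtain ⟨c, hc⟩ := residue_surjective (s.abar ℓ)
      show _ = (ψk.mapMatrix (TW.matRep s.ρbar τ)).trace ∧ _ = (ψk.mapMatrix _).det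
      rw [CondLevel.trace_adicMatrixRep, CondLevel.det_adicMatrixRep, h1, h2, RingHom.mapMatrix_apply,
        ← AddMonoidHom.map_trace, ← RingHom.mapMatrix_apply, ← RingHom.map_det, htr, hdt,
        map_natCast, map_natCast]
      refine ⟨?_, rfl⟩
      rw [← hc, hψk, hψ, RingHom.comp_apply, RingHom.comp_apply, Ideal.Quotient.eq, ← map_sub,
        pow_one]
      exact map_nonunit (algebraMap O' O'') _ ((hb ℓ hℓ hℓS).2 c hc))
  obtain ⟨hb1, hb2⟩ := hbad A hA φq hφq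
  obtain ⟨k1, k2⟩ := key φq
  have k1' : Ideal.Quotient.mk (maximalIdeal O'' ^ 1) (ρ.trace φq) =
      ψk (TW.matRep s.ρbar φq).trace := by
    rw [← CondLevel.trace_adicMatrixRep, k1]
    show (ψk.mapMatrix _).trace = _
    rw [RingHom.mapMatrix_apply, ← AddMonoidHom.map_trace]
  have k2' : Ideal.Quotient.mk (maximalIdeal O'' ^ 1) (LinearMap.det (ρ.ρ φq)) =
      ψk (TW.matRep s.ρbar φq).det := by
    rw [← CondLevel.det_adicMatrixRep, k2]
    show (ψk.mapMatrix _).det = _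
    rw [← RingHom.map_det]
  exact ⟨ψk.injective (by
    rw [map_pow, ← k1', ← map_pow, hb1, map_pow, map_add, map_natCast, map_one, map_pow, map_add,
      map_natCast, map_one]), ψk.injective (by rw [← k2', hb2, map_natCast, map_natCast])⟩

/-- No congruent system has `U'_q² = 1` at a prime where the residual Frobenius trace is not
`± (q + 1)`. -/
theorem not_isCongruent_of_sq_eq_of_trace_ne (s : Setup) {L q : ℕ} [NeZero L] [NeZero q]
    (S : Finset ℕ)
    (hS₀ : s.S₀ ⊆ S) (hLS : ∀ x : ℕ, x.Prime → x ∣ L * q → x ∈ S) (hL : Squarefree (L * q))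
    (hqp : q ≠ s.p) (hq : q.Prime)
    (htr : ∀ A : ValuationSubring ℚbar, A.LiesOverPrime q → ∀ φ : Γℚ, A.IsFrobeniusAt φ q →
      LinearMap.trace s.k s.ρbar.V (s.ρbar.ρ φ) ^ 2 ≠ ((q : s.k) + 1) ^ 2)
    (a : ℕ → s.K) (x : CohL (one_dvd (L * q)) (1 : DirichletCharacter s.K 1) s.K) (hx : x ≠ 0)
    (hU : heckeT' (one_dvd (L * q)) (1 : DirichletCharacter s.K 1) s.K q
      (heckeT' (one_dvd (L * q)) (1 : DirichletCharacter s.K 1) s.K q x) = x)
    (heig : ∀ ℓ : ℕ, ℓ.Prime → ℓ ∉ S →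
      heckeT' (one_dvd (L * q)) (1 : DirichletCharacter s.K 1) s.K ℓ x = a ℓ • x) :
    ¬ IsCongruent (algebraMap s.O s.K) (residue s.O) s.abar S a := by
  intro hcong
  obtain ⟨A, hA⟩ := Galois.exists_liesOverPrime hq
  obtain ⟨φ, hφ⟩ := Galois.exists_isFrobeniusAt hq hA
  refine htr A hA φ hφ ?_
  rw [← (trace_sq_of_sq_eq s S hS₀ hLS hL hqp hq a x hx hU heig hcong A hA φ hφ).1]
  congr 1
  exact (LinearMap.trace_eq_matrix_trace s.k _ _)

/-- No congruent system has `U'_q² = 1` at a prime with distinct residual Frobenius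
eigenvalues. -/
theorem not_isCongruent_of_sq_eq (s : Setup) {L q : ℕ} [NeZero L] [NeZero q] (S : Finset ℕ)
    (hS₀ : s.S₀ ⊆ S) (hLS : ∀ x : ℕ, x.Prime → x ∣ L * q → x ∈ S) (hL : Squarefree (L * q))
    (hqp : q ≠ s.p) (hq : q.Prime) (hq1 : (q : ZMod s.p) = 1)
    (hdist : ∀ A : ValuationSubring ℚbar, A.LiesOverPrime q → ∀ φ : Γℚ, A.IsFrobeniusAt φ q →
      ∃ α β : s.k, α ≠ β ∧ LinearMap.charpoly (s.ρbar.ρ φ) = (X - C α) * (X - C β))
    (a : ℕ → s.K) (x : CohL (one_dvd (L * q)) (1 : DirichletCharacter s.K 1) s.K) (hx : x ≠ 0)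
    (hU : heckeT' (one_dvd (L * q)) (1 : DirichletCharacter s.K 1) s.K q
      (heckeT' (one_dvd (L * q)) (1 : DirichletCharacter s.K 1) s.K q x) = x)
    (heig : ∀ ℓ : ℕ, ℓ.Prime → ℓ ∉ S →
      heckeT' (one_dvd (L * q)) (1 : DirichletCharacter s.K 1) s.K ℓ x = a ℓ • x) :
    ¬ IsCongruent (algebraMap s.O s.K) (residue s.O) s.abar S a := by
  intro hcong
  obtain ⟨A, hA⟩ := Galois.exists_liesOverPrime hq
  obtain ⟨φq, hφq⟩ := Galois.exists_isFrobeniusAt hq hA
  obtain ⟨α, β, hαβ, hchar⟩ := hdist A hA φq hφq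
  obtain ⟨e1, e2⟩ := trace_sq_of_sq_eq s S hS₀ hLS hL hqp hq a x hx hU heig hcong A hA φq hφq
  rw [← TW.charpoly_matRep, Matrix.charpoly_fin_two] at hchar
  have hexp : (X - C α) * (X - C β) = X ^ 2 - C (α + β) * X + C (α * β) := by
    rw [map_add, map_mul]; ring
  rw [hexp] at hchar
  have htr : (TW.matRep s.ρbar φq).trace = α + β := by
    have := congrArg (fun P : s.k[X] => P.coeff 1) hchar
    simp at this
    linear_combination -this
  have hdt : (TW.matRep s.ρbar φq).det = α * β := by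
    simpa using congrArg (fun P : s.k[X] => P.coeff 0) hchar
  have hq1' : (q : s.k) = 1 := by
    have h0 : (s.p : s.k) = 0 := by
      rw [← map_natCast (residue s.O), residue_eq_zero_iff]; exact s.hpO
    have := congrArg (CondLevel.zmodHom s.p h0) hq1
    rwa [map_natCast, map_one] at this
  rw [htr, hq1'] at e1
  rw [hdt, hq1'] at e2
  exact hαβ (sub_eq_zero.mp (pow_eq_zero_iff (n := 2) two_ne_zero |>.mp
    (by linear_combination e1 - 4 * e2)))

end Fermat.Agent.Ribet.Avoid
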