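/-
Freeness of the congruent part over Artinian coefficients and comparison of congruent characters.
-/
import Fermat.Agent.Ribet.Avoid.ModuleCoeff
import Fermat.Agent.Lifting.CFree
import Mathlib.RingTheory.Artinian.Module
import Mathlib.RingTheory.LocalRing.ResidueField.Basic
import Mathlib.FieldTheory.IsAlgClosed.Basic

set_option autoImplicit false

set_option linter.style.haveILetI false

set_option linter.unusedVariables false

noncomputable section

namespace Fermat.Agent.Ribet.Avoid

open Twisted IsLocalRing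

variable {L D : ℕ} [NeZero L] (hD : D ∣ L) (S : Finset ℕ)

section Bridge

variable {A : Type*} [CommRing A] (ψ : DirichletCharacter A D)

/-- The operators are natural in the coefficient module. -/
theorem map_act {X Y : Type*} [AddCommGroup X] [Module A X] [AddCommGroup Y] [Module A Y]
    (f : X →ₗ[A] Y) (t : HeckePoly A S) (x : CohL hD ψ X) :
    Coh.map (Φ := chr hD ψ) (Ψ := chr hD ψ) (φ := RingHom.id A) (fun _ => rfl) f
        (act hD ψ X S t x) =
      act hD ψ Y S t
        (Coh.map (Φ := chr hD ψ) (Ψ := chr hD ψ) (φ := RingHom.id A) (fun _ => rfl) f x) := by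
  induction t using MvPolynomial.induction_on generalizing x with
  | C a =>
    rw [← MvPolynomial.algebraMap_eq, AlgHom.commutes, AlgHom.commutes,
      Module.algebraMap_end_apply, Module.algebraMap_end_apply]
    exact map_smul _ a x
  | add s t hs ht => simp only [map_add, LinearMap.add_apply, hs, ht]
  | mul_X s ℓ hs =>
    simp only [map_mul, Module.End.mul_apply, act_X, hs]
    congr 1
    by_cases h : ℓ.1.Prime ∧ ¬ ℓ.1 ∣ D
    · haveI : Fact ℓ.1.Prime := ⟨h.1⟩
      rw [heckeT'_eq hD ψ X h.2, heckeT'_eq hD ψ Y h.2]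
      exact (heckeOpData hD ψ (Fact.out : ℓ.1.Prime) h.2).map_op
        (heckeOpData hD ψ (Fact.out : ℓ.1.Prime) h.2) _ _ f x
    · simp only [heckeT', dif_neg h, LinearMap.zero_apply, map_zero]

/-- The operators on the cohomology written with scalar representations. -/
def actH1 (X : Type*) [AddCommGroup X] [Module A X] :
    HeckePoly A S →ₐ[A] Module.End A (Lifting.H1 (Lifting.scalarRep (chr hD ψ) X)) :=
  ((Lifting.cohEquiv (chr hD ψ) X).conjAlgEquiv A).toAlgHom.comp (act hD ψ X S)

theorem actH1_apply (X : Type*) [AddCommGroup X] [Module A X] (t : HeckePoly A S)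
    (x : CohL hD ψ X) :
    actH1 hD S ψ X t (Lifting.cohEquiv (chr hD ψ) X x) =
      Lifting.cohEquiv (chr hD ψ) X (act hD ψ X S t x) := by
  simp [actH1, LinearEquiv.conjAlgEquiv_apply_apply]

/-- An operator kills the classes which die under an injective map, if it is `ℓ + 1` less the
Eisenstein operator. -/
theorem act_eq_zero_of_map_eq_zero {B : Type*} [CommRing B] (φ : A →+* B) {X Y : Type*}
    [AddCommGroup X] [Module A X] [AddCommGroup Y] [Module B Y] (f : X →ₛₗ[φ] Y)
    (hf : Function.Injective f) {ℓ : GoodPrime S} (hℓL : ¬ (ℓ : ℕ) ∣ L)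
    (hℓ : ((ℓ : ℕ) : ZMod D) = 1) {x : CohL hD ψ X} (hx : coeffMap hD φ ψ f x = 0) :
    act hD ψ X S (MvPolynomial.X ℓ - MvPolynomial.C (((ℓ : ℕ) : A) + 1)) x = 0 := by
  have h := heckeT'_of_map_eq_zero hD ψ φ f hf x hx ℓ ℓ.2.1 hℓL
  rw [hℓ, map_one, map_one, mul_one] at h
  rw [map_sub, LinearMap.sub_apply, act_X, h, ← MvPolynomial.algebraMap_eq, AlgHom.commutes,
    Module.algebraMap_end_apply, sub_self]

/-- The non-Eisenstein operator lies outside the residual ideal. -/
theorem eisenstein_notMem {k : Type*} [Field k] (κ : A →+* k) (abar : ℕ → k) (ℓ : GoodPrime S)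
    (h : abar ℓ ≠ ((ℓ : ℕ) : k) + 1) :
    MvPolynomial.X ℓ - MvPolynomial.C (((ℓ : ℕ) : A) + 1) ∉ residualIdeal κ abar S := by
  intro hmem
  rw [residualIdeal, RingHom.mem_ker] at hmem
  simp [evalSystem, sub_eq_zero] at hmem
  exact h hmem

end Bridge

set_option maxHeartbeats 1000000 in
/-- Freeness of the congruent part. -/
theorem free_locCoh' {R : Type} [CommRing R] [IsLocalRing R] [IsArtinianRing R]
    (h2 : IsUnit (2 : R)) (h3 : EllipticOK R L) (ψ : DirichletCharacter R D)
    (abar : ℕ → ResidueField R) (hLS : ∀ q : ℕ, q.Prime → q ∣ L → q ∈ S)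
    (hEis : HasNonEisenstein D abar S) :
    Module.Free R (LocCoh hD ψ R S (residualIdeal (residue R) abar S)) := by
  obtain ⟨ℓ, hℓ, hℓS, hℓ1, hℓa⟩ := hEis
  set P := residualIdeal (residue R) abar S
  haveI : Group.FG (CongruenceSubgroup.Gamma0 L) := by
    have := ParHom.group_fg_SL2Z
    exact Subgroup.fg_of_index_ne_zero _
  set Φ := chr hD ψ
  have hnat : ∀ (X Y : Type) [AddCommGroup X] [Module R X] [AddCommGroup Y] [Module R Y]
      (f : X →ₗ[R] Y) (t : HeckePoly R S) (x : Lifting.H1 (Lifting.scalarRep Φ X)),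
      Lifting.scalarMap Φ f (actH1 hD S ψ X t x) = actH1 hD S ψ Y t (Lifting.scalarMap Φ f x) := by
    intro X Y _ _ _ _ f t x
    obtain ⟨x, rfl⟩ := (Lifting.cohEquiv Φ X).surjective x
    rw [actH1_apply, Lifting.scalarMap_cohEquiv, Lifting.scalarMap_cohEquiv, actH1_apply, map_act]
  have hsurj : ∀ (X Y : Type) [AddCommGroup X] [Module R X] [AddCommGroup Y] [Module R Y]
      (f : X →ₗ[R] Y), Function.Surjective f →
      ∀ y, ∃ x, Lifting.scalarMap Φ f x = actH1 hD S ψ Y 1 y := by
    intro X Y _ _ _ _ f hf y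
    obtain ⟨y, rfl⟩ := (Lifting.cohEquiv Φ Y).surjective y
    obtain ⟨x, hx⟩ := Lifting.cohMap_surjective hD ψ h2 h3.elliptic3 f hf y
    refine ⟨Lifting.cohEquiv Φ X x, ?_⟩
    rw [Lifting.scalarMap_cohEquiv, hx, map_one, Module.End.one_apply]
  have ht₁ : (1 : HeckePoly R S) ∉ P := fun h =>
    (inferInstance : P.IsPrime).ne_top ((Ideal.eq_top_iff_one P).2 h)
  have ht₂ := eisenstein_notMem S (residue R) abar ⟨ℓ, hℓ, hℓS⟩ hℓa
  have hinj : ∀ (X Y : Type) [AddCommGroup X] [Module R X] [AddCommGroup Y] [Module R Y]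
      (f : X →ₗ[R] Y), Function.Injective f → ∀ x, Lifting.scalarMap Φ f x = 0 →
        actH1 hD S ψ X (MvPolynomial.X ⟨ℓ, hℓ, hℓS⟩ - MvPolynomial.C ((ℓ : R) + 1)) x = 0 := by
    intro X Y _ _ _ _ f hf x hx
    obtain ⟨x, rfl⟩ := (Lifting.cohEquiv Φ X).surjective x
    rw [Lifting.scalarMap_cohEquiv] at hx
    have hx' : coeffMap hD (RingHom.id R) ψ f x = 0 := (Lifting.cohEquiv Φ Y).map_eq_zero_iff.1 hx
    rw [actH1_apply, act_eq_zero_of_map_eq_zero hD S ψ (RingHom.id R) f hf
      (ℓ := ⟨ℓ, hℓ, hℓS⟩) (fun h => hℓS (hLS ℓ hℓ h)) hℓ1 hx', map_zero]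
  have hfree : Module.Free R (Lifting.LocH Φ P (fun X => actH1 hD S ψ X)) :=
    Lifting.free_locH Φ P (fun X => actH1 hD S ψ X) hnat ht₁ hsurj ht₂ hinj
  have hmap : (locKer hD ψ R S P).map (Lifting.cohEquiv Φ R).toLinearMap =
      Lifting.locKer Φ P (fun X => actH1 hD S ψ X) R := by
    apply le_antisymm
    · rw [Submodule.map_le_iff_le_comap]
      rintro x ⟨t, ht, hx⟩
      refine ⟨t, ht, ?_⟩
      show actH1 hD S ψ R t (Lifting.cohEquiv Φ R x) = 0
      rw [actH1_apply, hx, map_zero]
    · rintro y ⟨t, ht, hy⟩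
      obtain ⟨x, rfl⟩ := (Lifting.cohEquiv Φ R).surjective y
      replace hy : actH1 hD S ψ R t (Lifting.cohEquiv Φ R x) = 0 := hy
      rw [actH1_apply, EmbeddingLike.map_eq_zero_iff] at hy
      exact ⟨x, ⟨t, ht, hy⟩, rfl⟩
  haveI := hfree
  exact Module.Free.of_equiv
    (Submodule.Quotient.equiv (locKer hD ψ R S P) _ (Lifting.cohEquiv Φ R) hmap).symm

/-- The congruent part is free of the rank it has over the residue field. -/
theorem free_locCoh {R : Type} [CommRing R] [IsLocalRing R] [IsArtinianRing R]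
    (h2 : IsUnit (2 : R)) (h3 : EllipticOK R L) (ψ : DirichletCharacter R D)
    (abar : ℕ → ResidueField R) (hLS : ∀ q : ℕ, q.Prime → q ∣ L → q ∈ S)
    (hEis : HasNonEisenstein D abar S) :
    Module.Finite R (LocCoh hD ψ R S (residualIdeal (residue R) abar S)) ∧
    Module.Free R (LocCoh hD ψ R S (residualIdeal (residue R) abar S)) ∧
      Module.finrank R (LocCoh hD ψ R S (residualIdeal (residue R) abar S)) =
        Module.finrank (ResidueField R) (LocCoh hD (ψ.ringHomComp (residue R)) (ResidueField R) S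
          (residualIdeal (RingHom.id _) abar S)) := by
  haveI := finite_locCoh hD ψ S R (residualIdeal (residue R) abar S)
  haveI := free_locCoh' hD S h2 h3 ψ abar hLS hEis
  refine ⟨inferInstance, inferInstance, ?_⟩
  exact finrank_eq_of_semilinear residue_surjective
    (locCoeffMap hD (residue R) ψ (residue R).toSemilinearMap (RingHom.id _) abar S)
    (locCoeffMap_surjective hD ψ (residue R) (RingHom.id _) abar S h2 h3 residue_surjective)
    fun v hv => mem_ker_smul_of_locCoeffMap_eq_zero hD ψ (residue R) (RingHom.id _) abar S h2 h3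
      residue_surjective (opsSurjective_of_isArtinianRing hD ψ S R _) hv

set_option maxHeartbeats 1000000 in
/-- Operators in the residual ideal are nilpotent on the congruent part modulo the maximal
ideal. -/
theorem exists_pow_locAct_mem {R : Type} [CommRing R] [IsLocalRing R] [IsArtinianRing R]
    (h2 : IsUnit (2 : R)) (h3 : EllipticOK R L) (ψ : DirichletCharacter R D)
    (abar : ℕ → ResidueField R) (hLS : ∀ q : ℕ, q.Prime → q ∣ L → q ∈ S)
    (t : HeckePoly R S) (ht : t ∈ residualIdeal (residue R) abar S) :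
    ∃ N : ℕ, ∀ x, (locAct hD ψ R S (residualIdeal (residue R) abar S) t ^ N) x ∈
      maximalIdeal R • (⊤ : Submodule R (LocCoh hD ψ R S (residualIdeal (residue R) abar S))) := by
  set P := residualIdeal (residue R) abar S
  haveI := finite_locCoh hD ψ S R P
  set T := locAct hD ψ R S P t
  obtain ⟨p, hp, hp0⟩ := LinearMap.exists_monic_and_aeval_eq_zero R T
  obtain ⟨r, hr, hr0⟩ := (p.map (residue R)).exists_eq_pow_rootMultiplicity_mul_and_not_dvd
    (hp.map _).ne_zero 0
  generalize (p.map (residue R)).rootMultiplicity 0 = N at hr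
  simp only [map_zero, sub_zero] at hr hr0
  have hc : r.coeff 0 ≠ 0 := fun h => hr0 (Polynomial.X_dvd_iff.2 h)
  obtain ⟨r', rfl⟩ := Polynomial.map_surjective (residue R) residue_surjective r
  have hnot : Polynomial.aeval t r' ∉ P := by
    intro h
    rw [show P = RingHom.ker (evalSystem (residue R) abar S) from rfl, RingHom.mem_ker,
      Polynomial.aeval_def, Polynomial.hom_eval₂,
      show evalSystem (residue R) abar S t = 0 from ht, Polynomial.eval₂_at_zero] at h
    rw [Polynomial.coeff_map] at hc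
    exact hc (by simpa [evalSystem, MvPolynomial.algebraMap_eq] using h)
  have hsurj := opsSurjective_of_isArtinianRing hD ψ S R P _ hnot
  have hcoeff : ∀ i, (p - Polynomial.X ^ N * r').coeff i ∈ maximalIdeal R := by
    intro i
    rw [← IsLocalRing.ker_residue, RingHom.mem_ker, ← Polynomial.coeff_map,
      Polynomial.map_sub, Polynomial.map_mul, Polynomial.map_pow, Polynomial.map_X, hr, sub_self,
      Polynomial.coeff_zero]
  refine ⟨N, fun x => ?_⟩
  obtain ⟨x, rfl⟩ := hsurj x
  have hq : Polynomial.aeval T (p - Polynomial.X ^ N * r') x =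
      -((T ^ N) (locAct hD ψ R S P (Polynomial.aeval t r') x)) := by
    rw [map_sub, hp0, map_mul, map_pow, Polynomial.aeval_X, LinearMap.sub_apply,
      LinearMap.zero_apply, zero_sub, Module.End.mul_apply,
      show Polynomial.aeval T r' = locAct hD ψ R S P (Polynomial.aeval t r') from
        Polynomial.aeval_algHom_apply (locAct hD ψ R S P) t r']
  rw [← neg_mem_iff, ← hq, Polynomial.aeval_eq_sum_range, LinearMap.sum_apply]
  exact sum_mem fun i _ => by
    rw [LinearMap.smul_apply]
    exact Submodule.smul_mem_smul (hcoeff i) Submodule.mem_top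

/-- Operators killing one congruent part kill that of an equal character. -/
theorem locAct_eq_zero_congr {A : Type*} [CommRing A] (P : Ideal (HeckePoly A S)) [P.IsPrime]
    {χ χ' : DirichletCharacter A D} (h : χ = χ') {g : HeckePoly A S}
    (h0 : ∀ x, locAct hD χ' A S P g x = 0) (x : LocCoh hD χ A S P) :
    locAct hD χ A S P g x = 0 := by
  subst h
  exact h0 x

set_option maxHeartbeats 800000 in
/-- Two characters congruent modulo `ϖ`: a polynomial killing the congruent part of one is
divisible by `ϖ` on that of the other. -/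
theorem exists_smul_eq_locAct {R : Type} [CommRing R] [IsLocalRing R] [IsArtinianRing R]
    (h2 : IsUnit (2 : R)) (h3 : EllipticOK R L) {c : R} (hc : c ∈ maximalIdeal R)
    (ψ ψ' : DirichletCharacter R D)
    (hψ : ψ.ringHomComp (Ideal.Quotient.mk (Ideal.span {c})) =
      ψ'.ringHomComp (Ideal.Quotient.mk (Ideal.span {c})))
    (abar : ℕ → ResidueField R) (hLS : ∀ q : ℕ, q.Prime → q ∣ L → q ∈ S)
    (hEis : HasNonEisenstein D abar S) (f : HeckePoly R S)
    (h : locAct hD ψ' R S (residualIdeal (residue R) abar S) f = 0) :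
    ∃ G : Module.End R (LocCoh hD ψ R S (residualIdeal (residue R) abar S)),
      locAct hD ψ R S (residualIdeal (residue R) abar S) f = c • G := by
  set I := Ideal.span {c}
  set π := Ideal.Quotient.mk I
  have hI : I ≤ maximalIdeal R := (Ideal.span_le).2 (Set.singleton_subset_iff.2 hc)
  let κ : R ⧸ I →+* ResidueField R :=
    Ideal.Quotient.lift I (residue R) fun a ha => (residue_eq_zero_iff a).2 (hI ha)
  have hπ : Function.Surjective π := Ideal.Quotient.mk_surjective
  let F := locCoeffMap hD π ψ π.toSemilinearMap κ abar S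
  let F' := locCoeffMap hD π ψ' π.toSemilinearMap κ abar S
  have h0 : ∀ x, locAct hD (ψ'.ringHomComp π) (R ⧸ I) S
      (residualIdeal κ abar S) (MvPolynomial.map π f) x = 0 := by
    intro y
    obtain ⟨x, rfl⟩ := locCoeffMap_surjective hD ψ' π κ abar S h2 h3 hπ y
    rw [← locCoeffMap_locAct, show locAct hD ψ' R S (residualIdeal (κ.comp π) abar S) f = 0 from h,
      LinearMap.zero_apply, map_zero]
  haveI := free_locCoh' hD S h2 h3 ψ abar hLS hEis
  set b := Module.Free.chooseBasis R (LocCoh hD ψ R S (residualIdeal (residue R) abar S))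
  have hex : ∀ x : LocCoh hD ψ R S (residualIdeal (residue R) abar S),
      ∃ y, c • y = locAct hD ψ R S (residualIdeal (residue R) abar S) f x := by
    intro x
    have hF : F (locAct hD ψ R S (residualIdeal (κ.comp π) abar S) f x) = 0 := by
      show locCoeffMap hD π ψ π.toSemilinearMap κ abar S _ = 0
      refine (locCoeffMap_locAct hD π ψ π.toSemilinearMap κ abar S f x).trans ?_
      exact locAct_eq_zero_congr (A := R ⧸ I) hD S (residualIdeal κ abar S) (χ := ψ.ringHomComp π)
        (χ' := ψ'.ringHomComp π) hψ h0 _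
    have hmem := mem_ker_smul_of_locCoeffMap_eq_zero hD ψ π κ abar S h2 h3 hπ
      (opsSurjective_of_isArtinianRing hD ψ S R _) hF
    rw [Ideal.mk_ker] at hmem
    rw [Submodule.ideal_span_singleton_smul] at hmem
    obtain ⟨y, -, hy⟩ := hmem
    exact ⟨y, hy⟩
  choose y hy using fun i => hex (b i)
  refine ⟨b.constr R y, b.ext fun i => ?_⟩
  rw [LinearMap.smul_apply, Module.Basis.constr_basis, hy i]

end Fermat.Agent.Ribet.Avoid
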