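/-
Nilpotency of operators vanishing at all congruent systems.
-/
import Fermat.Agent.Ribet.Avoid.ModuleCoeff
import Fermat.Agent.Eigen.JointEigen
import Mathlib.RingTheory.Artinian.Module
import Mathlib.RingTheory.LocalRing.ResidueField.Basic
import Mathlib.FieldTheory.IsAlgClosed.Basic
import Mathlib.LinearAlgebra.Eigenspace.Zero

set_option autoImplicit false

noncomputable section

namespace Fermat.Agent.Ribet.Avoid

open Twisted IsLocalRing

variable {L D : ℕ} [NeZero L] (hD : D ∣ L) (S : Finset ℕ)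

section Generators

variable {A : Type} [CommRing A] [IsLocalRing A] [IsNoetherianRing A]
  [IsAdicComplete (maximalIdeal A) A]

/-- Over complete coefficients the congruent part is spanned by as many classes as its residual
rank. -/
theorem exists_span_locCoh_eq_top (h2 : IsUnit (2 : A)) (h3 : EllipticOK A L)
    (ψ : DirichletCharacter A D) {k : Type} [Field k] (κ : A →+* k) (hκ : Function.Surjective κ)
    (abar : ℕ → k) :
    ∃ e : Fin (Module.finrank k (LocCoh hD (ψ.ringHomComp κ) k S
        (residualIdeal (RingHom.id k) abar S))) → LocCoh hD ψ A S (residualIdeal κ abar S),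
      Submodule.span A (Set.range e) = ⊤ := by
  have hmax : RingHom.ker κ = maximalIdeal A :=
    IsLocalRing.eq_maximalIdeal (RingHom.ker_isMaximal_of_surjective κ hκ)
  haveI := finite_locCoh hD ψ S A (residualIdeal κ abar S)
  haveI := finite_locCoh hD (ψ.ringHomComp κ) S k (residualIdeal (RingHom.id k) abar S)
  have hops : OpsSurjective hD ψ S A (residualIdeal κ abar S) :=
    opsSurjective_of_isAdicComplete hD ψ S A _ fun c hc => by
      rw [residualIdeal, RingHom.mem_ker, evalSystem, MvPolynomial.eval₂Hom_C]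
      rwa [← hmax, RingHom.mem_ker] at hc
  let g : LocCoh hD ψ A S (residualIdeal κ abar S) →ₛₗ[κ]
      LocCoh hD (ψ.ringHomComp κ) k S (residualIdeal (RingHom.id k) abar S) :=
    locCoeffMap hD κ ψ κ.toSemilinearMap (RingHom.id k) abar S
  have hg : Function.Surjective g :=
    locCoeffMap_surjective hD ψ κ (RingHom.id k) abar S h2 h3 hκ
  let b := Module.finBasis k (LocCoh hD (ψ.ringHomComp κ) k S
    (residualIdeal (RingHom.id k) abar S))
  choose e he using fun i => hg (b i)
  refine ⟨e, top_le_iff.mp ?_⟩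
  refine Submodule.le_of_le_smul_of_le_jacobson_bot (I := maximalIdeal A) Module.Finite.fg_top
    (IsLocalRing.jacobson_eq_maximalIdeal (⊥ : Ideal A) bot_ne_top).ge ?_
  intro x _
  choose a ha using fun i => hκ (b.repr (g x) i)
  have h0 : g (x - ∑ i, a i • e i) = 0 := by
    rw [map_sub, map_sum]
    simp only [LinearMap.map_smulₛₗ, ha, he, b.sum_repr, sub_self]
  rw [← add_sub_cancel (∑ i, a i • e i) x]
  refine add_mem (Submodule.mem_sup_left (sum_mem fun i _ =>
    Submodule.smul_mem _ _ (Submodule.subset_span ⟨i, rfl⟩))) (Submodule.mem_sup_right ?_)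
  rw [← hmax]
  exact mem_ker_smul_of_locCoeffMap_eq_zero hD ψ κ (RingHom.id k) abar S h2 h3 hκ hops h0

end Generators

section Component

variable {A : Type} [CommRing A] (ψ : DirichletCharacter A D) {K : Type} [Field K] (φ : A →+* K)
  (P : Ideal (HeckePoly A S)) [hP : P.IsPrime]

/-- The classes of a component killed by an operator outside `P`. -/
def compKer : Submodule K (CohL hD (ψ.ringHomComp φ) K) where
  carrier := {x | ∃ t, t ∉ P ∧ act hD (ψ.ringHomComp φ) K S (MvPolynomial.map φ t) x = 0}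
  zero_mem' := ⟨1, fun h => hP.ne_top ((Ideal.eq_top_iff_one P).2 h), map_zero _⟩
  add_mem' := by
    rintro x y ⟨t, ht, hx⟩ ⟨t', ht', hy⟩
    refine ⟨t * t', fun h => (hP.mem_or_mem h).elim ht ht', ?_⟩
    rw [map_add]
    nth_rw 1 [mul_comm t t']
    simp only [map_mul, Module.End.mul_apply, hx, hy, map_zero, add_zero]
  smul_mem' := by
    rintro c x ⟨t, ht, hx⟩
    exact ⟨t, ht, by rw [map_smul, hx, smul_zero]⟩

theorem act_mem_compKer (f : HeckePoly K S) :
    compKer hD S ψ φ P ≤ (compKer hD S ψ φ P).comap (act hD (ψ.ringHomComp φ) K S f) := by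
  rintro x ⟨t, ht, hx⟩
  refine ⟨t, ht, ?_⟩
  rw [← Module.End.mul_apply, ← map_mul, mul_comm, map_mul, Module.End.mul_apply, hx, map_zero]

/-- Some operator outside `P` kills all of `compKer`. -/
theorem exists_uniform_killer :
    ∃ t₀, t₀ ∉ P ∧ ∀ x ∈ compKer hD S ψ φ P,
      act hD (ψ.ringHomComp φ) K S (MvPolynomial.map φ t₀) x = 0 := by
  classical
  haveI : Module.Finite K (CohL hD (ψ.ringHomComp φ) K) := finite_cohL hD (ψ.ringHomComp φ)
  let b := Module.finBasis K (compKer hD S ψ φ P)
  choose t ht hb using fun i => (b i).2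
  refine ⟨∏ i, t i, fun h => ?_, fun x hx => ?_⟩
  · obtain ⟨i, -, hi⟩ := hP.prod_mem_iff.mp h
    exact ht i hi
  · have hx' := congrArg Subtype.val (b.sum_repr ⟨x, hx⟩)
    rw [Submodule.coe_sum] at hx'
    rw [show x = _ from hx'.symm, map_sum]
    refine Finset.sum_eq_zero fun i _ => ?_
    rw [Submodule.coe_smul, map_smul, ← Finset.prod_erase_mul _ _ (Finset.mem_univ i), map_mul, map_mul,
      Module.End.mul_apply, hb i, map_zero, smul_zero]

/-- An operator vanishing at the systems not killed outside `P` is nilpotent modulo `compKer`. -/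
theorem exists_pow_mem_compKer [IsAlgClosed K] (f : HeckePoly A S)
    (hf : ∀ a, HasSystem hD (ψ.ringHomComp φ) S a →
      RingHom.ker (evalSystem φ a S) ≤ P → evalSystem φ a S f = 0) :
    ∃ N : ℕ, ∀ x, (act hD (ψ.ringHomComp φ) K S (MvPolynomial.map φ f) ^ N) x ∈
      compKer hD S ψ φ P := by
  haveI : Module.Finite K (CohL hD (ψ.ringHomComp φ) K) := finite_cohL hD (ψ.ringHomComp φ)
  obtain ⟨t₀, ht₀, hkill⟩ := exists_uniform_killer hD S ψ φ P
  set ρ := act hD (ψ.ringHomComp φ) K S with hρ
  set F := ρ (MvPolynomial.map φ (t₀ * f)) with hF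
  obtain ⟨n, hn⟩ := Filter.eventually_atTop.mp
    (F.eventually_isCompl_ker_pow_range_pow.and F.eventually_iInf_range_pow_eq)
  have hrange : LinearMap.range (F ^ n) = LinearMap.range (F ^ (n + 1)) := by
    rw [← (hn n le_rfl).2, ← (hn (n + 1) (Nat.le_succ n)).2]
  have hU : LinearMap.range (F ^ n) = ⊥ := by
    by_contra hne
    obtain ⟨v, hv, hv0, μ, hμ⟩ := Eigen.exists_joint_eigen_mem
      (fun ℓ : GoodPrime S => ρ (MvPolynomial.X ℓ))
      (fun i j => (Commute.all (MvPolynomial.X i : HeckePoly K S) (MvPolynomial.X j)).map ρ)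
      (LinearMap.range (F ^ n)) hne (by
        rintro ℓ _ ⟨w, rfl⟩
        refine ⟨ρ (MvPolynomial.X ℓ) w, ?_⟩
        rw [hF, ← map_pow, ← Module.End.mul_apply, ← Module.End.mul_apply, ← map_mul, ← map_mul,
          mul_comm])
    let a : ℕ → K := fun ℓ => if h : ℓ.Prime ∧ ℓ ∉ S then μ ⟨ℓ, h⟩ else 0
    have ha : HasSystem hD (ψ.ringHomComp φ) S a := by
      refine ⟨v, hv0, fun ℓ hℓ hℓS => ?_⟩
      rw [show a ℓ = μ ⟨ℓ, hℓ, hℓS⟩ from dif_pos ⟨hℓ, hℓS⟩, ← hμ ⟨ℓ, hℓ, hℓS⟩, hρ, act_X]
    have hev : ∀ t : HeckePoly A S, ρ (MvPolynomial.map φ t) v = evalSystem φ a S t • v := by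
      intro t
      induction t using MvPolynomial.induction_on with
      | C c =>
        rw [MvPolynomial.map_C, ← MvPolynomial.algebraMap_eq, AlgHom.commutes,
          Module.algebraMap_end_apply, evalSystem, MvPolynomial.eval₂Hom_C]
      | add s t hs ht => simp only [map_add, LinearMap.add_apply, hs, ht, add_smul]
      | mul_X s ℓ hs =>
        rw [map_mul, MvPolynomial.map_X, map_mul, Module.End.mul_apply, hμ ℓ, map_smul, hs,
          smul_smul, map_mul]
        congr 1
        rw [mul_comm, evalSystem, MvPolynomial.eval₂Hom_X']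
        simp [a, ℓ.2]
    have hinj : F v ≠ 0 := by
      intro h0
      refine hv0 ((hn (n + 1) (Nat.le_succ n)).1.disjoint.le_bot ⟨?_, ?_⟩)
      · rw [SetLike.mem_coe, LinearMap.mem_ker, pow_succ, Module.End.mul_apply, h0, map_zero]
      · exact hrange ▸ hv
    rw [hF, hev, map_mul, mul_smul] at hinj
    refine hinj ?_
    rw [hf a ha fun t ht => by_contra fun htP => hinj ?_, zero_smul, smul_zero]
    have h1 : v ∈ compKer hD S ψ φ P :=
      ⟨t, htP, by rw [← hρ, hev, RingHom.mem_ker.mp ht, zero_smul]⟩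
    have h2 := hkill v h1
    rw [hev] at h2
    rw [smul_comm, h2, smul_zero]
  refine ⟨n, fun x => ⟨t₀ ^ n, fun h => ht₀ (hP.mem_of_pow_mem _ h), ?_⟩⟩
  have h : (F ^ n) x = 0 := (Submodule.mem_bot K).mp (hU ▸ LinearMap.mem_range_self _ x)
  rw [hF, map_mul, map_mul, (Commute.all _ _).map ρ |>.mul_pow, Module.End.mul_apply] at h
  rwa [map_pow, map_pow, ← hρ]

/-- The bound on the index: it is at most the number of classes spanning the congruent part. -/
theorem act_pow_mem_compKer [IsAlgClosed K] (h2 : IsUnit (2 : A)) (h3 : EllipticOK A L)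
    {k : Type} [Field k] (κ : A →+* k) (abar : ℕ → k) {m : ℕ}
    (e : Fin m → LocCoh hD ψ A S (residualIdeal κ abar S))
    (he : Submodule.span A (Set.range e) = ⊤) (f : HeckePoly A S)
    (hf : ∀ a, HasSystem hD (ψ.ringHomComp φ) S a → IsCongruent φ κ abar S a →
      evalSystem φ a S f = 0) (x : CohL hD (ψ.ringHomComp φ) K) :
    (act hD (ψ.ringHomComp φ) K S (MvPolynomial.map φ f) ^ m) x ∈
      compKer hD S ψ φ (residualIdeal κ abar S) := by
  haveI : Module.Finite K (CohL hD (ψ.ringHomComp φ) K) := finite_cohL hD (ψ.ringHomComp φ)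
  set W := compKer hD S ψ φ (residualIdeal κ abar S) with hW
  set F := act hD (ψ.ringHomComp φ) K S (MvPolynomial.map φ f) with hF
  let F' : Module.End K (CohL hD (ψ.ringHomComp φ) K ⧸ W) :=
    W.mapQ W F (act_mem_compKer hD S ψ φ _ _)
  have hF' : ∀ (n : ℕ) y, (F' ^ n) (Submodule.Quotient.mk y)
      = Submodule.Quotient.mk ((F ^ n) y) := by
    intro n
    induction n with
    | zero => intro y; rfl
    | succ n ih =>
      intro y
      rw [pow_succ, Module.End.mul_apply, pow_succ, Module.End.mul_apply]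
      exact ih (F y)
  have hnil : IsNilpotent F' := by
    obtain ⟨n, hn⟩ := exists_pow_mem_compKer hD S ψ φ (residualIdeal κ abar S) f hf
    refine ⟨n, LinearMap.ext fun y => ?_⟩
    obtain ⟨y, rfl⟩ := Submodule.Quotient.mk_surjective _ y
    rw [hF', LinearMap.zero_apply, Submodule.Quotient.mk_eq_zero]
    exact hn y
  let g : LocCoh hD ψ A S (residualIdeal κ abar S) →ₛₗ[φ] CohL hD (ψ.ringHomComp φ) K ⧸ W :=
    Submodule.mapQ _ _ (redMap hD ψ φ) (by
      rintro y ⟨t, ht, hy⟩
      exact ⟨t, ht, by rw [← coeffMap_act, hy, map_zero]⟩)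
  have hspan : ⊤ ≤ Submodule.span K (Set.range fun i => g (e i)) := by
    intro y _
    obtain ⟨y, rfl⟩ := Submodule.Quotient.mk_surjective _ y
    obtain ⟨n, c, z, rfl⟩ := exists_sum_smul_redMap hD ψ φ h2 h3 y
    rw [← Submodule.mkQ_apply, map_sum]
    refine sum_mem fun i _ => ?_
    rw [map_smul]
    refine Submodule.smul_mem _ _ ?_
    show g (Submodule.Quotient.mk (z i)) ∈ _
    obtain ⟨a, ha⟩ := (Submodule.mem_span_range_iff_exists_fun A).mp
      (he ▸ Submodule.mem_top : Submodule.Quotient.mk (z i) ∈ Submodule.span A (Set.range e))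
    rw [← ha, map_sum]
    refine sum_mem fun j _ => ?_
    rw [LinearMap.map_smulₛₗ]
    exact Submodule.smul_mem _ _ (Submodule.subset_span ⟨j, rfl⟩)
  have hm : Module.finrank K (CohL hD (ψ.ringHomComp φ) K ⧸ W) ≤ m := by
    have h := finrank_range_le_card (R := K) fun i => g (e i)
    rw [Set.finrank, top_le_iff.mp hspan, finrank_top, Fintype.card_fin] at h
    exact h
  have hzero : F' ^ Module.finrank K (CohL hD (ψ.ringHomComp φ) K ⧸ W) = 0 := by
    have h := F'.aeval_self_charpoly
    rwa [hnil.charpoly_eq_X_pow_finrank, Polynomial.aeval_X_pow] at h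
  rw [← Submodule.Quotient.mk_eq_zero, ← hF', pow_eq_zero_of_le hm hzero, LinearMap.zero_apply]

end Component

/-- **Nilpotency.**  A polynomial over `A` vanishing at all congruent systems of all components is
nilpotent, of index the rank, on the congruent part over a quotient of `A`. -/
theorem locAct_pow_eq_zero {A R : Type} [CommRing A] [IsLocalRing A] [IsNoetherianRing A]
    [IsAdicComplete (maximalIdeal A) A] [CommRing R]
    [IsLocalRing R] [IsArtinianRing R] (π : A →+* R) (hπ : Function.Surjective π)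
    (h2 : IsUnit (2 : A)) (h3 : EllipticOK A L) (ψ : DirichletCharacter A D)
    (abar : ℕ → ResidueField R) (hLS : ∀ q : ℕ, q.Prime → q ∣ L → q ∈ S)
    (hEis : HasNonEisenstein D abar S) {K : Type} [Field K] [CharZero K] [IsAlgClosed K]
    {J : Type*} [Finite J] (φ : J → A →+* K) (hφ : ∀ x, (∀ j, φ j x = 0) → x = 0)
    (f : HeckePoly A S)
    (hf : ∀ j a, HasSystem hD (ψ.ringHomComp (φ j)) S a →
      IsCongruent (φ j) ((residue R).comp π) abar S a → evalSystem (φ j) a S f = 0) :
    locAct hD (ψ.ringHomComp π) R S (residualIdeal (residue R) abar S) (MvPolynomial.map π f) ^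
      Module.finrank (ResidueField R)
        (LocCoh hD (ψ.ringHomComp ((residue R).comp π)) (ResidueField R) S
          (residualIdeal (RingHom.id _) abar S)) = 0 := by
  classical
  cases nonempty_fintype J
  set κ : A →+* ResidueField R := (residue R).comp π with hκdef
  obtain ⟨e, he⟩ := exists_span_locCoh_eq_top hD S h2 h3 ψ κ
    (Ideal.Quotient.mk_surjective.comp hπ) abar
  obtain ⟨m, e, he, hm⟩ : ∃ (m : ℕ) (e : Fin m → LocCoh hD ψ A S (residualIdeal κ abar S)),
      Submodule.span A (Set.range e) = ⊤ ∧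
        m = Module.finrank (ResidueField R) (LocCoh hD (ψ.ringHomComp κ) (ResidueField R) S
          (residualIdeal (RingHom.id _) abar S)) := ⟨_, e, he, rfl⟩
  rw [← hm]
  have key : ∀ x : CohL hD ψ A, act hD ψ A S (f ^ m) x ∈
      locKer hD ψ A S (residualIdeal κ abar S) := by
    intro x
    have hc : ∀ j, redMap hD ψ (φ j) (act hD ψ A S (f ^ m) x) ∈
        compKer hD S ψ (φ j) (residualIdeal κ abar S) := by
      intro j
      rw [redMap, coeffMap_act, map_pow, map_pow]
      exact act_pow_mem_compKer hD S ψ (φ j) h2 h3 κ abar e he f (hf j) _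
    choose t ht htc using hc
    obtain ⟨ℓ, hℓ, hℓS, hℓD, hne⟩ := hEis
    have hℓL : ¬ ℓ ∣ L := fun h => hℓS (hLS ℓ hℓ h)
    let u : HeckePoly A S := MvPolynomial.X ⟨ℓ, hℓ, hℓS⟩ - MvPolynomial.C ((ℓ : A) + 1)
    have hu : u ∉ residualIdeal κ abar S := fun h => hne (by
      simpa [u, residualIdeal, evalSystem, sub_eq_zero] using h)
    have hprod : ∏ j, t j ∉ residualIdeal κ abar S := fun h => by
      obtain ⟨j, -, hj⟩ := (residualIdeal_isPrime κ abar S).prod_mem_iff.mp h
      exact ht j hj
    refine ⟨u * ∏ j, t j, fun h =>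
      ((residualIdeal_isPrime κ abar S).mem_or_mem h).elim hu hprod, ?_⟩
    rw [map_mul, Module.End.mul_apply]
    set w := act hD ψ A S (∏ j, t j) (act hD ψ A S (f ^ m) x) with hw
    have hw0 : ∀ j, redMap hD ψ (φ j) w = 0 := fun j => by
      rw [hw, redMap, coeffMap_act, ← Finset.prod_erase_mul _ _ (Finset.mem_univ j), map_mul,
        map_mul, Module.End.mul_apply, htc j, map_zero]
    have hT : heckeT' hD ψ A ℓ w = ((ℓ : A) + 1) • w := by
      have hinj : Function.Injective (RingHom.pi φ) := (injective_iff_map_eq_zero _).mpr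
        fun a ha => hφ a fun j => congrFun ha j
      letI : Module A (J → K) := (RingHom.pi φ).toModule
      rw [heckeT'_of_map_eq_zero hD ψ (RingHom.pi φ) (RingHom.pi φ).toSemilinearMap hinj w ?_ ℓ hℓ
        hℓL, hℓD, map_one, map_one, mul_one]
      obtain ⟨z, hz⟩ := Coh.mk_surjective w
      rw [← hz, Coh.map_mk, Coh.mk_eq_zero]
      have hb : ∀ j, ∃ b, coboundary (chr hD (ψ.ringHomComp (φ j))) K b =
          cocyclesMap (chr_ringHomComp (φ j) hD ψ) (φ j).toSemilinearMap z := fun j =>
        Coh.mk_eq_zero.mp ((congrArg (redMap hD ψ (φ j)) hz).trans (hw0 j))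
      choose b hb using hb
      refine ⟨b, Subtype.ext (funext fun γ => funext fun j => ?_)⟩
      have := congrFun (congrArg Subtype.val (hb j)) γ
      simpa [chr_ringHomComp] using this
    rw [map_sub, LinearMap.sub_apply, act_X, ← MvPolynomial.algebraMap_eq, AlgHom.commutes,
      Module.algebraMap_end_apply, hT, sub_self]
  refine LinearMap.ext fun x => ?_
  obtain ⟨x, rfl⟩ := Submodule.Quotient.mk_surjective _ x
  obtain ⟨x, rfl⟩ := redMap_surjective hD ψ π h2 h3 hπ x
  rw [← map_pow, ← map_pow, locAct_mk, ← coeffMap_act, LinearMap.zero_apply,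
    Submodule.Quotient.mk_eq_zero]
  exact coeffMap_mem_locKer hD π ψ π.toSemilinearMap (residue R) abar S (key x)

end Fermat.Agent.Ribet.Avoid
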