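/-
The residual congruent rank: positivity, invariance and bounds.
-/
import Fermat.Agent.Ribet.Avoid.Act
import Fermat.Agent.Lifting.CBridge
import Mathlib.RingTheory.Artinian.Module
import Mathlib.RingTheory.LocalRing.ResidueField.Basic
import Mathlib.FieldTheory.IsAlgClosed.Basic
import Mathlib.LinearAlgebra.Eigenspace.Triangularizable
import Mathlib.LinearAlgebra.Eigenspace.Zero
import Mathlib.LinearAlgebra.Charpoly.BaseChange
import Mathlib.RingTheory.Flat.Basic

set_option autoImplicit false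

noncomputable section

namespace Fermat.Agent.Ribet.Avoid

open Twisted IsLocalRing
open scoped MatrixGroups

namespace Rank

open scoped MatrixGroups

section Poly

variable {L L' D D' : ℕ} [NeZero L] [NeZero L'] {hD : D ∣ L} {hD' : D' ∣ L'} {S : Finset ℕ}
  {A B : Type*} [CommRing A] [CommRing B] {φ : A →+* B}
  {ψ : DirichletCharacter A D} {ψ' : DirichletCharacter B D'}
  {M N : Type*} [AddCommGroup M] [Module A M] [AddCommGroup N] [Module B N]

/-- A map commuting with the good operators commutes with all polynomials in them. -/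
theorem comm_act (g : CohL hD ψ M →ₛₗ[φ] CohL hD' ψ' N)
    (hg : ∀ (ℓ : GoodPrime S) x, g (heckeT' hD ψ M ℓ.1 x) = heckeT' hD' ψ' N ℓ.1 (g x))
    (t : HeckePoly A S) (x : CohL hD ψ M) :
    g (act hD ψ M S t x) = act hD' ψ' N S (MvPolynomial.map φ t) (g x) := by
  induction t using MvPolynomial.induction_on generalizing x with
  | C a =>
    rw [MvPolynomial.map_C, ← MvPolynomial.algebraMap_eq, ← MvPolynomial.algebraMap_eq,
      AlgHom.commutes, AlgHom.commutes, Module.algebraMap_end_apply, Module.algebraMap_end_apply,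
      LinearMap.map_smulₛₗ]
  | add p q hp hq => simp only [map_add, LinearMap.add_apply, hp, hq]
  | mul_X p ℓ hp =>
    simp only [map_mul, MvPolynomial.map_X, Module.End.mul_apply, act_X]
    rw [hp, hg]

/-- A subspace stable under the good operators is stable under the polynomials in them. -/
theorem act_mem {W : Submodule A (CohL hD ψ M)}
    (hW : ∀ (ℓ : GoodPrime S), ∀ x ∈ W, heckeT' hD ψ M ℓ.1 x ∈ W) (t : HeckePoly A S)
    {x : CohL hD ψ M} (hx : x ∈ W) : act hD ψ M S t x ∈ W := by
  induction t using MvPolynomial.induction_on generalizing x with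
  | C a =>
    rw [← MvPolynomial.algebraMap_eq, AlgHom.commutes, Module.algebraMap_end_apply]
    exact W.smul_mem a hx
  | add p q hp hq =>
    rw [map_add, LinearMap.add_apply]
    exact W.add_mem (hp hx) (hq hx)
  | mul_X p ℓ hp =>
    rw [map_mul, Module.End.mul_apply, act_X]
    exact hp (hW ℓ x hx)

omit [NeZero L'] in
/-- Polynomials act on an eigenvector by their value. -/
theorem act_eigen {a : ℕ → A} {x : CohL hD ψ M}
    (hx : ∀ ℓ : GoodPrime S, heckeT' hD ψ M ℓ.1 x = a ℓ.1 • x) (t : HeckePoly A S) :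
    act hD ψ M S t x = evalSystem (RingHom.id A) a S t • x := by
  induction t using MvPolynomial.induction_on with
  | C c =>
    rw [← MvPolynomial.algebraMap_eq, AlgHom.commutes, Module.algebraMap_end_apply]
    simp [evalSystem, MvPolynomial.algebraMap_eq]
  | add p q hp hq => simp only [map_add, LinearMap.add_apply, hp, hq, add_smul]
  | mul_X p ℓ hp =>
    rw [map_mul, Module.End.mul_apply, act_X, hx, map_smul, hp, smul_smul, map_mul, mul_comm]
    simp [evalSystem]

omit [NeZero L] [NeZero L'] in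
theorem evalSystem_map (a : ℕ → B) (t : HeckePoly A S) :
    evalSystem (RingHom.id B) a S (MvPolynomial.map φ t) = evalSystem φ a S t := by
  simp [evalSystem]

omit [NeZero L] [NeZero L'] in
theorem notMem_residualIdeal {t : HeckePoly A S} {k : Type*} [Field k] {κ : A →+* k}
    {abar : ℕ → k} (h : MvPolynomial.map κ t ∉ residualIdeal (RingHom.id k) abar S) :
    t ∉ residualIdeal κ abar S := fun hm => h (by
  rw [residualIdeal, RingHom.mem_ker] at hm ⊢
  rw [evalSystem_map]; exact hm)

end Poly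

section Change

variable {L D D' : ℕ} [NeZero L] {A B : Type*} [CommRing A] [CommRing B] (φ : A →+* B)

omit [NeZero L] in
theorem chr_one_apply (hD : D ∣ L) (γ : CongruenceSubgroup.Gamma0 L) :
    chr hD (1 : DirichletCharacter A D) γ = 1 := by
  show (1 : DirichletCharacter A D) (diag11 hD γ) ^ 2 = 1
  rw [MulChar.one_apply ((Group.isUnit γ).map (diag11 hD)), one_pow]

/-- Change of coefficients along `φ`. -/
def coeffMap (hD : D ∣ L) (ψ : DirichletCharacter A D) :
    CohL hD ψ A →ₛₗ[φ] CohL hD (ψ.ringHomComp φ) B :=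
  Coh.map (Φ := chr hD ψ) (Ψ := chr hD (ψ.ringHomComp φ)) (chr_ringHomComp φ hD ψ)
    φ.toSemilinearMap

/-- Change of coefficients and modulus for the trivial character. -/
def trivMap (hD : D ∣ L) (hD' : D' ∣ L) :
    CohL hD (1 : DirichletCharacter A D) A →ₛₗ[φ] CohL hD' (1 : DirichletCharacter B D') B :=
  Coh.map (Φ := chr hD (1 : DirichletCharacter A D)) (Ψ := chr hD' (1 : DirichletCharacter B D'))
    (fun g => by rw [chr_one_apply, chr_one_apply, map_one]) φ.toSemilinearMap

/-- Change of coefficients commutes with an operator. -/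
theorem map_heckeT' {hD : D ∣ L} {hD' : D' ∣ L} {ψ : DirichletCharacter A D}
    {ψ' : DirichletCharacter B D'} (hΨ : ∀ g, chr hD' ψ' g = φ (chr hD ψ g)) {ℓ : ℕ}
    (hℓ : ℓ.Prime) (hℓD : ¬ ℓ ∣ D) (hℓD' : ¬ ℓ ∣ D')
    (hw : ∀ i, heckeWeight L ψ' ℓ i = φ (heckeWeight L ψ ℓ i))
    {M N : Type*} [AddCommGroup M] [Module A M] [AddCommGroup N] [Module B N]
    (f : M →ₛₗ[φ] N) (x : CohL hD ψ M) :
    Coh.map hΨ f (heckeT' hD ψ M ℓ x) = heckeT' hD' ψ' N ℓ (Coh.map hΨ f x) := by
  haveI : Fact ℓ.Prime := ⟨hℓ⟩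
  rw [heckeT'_eq hD ψ M hℓD, heckeT'_eq hD' ψ' N hℓD',
    (heckeOpData hD ψ Fact.out hℓD).map_op
      ((heckeOpData hD ψ Fact.out hℓD).pushforward φ hΨ hΨ) hΨ hΨ f x]
  generalize Coh.map hΨ f x = y
  obtain ⟨z, rfl⟩ := Coh.mk_surjective y
  rw [OpData.op_mk, OpData.op_mk]
  refine congrArg _ (Subtype.ext (funext fun γ => ?_))
  rw [OpData.opCocycle_apply, (heckeOpData hD' ψ' Fact.out hℓD').opCocycle_eq_sum z γ _ _
    (((heckeOpData hD ψ Fact.out hℓD).pushforward φ hΨ hΨ).spec γ)]
  exact Finset.sum_congr rfl fun i _ => by rw [hw]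

theorem coeffMap_heckeT' (hD : D ∣ L) (ψ : DirichletCharacter A D) (ℓ : ℕ) (x : CohL hD ψ A) :
    coeffMap φ hD ψ (heckeT' hD ψ A ℓ x) =
      heckeT' hD (ψ.ringHomComp φ) B ℓ (coeffMap φ hD ψ x) := by
  by_cases h : ℓ.Prime ∧ ¬ ℓ ∣ D
  · refine map_heckeT' φ (chr_ringHomComp φ hD ψ) h.1 h.2 h.2 (fun i => ?_) _ x
    obtain ⟨_ | y, hi⟩ := i
    · rfl
    · show (ψ.ringHomComp φ)⁻¹ (ℓ : ZMod D) = φ (ψ⁻¹ (ℓ : ZMod D))
      rw [MulChar.ringHomComp_inv]; rfl
  · rw [heckeT', dif_neg h, heckeT', dif_neg h]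
    simp

theorem trivMap_heckeT' (hD : D ∣ L) (hD' : D' ∣ L) {ℓ : ℕ} (hℓ : ℓ.Prime) (hℓD : ¬ ℓ ∣ D)
    (hℓD' : ¬ ℓ ∣ D') (x : CohL hD (1 : DirichletCharacter A D) A) :
    trivMap φ hD hD' (heckeT' hD (1 : DirichletCharacter A D) A ℓ x) =
      heckeT' hD' (1 : DirichletCharacter B D') B ℓ (trivMap φ hD hD' x) := by
  refine map_heckeT' φ _ hℓ hℓD hℓD' (fun i => ?_) _ x
  have hu : ∀ {n : ℕ}, ¬ ℓ ∣ n → IsUnit (ℓ : ZMod n) := fun h =>
    (ZMod.isUnit_iff_coprime ℓ _).mpr ((Nat.Prime.coprime_iff_not_dvd hℓ).mpr h)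
  obtain ⟨_ | y, hi⟩ := i <;>
    simp [heckeWeight, MulChar.one_apply (hu hℓD), MulChar.one_apply (hu hℓD')]

/-- With trivial character only the zero cocycle is a coboundary. -/
theorem mk_one_eq_zero (hD : D ∣ L) {M : Type*} [AddCommGroup M] [Module A M]
    {z : cocycles (chr hD (1 : DirichletCharacter A D)) M} :
    Coh.mk (chr hD (1 : DirichletCharacter A D)) M z = 0 ↔ z = 0 := by
  refine ⟨fun h => ?_, fun h => by rw [h, map_zero]⟩
  obtain ⟨a, rfl⟩ := Coh.mk_eq_zero.1 h
  exact Subtype.ext (funext fun g => by simp [chr_one_apply])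

theorem trivMap_injective (hD : D ∣ L) (hD' : D' ∣ L) (hφ : Function.Injective φ) :
    Function.Injective (trivMap φ hD hD') := by
  rw [injective_iff_map_eq_zero]
  intro x hx
  obtain ⟨z, rfl⟩ := Coh.mk_surjective x
  rw [trivMap, Coh.map_mk, mk_one_eq_zero] at hx
  rw [mk_one_eq_zero]
  refine Subtype.ext (funext fun g => hφ ?_)
  have h := congrFun (congrArg Subtype.val hx) g
  simpa using h

omit [NeZero L] in
theorem ellipticOK (h3 : EllipticOK A L) {L' : ℕ} (hL : L ∣ L') : Lifting.Elliptic3 A L' :=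
  h3.imp id fun ⟨x, h1, h2, h3⟩ => ⟨x, h2, h3.trans hL, h1⟩

variable {φ}

/-- Surjectivity of a change of coefficients. -/
theorem map_surjective' (h2 : IsUnit (2 : A)) (h3 : Lifting.Elliptic3 A L)
    (hφ : Function.Surjective φ) {hD : D ∣ L} {hD' : D' ∣ L} {ψ : DirichletCharacter A D}
    {ψ' : DirichletCharacter B D'} (hΨ : ∀ g, chr hD' ψ' g = φ (chr hD ψ g)) :
    Function.Surjective (Coh.map hΨ φ.toSemilinearMap) := by
  letI : Algebra A B := φ.toAlgebra
  intro x
  obtain ⟨z, rfl⟩ := Coh.mk_surjective x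
  obtain ⟨y, hy⟩ := Lifting.exists_cocycle_lift' hD ψ h2 h3 (Algebra.linearMap A B) hφ
    ⟨z.1, fun g h => by rw [z.2 g h, hΨ]; rfl⟩
  exact ⟨Coh.mk _ A y, by rw [Coh.map_mk]; exact congrArg _ (Subtype.ext (funext hy))⟩

/-- The kernel of a reduction consists of multiples of the kernel of `φ`. -/
theorem mem_smul_top_of_map_eq_zero [IsNoetherianRing A] (h2 : IsUnit (2 : A))
    (h3 : Lifting.Elliptic3 A L) (hφ : Function.Surjective φ) {hD : D ∣ L} {hD' : D' ∣ L}
    {ψ : DirichletCharacter A D} {ψ' : DirichletCharacter B D'}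
    (hΨ : ∀ g, chr hD' ψ' g = φ (chr hD ψ g)) (x : CohL hD ψ A)
    (hx : Coh.map hΨ φ.toSemilinearMap x = 0) :
    x ∈ RingHom.ker φ • (⊤ : Submodule A (CohL hD ψ A)) := by
  obtain ⟨z, rfl⟩ := Coh.mk_surjective x
  rw [Coh.map_mk, Coh.mk_eq_zero] at hx
  obtain ⟨c, hc⟩ := hx
  obtain ⟨a, rfl⟩ := hφ c
  set z' := z - coboundary (chr hD ψ) A a with hz'
  have hmem : ∀ g, (z' : CongruenceSubgroup.Gamma0 L → A) g ∈ RingHom.ker φ := fun g => by
    have h := congrFun (congrArg Subtype.val hc) g
    simp [hΨ] at h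
    simp [RingHom.mem_ker, hz', h]
  obtain ⟨m, gen, hgen⟩ := Submodule.fg_iff_exists_fin_generating_family.1
    (IsNoetherian.noetherian (RingHom.ker φ))
  let f : (Fin m → A) →ₗ[A] RingHom.ker φ :=
    LinearMap.codRestrict (RingHom.ker φ) (Fintype.linearCombination A gen) fun v => by
      rw [← hgen, ← Fintype.range_linearCombination]; exact LinearMap.mem_range_self _ v
  have hf : Function.Surjective f := fun ⟨w, hw⟩ => by
    rw [← hgen, ← Fintype.range_linearCombination] at hw
    obtain ⟨v, hv⟩ := hw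
    exact ⟨v, Subtype.ext hv⟩
  obtain ⟨y, hy⟩ := Lifting.exists_cocycle_lift' hD ψ h2 h3 f hf
    ⟨fun g => ⟨_, hmem g⟩, fun g h => Subtype.ext (z'.2 g h)⟩
  let yj : Fin m → cocycles (chr hD ψ) A := fun j =>
    ⟨fun g => (y : CongruenceSubgroup.Gamma0 L → Fin m → A) g j, fun g h => congrFun (y.2 g h) j⟩
  have hzsum : z' = ∑ j, gen j • yj j := by
    refine Subtype.ext (funext fun g => ?_)
    have h := congrArg Subtype.val (hy g)
    simp only [f, LinearMap.codRestrict_apply, Fintype.linearCombination_apply] at h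
    simp [yj, ← h, mul_comm]
  have : Coh.mk _ A z = Coh.mk _ A z' := by
    rw [hz', map_sub, Coh.mk_eq_zero.2 ⟨a, rfl⟩, sub_zero]
  rw [this, hzsum, map_sum]
  refine Submodule.sum_mem _ fun j _ => ?_
  rw [map_smul]
  exact Submodule.smul_mem_smul (hgen ▸ Submodule.subset_span ⟨j, rfl⟩) trivial

end Change

section Field

variable {L D : ℕ} [NeZero L] {hD : D ∣ L} {S : Finset ℕ} {k : Type*} [Field k]
  {ψ : DirichletCharacter k D} {M : Type*} [AddCommGroup M] [Module k M] [Module.Finite k M]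
  {P : Ideal (HeckePoly k S)} [P.IsPrime]

/-- A single operator outside `P` kills the classes killed by some operator outside `P`. -/
theorem exists_kill_locKer :
    ∃ t, t ∉ P ∧ ∀ x ∈ locKer hD ψ M S P, act hD ψ M S t x = 0 := by
  haveI := finite_cohL (M := M) hD ψ
  have key : ∀ W : Submodule k (CohL hD ψ M), W.FG → W ≤ locKer hD ψ M S P →
      ∃ t, t ∉ P ∧ ∀ x ∈ W, act hD ψ M S t x = 0 := by
    intro W hW
    induction W, hW using Submodule.fg_induction with
    | singleton x =>
      intro h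
      obtain ⟨t, ht, hx⟩ := h (Submodule.mem_span_singleton_self x)
      refine ⟨t, ht, fun y hy => ?_⟩
      obtain ⟨c, rfl⟩ := Submodule.mem_span_singleton.1 hy
      rw [map_smul, hx, smul_zero]
    | sup W₁ W₂ h₁ h₂ ih₁ ih₂ =>
      intro h
      obtain ⟨t₁, ht₁, hx₁⟩ := ih₁ (le_sup_left.trans h)
      obtain ⟨t₂, ht₂, hx₂⟩ := ih₂ (le_sup_right.trans h)
      refine ⟨t₁ * t₂, fun hm => (Ideal.IsPrime.mem_or_mem ‹_› hm).elim ht₁ ht₂, fun x hx => ?_⟩
      obtain ⟨y₁, hy₁, y₂, hy₂, rfl⟩ := Submodule.mem_sup.1 hx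
      rw [map_add, map_mul, Module.End.mul_apply, Module.End.mul_apply, hx₂ y₂ hy₂, map_zero,
        add_zero, ← Module.End.mul_apply, ← map_mul, mul_comm t₁ t₂, map_mul,
        Module.End.mul_apply, hx₁ y₁ hy₁, map_zero]
  exact key _ (IsNoetherian.noetherian _) le_rfl

omit [Module.Finite k M] in
/-- Operators outside `P` are injective on the part at `P`. -/
theorem locAct_injective {t : HeckePoly k S} (ht : t ∉ P) :
    Function.Injective (locAct hD ψ M S P t) := by
  rw [injective_iff_map_eq_zero]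
  intro y hy
  obtain ⟨x, rfl⟩ := Submodule.Quotient.mk_surjective _ y
  rw [locAct_mk, Submodule.Quotient.mk_eq_zero, mem_locKer] at hy
  obtain ⟨u, hu, hx⟩ := hy
  rw [Submodule.Quotient.mk_eq_zero, mem_locKer]
  exact ⟨u * t, fun h => (Ideal.IsPrime.mem_or_mem ‹_› h).elim hu ht, by
    rw [map_mul, Module.End.mul_apply, hx]⟩

end Field

/-- Operators in the residual ideal are nilpotent on its part over a field. -/
theorem isNilpotent_locAct {L D : ℕ} [NeZero L] {hD : D ∣ L} {S : Finset ℕ} {k : Type*} [Field k]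
    {ψ : DirichletCharacter k D} {abar : ℕ → k} {u : HeckePoly k S}
    (hu : u ∈ residualIdeal (RingHom.id k) abar S) :
    IsNilpotent (locAct hD ψ k S (residualIdeal (RingHom.id k) abar S) u) := by
  haveI := finite_cohL (M := k) hD ψ
  set N := locAct hD ψ k S (residualIdeal (RingHom.id k) abar S) u with hN
  obtain ⟨h, hh, hdvd⟩ := Polynomial.exists_eq_pow_rootMultiplicity_mul_and_not_dvd (minpoly k N)
    (minpoly.ne_zero (Algebra.IsIntegral.isIntegral N)) 0
  refine ⟨Polynomial.rootMultiplicity 0 (minpoly k N), LinearMap.ext fun x => ?_⟩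
  have hnot : Polynomial.aeval u h ∉ residualIdeal (RingHom.id k) abar S := by
    rw [residualIdeal, RingHom.mem_ker] at hu ⊢
    rw [Polynomial.aeval_def, Polynomial.hom_eval₂, hu,
      show (evalSystem (RingHom.id k) abar S).comp (algebraMap k (HeckePoly k S)) = RingHom.id k
        from RingHom.ext fun c => by simp [evalSystem, MvPolynomial.algebraMap_eq],
      ← Polynomial.eval, ← Polynomial.IsRoot.def]
    exact fun h' => hdvd (Polynomial.dvd_iff_isRoot.2 h')
  refine locAct_injective hnot ?_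
  rw [LinearMap.zero_apply, map_zero, ← Polynomial.aeval_algHom_apply, ← hN,
    ← Module.End.mul_apply]
  have h0 := minpoly.aeval k N
  conv_lhs at h0 => rw [hh]
  simp only [map_zero, sub_zero, map_mul, map_pow, Polynomial.aeval_X] at h0
  have e : Polynomial.aeval N h * N ^ Polynomial.rootMultiplicity 0 (minpoly k N) =
      N ^ Polynomial.rootMultiplicity 0 (minpoly k N) * Polynomial.aeval N h := by
    simpa using congrArg (Polynomial.aeval N)
      (mul_comm h (Polynomial.X ^ Polynomial.rootMultiplicity 0 (minpoly k N)))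
  rw [e, h0, LinearMap.zero_apply]

/-- If `T` kills `W` and is unipotent modulo `W`, its generalised eigenspace of `1` is a
complement of `W`. -/
theorem finrank_maxGenEigenspace_one {k V : Type*} [Field k] [AddCommGroup V] [Module k V]
    [Module.Finite k V] (T : Module.End k V) (W : Submodule k V)
    (hW : ∀ x ∈ W, T x = 0) (n : ℕ) (hT : ∀ x, ((T - 1) ^ n) x ∈ W) :
    Module.finrank k (T.maxGenEigenspace 1) = Module.finrank k (V ⧸ W) := by
  have hpow : ∀ (j : ℕ), ∀ x ∈ W, ((T - 1) ^ j) x = ((-1 : k) ^ j) • x := by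
    intro j
    induction j with
    | zero => simp
    | succ j ih =>
      intro x hx
      rw [pow_succ, Module.End.mul_apply, LinearMap.sub_apply, hW x hx, zero_sub,
        Module.End.one_apply, map_neg, ih x hx, pow_succ, mul_neg, mul_one, neg_smul]
  have hmem : ∀ {x : V}, x ∈ T.maxGenEigenspace 1 ↔ ∃ j : ℕ, ((T - 1) ^ j) x = 0 := by
    intro x
    rw [Module.End.mem_maxGenEigenspace]
    simp
  refine LinearEquiv.finrank_eq
    (LinearEquiv.ofBijective (W.mkQ.comp (T.maxGenEigenspace 1).subtype) ⟨?_, ?_⟩)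
  · rw [injective_iff_map_eq_zero]
    rintro ⟨x, hx⟩ h
    simp only [LinearMap.comp_apply, Submodule.coe_subtype, Submodule.mkQ_apply,
      Submodule.Quotient.mk_eq_zero] at h
    obtain ⟨j, hj⟩ := hmem.1 hx
    rw [hpow j x h, smul_eq_zero] at hj
    exact Subtype.ext (hj.resolve_left (pow_ne_zero _ (by simp)))
  · intro y
    obtain ⟨x, rfl⟩ := W.mkQ_surjective y
    set w : V := ((1 - T) ^ (n + 1)) x with hw
    have hwW : w ∈ W := by
      have hWstab : ∀ z ∈ W, (T - 1) z ∈ W := fun z hz => by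
        rw [LinearMap.sub_apply, hW z hz, zero_sub]
        exact W.neg_mem hz
      rw [hw, show ((1 - T) : Module.End k V) = (-1 : k) • (T - 1) by simp, smul_pow,
        LinearMap.smul_apply, pow_succ' (T - 1), Module.End.mul_apply]
      exact W.smul_mem _ (hWstab _ (hT x))
    refine ⟨⟨x - w, hmem.2 ⟨n + 1, ?_⟩⟩, ?_⟩
    · obtain ⟨G, hG⟩ : ∃ G : Module.End k V, 1 - (1 - T) ^ (n + 1) = G * T := by
        refine ⟨∑ i ∈ Finset.range (n + 1), (1 - T) ^ i, ?_⟩
        have := geom_sum_mul_neg (1 - T) (n + 1)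
        rw [sub_sub_cancel] at this
        exact this.symm
      have e : x - w = (G * T) x := by rw [← hG]; rfl
      have hc : Commute ((T - 1) ^ (n + 1)) (G * T) := by
        rw [← hG]
        exact (Commute.one_right _).sub_right ((((Commute.refl T).sub_left (Commute.one_left T))
          |> fun h => ((Commute.one_right (T - 1)).sub_right h)).pow_pow _ _)
      rw [e, ← Module.End.mul_apply, hc.eq, Module.End.mul_apply, Module.End.mul_apply,
        pow_succ', Module.End.mul_apply, LinearMap.sub_apply, Module.End.one_apply, map_sub,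
        hW _ (hT x), sub_zero]
      simp
    · show W.mkQ (x - w) = W.mkQ x
      rw [map_sub, Submodule.mkQ_apply _ w, (Submodule.Quotient.mk_eq_zero W).2 hwW, sub_zero]

/-- The multiplicity of the eigenvalue `1` of a normalised operator killing the complement is
the rank of the part at `P`. -/
theorem rootMultiplicity_eq {L D : ℕ} [NeZero L] {hD : D ∣ L} {S : Finset ℕ} {k : Type*}
    [Field k] {ψ : DirichletCharacter k D} {abar : ℕ → k} {t : HeckePoly k S}
    (ht : evalSystem (RingHom.id k) abar S t = 1)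
    (hkill : ∀ x ∈ locKer hD ψ k S (residualIdeal (RingHom.id k) abar S),
      act hD ψ k S t x = 0)
    [Module.Finite k (CohL hD ψ k)] :
    (act hD ψ k S t).charpoly.rootMultiplicity 1 =
      Module.finrank k (LocCoh hD ψ k S (residualIdeal (RingHom.id k) abar S)) := by
  rw [← LinearMap.finrank_maxGenEigenspace_eq]
  obtain ⟨n, hn⟩ := isNilpotent_locAct (hD := hD) (ψ := ψ)
    (u := t - 1) (abar := abar) (by rw [residualIdeal, RingHom.mem_ker, map_sub, ht, map_one,
      sub_self])
  refine finrank_maxGenEigenspace_one _ _ hkill n fun x => ?_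
  have h := LinearMap.congr_fun hn (Submodule.Quotient.mk x)
  rw [← map_pow, locAct_mk, LinearMap.zero_apply, Submodule.Quotient.mk_eq_zero, map_pow,
    map_sub, map_one] at h
  exact h

/-- Commuting operators have a common eigenvector in every stable subspace. -/
theorem exists_common_eigen {K V I : Type*} [Field K] [IsAlgClosed K] [AddCommGroup V]
    [Module K V] [FiniteDimensional K V] (T : I → Module.End K V)
    (hc : ∀ i j, Commute (T i) (T j)) (W : Submodule K V) (hW : ∀ i, ∀ x ∈ W, T i x ∈ W)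
    (hne : W ≠ ⊥) : ∃ x ∈ W, x ≠ 0 ∧ ∀ i, ∃ c : K, T i x = c • x := by
  generalize hd : Module.finrank K W = d
  induction d using Nat.strong_induction_on generalizing W with
  | _ d ih =>
    by_cases hall : ∀ i, ∃ c : K, ∀ x ∈ W, T i x = c • x
    · obtain ⟨x, hx, hx0⟩ := W.exists_mem_ne_zero_of_ne_bot hne
      exact ⟨x, hx, hx0, fun i => (hall i).imp fun c hc => hc x hx⟩
    push_neg at hall
    obtain ⟨i, hi⟩ := hall
    haveI : Nontrivial W := Submodule.nontrivial_iff_ne_bot.2 hne
    obtain ⟨μ, hμ⟩ := Module.End.exists_eigenvalue ((T i).restrict (hW i))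
    obtain ⟨⟨v, hv⟩, hev, hv0⟩ := hμ.exists_hasEigenvector
    rw [Module.End.mem_eigenspace_iff] at hev
    have hev' : T i v = μ • v := congrArg Subtype.val hev
    set W' := W ⊓ (T i).eigenspace μ
    have hle : W' < W := by
      refine lt_of_le_of_ne inf_le_left fun h => ?_
      obtain ⟨x, hx, hne'⟩ := hi μ
      exact hne' (Module.End.mem_eigenspace_iff.1 ((h.symm.le hx : x ∈ W').2))
    obtain ⟨x, hx, hx'⟩ := ih _ (hd ▸ Submodule.finrank_lt_finrank_of_lt hle) W'
      (fun j y hy => ⟨hW j y hy.1, Module.End.mem_eigenspace_iff.2 (by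
        rw [← Module.End.mul_apply, (hc i j).eq, Module.End.mul_apply,
          Module.End.mem_eigenspace_iff.1 hy.2, map_smul])⟩)
      (fun h => hv0 (by
        have hvW : v ∈ W' := ⟨hv, Module.End.mem_eigenspace_iff.2 hev'⟩
        rw [h, Submodule.mem_bot] at hvW
        exact Subtype.ext hvW)) rfl
    exact ⟨x, hx.1, hx'⟩

/-- A stable subspace without congruent systems is killed by an operator outside the residual
ideal. -/
theorem exists_kill_of_not_congruent {L D : ℕ} [NeZero L] {hD : D ∣ L} {S : Finset ℕ}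
    {A : Type*} [CommRing A] {k : Type*} [Field k] (κ : A →+* k) (abar : ℕ → k)
    {K : Type*} [Field K] [IsAlgClosed K] (ι : A →+* K) (ψ : DirichletCharacter K D)
    (W : Submodule K (CohL hD ψ K))
    (hW : ∀ (ℓ : GoodPrime S), ∀ x ∈ W, heckeT' hD ψ K ℓ.1 x ∈ W)
    (hno : ∀ (a : ℕ → K), ∀ x ∈ W, x ≠ 0 →
      (∀ ℓ : GoodPrime S, heckeT' hD ψ K ℓ.1 x = a ℓ.1 • x) → ¬ IsCongruent ι κ abar S a) :
    ∃ s : HeckePoly A S, s ∉ residualIdeal κ abar S ∧
      ∀ x ∈ W, act hD ψ K S (MvPolynomial.map ι s) x = 0 := by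
  haveI := finite_cohL (M := K) hD ψ
  generalize hd : Module.finrank K W = d
  induction d using Nat.strong_induction_on generalizing W with
  | _ d ih =>
    by_cases hne : W = ⊥
    · refine ⟨1, fun h => (residualIdeal_isPrime κ abar S).ne_top
        ((Ideal.eq_top_iff_one _).2 h), fun x hx => ?_⟩
      rw [hne, Submodule.mem_bot] at hx
      rw [hx, map_zero]
    obtain ⟨x, hxW, hx0, hx⟩ := exists_common_eigen (fun ℓ : GoodPrime S => heckeT' hD ψ K ℓ.1)
      (fun i j => heckeT'_comm hD ψ i.1 j.1) W hW hne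
    choose c hc using hx
    classical
    let a : ℕ → K := fun m => if h : m.Prime ∧ m ∉ S then c ⟨m, h⟩ else 0
    have ha : ∀ ℓ : GoodPrime S, heckeT' hD ψ K ℓ.1 x = a ℓ.1 • x := fun ℓ => by
      simpa only [a, dif_pos ℓ.2] using hc ℓ
    obtain ⟨t, ht0, htP⟩ := SetLike.not_le_iff_exists.1 (hno a x hxW hx0 ha)
    set E := act hD ψ K S (MvPolynomial.map ι t)
    have hEx : E x = 0 := by
      rw [act_eigen ha, evalSystem_map, RingHom.mem_ker.1 ht0, zero_smul]
    let EW : W →ₗ[K] CohL hD ψ K := E.comp W.subtype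
    have hlt : Module.finrank K (LinearMap.range EW) < d := by
      have h := LinearMap.finrank_range_add_finrank_ker EW
      have : 0 < Module.finrank K (LinearMap.ker EW) :=
        Submodule.one_le_finrank_iff.2 fun h' => hx0 (by
          have hk : (⟨x, hxW⟩ : W) ∈ LinearMap.ker EW := hEx
          rw [h', Submodule.mem_bot] at hk
          exact congrArg Subtype.val hk)
      omega
    have hle : LinearMap.range EW ≤ W := by
      rintro _ ⟨y, rfl⟩
      exact act_mem hW _ y.2
    obtain ⟨s, hs, hsW⟩ := ih _ hlt (LinearMap.range EW)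
      (fun ℓ y hy => by
        obtain ⟨y, rfl⟩ := hy
        refine ⟨⟨_, hW ℓ y.1 y.2⟩, ?_⟩
        show E (heckeT' hD ψ K ℓ.1 y.1) = heckeT' hD ψ K ℓ.1 (E y.1)
        rw [← act_X hD ψ K S ℓ, ← Module.End.mul_apply, ← map_mul, mul_comm, map_mul]
        rfl)
      (fun a y hy => hno a y (hle hy)) rfl
    refine ⟨s * t, fun h => ((residualIdeal_isPrime κ abar S).mem_or_mem h).elim hs htP,
      fun y hy => ?_⟩
    rw [map_mul, map_mul, Module.End.mul_apply]
    exact hsW _ ⟨⟨y, hy⟩, rfl⟩

/-- The characteristic polynomial along a semilinear map carrying a basis to a basis. -/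
theorem charpoly_map {R R' M M' : Type*} [CommRing R] [CommRing R'] [Nontrivial R]
    [Nontrivial R'] [AddCommGroup M] [Module R M] [Module.Finite R M] [Module.Free R M]
    [AddCommGroup M'] [Module R' M'] [Module.Finite R' M'] [Module.Free R' M'] {n : Type*}
    [Fintype n] [DecidableEq n] (σ : R →+* R') (g : M →ₛₗ[σ] M') (b : Module.Basis n R M)
    (b' : Module.Basis n R' M') (hb : ∀ i, g (b i) = b' i) (T : Module.End R M)
    (T' : Module.End R' M') (hT : ∀ x, g (T x) = T' (g x)) :
    T'.charpoly = T.charpoly.map σ := by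
  rw [← LinearMap.charpoly_toMatrix T b, ← LinearMap.charpoly_toMatrix T' b',
    ← Matrix.charpoly_map]
  congr 1
  ext i j
  rw [LinearMap.toMatrix_apply, Matrix.map_apply, LinearMap.toMatrix_apply, ← hb, ← hT,
    ← b.sum_repr (T (b j)), map_sum]
  simp only [LinearMap.map_smulₛₗ, hb, b'.repr_sum_self, b.repr_sum_self]

/-- A map injective away from the kernel of `T` bounds the multiplicity of a nonzero
eigenvalue. -/
theorem rootMultiplicity_le {K V V' : Type*} [Field K] [AddCommGroup V] [Module K V]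
    [Module.Finite K V] [AddCommGroup V'] [Module K V'] [Module.Finite K V'] (g : V →ₗ[K] V')
    (T : Module.End K V) (T' : Module.End K V') (hT : ∀ x, g (T x) = T' (g x))
    (hker : ∀ x, g x = 0 → T x = 0) {μ : K} (hμ : μ ≠ 0) :
    T.charpoly.rootMultiplicity μ ≤ T'.charpoly.rootMultiplicity μ := by
  rw [← LinearMap.finrank_maxGenEigenspace_eq, ← LinearMap.finrank_maxGenEigenspace_eq]
  have hj : ∀ (j : ℕ) x, g (((T - μ • 1) ^ j) x) = ((T' - μ • 1) ^ j) (g x) := by
    intro j
    induction j with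
    | zero => simp
    | succ j ih => intro x; simp [pow_succ, ih, hT]
  refine LinearMap.finrank_le_finrank_of_injective
    (f := g.restrict (p := T.maxGenEigenspace μ) (q := T'.maxGenEigenspace μ) fun x hx => ?_) ?_
  · obtain ⟨j, h⟩ := (Module.End.mem_maxGenEigenspace _ _ _).1 hx
    exact (Module.End.mem_maxGenEigenspace _ _ _).2 ⟨j, by rw [← hj, h, map_zero]⟩
  · rw [injective_iff_map_eq_zero]
    rintro ⟨x, hx⟩ h
    have hgx : g x = 0 := congrArg Subtype.val h
    obtain ⟨j, hj'⟩ := (Module.End.mem_maxGenEigenspace _ _ _).1 hx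
    have hp : ∀ (i : ℕ) y, T y = 0 → ((T - μ • 1) ^ i) y = ((-μ) ^ i) • y := by
      intro i
      induction i with
      | zero => simp
      | succ i ih =>
        intro y hy
        rw [pow_succ, Module.End.mul_apply, LinearMap.sub_apply, hy, zero_sub,
          LinearMap.smul_apply, Module.End.one_apply, map_neg, map_smul, ih y hy, smul_smul,
          ← neg_smul, pow_succ, mul_comm (_ ^ i), neg_mul]
    rw [hp j x (hker x hgx), smul_eq_zero] at hj'
    exact Subtype.ext (hj'.resolve_left (pow_ne_zero _ (neg_ne_zero.2 hμ)))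

/-- With trivial character the integral cohomology is a lattice. -/
theorem free_cohL_one {L : ℕ} [NeZero L] {O : Type*} [CommRing O] [IsDomain O]
    [IsPrincipalIdealRing O] :
    Module.Free O (CohL (one_dvd L) (1 : DirichletCharacter O 1) O) := by
  haveI := finite_cohL (M := O) (one_dvd L) (1 : DirichletCharacter O 1)
  haveI : Module.IsTorsionFree O (CohL (one_dvd L) (1 : DirichletCharacter O 1) O) := by
    rw [Module.isTorsionFree_iff_smul_eq_zero]
    intro c x h
    obtain ⟨z, rfl⟩ := Coh.mk_surjective x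
    rw [← map_smul, mk_one_eq_zero] at h
    by_cases hc : c = 0
    · exact Or.inl hc
    · refine Or.inr ((mk_one_eq_zero _).2 (Subtype.ext (funext fun g => ?_)))
      have := congrFun (congrArg Subtype.val h) g
      simp at this
      simpa [hc] using this
  exact Module.free_of_finite_type_torsion_free'

/-- The reduction of the characteristic polynomial on the lattice. -/
theorem charpoly_reduction {L : ℕ} [NeZero L] {O : Type*} [CommRing O] [IsDomain O]
    [IsDiscreteValuationRing O] (h2 : IsUnit (2 : O)) (h3 : Lifting.Elliptic3 O L)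
    {S : Finset ℕ} (hLS : ∀ x : ℕ, x.Prime → x ∣ L → x ∈ S) (t : HeckePoly O S)
    [Module.Free O (CohL (one_dvd L) (1 : DirichletCharacter O 1) O)]
    [Module.Finite O (CohL (one_dvd L) (1 : DirichletCharacter O 1) O)]
    [Module.Finite (ResidueField O)
      (CohL (one_dvd L) (1 : DirichletCharacter (ResidueField O) 1) (ResidueField O))] :
    (act (one_dvd L) (1 : DirichletCharacter (ResidueField O) 1) (ResidueField O) S
        (MvPolynomial.map (residue O) t)).charpoly =
      (act (one_dvd L) (1 : DirichletCharacter O 1) O S t).charpoly.map (residue O) := by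
  classical
  set g := trivMap (residue O) (one_dvd L) (one_dvd L)
  have hsurj : Function.Surjective g := map_surjective' h2 h3 residue_surjective _
  let b := Module.Free.chooseBasis O (CohL (one_dvd L) (1 : DirichletCharacter O 1) O)
  have hli : LinearIndependent (ResidueField O) fun i => g (b i) := by
    rw [Fintype.linearIndependent_iff]
    intro c hc i
    choose d hd using fun j => residue_surjective (R := O) (c j)
    have h0 : g (∑ j, d j • b j) = 0 := by
      rw [map_sum]; simpa only [LinearMap.map_smulₛₗ, hd] using hc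
    have h1 := mem_smul_top_of_map_eq_zero h2 h3 residue_surjective _ _ h0
    have hcoef : ∀ y ∈ RingHom.ker (residue O) •
        (⊤ : Submodule O (CohL (one_dvd L) (1 : DirichletCharacter O 1) O)),
        residue O (b.repr y i) = 0 := by
      intro y hy
      refine Submodule.smul_induction_on hy (fun r hr z _ => ?_) fun y z hy hz => ?_
      · rw [map_smul, Finsupp.smul_apply, smul_eq_mul, map_mul, RingHom.mem_ker.1 hr, zero_mul]
      · rw [map_add, Finsupp.add_apply, map_add, hy, hz, add_zero]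
    have := hcoef _ h1
    rwa [b.repr_sum_self, hd] at this
  have hspan : ⊤ ≤ Submodule.span (ResidueField O) (Set.range fun i => g (b i)) := by
    intro y _
    obtain ⟨x, rfl⟩ := hsurj y
    rw [← b.sum_repr x, map_sum]
    refine Submodule.sum_mem _ fun j _ => ?_
    rw [LinearMap.map_smulₛₗ]
    exact Submodule.smul_mem _ _ (Submodule.subset_span ⟨j, rfl⟩)
  refine charpoly_map (residue O) g b (Module.Basis.mk hli hspan) (fun i => ?_) _ _ fun x => ?_
  · rw [Module.Basis.mk_apply]
  · refine comm_act g (fun ℓ y => trivMap_heckeT' (residue O) _ _ ℓ.2.1 ?_ ?_ y) t x <;>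
      exact fun h => ℓ.2.1.ne_one (Nat.dvd_one.1 h)

/-- Every cocycle over a field is a combination of cocycles with values in `A`. -/
theorem mem_span_range_coeffMap {L D : ℕ} [NeZero L] {hD : D ∣ L} {A : Type*} [CommRing A]
    (h2 : IsUnit (2 : A)) (h3 : Lifting.Elliptic3 A L) (ψ : DirichletCharacter A D)
    {K : Type*} [Field K] (φ : A →+* K) (x : CohL hD (ψ.ringHomComp φ) K) :
    x ∈ Submodule.span K (Set.range (coeffMap φ hD ψ)) := by
  classical
  obtain ⟨z, rfl⟩ := Coh.mk_surjective x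
  have := ParHom.group_fg_SL2Z
  have : Group.FG (CongruenceSubgroup.Gamma0 L) :=
    Subgroup.fg_of_index_ne_zero (CongruenceSubgroup.Gamma0 L)
  obtain ⟨s, hs, hsfin⟩ := Group.fg_iff.1 this
  let F : Subfield K := Subfield.closure (Set.range φ)
  have hφF : ∀ a, φ a ∈ F := fun a => Subfield.subset_closure ⟨a, rfl⟩
  have hchr : ∀ g, chr hD (ψ.ringHomComp φ) g = φ (chr hD ψ g) := chr_ringHomComp φ hD ψ
  let V : Submodule F K := Submodule.span F ((z : CongruenceSubgroup.Gamma0 L → K) '' s)
  haveI : Module.Finite F V := Module.Finite.span_of_finite F (hsfin.image _)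
  have hV : ∀ g, (z : CongruenceSubgroup.Gamma0 L → K) g ∈ V := by
    intro g
    have hg : g ∈ Subgroup.closure s := by rw [hs]; trivial
    induction hg using Subgroup.closure_induction with
    | mem g h => exact Submodule.subset_span ⟨g, h, rfl⟩
    | one => rw [cocycle_one]; exact V.zero_mem
    | mul g h _ _ hg hh =>
      rw [z.2, hchr]
      exact V.add_mem hg (V.smul_mem (⟨_, hφF _⟩ : F) hh)
    | inv g _ hg =>
      rw [cocycle_inv, hchr]
      exact V.neg_mem (V.smul_mem (⟨_, hφF _⟩ : F) hg)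
  let b := Module.finBasis F V
  let c : Fin (Module.finrank F V) → CongruenceSubgroup.Gamma0 L → K :=
    fun i g => (b.repr ⟨_, hV g⟩ i : F)
  have hc : ∀ i g h, c i (g * h) = c i g + φ (chr hD ψ g) * c i h := by
    intro i g h
    have e : (⟨_, hV (g * h)⟩ : V) =
        ⟨_, hV g⟩ + (⟨_, hφF (chr hD ψ g)⟩ : F) • (⟨_, hV h⟩ : V) := Subtype.ext (by
      show (z : CongruenceSubgroup.Gamma0 L → K) (g * h) = _ + φ (chr hD ψ g) * _
      rw [z.2, hchr, smul_eq_mul])
    simp only [c, e, map_add, map_smul, Finsupp.add_apply, Finsupp.smul_apply]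
    rfl
  have hden : ∀ y : K, y ∈ F → ∃ d : A, φ d ≠ 0 ∧ φ d * y ∈ Set.range φ := by
    intro y hy
    obtain ⟨u, hu, w, hw, rfl⟩ := Subfield.mem_closure_iff.1 hy
    rw [show Set.range φ = (φ.range : Set K) from rfl, Subring.closure_eq] at hu hw
    obtain ⟨u, rfl⟩ := hu
    obtain ⟨w, rfl⟩ := hw
    by_cases hw0 : φ w = 0
    · exact ⟨1, by simp, by simp [hw0, show (0 : K) ∈ Set.range φ from ⟨0, map_zero φ⟩]⟩
    · exact ⟨w, hw0, u, (mul_div_cancel₀ _ hw0).symm⟩
  choose! d hd0 hd using hden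
  haveI : Fintype s := hsfin.fintype
  let d₀ : A := ∏ p : Fin (Module.finrank F V) × s, d (c p.1 p.2)
  have hd₀ : φ d₀ ≠ 0 := by
    rw [map_prod]
    exact Finset.prod_ne_zero_iff.2 fun p _ => hd0 _ (SetLike.coe_mem _)
  have hrange : ∀ i g, φ d₀ * c i g ∈ φ.range := by
    intro i g
    have hg : g ∈ Subgroup.closure s := by rw [hs]; trivial
    have hone : ∀ j, c j 1 = 0 := fun j => by simpa using hc j 1 1
    induction hg using Subgroup.closure_induction with
    | mem g h =>
      obtain ⟨w, hw⟩ := hd _ (SetLike.coe_mem (b.repr ⟨_, hV g⟩ i))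
      refine ⟨(∏ p ∈ Finset.univ.erase (i, (⟨g, h⟩ : s)), d (c p.1 p.2)) * w, ?_⟩
      rw [map_mul, hw, ← mul_assoc, ← map_mul,
        Finset.prod_erase_mul Finset.univ (fun p : Fin (Module.finrank F V) × s => d (c p.1 p.2))
          (Finset.mem_univ _)]
    | one => rw [hone, mul_zero]; exact Subring.zero_mem _
    | mul g h _ _ hg hh =>
      rw [hc, mul_add, mul_left_comm]
      exact Subring.add_mem _ hg (Subring.mul_mem _ ⟨_, rfl⟩ hh)
    | inv g _ hg =>
      have e := hc i g⁻¹ g
      rw [inv_mul_cancel, hone] at e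
      rw [eq_neg_of_add_eq_zero_left e.symm, mul_neg, mul_left_comm]
      exact Subring.neg_mem _ (Subring.mul_mem _ ⟨_, rfl⟩ hg)
  letI : Algebra A K := φ.toAlgebra
  choose y hy using fun i => Lifting.exists_cocycle_lift' hD ψ h2 h3
    ((Algebra.linearMap A K).rangeRestrict) (LinearMap.surjective_rangeRestrict _)
    ⟨fun g => ⟨φ d₀ * c i g, hrange i g⟩, fun g h => Subtype.ext (by
      show φ d₀ * c i (g * h) = φ d₀ * c i g + φ (chr hD ψ g) * (φ d₀ * c i h)
      rw [hc]; ring)⟩
  have hsum : Coh.mk _ K z =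
      ∑ i, ((b i : K) * (φ d₀)⁻¹) • coeffMap φ hD ψ (Coh.mk _ A (y i)) := by
    simp only [coeffMap, Coh.map_mk, ← map_smul, ← map_sum]
    refine congrArg _ (Subtype.ext (funext fun g => ?_))
    have e := congrArg Subtype.val (b.sum_repr ⟨_, hV g⟩)
    simp only [Submodule.coe_sum, Submodule.coe_smul] at e
    simp only [Submodule.coe_sum, Submodule.coe_smul, Finset.sum_apply, Pi.smul_apply,
      cocyclesMap_apply, smul_eq_mul]
    rw [← e]
    refine Finset.sum_congr rfl fun i _ => ?_
    have hyi : φ ((y i : CongruenceSubgroup.Gamma0 L → A) g) = φ d₀ * c i g := congrArg Subtype.val (hy i g)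
    show c i g * (b i : K) = _
    rw [show (φ.toSemilinearMap ((y i : CongruenceSubgroup.Gamma0 L → A) g)) = φ d₀ * c i g from hyi]
    field_simp
  rw [hsum]
  exact Submodule.sum_mem _ fun i _ =>
    Submodule.smul_mem _ _ (Submodule.subset_span ⟨_, rfl⟩)

theorem gamma0_le {L L' : ℕ} (hLL' : L ∣ L') :
    CongruenceSubgroup.Gamma0 L' ≤ CongruenceSubgroup.Gamma0 L := fun g hg => by
  rw [CongruenceSubgroup.Gamma0_mem, ZMod.intCast_zmod_eq_zero_iff_dvd] at hg ⊢
  exact (Int.natCast_dvd_natCast.mpr hLL').trans hg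

/-- An operator divisible by one which kills a class kills it. -/
theorem act_eq_zero_of_dvd {L D : ℕ} [NeZero L] {hD : D ∣ L} {S : Finset ℕ} {A M : Type*}
    [CommRing A] {ψ : DirichletCharacter A D} [AddCommGroup M] [Module A M]
    {u t : HeckePoly A S} (h : u ∣ t) {x : CohL hD ψ M} (hx : act hD ψ M S u x = 0) :
    act hD ψ M S t x = 0 := by
  obtain ⟨w, rfl⟩ := h
  rw [mul_comm, map_mul, Module.End.mul_apply, hx, map_zero]

/-- Restriction to a deeper level with trivial character. -/
def resOne {L L' : ℕ} (hLL' : L ∣ L') (A : Type*) [CommRing A] :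
    CohL (one_dvd L) (1 : DirichletCharacter A 1) A →ₗ[A]
      CohL (one_dvd L') (1 : DirichletCharacter A 1) A :=
  Submodule.mapQ _ _
    { toFun := fun z => ⟨fun γ => (z : CongruenceSubgroup.Gamma0 L → A) ⟨(γ : SL(2, ℤ)),
          gamma0_le hLL' γ.2⟩,
        fun g h => by
          rw [chr_one_apply]
          have h' := z.2 ⟨_, gamma0_le hLL' g.2⟩ ⟨_, gamma0_le hLL' h.2⟩
          rw [chr_one_apply] at h'
          exact h'⟩
      map_add' := fun _ _ => rfl
      map_smul' := fun _ _ => rfl }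
    (by
      rintro _ ⟨a, rfl⟩
      exact ⟨a, Subtype.ext (funext fun γ => by simp [chr_one_apply])⟩)

end Rank

variable {L D : ℕ} [NeZero L] (hD : D ∣ L) (S : Finset ℕ)

/-- A congruent system of a component makes the residual congruent part nonzero. -/
theorem finrank_pos_of_system {A : Type} [CommRing A] [IsNoetherianRing A]
    (h2 : IsUnit (2 : A)) (h3 : EllipticOK A L) {k : Type} [Field k] (κ : A →+* k)
    (hκ : Function.Surjective κ) (ψ : DirichletCharacter A D) (abar : ℕ → k)
    (hLS : ∀ q : ℕ, q.Prime → q ∣ L → q ∈ S) {K : Type} [Field K] [CharZero K] [IsAlgClosed K]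
    (φ : A →+* K) {a : ℕ → K} (ha : HasSystem hD (ψ.ringHomComp φ) S a)
    (hcong : IsCongruent φ κ abar S a) :
    0 < Module.finrank k (LocCoh hD (ψ.ringHomComp κ) k S (residualIdeal (RingHom.id k) abar S)) := by
  haveI := finite_cohL (M := k) hD (ψ.ringHomComp κ)
  by_contra hpos
  have hsub : ∀ x : CohL hD (ψ.ringHomComp κ) k,
      x ∈ locKer hD (ψ.ringHomComp κ) k S (residualIdeal (RingHom.id k) abar S) := fun x => by
    haveI : Subsingleton (LocCoh hD (ψ.ringHomComp κ) k S
        (residualIdeal (RingHom.id k) abar S)) :=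
      Module.finrank_zero_iff.1 (Nat.le_zero.1 (not_lt.1 hpos))
    exact (Submodule.Quotient.mk_eq_zero _).1 (Subsingleton.elim _ _)
  obtain ⟨t, ht, htx⟩ := Rank.exists_kill_locKer (hD := hD) (ψ := ψ.ringHomComp κ) (M := k)
    (P := residualIdeal (RingHom.id k) abar S)
  obtain ⟨T, rfl⟩ := MvPolynomial.map_surjective κ hκ t
  have hTP : T ∉ residualIdeal κ abar S := Rank.notMem_residualIdeal ht
  haveI := finite_cohL (M := A) hD ψ
  have h3' := Rank.ellipticOK h3 dvd_rfl
  have hrange : LinearMap.range (act hD ψ A S T) ≤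
      RingHom.ker κ • (⊤ : Submodule A (CohL hD ψ A)) := by
    rintro _ ⟨x, rfl⟩
    refine Rank.mem_smul_top_of_map_eq_zero h2 h3' hκ (chr_ringHomComp κ hD ψ) _ ?_
    show Rank.coeffMap κ hD ψ (act hD ψ A S T x) = 0
    rw [Rank.comm_act (Rank.coeffMap κ hD ψ) (fun ℓ y => Rank.coeffMap_heckeT' κ hD ψ ℓ.1 y)]
    exact htx _ (hsub _)
  obtain ⟨p, hmon, -, hcoeff, hp⟩ :=
    LinearMap.exists_monic_and_natDegree_eq_and_coeff_mem_pow_and_aeval_eq_zero A
      (act hD ψ A S T) (RingHom.ker κ) hrange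
  set s₁ := Polynomial.aeval T p with hs₁
  have hs₁P : s₁ ∉ residualIdeal κ abar S := by
    rw [residualIdeal, RingHom.mem_ker] at hTP ⊢
    rw [hs₁, Polynomial.aeval_def, Polynomial.hom_eval₂,
      show (evalSystem κ abar S).comp (algebraMap A (HeckePoly A S)) = κ
        from RingHom.ext fun c => by simp [evalSystem, MvPolynomial.algebraMap_eq],
      Polynomial.eval₂_eq_sum_range, Finset.sum_range_succ, Finset.sum_eq_zero, zero_add,
      Polynomial.Monic.coeff_natDegree hmon, map_one, one_mul]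
    · exact pow_ne_zero _ hTP
    · intro i hi
      rw [Finset.mem_range] at hi
      have := Ideal.pow_le_self (by omega) (hcoeff i)
      rw [RingHom.mem_ker.1 this, zero_mul]
  have hs₁0 : act hD ψ A S s₁ = 0 := by rw [hs₁, ← Polynomial.aeval_algHom_apply, hp]
  obtain ⟨x, hx0, hx⟩ := ha
  have hkill : act hD (ψ.ringHomComp φ) K S (MvPolynomial.map φ s₁) x = 0 := by
    refine Submodule.span_induction ?_ (map_zero _) (fun y z _ _ hy hz => by
      rw [map_add, hy, hz, add_zero]) (fun c y _ hy => by rw [map_smul, hy, smul_zero])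
      (Rank.mem_span_range_coeffMap h2 h3' ψ φ x)
    rintro _ ⟨y, rfl⟩
    rw [← Rank.comm_act (Rank.coeffMap φ hD ψ)
      (fun ℓ y => Rank.coeffMap_heckeT' φ hD ψ ℓ.1 y), hs₁0, LinearMap.zero_apply, map_zero]
  rw [Rank.act_eigen (a := a) fun ℓ => hx ℓ.1 ℓ.2.1 ℓ.2.2, Rank.evalSystem_map,
    smul_eq_zero] at hkill
  exact hs₁P (hcong (RingHom.mem_ker.2 (hkill.resolve_right hx0)))

/-- The trivial character does not depend on its modulus. -/
theorem finrank_locCoh_one {k : Type} [Field k] (abar : ℕ → k)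
    (hLS : ∀ q : ℕ, q.Prime → q ∣ L → q ∈ S) :
    Module.finrank k (LocCoh hD (1 : DirichletCharacter k D) k S
        (residualIdeal (RingHom.id k) abar S)) =
      Module.finrank k (LocCoh (one_dvd L) (1 : DirichletCharacter k 1) k S
        (residualIdeal (RingHom.id k) abar S)) := by
  set e₁ := Rank.trivMap (RingHom.id k) hD (one_dvd L)
  set e₂ := Rank.trivMap (RingHom.id k) (one_dvd L) hD
  have h12 : ∀ x, e₂ (e₁ x) = x := fun x => by
    obtain ⟨z, rfl⟩ := Coh.mk_surjective x; rfl
  have h21 : ∀ x, e₁ (e₂ x) = x := fun x => by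
    obtain ⟨z, rfl⟩ := Coh.mk_surjective x; rfl
  let e : CohL hD (1 : DirichletCharacter k D) k ≃ₗ[k]
      CohL (one_dvd L) (1 : DirichletCharacter k 1) k :=
    LinearEquiv.ofLinear e₁ e₂ (LinearMap.ext h21) (LinearMap.ext h12)
  have hcomm : ∀ (t : HeckePoly k S) x,
      e₁ (act hD (1 : DirichletCharacter k D) k S t x) =
        act (one_dvd L) (1 : DirichletCharacter k 1) k S t (e₁ x) := by
    intro t x
    rw [Rank.comm_act e₁ (fun ℓ y => Rank.trivMap_heckeT' _ _ _ ℓ.2.1
      (fun h => ℓ.2.2 (hLS _ ℓ.2.1 (h.trans hD))) (fun h => ℓ.2.1.ne_one (Nat.dvd_one.1 h)) y),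
      MvPolynomial.map_id]
  refine (Submodule.Quotient.equiv _ _ e ?_).finrank_eq
  apply le_antisymm
  · rintro _ ⟨x, ⟨t, ht, hx⟩, rfl⟩
    exact ⟨t, ht, (hcomm t x).symm.trans (by rw [hx, map_zero])⟩
  · rintro y ⟨t, ht, hy⟩
    refine ⟨e₂ y, ⟨t, ht, ?_⟩, h21 y⟩
    rw [← h12 (act hD (1 : DirichletCharacter k D) k S t (e₂ y)), hcomm, h21, hy, map_zero]

/-- The rank is bounded independently of the excluded primes. -/
theorem finrank_locCoh_le {k : Type} [Field k] (ψ : DirichletCharacter k D) (abar : ℕ → k) :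
    Module.finrank k (LocCoh hD ψ k S (residualIdeal (RingHom.id k) abar S)) ≤
      Module.finrank k (CohL hD ψ k) := by
  haveI := finite_cohL (M := k) hD ψ
  exact Submodule.finrank_quotient_le _

/-- Systems with trivial character persist at higher level. -/
theorem hasSystem_of_dvd {L' : ℕ} [NeZero L'] (hLL' : L ∣ L') {K : Type} [Field K] [CharZero K]
    (hLS : ∀ q : ℕ, q.Prime → q ∣ L' → q ∈ S) {a : ℕ → K}
    (ha : HasSystem (one_dvd L) (1 : DirichletCharacter K 1) S a) :
    HasSystem (one_dvd L') (1 : DirichletCharacter K 1) S a := by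
  obtain ⟨x, hx0, hx⟩ := ha
  refine ⟨Rank.resOne hLL' K x, fun h => hx0 ?_, fun ℓ hℓ hℓS => ?_⟩
  · obtain ⟨z, rfl⟩ := Coh.mk_surjective x
    rw [Rank.resOne, Coh.mk, Submodule.mkQ_apply, Submodule.mapQ_apply] at h
    have h0 := (Rank.mk_one_eq_zero (one_dvd L')).1 h
    rw [Rank.mk_one_eq_zero]
    refine Subtype.ext (funext fun g => ?_)
    obtain ⟨n, hn, -, hg⟩ := Subgroup.exists_pow_mem_of_index_ne_zero
      (CongruenceSubgroup.Gamma0 L').index_ne_zero_of_finite (g : SL(2, ℤ))
    have hpow : ∀ j : ℕ, (z : CongruenceSubgroup.Gamma0 L → K) (g ^ j) = (j : K) * (z : CongruenceSubgroup.Gamma0 L → K) g := by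
      intro j
      induction j with
      | zero => simp [cocycle_one]
      | succ j ih =>
        rw [pow_succ, z.2, Rank.chr_one_apply, one_smul, ih]; push_cast; ring
    have hz : (z : CongruenceSubgroup.Gamma0 L → K) (g ^ n) = 0 := congrFun (congrArg Subtype.val h0) ⟨_, hg⟩
    rw [hpow, mul_eq_zero] at hz
    exact hz.resolve_left (Nat.cast_ne_zero.2 hn.ne')
  · haveI : Fact ℓ.Prime := ⟨hℓ⟩
    have hℓL' : ¬ ℓ ∣ L' := fun h => hℓS (hLS ℓ hℓ h)
    have hℓL : ¬ ℓ ∣ L := fun h => hℓL' (h.trans hLL')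
    have hℓ1 : ¬ ℓ ∣ 1 := fun h => hℓ.ne_one (Nat.dvd_one.1 h)
    rw [← map_smul, ← hx ℓ hℓ hℓS]
    obtain ⟨z, rfl⟩ := Coh.mk_surjective x
    rw [heckeT'_eq (one_dvd L) _ K hℓ1, heckeT'_eq (one_dvd L') _ K hℓ1, OpData.op_mk]
    simp only [Rank.resOne, Coh.mk, Submodule.mkQ_apply, Submodule.mapQ_apply]
    refine congrArg _ (Subtype.ext (funext fun γ => ?_))
    set h' := heckeOpData (one_dvd L') (1 : DirichletCharacter K 1) (Fact.out : ℓ.Prime) hℓ1
    let e : HeckeCohom.HeckeIdx L ℓ ≃ HeckeCohom.HeckeIdx L' ℓ :=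
      Equiv.subtypeEquivRight fun _ => ⟨fun _ _ => hℓL', fun _ _ => hℓL⟩
    show _ = ((heckeOpData (one_dvd L) (1 : DirichletCharacter K 1) (Fact.out : ℓ.Prime)
      hℓ1).opCocycle K z : CongruenceSubgroup.Gamma0 L → K)
        ⟨(γ : SL(2, ℤ)), Rank.gamma0_le hLL' γ.2⟩
    rw [OpData.opCocycle_eq_sum _ z _
      (fun i => ⟨((h'.step γ (e i)) : SL(2, ℤ)),
        Rank.gamma0_le hLL' (h'.step γ (e i)).2⟩)
      (fun i => e.symm (h'.perm γ (e i))) (fun i => h'.spec γ (e i))]
    exact (Fintype.sum_equiv e _ _ fun i => rfl).symm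

set_option maxHeartbeats 1000000 in
/-- **Rank bound.**  If no congruent system in characteristic zero at level `L q` satisfies
`U'_q² = 1`, the residual congruent rank at most doubles from `L` to `L q`. -/
theorem finrank_loc_mul_le {O : Type} [CommRing O] [IsDomain O] [IsDiscreteValuationRing O]
    (h2 : IsUnit (2 : O)) (h3 : EllipticOK O L) {K : Type} [Field K] [CharZero K] [IsAlgClosed K]
    (ι : O →+* K) (hι : Function.Injective ι) (abar : ℕ → ResidueField O) {q : ℕ} [NeZero q]
    (hq : q.Prime) (hqL : ¬ q ∣ L) (hLS : ∀ x : ℕ, x.Prime → x ∣ L * q → x ∈ S)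
    (hker : ∀ (a : ℕ → K) (x : CohL (one_dvd (L * q)) (1 : DirichletCharacter K 1) K), x ≠ 0 →
      heckeT' (one_dvd (L * q)) (1 : DirichletCharacter K 1) K q
          (heckeT' (one_dvd (L * q)) (1 : DirichletCharacter K 1) K q x) = x →
      (∀ ℓ : ℕ, ℓ.Prime → ℓ ∉ S →
        heckeT' (one_dvd (L * q)) (1 : DirichletCharacter K 1) K ℓ x = a ℓ • x) →
      ¬ IsCongruent ι (residue O) abar S a) :
    Module.finrank (ResidueField O)
        (LocCoh (one_dvd (L * q)) (1 : DirichletCharacter (ResidueField O) 1) (ResidueField O) S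
          (residualIdeal (RingHom.id _) abar S)) ≤
      2 * Module.finrank (ResidueField O)
        (LocCoh (one_dvd L) (1 : DirichletCharacter (ResidueField O) 1) (ResidueField O) S
          (residualIdeal (RingHom.id _) abar S)) := by
  have hLS' : ∀ x : ℕ, x.Prime → x ∣ L → x ∈ S := fun x hx h =>
    hLS x hx (h.mul_right q)
  have h1 : ∀ {ℓ : ℕ}, ℓ.Prime → ¬ ℓ ∣ 1 := fun h h' => h.ne_one (Nat.dvd_one.1 h')
  set oO : DirichletCharacter O 1 := 1
  set ok : DirichletCharacter (ResidueField O) 1 := 1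
  haveI := finite_cohL (M := O) (one_dvd L) oO
  haveI := finite_cohL (M := O) (one_dvd (L * q)) oO
  haveI := finite_cohL (M := ResidueField O) (one_dvd L) ok
  haveI := finite_cohL (M := ResidueField O) (one_dvd (L * q)) ok
  haveI := Rank.free_cohL_one (L := L) (O := O)
  haveI := Rank.free_cohL_one (L := L * q) (O := O)
  obtain ⟨f, hf, hU⟩ := exists_lowering (M := O) (one_dvd L) oO hq hqL
  -- an operator killing the new part
  set ι' := Rank.trivMap ι (one_dvd (L * q)) (one_dvd (L * q))
  set W := Submodule.span K (ι' '' (LinearMap.ker f : Set _))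
  have hqS : q ∈ S := hLS q hq (dvd_mul_left q L)
  have hne : ∀ ℓ : GoodPrime S, (ℓ.1 : ℕ) ≠ q := fun ℓ h => ℓ.2.2 (h ▸ hqS)
  obtain ⟨s, hs, hsW⟩ := Rank.exists_kill_of_not_congruent (residue O) abar ι
    (1 : DirichletCharacter K 1) W (S := S) (fun ℓ x hx => by
      refine Submodule.span_induction ?_ (by simp) (fun y z _ _ hy hz => by
        rw [map_add]; exact W.add_mem hy hz) (fun c y _ hy => by
        rw [map_smul]; exact W.smul_mem c hy) hx
      rintro _ ⟨y, hy, rfl⟩
      rw [← Rank.trivMap_heckeT' ι _ _ ℓ.2.1 (h1 ℓ.2.1) (h1 ℓ.2.1)]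
      refine Submodule.subset_span ⟨_, ?_, rfl⟩
      rw [SetLike.mem_coe, LinearMap.mem_ker] at hy ⊢
      rw [hf ℓ.1 ℓ.2.1 (hne ℓ) y, hy]
      simp)
    (fun a x hx hx0 hxa => hker a x hx0 (by
      refine Submodule.span_induction ?_ (by simp) (fun y z _ _ hy hz => by
        simp only [map_add, hy, hz]) (fun c y _ hy => by simp only [map_smul, hy]) hx
      rintro _ ⟨y, hy, rfl⟩
      rw [← Rank.trivMap_heckeT' ι _ _ hq (h1 hq) (h1 hq),
        ← Rank.trivMap_heckeT' ι _ _ hq (h1 hq) (h1 hq), hU y hy])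
      fun ℓ hℓ hℓS => hxa ⟨ℓ, hℓ, hℓS⟩)
  have hskill : ∀ y, f y = 0 → act (one_dvd (L * q)) oO O S s y = 0 := by
    intro y hy
    apply Rank.trivMap_injective ι (one_dvd (L * q)) (one_dvd (L * q)) hι
    rw [Rank.comm_act (Rank.trivMap ι (one_dvd (L * q)) (one_dvd (L * q)))
      (fun ℓ z => Rank.trivMap_heckeT' ι _ _ ℓ.2.1 (h1 ℓ.2.1) (h1 ℓ.2.1) z), map_zero]
    exact hsW _ (Submodule.subset_span ⟨y, hy, rfl⟩)
  -- normalise it, and kill the non-congruent parts
  obtain ⟨u₁, hu₁, hu₁x⟩ := Rank.exists_kill_locKer (hD := one_dvd L) (ψ := ok)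
    (M := ResidueField O) (P := residualIdeal (RingHom.id (ResidueField O)) abar S)
  obtain ⟨u₂, hu₂, hu₂x⟩ := Rank.exists_kill_locKer (hD := one_dvd (L * q)) (ψ := ok)
    (M := ResidueField O) (P := residualIdeal (RingHom.id (ResidueField O)) abar S)
  obtain ⟨v₁, rfl⟩ := MvPolynomial.map_surjective (residue O) residue_surjective u₁
  obtain ⟨v₂, rfl⟩ := MvPolynomial.map_surjective (residue O) residue_surjective u₂
  have hv : evalSystem (residue O) abar S (v₁ * v₂ * s) ≠ 0 := by
    rw [map_mul, map_mul]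
    exact mul_ne_zero (mul_ne_zero (Rank.notMem_residualIdeal hu₁)
      (Rank.notMem_residualIdeal hu₂)) hs
  obtain ⟨c, hc⟩ := residue_surjective (evalSystem (residue O) abar S (v₁ * v₂ * s))⁻¹
  set t := MvPolynomial.C c * (v₁ * v₂ * s)
  have htr : evalSystem (RingHom.id (ResidueField O)) abar S
      (MvPolynomial.map (residue O) t) = 1 := by
    rw [Rank.evalSystem_map, map_mul,
      show evalSystem (residue O) abar S (MvPolynomial.C c) = residue O c by simp [evalSystem],
      hc, inv_mul_cancel₀ hv]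
  have hk₁ : ∀ x ∈ locKer (one_dvd L) ok (ResidueField O) S
      (residualIdeal (RingHom.id _) abar S),
      act (one_dvd L) ok (ResidueField O) S (MvPolynomial.map (residue O) t) x = 0 := by
    intro x hx
    exact Rank.act_eq_zero_of_dvd
      (map_dvd (MvPolynomial.map (residue O)) (((dvd_mul_right v₁ v₂).mul_right s).mul_left (MvPolynomial.C c)))
      (hu₁x x hx)
  have hk₂ : ∀ x ∈ locKer (one_dvd (L * q)) ok (ResidueField O) S
      (residualIdeal (RingHom.id _) abar S),
      act (one_dvd (L * q)) ok (ResidueField O) S (MvPolynomial.map (residue O) t) x = 0 := by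
    intro x hx
    exact Rank.act_eq_zero_of_dvd
      (map_dvd (MvPolynomial.map (residue O)) (((dvd_mul_left v₂ v₁).mul_right s).mul_left (MvPolynomial.C c)))
      (hu₂x x hx)
  set T₁ := act (one_dvd (L * q)) oO O S t
  set T₀ := act (one_dvd L) oO O S t
  have hTker : ∀ y, f y = 0 → T₁ y = 0 := fun y hy => by
    simp only [T₁, t, ← mul_assoc, map_mul, Module.End.mul_apply, hskill y hy, map_zero]
  have hfT : ∀ y, f (T₁ y) = (T₀.prodMap T₀) (f y) := fun y => by
    refine Prod.ext ?_ ?_
    · have := Rank.comm_act (S := S) ((LinearMap.fst O _ _).comp f)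
        (fun ℓ z => congrArg Prod.fst (hf ℓ.1 ℓ.2.1 (hne ℓ) z)) t y
      rwa [MvPolynomial.map_id] at this
    · have := Rank.comm_act (S := S) ((LinearMap.snd O _ _).comp f)
        (fun ℓ z => congrArg Prod.snd (hf ℓ.1 ℓ.2.1 (hne ℓ) z)) t y
      rwa [MvPolynomial.map_id] at this
  have hdvd : T₁.charpoly ∣ Polynomial.X ^ T₁.charpoly.natDegree * (T₀.prodMap T₀).charpoly := by
    letI : Algebra O K := ι.toAlgebra
    haveI : Module.IsTorsionFree O K := by
      rw [Module.isTorsionFree_iff_algebraMap_injective]; exact hι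
    set C₁ := T₁.charpoly
    set C₀ := (T₀.prodMap T₀).charpoly
    have hC₁ : C₁.Monic := LinearMap.charpoly_monic _
    have hC₀ : C₀.Monic := LinearMap.charpoly_monic _
    rw [← Polynomial.map_dvd_map ι hι hC₁, Polynomial.map_mul, Polynomial.map_pow,
      Polynomial.map_X]
    rw [(IsAlgClosed.splits _).dvd_iff_roots_le_roots (hC₁.map ι).ne_zero
      (mul_ne_zero (pow_ne_zero _ Polynomial.X_ne_zero) (hC₀.map ι).ne_zero)]
    classical
    refine Multiset.le_iff_count.2 fun μ => ?_
    rw [Polynomial.count_roots, Polynomial.count_roots,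
      Polynomial.rootMultiplicity_mul (mul_ne_zero (pow_ne_zero _ Polynomial.X_ne_zero)
        (hC₀.map ι).ne_zero)]
    rcases eq_or_ne μ 0 with rfl | hμ
    · rw [show Polynomial.rootMultiplicity (0 : K) (Polynomial.X ^ C₁.natDegree) = C₁.natDegree
        by simpa using Polynomial.rootMultiplicity_X_sub_C_pow (0 : K) C₁.natDegree,
        ← Polynomial.count_roots]
      exact ((Multiset.count_le_card _ _).trans
        ((Polynomial.card_roots' _).trans Polynomial.natDegree_map_le)).trans (Nat.le_add_right _ _)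
    · refine le_add_left ?_
      have e₁ : C₁.map ι = (T₁.baseChange K).charpoly := (T₁.charpoly_baseChange K).symm
      have e₀ : C₀.map ι = ((T₀.prodMap T₀).baseChange K).charpoly :=
        ((T₀.prodMap T₀).charpoly_baseChange K).symm
      rw [e₁, e₀]
      refine Rank.rootMultiplicity_le (f.baseChange K) _ _ (fun x => ?_) (fun x hx => ?_) hμ
      · rw [← LinearMap.comp_apply, ← LinearMap.baseChange_comp,
          show f ∘ₗ T₁ = (T₀.prodMap T₀) ∘ₗ f from LinearMap.ext hfT,
          LinearMap.baseChange_comp]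
        rfl
      · rw [LinearMap.baseChange_eq_ltensor] at hx
        obtain ⟨w, rfl⟩ :=
          (Module.Flat.lTensor_exact K f.exact_subtype_ker_map x).1 hx
        rw [LinearMap.baseChange_eq_ltensor, ← LinearMap.comp_apply, ← LinearMap.lTensor_comp,
          show T₁ ∘ₗ (LinearMap.ker f).subtype = 0 from LinearMap.ext fun y => hTker y.1 y.2]
        simp
  have h3' := Rank.ellipticOK h3 (dvd_refl L)
  have h3'' := Rank.ellipticOK h3 (dvd_mul_right L q)
  rw [← Rank.rootMultiplicity_eq htr hk₁, ← Rank.rootMultiplicity_eq htr hk₂,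
    Rank.charpoly_reduction h2 h3' hLS' t, Rank.charpoly_reduction h2 h3'' hLS t]
  have hd := Polynomial.map_dvd (residue O) hdvd
  rw [LinearMap.charpoly_prodMap, Polynomial.map_mul, Polynomial.map_mul, Polynomial.map_pow,
    Polynomial.map_X] at hd
  have h₀ := ((LinearMap.charpoly_monic T₀).map (residue O)).ne_zero
  refine (Polynomial.rootMultiplicity_le_rootMultiplicity_of_dvd
    (mul_ne_zero (pow_ne_zero _ Polynomial.X_ne_zero) (mul_ne_zero h₀ h₀)) hd 1).trans ?_
  rw [Polynomial.rootMultiplicity_mul (mul_ne_zero (pow_ne_zero _ Polynomial.X_ne_zero)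
    (mul_ne_zero h₀ h₀)), Polynomial.rootMultiplicity_mul (mul_ne_zero h₀ h₀),
    Polynomial.rootMultiplicity_eq_zero (by simp), zero_add, two_mul]

end Fermat.Agent.Ribet.Avoid
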