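/-
The modules of the patching.
-/
import Fermat.Agent.Ribet.Avoid.ModuleFree
import Fermat.Agent.Ribet.Avoid.ModuleNilpotent
import Fermat.Agent.Ribet.Avoid.ModuleRank
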