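/-
Descent: a congruent system of a component makes the trivial residual rank positive, the
auxiliary primes do not create congruent systems, and a positive residual rank gives a congruent
system in characteristic zero.
-/
import Fermat.Agent.Ribet.Avoid.Universal
import Fermat.Agent.Ribet.Avoid.Kernel
import Fermat.Agent.Ribet.Avoid.Transport
import Fermat.Agent.Ribet.Avoid.Module

set_option autoImplicit false

noncomputable section

namespace Fermat.Agent.Ribet.Avoid

open IsLocalRing Twisted

namespace Setup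

variable (s : Setup)

theorem isUnit_natCast_of_not_dvd {m : ℕ} (hm : ¬ s.p ∣ m) : IsUnit (m : s.O) := by
  rw [← IsLocalRing.notMem_maximalIdeal]
  intro h
  have hcop : Nat.Coprime m s.p := ((Nat.Prime.coprime_iff_not_dvd s.hp.out).mpr hm).symm
  obtain ⟨a, b, hab⟩ := Nat.isCoprime_iff_coprime.mpr hcop
  refine (maximalIdeal.isMaximal s.O).ne_top ((Ideal.eq_top_iff_one _).mpr ?_)
  have h1 : ((a * (m : ℤ) + b * (s.p : ℤ) : ℤ) : s.O) ∈ maximalIdeal s.O := by
    push_cast
    exact add_mem (Ideal.mul_mem_left _ _ h) (Ideal.mul_mem_left _ _ s.hpO)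
  rw [hab, Int.cast_one] at h1
  exact h1

theorem not_p_dvd_two : ¬ s.p ∣ 2 := fun h =>
  s.hp2 ((Nat.prime_dvd_prime_iff_eq s.hp.out Nat.prime_two).mp h)

theorem isUnit_two' (A : Type*) [CommRing A] [Algebra s.O A] : IsUnit (2 : A) := by
  have h := (s.isUnit_natCast_of_not_dvd s.not_p_dvd_two).map (algebraMap s.O A)
  rwa [map_natCast, Nat.cast_ofNat] at h

theorem ellipticOK (A : Type*) [CommRing A] [Algebra s.O A] {L : ℕ} (hL : s.base ∣ L) :
    EllipticOK A L := by
  by_cases h3 : s.p = 3
  · obtain ⟨x, hx, hxp, hxd⟩ := s.hthree h3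
    refine Or.inr ⟨x, hx, hxp, dvd_trans ?_ hL⟩
    rcases hxd with h | h
    · exact (h.trans (dvd_mul_right _ _)).trans (dvd_mul_right _ _)
    · exact dvd_mul_of_dvd_left (dvd_mul_of_dvd_right (Finset.dvd_prod_of_mem (fun x => x) h) _) _
  · refine Or.inl ?_
    have h := (s.isUnit_natCast_of_not_dvd (m := 3) fun h =>
      h3 ((Nat.prime_dvd_prime_iff_eq s.hp.out Nat.prime_three).mp h)).map (algebraMap s.O A)
    rwa [map_natCast, Nat.cast_ofNat] at h

theorem hasNonEisenstein {k' : Type*} [Field k'] (e : s.k →+* k') (D : ℕ) [NeZero D]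
    (S : Finset ℕ) : HasNonEisenstein D (fun ℓ => e (s.abar ℓ)) S := by
  obtain ⟨ℓ, hℓ, hℓS, hℓD, hℓ1, hℓ2⟩ := s.hEis D S (NeZero.pos D)
  refine ⟨ℓ, hℓ, hℓS, hℓD, fun h => hℓ2 (e.injective ?_)⟩
  rw [show e (s.abar ℓ) = (ℓ : k') + 1 from h, ← map_natCast e, hℓ1, map_one, map_ofNat,
    one_add_one_eq_two]

theorem algebraMap_K_injective : Function.Injective (algebraMap s.O s.K) := by
  rw [IsScalarTower.algebraMap_eq s.O (FractionRing s.O) s.K]
  exact (algebraMap (FractionRing s.O) s.K).injective.comp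
    (IsFractionRing.injective s.O (FractionRing s.O))

/-- A positive residual rank gives a congruent system in characteristic zero. -/
theorem exists_system_of_finrank_pos {L : ℕ} [NeZero L] (hL : s.base ∣ L) (S : Finset ℕ)
    (hLS : ∀ q : ℕ, q.Prime → q ∣ L → q ∈ S)
    (h : 0 < Module.finrank s.k (LocCoh (one_dvd L) (1 : DirichletCharacter s.k 1) s.k S
      (residualIdeal (RingHom.id s.k) s.abar S))) :
    ∃ a : ℕ → s.K, HasSystem (one_dvd L) (1 : DirichletCharacter s.K 1) S a ∧
      IsCongruent (algebraMap s.O s.K) (residue s.O) s.abar S a := by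
  by_contra hno
  push Not at hno
  haveI : Subsingleton (ZMod 1) := inferInstance
  set κ' : s.k →+* ResidueField s.k := residue s.k
  set abar' : ℕ → ResidueField s.k := fun ℓ => κ' (s.abar ℓ)
  have h0 := locAct_pow_eq_zero (one_dvd L) S (residue s.O) residue_surjective (s.isUnit_two' s.O)
    (s.ellipticOK s.O hL) (1 : DirichletCharacter s.O 1) abar' hLS
    (s.hasNonEisenstein κ' 1 S) (J := Unit) (fun _ => algebraMap s.O s.K)
    (fun x hx => (map_eq_zero_iff _ s.algebraMap_K_injective).mp (hx ()))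
    (1 : HeckePoly s.O S)
    (fun _ a ha hc => by
      rw [MulChar.ringHomComp_one] at ha
      refine absurd ?_ (hno a ha)
      unfold IsCongruent at hc ⊢
      rwa [residualIdeal_comp] at hc)
  rw [map_one, map_one, one_pow, MulChar.ringHomComp_one] at h0
  haveI : Subsingleton (LocCoh (one_dvd L) (1 : DirichletCharacter s.k 1) s.k S
      (residualIdeal κ' abar' S)) :=
    ⟨fun x y => by
      have hx : x = 0 := LinearMap.congr_fun h0 x
      have hy : y = 0 := LinearMap.congr_fun h0 y
      rw [hx, hy]⟩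
  have hP : residualIdeal κ' abar' S = residualIdeal (RingHom.id s.k) s.abar S := by
    rw [show κ' = κ'.comp (RingHom.id s.k) by simp, residualIdeal_comp]
  rw [← finrank_locCoh_congr (one_dvd L) (1 : DirichletCharacter s.k 1) S _ _ hP s.k,
    Module.finrank_zero_of_subsingleton] at h
  exact lt_irrefl 0 h

end Setup

section Congruence

variable {s : Setup} {r : ℕ}

/-- Evaluating a system over the universal coefficients gives integral values over the Hecke
polynomials over `O`. -/
theorem isIntegral_evalSystem_univ {P : ℕ} [NeZero P] (u : Fin r → s.K) (hu : ∀ i, u i ^ P = 1)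
    (S : Finset ℕ) (a : ℕ → s.K) (t : HeckePoly (Univ s.O P r) S) :
    IsIntegral (evalSystem (algebraMap s.O s.K) a S).range
      (evalSystem (Univ.eval (O := s.O) u hu).toRingHom a S t) := by
  set B := (evalSystem (algebraMap s.O s.K) a S).range
  induction t using MvPolynomial.induction_on with
  | C c =>
    rw [evalSystem, MvPolynomial.eval₂Hom_C]
    induction c using MonoidAlgebra.induction_on with
    | of g =>
      show IsIntegral B (Univ.eval (O := s.O) u hu (MonoidAlgebra.of _ _ g))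
      rw [Univ.eval, MonoidAlgebra.lift_of]
      show IsIntegral B (∏ i, u i ^ (Multiplicative.toAdd (Multiplicative.ofAdd g) i).val)
      refine IsIntegral.prod (R := B) (A := s.K) _ fun i _ => ?_
      refine IsIntegral.pow ?_ _
      exact IsIntegral.of_pow (R := B) (Nat.pos_of_ne_zero (NeZero.ne P)) (by rw [hu i]; exact isIntegral_one)
    | add x y hx hy => rw [map_add]; exact hx.add hy
    | smul c x hx =>
      show IsIntegral B (Univ.eval (O := s.O) u hu (c • x))
      rw [map_smul, Algebra.smul_def]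
      refine IsIntegral.mul ?_ hx
      exact isIntegral_algebraMap (R := B) (A := s.K) (x := ⟨algebraMap s.O s.K c,
        MvPolynomial.C c, by simp [evalSystem]⟩)
  | add x y hx hy => rw [map_add]; exact hx.add hy
  | mul_X x ℓ hx =>
    rw [map_mul, evalSystem, MvPolynomial.eval₂Hom_X']
    refine IsIntegral.mul hx ?_
    exact isIntegral_algebraMap (R := B)
      (x := ⟨a ℓ.1, MvPolynomial.X ℓ, MvPolynomial.eval₂Hom_X' _ _ _⟩)

/-- Powers only see the augmentation modulo `p`. -/
theorem exists_pow_sub_eq {S : Finset ℕ} {m : ℕ}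
    (t : HeckePoly (Univ s.O (s.p ^ m) r) S) :
    ∃ e, t ^ s.p ^ m =
      MvPolynomial.map (algebraMap s.O (Univ s.O (s.p ^ m) r))
        (MvPolynomial.map (Univ.eval (O := s.O) (fun _ => (1 : s.O)) fun _ => one_pow _).toRingHom t)
          ^ s.p ^ m + s.p * e := by
  set A := Univ s.O (s.p ^ m) r
  set ε := (Univ.eval (O := s.O) (P := s.p ^ m) (r := r) (fun _ => (1 : s.O))
    fun _ => one_pow _).toRingHom
  set F : HeckePoly A S →+* HeckePoly A S :=
    (MvPolynomial.map (algebraMap s.O A)).comp (MvPolynomial.map ε)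
  show ∃ e, t ^ s.p ^ m = F t ^ s.p ^ m + s.p * e
  have hadd : ∀ x y : HeckePoly A S, (∃ e, x ^ s.p ^ m = F x ^ s.p ^ m + s.p * e) →
      (∃ e, y ^ s.p ^ m = F y ^ s.p ^ m + s.p * e) →
      ∃ e, (x + y) ^ s.p ^ m = F (x + y) ^ s.p ^ m + s.p * e := by
    rintro x y ⟨e₁, h₁⟩ ⟨e₂, h₂⟩
    obtain ⟨r₁, hr₁⟩ := exists_add_pow_prime_pow_eq s.hp.out x y m
    obtain ⟨r₂, hr₂⟩ := exists_add_pow_prime_pow_eq s.hp.out (F x) (F y) m
    exact ⟨e₁ + e₂ + x * y * r₁ - F x * F y * r₂, by rw [hr₁, map_add, hr₂, h₁, h₂]; ring⟩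
  induction t using MvPolynomial.induction_on with
  | C c =>
    induction c using MonoidAlgebra.induction_on with
    | of g =>
      refine ⟨0, ?_⟩
      rw [mul_zero, add_zero, RingHom.comp_apply, MvPolynomial.map_C, MvPolynomial.map_C,
        ← MvPolynomial.C_pow, ← MvPolynomial.C_pow]
      refine congrArg _ ?_
      have hg : (MonoidAlgebra.of s.O (UGroup (s.p ^ m) r) g) ^ s.p ^ m = 1 := by
        rw [← map_pow]
        convert map_one (MonoidAlgebra.of s.O (UGroup (s.p ^ m) r))
        refine Multiplicative.toAdd.injective (funext fun i => ?_)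
        simp [toAdd_pow]
      rw [hg]
      show 1 = algebraMap s.O A (Univ.eval (O := s.O) _ _ (MonoidAlgebra.of _ _ g)) ^ s.p ^ m
      rw [Univ.eval, MonoidAlgebra.lift_of]
      simp [Univ.groupHom]
    | add x y hx hy => rw [map_add]; exact hadd _ _ hx hy
    | smul c x hx =>
      obtain ⟨e, he⟩ := hx
      have hc : MvPolynomial.C (c • x) =
          (MvPolynomial.C (algebraMap s.O A c) : HeckePoly A S) * MvPolynomial.C x := by
        rw [← map_mul, ← Algebra.smul_def]
      have hFc : F (MvPolynomial.C (algebraMap s.O A c)) =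
          (MvPolynomial.C (algebraMap s.O A c) : HeckePoly A S) := by
        rw [RingHom.comp_apply, MvPolynomial.map_C, MvPolynomial.map_C]
        refine congrArg _ (congrArg _ ?_)
        exact (Univ.eval (O := s.O) (fun _ => (1 : s.O)) fun _ => one_pow _).commutes c
      refine ⟨MvPolynomial.C (algebraMap s.O A c) ^ s.p ^ m * e, ?_⟩
      rw [hc, mul_pow, map_mul F, mul_pow, hFc, he]
      ring
  | add x y hx hy => exact hadd x y hx hy
  | mul_X x ℓ hx =>
    obtain ⟨e, he⟩ := hx
    refine ⟨e * MvPolynomial.X ℓ ^ s.p ^ m, ?_⟩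
    rw [map_mul, show F (MvPolynomial.X ℓ) = MvPolynomial.X ℓ by simp [F], mul_pow, mul_pow, he]
    ring

/-- A congruent system stays congruent over the universal coefficients. -/
theorem isCongruent_univ {m : ℕ} (u : Fin r → s.K) (hu : ∀ i, u i ^ s.p ^ m = 1) (S : Finset ℕ)
    (a : ℕ → s.K) (ha : IsCongruent (algebraMap s.O s.K) (residue s.O) s.abar S a) :
    IsCongruent (Univ.eval (O := s.O) u hu).toRingHom
      ((residue s.O).comp (Univ.eval (O := s.O) (P := s.p ^ m) (r := r) (fun _ => (1 : s.O))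
        fun _ => one_pow _).toRingHom) s.abar S a := by
  intro t ht
  rw [RingHom.mem_ker] at ht
  set ε := (Univ.eval (O := s.O) (P := s.p ^ m) (r := r) (fun _ => (1 : s.O))
        fun _ => one_pow _).toRingHom
  set φA := (Univ.eval (O := s.O) u hu).toRingHom
  set t₀ := MvPolynomial.map ε t with ht₀
  suffices h : t₀ ∈ residualIdeal (residue s.O) s.abar S by
    rwa [← map_mem_residualIdeal ε (residue s.O) s.abar S t]
  obtain ⟨e, he⟩ := exists_pow_sub_eq t
  have hcomp : φA.comp (algebraMap s.O (Univ s.O (s.p ^ m) r)) = algebraMap s.O s.K :=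
    RingHom.ext fun c => (Univ.eval (O := s.O) u hu).commutes c
  have hev := congrArg (evalSystem φA a S) he
  rw [map_pow, ht, zero_pow (pow_ne_zero _ s.hp.out.ne_zero), map_add, map_pow, evalSystem_map,
    hcomp, map_mul, map_natCast, ← map_pow] at hev
  set x := t₀ ^ s.p ^ m
  set νO := evalSystem (algebraMap s.O s.K) a S
  obtain ⟨f, hfmonic, hf⟩ := (isIntegral_evalSystem_univ u hu S a e).neg
  set g := Polynomial.scaleRoots f (s.p : νO.range) with hg
  have hroot : Polynomial.eval₂ (algebraMap νO.range s.K) (νO x) g = 0 := by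
    have h := Polynomial.scaleRoots_eval₂_eq_zero (s := (s.p : νO.range)) _ hf
    rwa [map_natCast, mul_neg, show -((s.p : s.K) * evalSystem φA a S e) = νO x from
      (eq_neg_of_add_eq_zero_left hev.symm).symm] at h
  choose c hc using fun i => (f.coeff i).2
  have hdeg : g.natDegree = f.natDegree := Polynomial.natDegree_scaleRoots _ _
  have hsum : νO (x ^ f.natDegree + (s.p : HeckePoly s.O S) *
      ∑ i ∈ Finset.range f.natDegree, c i * (s.p : HeckePoly s.O S) ^ (f.natDegree - i - 1) * x ^ i)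
      = 0 := by
    rw [Polynomial.eval₂_eq_sum_range, hdeg, Finset.sum_range_succ] at hroot
    rw [map_add, map_pow, map_mul, map_natCast, map_sum, Finset.mul_sum]
    rw [add_comm] at hroot
    refine Eq.trans ?_ hroot
    congr 1
    · rw [Polynomial.coeff_scaleRoots, hfmonic.coeff_natDegree, Nat.sub_self, pow_zero, mul_one,
        map_one, one_mul]
    · refine Finset.sum_congr rfl fun i hi => ?_
      have hi' := Finset.mem_range.mp hi
      simp only [hg, Polynomial.coeff_scaleRoots, map_mul, map_pow, map_natCast]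
      rw [show νO (c i) = algebraMap νO.range s.K (f.coeff i) from hc i,
        show f.natDegree - i = (f.natDegree - i - 1) + 1 by omega, pow_succ,
        Nat.add_sub_cancel]
      ring
  have hmem : x ^ f.natDegree + (s.p : HeckePoly s.O S) *
      ∑ i ∈ Finset.range f.natDegree, c i * (s.p : HeckePoly s.O S) ^ (f.natDegree - i - 1) * x ^ i
      ∈ residualIdeal (residue s.O) s.abar S := ha hsum
  have hp : (s.p : HeckePoly s.O S) ∈ residualIdeal (residue s.O) s.abar S := by
    rw [residualIdeal, RingHom.mem_ker, map_natCast, ← map_natCast (residue s.O)]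
    exact (residue_eq_zero_iff _).mpr s.hpO
  have hx : x ^ f.natDegree ∈ residualIdeal (residue s.O) s.abar S :=
    (Ideal.add_mem_iff_left _ (Ideal.mul_mem_right _ _ hp)).mp hmem
  exact Ideal.IsPrime.mem_of_pow_mem inferInstance _
    (Ideal.IsPrime.mem_of_pow_mem inferInstance _ hx)

end Congruence

/-- A congruent system of a component whose character is residually trivial makes the trivial
residual rank positive. -/
theorem finrank_pos_of_component (s : Setup) {r m L D : ℕ} [NeZero L] [NeZero D]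
    (hL : s.base ∣ L) (hD : D ∣ L) (S : Finset ℕ) (hLS : ∀ q : ℕ, q.Prime → q ∣ L → q ∈ S)
    (ψ : DirichletCharacter (Univ s.O (s.p ^ m) r) D)
    (hψ : ψ.ringHomComp ((residue s.O).comp (Univ.eval (O := s.O) (P := s.p ^ m) (r := r)
      (fun _ => (1 : s.O)) fun _ => one_pow _).toRingHom) = 1)
    (u : Fin r → s.K) (hu : ∀ i, u i ^ s.p ^ m = 1) (a : ℕ → s.K)
    (ha : HasSystem hD (ψ.ringHomComp (Univ.eval (O := s.O) u hu).toRingHom) S a)
    (hc : IsCongruent (algebraMap s.O s.K) (residue s.O) s.abar S a) :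
    0 < Module.finrank s.k (LocCoh (one_dvd L) (1 : DirichletCharacter s.k 1) s.k S
      (residualIdeal (RingHom.id s.k) s.abar S)) := by
  have hsurj : Function.Surjective ((residue s.O).comp (Univ.eval (O := s.O) (P := s.p ^ m)
      (r := r) (fun _ => (1 : s.O)) fun _ => one_pow _).toRingHom) := fun y => by
    obtain ⟨c, rfl⟩ := residue_surjective y
    exact ⟨algebraMap s.O _ c, congrArg _
      ((Univ.eval (O := s.O) (fun _ => (1 : s.O)) fun _ => one_pow _).commutes c)⟩
  have h := finrank_pos_of_system hD S (s.isUnit_two' _) (s.ellipticOK _ hL) _ hsurj ψ s.abar hLS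
    _ ha (isCongruent_univ u hu S a hc)
  rwa [hψ, finrank_locCoh_one hD S s.abar hLS] at h

namespace AuxPrimes

variable {s : Setup} {r n : ℕ} (d : AuxPrimes s r n)

theorem q_coprime_prod {T : Finset (Fin r)} {i : Fin r} (hi : i ∉ T) :
    ¬ d.q i ∣ ∏ j ∈ T, d.q j := by
  intro h
  obtain ⟨j, hj, hj'⟩ := (Prime.dvd_finsetProd_iff (d.prime i).prime _).mp h
  exact hi (d.inj ((Nat.prime_dvd_prime_iff_eq (d.prime i) (d.prime j)).mp hj') ▸ hj)

/-- The residual rank at most doubles with each auxiliary prime. -/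
theorem finrank_mul_prod_le {N₀ : ℕ} [NeZero N₀] (hN : s.base ∣ N₀) (hsq : Squarefree N₀)
    (hNS : ∀ x : ℕ, x.Prime → x ∣ N₀ → x ∈ d.S) (hNq : ∀ i, ¬ d.q i ∣ N₀) (T : Finset (Fin r))
    (L : ℕ) [NeZero L] (hL : L = N₀ * ∏ i ∈ T, d.q i) :
    Module.finrank s.k (LocCoh (one_dvd L) (1 : DirichletCharacter s.k 1) s.k d.S
        (residualIdeal (RingHom.id s.k) s.abar d.S)) ≤
      2 ^ T.card * Module.finrank s.k (LocCoh (one_dvd N₀) (1 : DirichletCharacter s.k 1) s.k d.S
        (residualIdeal (RingHom.id s.k) s.abar d.S)) := by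
  classical
  induction T using Finset.induction generalizing L with
  | empty =>
    obtain rfl : L = N₀ := by simpa using hL
    simp
  | insert i T hi ih =>
    haveI : NeZero (d.q i) := ⟨(d.prime i).ne_zero⟩
    haveI : NeZero (∏ j ∈ T, d.q j) :=
      ⟨Finset.prod_ne_zero_iff.mpr fun j _ => (d.prime j).ne_zero⟩
    haveI : NeZero (N₀ * ∏ j ∈ T, d.q j) := ⟨mul_ne_zero (NeZero.ne _) (NeZero.ne _)⟩
    rw [Finset.prod_insert hi, mul_left_comm] at hL
    obtain rfl : L = (N₀ * ∏ j ∈ T, d.q j) * d.q i := by rw [hL, mul_comm]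
    have hqL : ¬ d.q i ∣ N₀ * ∏ j ∈ T, d.q j := fun h =>
      ((Nat.Prime.dvd_mul (d.prime i)).mp h).elim (hNq i) (d.q_coprime_prod hi)
    have hLS : ∀ x : ℕ, x.Prime → x ∣ (N₀ * ∏ j ∈ T, d.q j) * d.q i → x ∈ d.S := by
      intro x hx h
      rcases (Nat.Prime.dvd_mul hx).mp h with h | h
      · rcases (Nat.Prime.dvd_mul hx).mp h with h | h
        · exact hNS x hx h
        · obtain ⟨j, -, hj⟩ := (Prime.dvd_finsetProd_iff hx.prime _).mp h
          exact (Nat.prime_dvd_prime_iff_eq hx (d.prime j)).mp hj ▸ d.q_mem_S j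
      · exact (Nat.prime_dvd_prime_iff_eq hx (d.prime i)).mp h ▸ d.q_mem_S i
    have hsqT : ∀ T : Finset (Fin r), Squarefree (∏ j ∈ T, d.q j) := by
      intro T
      induction T using Finset.induction with
      | empty => simp
      | insert a T ha ih' =>
        rw [Finset.prod_insert ha]
        exact (Nat.squarefree_mul ((d.prime a).coprime_iff_not_dvd.mpr (d.q_coprime_prod ha))).mpr
          ⟨(d.prime a).squarefree, ih'⟩
    have hcop : Nat.Coprime N₀ (∏ j ∈ T, d.q j) := Nat.Coprime.prod_right fun j _ =>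
      ((d.prime j).coprime_iff_not_dvd.mpr (hNq j)).symm
    have hsq' : Squarefree ((N₀ * ∏ j ∈ T, d.q j) * d.q i) :=
      (Nat.squarefree_mul ((d.prime i).coprime_iff_not_dvd.mpr hqL).symm).mpr
        ⟨(Nat.squarefree_mul hcop).mpr ⟨hsq, hsqT T⟩, (d.prime i).squarefree⟩
    have hq1 : (d.q i : ZMod s.p) = 1 := by
      rw [← Nat.cast_one, ZMod.natCast_eq_natCast_iff]
      exact ((Nat.modEq_iff_dvd' (d.prime i).one_le).mpr
        ((dvd_pow_self s.p (Nat.succ_ne_zero n)).trans (d.dvd i))).symm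
    have h := finrank_loc_mul_le (L := N₀ * ∏ j ∈ T, d.q j) d.S (s.isUnit_two' s.O)
      (s.ellipticOK s.O (hN.trans (dvd_mul_right _ _))) (algebraMap s.O s.K)
      s.algebraMap_K_injective s.abar (d.prime i) hqL hLS
      (fun a x hx hU heig => not_isCongruent_of_sq_eq s d.S (fun _ hx => d.mem_S_of_mem hx) hLS
        hsq' (d.notMem i).1 (d.prime i) hq1 (d.distinct i) a x hx hU heig)
    refine h.trans ((Nat.mul_le_mul_left 2 (ih (N₀ * ∏ j ∈ T, d.q j) rfl)).trans (le_of_eq ?_))
    rw [Finset.card_insert_of_notMem hi, pow_succ]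
    ring

/-- No congruent system at the level `base · ∏ Q` if there is none at the level `base`. -/
theorem not_isCongruent_aux
    (hno : ∀ [NeZero s.base] (a : ℕ → s.K),
      HasSystem (one_dvd s.base) (1 : DirichletCharacter s.K 1) d.S a →
        ¬ IsCongruent (algebraMap s.O s.K) (residue s.O) s.abar d.S a)
    (hsq : Squarefree s.base) (hS : ∀ x : ℕ, x.Prime → x ∣ s.base → x ∈ d.S)
    (hq : ∀ i, ¬ d.q i ∣ s.base)
    (u : Fin r → s.K) (hu : ∀ i, u i ^ s.p ^ (n + 1) = 1) (a : ℕ → s.K)
    (ha : HasSystem d.DQ_dvd_LQ (d.auxChar u) d.S a) :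
    ¬ IsCongruent (algebraMap s.O s.K) (residue s.O) s.abar d.S a := by
  intro hc
  haveI : NeZero s.base := ⟨s.base_ne_zero⟩
  haveI : Fact (1 < s.p ^ (n + 1)) := ⟨Nat.one_lt_pow (Nat.succ_ne_zero n) s.hp.out.one_lt⟩
  set ψ := d.auxChar fun i => (Univ.gen i : Univ s.O (s.p ^ (n + 1)) r)
  have hg : ∀ i, (Univ.gen i : Univ s.O (s.p ^ (n + 1)) r) ^ s.p ^ (n + 1) = 1 :=
    fun i => Univ.gen_pow i
  have hLS : ∀ x : ℕ, x.Prime → x ∣ d.LQ → x ∈ d.S := by
    intro x hx h
    rcases (Nat.Prime.dvd_mul hx).mp h with h | h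
    · exact hS x hx h
    · obtain ⟨j, -, hj⟩ := (Prime.dvd_finsetProd_iff hx.prime _).mp h
      exact (Nat.prime_dvd_prime_iff_eq hx (d.prime j)).mp hj ▸ d.q_mem_S j
  have hpos := finrank_pos_of_component s (L := d.LQ) (dvd_mul_right _ _) d.DQ_dvd_LQ d.S hLS ψ
    (by
      rw [auxChar_ringHomComp d _ _ hg]
      simp only [RingHom.comp_apply, AlgHom.toRingHom_eq_coe, RingHom.coe_coe, Univ.eval_gen,
        map_one]
      exact d.auxChar_one)
    u hu a
    (by
      rw [auxChar_ringHomComp d _ _ hg]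
      simp only [AlgHom.toRingHom_eq_coe, RingHom.coe_coe, Univ.eval_gen]
      exact ha)
    hc
  have hle := d.finrank_mul_prod_le dvd_rfl hsq hS hq Finset.univ d.LQ rfl
  obtain ⟨b, hb, hbc⟩ := s.exists_system_of_finrank_pos dvd_rfl d.S hS
    (Nat.pos_of_ne_zero fun h0 => by rw [h0, mul_zero] at hle; omega)
  exact hno b hb hbc

end AuxPrimes

end Fermat.Agent.Ribet.Avoid
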