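/-
Congruent systems of a component are new at `p` in the ordinary case.
-/
import Fermat.Agent.Ribet.Avoid.Descent
import Fermat.Agent.Ribet.Twisted.Level

set_option autoImplicit false

noncomputable section

namespace Fermat.Agent.Ribet.Avoid

open IsLocalRing Twisted

namespace Setup

/-- The same residual data, forgetting that `p` is in the level. -/
abbrev awayP (s : Setup) : Setup :=
  { s with
    ordP := false
    hordP := fun h => absurd h Bool.false_ne_true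
    hnewP := fun h => absurd h Bool.false_ne_true }

theorem awayP_base (s : Setup) : s.awayP.base = s.M₀ * ∏ x ∈ s.Aux, x := by simp [base]

theorem p_not_mem_Sc (s : Setup) : s.p ∉ s.Sc := fun h => by
  have h1 := s.hone s.p h
  rw [ZMod.natCast_self] at h1
  exact zero_ne_one h1

end Setup

namespace AuxPrimes

variable {s : Setup} {r n : ℕ} (d : AuxPrimes s r n)

/-- The same auxiliary primes for the data without `p` in the level. -/
abbrev awayP : AuxPrimes s.awayP r n where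
  q := d.q
  inj := d.inj
  prime := d.prime
  notMem := d.notMem
  dvd := d.dvd
  distinct := d.distinct
  place := d.place
  frob := d.frob
  tau := d.tau
  gen := d.gen
  place_spec := d.place_spec

/-- The part of the level prime to `p` and to the auxiliary primes of the step. -/
def N₀ (s : Setup) : ℕ := s.M₀ * (∏ x ∈ s.Aux, x) * ∏ x ∈ s.Sc, x

/-- The level without `p`. -/
def L₀ : ℕ := s.M₀ * (∏ x ∈ s.Aux, x) * d.D

theorem prime_dvd_N₀ {x : ℕ} (hx : x.Prime) (h : x ∣ N₀ s) : x ∈ s.S₀ ∧ x ≠ s.p := by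
  rcases (Nat.Prime.dvd_mul hx).mp h with h | h
  · rcases (Nat.Prime.dvd_mul hx).mp h with h | h
    · exact ⟨s.hM₀S₀ x hx h, fun he => s.hpM₀ (he ▸ h)⟩
    · obtain ⟨y, hy, hxy⟩ := (Prime.dvd_finsetProd_iff hx.prime _).mp h
      obtain rfl := (Nat.prime_dvd_prime_iff_eq hx (s.hAuxPrime y hy).1).mp hxy
      exact ⟨s.hAuxS₀ x hy, (s.hAuxPrime x hy).2.1⟩
  · obtain ⟨y, hy, hxy⟩ := (Prime.dvd_finsetProd_iff hx.prime _).mp h
    obtain rfl := (Nat.prime_dvd_prime_iff_eq hx (s.hScPrime y hy)).mp hxy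
    exact ⟨s.hScS₀ x hy, fun he => s.p_not_mem_Sc (he ▸ hy)⟩

theorem squarefree_N₀ (s : Setup) : Squarefree (N₀ s) := by
  have hA : Squarefree (∏ x ∈ s.Aux, x) :=
    Finset.squarefree_prod_of_pairwise_isCoprime
      (fun a ha b hb hab => by
        rw [Function.onFun, ← Nat.coprime_iff_isRelPrime]
        exact (Nat.coprime_primes (s.hAuxPrime a ha).1 (s.hAuxPrime b hb).1).mpr hab)
      fun a ha => (s.hAuxPrime a ha).1.squarefree
  have hS : Squarefree (∏ x ∈ s.Sc, x) :=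
    Finset.squarefree_prod_of_pairwise_isCoprime
      (fun a ha b hb hab => by
        rw [Function.onFun, ← Nat.coprime_iff_isRelPrime]
        exact (Nat.coprime_primes (s.hScPrime a ha) (s.hScPrime b hb)).mpr hab)
      fun a ha => (s.hScPrime a ha).squarefree
  have hMA : Nat.Coprime s.M₀ (∏ x ∈ s.Aux, x) := Nat.Coprime.prod_right fun a ha =>
    ((s.hAuxPrime a ha).1.coprime_iff_not_dvd.mpr (s.hAuxPrime a ha).2.2).symm
  refine (Nat.squarefree_mul ?_).mpr ⟨(Nat.squarefree_mul hMA).mpr ⟨s.hM₀, hA⟩, hS⟩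
  refine Nat.Coprime.prod_right fun a ha => ((s.hScPrime a ha).coprime_iff_not_dvd.mpr ?_).symm
  intro h
  rcases (Nat.Prime.dvd_mul (s.hScPrime a ha)).mp h with h | h
  · exact s.hScM₀ a ha h
  · obtain ⟨b, hb, hab⟩ := (Prime.dvd_finsetProd_iff (s.hScPrime a ha).prime _).mp h
    obtain rfl := (Nat.prime_dvd_prime_iff_eq (s.hScPrime a ha) (s.hAuxPrime b hb).1).mp hab
    exact Finset.disjoint_left.mp s.hScAux ha hb

theorem q_not_dvd_N₀ (i : Fin r) : ¬ d.q i ∣ N₀ s := by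
  intro h
  rcases (Nat.Prime.dvd_mul (d.prime i)).mp h with h | h
  · rcases (Nat.Prime.dvd_mul (d.prime i)).mp h with h | h
    · exact (d.notMem i).2.1 h
    · obtain ⟨y, hy, hxy⟩ := (Prime.dvd_finsetProd_iff (d.prime i).prime _).mp h
      exact (d.notMem i).2.2.2
        ((Nat.prime_dvd_prime_iff_eq (d.prime i) (s.hAuxPrime y hy).1).mp hxy ▸ hy)
  · obtain ⟨y, hy, hxy⟩ := (Prime.dvd_finsetProd_iff (d.prime i).prime _).mp h
    exact (d.notMem i).2.2.1
      ((Nat.prime_dvd_prime_iff_eq (d.prime i) (s.hScPrime y hy)).mp hxy ▸ hy)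

theorem L₀_eq : d.L₀ = N₀ s * ∏ i, d.q i := by simp [L₀, N₀, AuxPrimes.D, mul_assoc]

theorem L_eq_L₀_mul (h : s.ordP = true) : d.L = d.L₀ * s.p := by
  simp [AuxPrimes.L, L₀, Setup.base, h]
  ring

theorem prime_dvd_L₀ {x : ℕ} (hx : x.Prime) (h : x ∣ d.L₀) : x ∈ d.S ∧ x ≠ s.p := by
  rw [L₀_eq] at h
  rcases (Nat.Prime.dvd_mul hx).mp h with h | h
  · exact ⟨d.mem_S_of_mem (prime_dvd_N₀ hx h).1, (prime_dvd_N₀ hx h).2⟩
  · obtain ⟨j, -, hj⟩ := (Prime.dvd_finsetProd_iff hx.prime _).mp h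
    obtain rfl := (Nat.prime_dvd_prime_iff_eq hx (d.prime j)).mp hj
    exact ⟨d.q_mem_S j, (d.notMem j).1⟩

theorem D_dvd_L₀ : d.D ∣ d.L₀ := Dvd.intro_left _ rfl

instance : NeZero d.L₀ := by
  refine ⟨mul_ne_zero (mul_ne_zero s.hM₀.ne_zero ?_) (NeZero.ne _)⟩
  exact Finset.prod_ne_zero_iff.mpr fun x hx => (s.hAuxPrime x hx).1.ne_zero

/-- No congruent system of a component has level prime to `p` in the ordinary case. -/
theorem not_isCongruent_L₀ (hord : s.ordP = true) (twisted : Bool) (u : Fin r → s.K)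
    (hu : ∀ i, u i ^ s.p ^ (n + 1) = 1) (a : ℕ → s.K)
    (ha : HasSystem d.D_dvd_L₀ (d.compChar twisted u) d.S a) :
    ¬ IsCongruent (algebraMap s.O s.K) (residue s.O) s.abar d.S a := by
  intro hc
  haveI : Fact (1 < s.p ^ (n + 1)) := ⟨Nat.one_lt_pow (Nat.succ_ne_zero n) s.hp.out.one_lt⟩
  set x : s.K := if twisted then algebraMap s.O s.K s.ξ else 1 with hxdef
  have hxp : x ^ s.p = 1 := by
    rw [hxdef]
    split
    · rw [← map_pow, s.ξ_pow, map_one]
    · rw [one_pow]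
  set G : Fin (r + 1) → Univ s.O (s.p ^ (n + 1)) (r + 1) :=
    fun i => if i = 0 then Univ.gen i ^ s.p ^ n else Univ.gen i with hG
  -- a `p ^ n`-th root of the twisting value
  obtain ⟨y, hy⟩ := IsAlgClosed.exists_pow_nat_eq x (pow_pos s.hp.out.pos n)
  set w : Fin (r + 1) → s.K := Fin.cons y u with hw
  have hwp : ∀ i, w i ^ s.p ^ (n + 1) = 1 := by
    intro i
    cases i using Fin.cases with
    | zero => rw [hw, Fin.cons_zero, pow_succ, pow_mul, hy, hxp]
    | succ j => rw [hw, Fin.cons_succ]; exact hu j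
  have hG0 : (G 0) ^ s.p = 1 := by
    rw [hG]
    simp only [if_true]
    rw [← pow_mul, ← pow_succ, Univ.gen_pow]
  have hGs : ∀ j : Fin r, G j.succ ^ s.p ^ (n + 1) = 1 := fun j => by
    rw [hG]
    simp only [Fin.succ_ne_zero, if_false]
    exact Univ.gen_pow _
  set ψ := d.levelChar (G 0) fun j => G j.succ with hψ
  have hev : ψ.ringHomComp (Univ.eval (O := s.O) w hwp).toRingHom = d.compChar twisted u := by
    rw [hψ, levelChar_ringHomComp d _ _ hG0 _ hGs, compChar]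
    simp only [hG, AlgHom.toRingHom_eq_coe, RingHom.coe_coe, if_true, Fin.succ_ne_zero, if_false,
      map_pow, Univ.eval_gen, hw, Fin.cons_zero, Fin.cons_succ, hy, hxdef]
  have hres : ψ.ringHomComp ((residue s.O).comp (Univ.eval (O := s.O) (P := s.p ^ (n + 1))
      (r := r + 1) (fun _ => (1 : s.O)) fun _ => one_pow _).toRingHom) = 1 := by
    rw [hψ, levelChar_ringHomComp d _ _ hG0 _ hGs]
    simp only [hG, RingHom.comp_apply, AlgHom.toRingHom_eq_coe, RingHom.coe_coe, if_true,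
      Fin.succ_ne_zero, if_false, map_pow, Univ.eval_gen, map_one, one_pow]
    exact d.levelChar_one
  have hbase : s.awayP.base ∣ d.L₀ := by
    rw [s.awayP_base]
    exact dvd_mul_right _ _
  have hpos := finrank_pos_of_component s.awayP hbase d.D_dvd_L₀ d.S
    (fun q hq h => (d.prime_dvd_L₀ hq h).1) ψ hres w hwp a (by rw [hev]; exact ha) hc
  haveI : NeZero (N₀ s) := ⟨(squarefree_N₀ s).ne_zero⟩
  have hle := d.awayP.finrank_mul_prod_le (N₀ := N₀ s)
    (by rw [s.awayP_base]; exact dvd_mul_right _ _) (squarefree_N₀ s)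
    (fun q hq h => d.mem_S_of_mem (prime_dvd_N₀ hq h).1) d.q_not_dvd_N₀ Finset.univ d.L₀ d.L₀_eq
  obtain ⟨b, hb, hbc⟩ := s.awayP.exists_system_of_finrank_pos (L := N₀ s)
    (by rw [s.awayP_base]; exact dvd_mul_right _ _) d.S
    (fun q hq h => d.mem_S_of_mem (prime_dvd_N₀ hq h).1)
    (Nat.pos_of_ne_zero fun h0 => by
      have h1 := (hle.trans (Nat.mul_le_mul_left _ (le_of_eq h0))).trans_eq (mul_zero _)
      exact (ne_of_gt hpos) (Nat.le_zero.mp h1))
  exact s.not_isCongruent_newP hord (N₀ s) rfl d.S b (fun _ h => d.mem_S_of_mem h) hb hbc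

theorem hasSystem_congr {L L' D : ℕ} (h : L = L') {hD : D ∣ L} {hD' : D ∣ L'} {K : Type} [Field K]
    {ψ : DirichletCharacter K D} {x : CohL hD ψ K} {S : Finset ℕ} {a : ℕ → K} (hx : x ≠ 0)
    (ha : ∀ ℓ : ℕ, ℓ.Prime → ℓ ∉ S → heckeT' hD ψ K ℓ x = a ℓ • x) (q : ℕ) :
    ∃ y : CohL hD' ψ K, y ≠ 0 ∧ (∀ ℓ : ℕ, ℓ.Prime → ℓ ∉ S → heckeT' hD' ψ K ℓ y = a ℓ • y) ∧
      (heckeT' hD' ψ K q (heckeT' hD' ψ K q y) = y → heckeT' hD ψ K q (heckeT' hD ψ K q x) = x) := by
  subst h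
  exact ⟨x, hx, ha, id⟩

/-- An eigenvector of a congruent system has `U_p'² = 1` in the ordinary case. -/
theorem Point.sq_eq {d : AuxPrimes s r n} (P : d.Point) (hord : s.ordP = true)
    (x : CohL d.D_dvd_L (d.compChar P.twisted P.u) s.K) (hx : x ≠ 0)
    (ha : ∀ ℓ : ℕ, ℓ.Prime → ℓ ∉ d.S →
      heckeT' d.D_dvd_L (d.compChar P.twisted P.u) s.K ℓ x = P.a ℓ • x) :
    heckeT' d.D_dvd_L (d.compChar P.twisted P.u) s.K s.p
      (heckeT' d.D_dvd_L (d.compChar P.twisted P.u) s.K s.p x) = x := by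
  have hL := d.L_eq_L₀_mul hord
  obtain ⟨y, hy, hya, hyU⟩ := hasSystem_congr hL
    (hD' := d.D_dvd_L₀.trans (Nat.dvd_mul_right _ _)) hx ha s.p
  refine hyU ?_
  have hp0 : ¬ s.p ∣ d.L₀ := fun h => (d.prime_dvd_L₀ s.hp.out h).2 rfl
  obtain ⟨f, hf, hfU⟩ := exists_lowering (M := s.K) d.D_dvd_L₀ (d.compChar P.twisted P.u)
    s.hp.out hp0
  refine hfU y ?_
  by_contra hfy
  have hsys : ∀ ℓ : ℕ, ℓ.Prime → ℓ ∉ d.S →
      heckeT' d.D_dvd_L₀ (d.compChar P.twisted P.u) s.K ℓ (f y).1 = P.a ℓ • (f y).1 ∧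
      heckeT' d.D_dvd_L₀ (d.compChar P.twisted P.u) s.K ℓ (f y).2 = P.a ℓ • (f y).2 := by
    intro ℓ hℓ hℓS
    have h := hf ℓ hℓ (fun he => hℓS (he ▸ d.mem_S_of_mem s.hpS₀)) y
    rw [hya ℓ hℓ hℓS, map_smul] at h
    exact ⟨(congrArg Prod.fst h).symm, (congrArg Prod.snd h).symm⟩
  by_cases h1 : (f y).1 = 0
  · have h2 : (f y).2 ≠ 0 := fun h2 => hfy (Prod.ext h1 h2)
    exact d.not_isCongruent_L₀ hord P.twisted P.u P.hu P.a
      ⟨_, h2, fun ℓ hℓ hℓS => (hsys ℓ hℓ hℓS).2⟩ P.congr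
  · exact d.not_isCongruent_L₀ hord P.twisted P.u P.hu P.a
      ⟨_, h1, fun ℓ hℓ hℓS => (hsys ℓ hℓ hℓS).1⟩ P.congr

end AuxPrimes

end Fermat.Agent.Ribet.Avoid
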