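/-
The character of a component at the generators, its order, the shape of the level, and extension
of the residual representation to a larger field.
-/
import Fermat.Agent.Ribet.Avoid.PointNew
import Fermat.Agent.RepLemmas.Galois
import Mathlib.Data.Nat.Squarefree

set_option autoImplicit false

noncomputable section

namespace Fermat.Agent.Ribet.Avoid

open IsLocalRing Twisted Polynomial

theorem changeLevel_apply_intCast {A : Type*} [CommRing A] {m k : ℕ} (h : k ∣ m)
    (χ : DirichletCharacter A k) (e : ℤ) (he : IsUnit (e : ZMod m)) :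
    DirichletCharacter.changeLevel h χ (e : ZMod m) = χ (e : ZMod k) := by
  obtain ⟨w, hw⟩ := he
  rw [← hw, DirichletCharacter.changeLevel_eq_cast_of_dvd, hw, ZMod.cast_intCast h]

theorem prod_apply_unit {A : Type*} [CommRing A] {m : ℕ} {ι : Type*} (t : Finset ι)
    (f : ι → DirichletCharacter A m) {x : ZMod m} (hx : IsUnit x) :
    (∏ i ∈ t, f i) x = ∏ i ∈ t, f i x := by
  classical
  induction t using Finset.induction with
  | empty => rw [Finset.prod_empty, Finset.prod_empty, MulChar.one_apply hx]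
  | insert a t ha ih => rw [Finset.prod_insert ha, Finset.prod_insert ha, MulChar.mul_apply, ih]

namespace AuxPrimes

variable {s : Setup} {r n : ℕ} (d : AuxPrimes s r n) {A : Type*} [CommRing A]

theorem levelChar_pow (x : A) (hx : x ^ s.p = 1) (u : Fin r → A)
    (hu : ∀ i, u i ^ s.p ^ (n + 1) = 1) : d.levelChar x u ^ s.p ^ (n + 1) = 1 := by
  have hpn : s.p ^ (n + 1) ≠ 0 := pow_ne_zero _ s.hp.out.ne_zero
  simp only [levelChar, mul_pow, ← Finset.prod_pow]
  rw [Finset.prod_eq_one fun v _ => ?_, Finset.prod_eq_one fun i _ => ?_, one_mul]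
  · rw [← map_pow]
    have h : charOfGen (d.q i) (d.gen (d.q i)) (u i) ^ s.p ^ (n + 1) =
        charOfGen (d.q i) (d.gen (d.q i)) (1 : A) := by
      refine char_eq_of_gen (d.prime i) (d.orderOf_gen_q i) ?_
      rw [MulChar.pow_apply' _ hpn, charOfGen_apply (d.prime i) (d.orderOf_gen_q i) (d.dvd i) (hu i),
        hu i, charOfGen_apply (d.prime i) (d.orderOf_gen_q i) (one_dvd _) (pow_one _)]
    rw [h, charOfGen_one (d.prime i) (d.orderOf_gen_q i), DirichletCharacter.changeLevel_one]
  · have hv := s.hScPrime v.1 v.2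
    rw [← map_pow, show charOfGen v.1 (d.gen v.1) x ^ s.p ^ (n + 1) = 1 from ?_,
      DirichletCharacter.changeLevel_one]
    rw [← charOfGen_one (A := A) hv (d.orderOf_gen_sc v.2)]
    refine char_eq_of_gen hv (d.orderOf_gen_sc v.2) ?_
    rw [MulChar.pow_apply' _ hpn, charOfGen_apply hv (d.orderOf_gen_sc v.2) (p_dvd_sub_one v.2) hx,
      charOfGen_apply hv (d.orderOf_gen_sc v.2) (one_dvd _) (pow_one _), pow_succ', pow_mul, hx,
      one_pow]

theorem levelChar_apply_sc (x : A) (hx : x ^ s.p = 1) (u : Fin r → A) {y : ℕ} (hy : y ∈ s.Sc)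
    (e : ℤ) (he : IsUnit (e : ZMod d.D)) (hey : (e : ZMod y) = (d.gen y : ZMod y))
    (hsc : ∀ w ∈ s.Sc, w ≠ y → (e : ZMod w) = 1) (hq : ∀ i, (e : ZMod (d.q i)) = 1) :
    d.levelChar x u (e : ZMod d.D) = x := by
  rw [levelChar, MulChar.mul_apply, prod_apply_unit, prod_apply_unit]
  · rw [Finset.prod_eq_single (⟨y, hy⟩ : s.Sc) (fun w _ hw => ?_) (by simp),
      Finset.prod_eq_one fun i _ => ?_, mul_one, changeLevel_apply_intCast _ _ _ he, hey,
      charOfGen_apply (s.hScPrime y hy) (d.orderOf_gen_sc hy) (p_dvd_sub_one hy) hx]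
    · rw [changeLevel_apply_intCast _ _ _ he, hq i, map_one]
    · rw [changeLevel_apply_intCast _ _ _ he, hsc w.1 w.2 (fun h => hw (Subtype.ext h)), map_one]
  · exact he
  · exact he

theorem levelChar_apply_q (x : A) (u : Fin r → A) (hu : ∀ i, u i ^ s.p ^ (n + 1) = 1) (i : Fin r)
    (e : ℤ) (he : IsUnit (e : ZMod d.D)) (hei : (e : ZMod (d.q i)) = (d.gen (d.q i) : ZMod (d.q i)))
    (hsc : ∀ w ∈ s.Sc, (e : ZMod w) = 1) (hq : ∀ j, j ≠ i → (e : ZMod (d.q j)) = 1) :
    d.levelChar x u (e : ZMod d.D) = u i := by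
  rw [levelChar, MulChar.mul_apply, prod_apply_unit, prod_apply_unit]
  · rw [Finset.prod_eq_single i (fun j _ hj => ?_) (by simp),
      Finset.prod_eq_one fun w _ => ?_, one_mul, changeLevel_apply_intCast _ _ _ he, hei,
      charOfGen_apply (d.prime i) (d.orderOf_gen_q i) (d.dvd i) (hu i)]
    · rw [changeLevel_apply_intCast _ _ _ he, hsc w.1 w.2, map_one]
    · rw [changeLevel_apply_intCast _ _ _ he, hq j hj, map_one]
  · exact he
  · exact he

theorem squarefree_L₀ : Squarefree d.L₀ := by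
  rw [L₀_eq]
  refine (Nat.squarefree_mul ?_).mpr ⟨squarefree_N₀ s, ?_⟩
  · exact Nat.Coprime.prod_right fun i _ =>
      ((d.prime i).coprime_iff_not_dvd.mpr (d.q_not_dvd_N₀ i)).symm
  · exact Finset.squarefree_prod_of_pairwise_isCoprime
      (fun a _ b _ hab => by
        rw [Function.onFun, ← Nat.coprime_iff_isRelPrime]
        exact (Nat.coprime_primes (d.prime a) (d.prime b)).mpr fun h => hab (d.inj h))
      fun a _ => (d.prime a).squarefree

theorem squarefree_D : Squarefree d.D := by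
  have h : Squarefree d.L₀ := d.squarefree_L₀
  exact h.squarefree_of_dvd d.D_dvd_L₀

theorem exists_int_gen {x : ℕ} (hx : x.Prime) (hxD : x ∣ d.D) (c : ℕ)
    (hc : orderOf (c : ZMod x) = x - 1) :
    ∃ e : ℤ, IsUnit (e : ZMod d.D) ∧ (e : ZMod x) = c ∧ (e : ZMod (d.D / x)) = 1 ∧
      ∀ y : ℕ, y.Prime → y ∣ d.D → y ≠ x → (e : ZMod y) = 1 := by
  have hmul : x * (d.D / x) = d.D := Nat.mul_div_cancel' hxD
  have hcop : Nat.Coprime x (d.D / x) := by
    have h := d.squarefree_D
    rw [← hmul] at h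
    exact Nat.coprime_of_squarefree_mul h
  obtain ⟨e, he1, he2⟩ := Nat.chineseRemainder hcop c 1
  have he1' : (e : ZMod x) = c := (ZMod.natCast_eq_natCast_iff _ _ _).mpr he1
  have he2' : (e : ZMod (d.D / x)) = 1 := by
    rw [← Nat.cast_one]; exact (ZMod.natCast_eq_natCast_iff _ _ _).mpr he2
  refine ⟨e, ?_, by rw [Int.cast_natCast]; exact he1', by rw [Int.cast_natCast]; exact he2',
    fun y hy hyD hyx => ?_⟩
  · rw [Int.cast_natCast, ZMod.isUnit_iff_coprime, ← hmul]
    refine Nat.Coprime.mul_right ((ZMod.isUnit_iff_coprime e x).mp ?_)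
      ((ZMod.isUnit_iff_coprime e (d.D / x)).mp (by rw [he2']; exact isUnit_one))
    rw [he1']
    exact IsUnit.of_pow_eq_one (hc ▸ pow_orderOf_eq_one (c : ZMod x))
      (by have := hx.two_le; omega)
  · have hy' : y ∣ d.D / x := by
      have h : y ∣ x * (d.D / x) := by rwa [hmul]
      exact ((Nat.coprime_primes hy hx).mpr hyx).dvd_of_dvd_mul_left h
    have h := congrArg (ZMod.castHom hy' (ZMod y)) he2'
    rw [map_natCast, map_one] at h
    rw [Int.cast_natCast]
    exact h

end AuxPrimes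

/-- Extension of scalars preserves absolute irreducibility. -/
theorem isAbsolutelyIrreducible_extend {k k' : Type} [Field k] [Field k'] (κ : k →+* k')
    (ρ : ResidualGaloisRep k) (h : ρ.IsAbsolutelyIrreducible) :
    (ρ.baseChangeAlong κ).IsAbsolutelyIrreducible := by
  letI : Algebra k k' := κ.toAlgebra
  refine RepLemmas.isAbsolutelyIrreducible_of_span_eq_top _ ?_
  let b : Module.Basis (Fin 2) k ρ.V := Module.finBasisOfFinrankEq _ _ ρ.finrank_eq
  let b' : Module.Basis (Fin 2) k' (ρ.baseChangeAlong κ).V := Algebra.TensorProduct.basis k' b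
  refine (RepLemmas.span_range_toMatrixHom_eq_top_iff b' _).1 ?_
  have h2 : ∀ g, RepLemmas.toMatrixHom b' (ρ.baseChangeAlong κ).ρ g =
      (RepLemmas.toMatrixHom b ρ.ρ g).map κ :=
    fun g => LinearMap.toMatrix_baseChange k' (ρ.ρ g) b b
  rw [show (RepLemmas.toMatrixHom b' (ρ.baseChangeAlong κ).ρ : _ → _) =
    fun g => (RepLemmas.toMatrixHom b ρ.ρ g).map κ from funext h2]
  exact RepLemmas.map_span_eq_top κ _ ((RepLemmas.span_range_toMatrixHom_eq_top_iff b ρ.ρ).2
    (RepLemmas.residual_span_eq_top_of_isAbsolutelyIrreducible ρ h))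

theorem det_extend {k k' : Type} [Field k] [Field k'] (κ : k →+* k') (ρ : ResidualGaloisRep k)
    (σ : AlgebraicClosure ℚ ≃ₐ[ℚ] AlgebraicClosure ℚ) :
    LinearMap.det ((ρ.baseChangeAlong κ).ρ σ) = κ (LinearMap.det (ρ.ρ σ)) :=
  letI : Algebra k k' := κ.toAlgebra
  LinearMap.det_baseChange (ρ.ρ σ)

theorem trace_extend {k k' : Type} [Field k] [Field k'] (κ : k →+* k') (ρ : ResidualGaloisRep k)
    (σ : AlgebraicClosure ℚ ≃ₐ[ℚ] AlgebraicClosure ℚ) :
    LinearMap.trace k' _ ((ρ.baseChangeAlong κ).ρ σ) = κ (LinearMap.trace k ρ.V (ρ.ρ σ)) :=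
  letI : Algebra k k' := κ.toAlgebra
  LinearMap.trace_baseChange (ρ.ρ σ) k'

theorem isOdd_extend {k k' : Type} [Field k] [Field k'] (κ : k →+* k') (ρ : ResidualGaloisRep k)
    (h : ρ.IsOdd) : (ρ.baseChangeAlong κ).IsOdd := fun c h1 h2 => by
  rw [det_extend, h c h1 h2, map_neg, map_one]

/-- Trace and determinant from the characteristic polynomial in rank two. -/
theorem trace_det_of_charpoly {R : Type} [CommRing R] [Nontrivial R] {V : Type} [AddCommGroup V]
    [Module R V] [Module.Free R V] [Module.Finite R V] (hV : Module.finrank R V = 2)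
    (f : Module.End R V) {t e : R} (h : LinearMap.charpoly f = X ^ 2 - C t * X + C e) :
    LinearMap.trace R V f = t ∧ LinearMap.det f = e := by
  classical
  let b : Module.Basis (Fin 2) R V := Module.finBasisOfFinrankEq R V hV
  set M := LinearMap.toMatrix b b f with hM
  have hc : M.charpoly = X ^ 2 - C t * X + C e := by rw [hM, LinearMap.charpoly_toMatrix, h]
  constructor
  · rw [LinearMap.trace_eq_matrix_trace R b, ← hM, Matrix.trace_eq_neg_charpoly_coeff, hc]
    simp
  · rw [← LinearMap.det_toMatrix b, ← hM, Matrix.det_eq_sign_charpoly_coeff, hc]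
    simp

end Fermat.Agent.Ribet.Avoid
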