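/-
Descent of a system of eigenvalues on twisted cohomology to a finite extension of the
coefficient field, and integrality of the eigenvalues.
-/
import Fermat.Agent.Ribet.Twisted.Lift
import Fermat.Agent.Ribet.Avoid.Transport
import Mathlib.RingTheory.IntegralClosure.IsIntegralClosure.Basic
import Mathlib.RingTheory.Localization.FractionRing

set_option autoImplicit false

noncomputable section

namespace Fermat.Agent.Ribet.Avoid

open Twisted CongruenceSubgroup

variable {L D : ℕ} (hD : D ∣ L)

section Fields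

variable [NeZero L] {E K : Type*} [Field E] [Field K] (ι : E →+* K) (ψ : DirichletCharacter E D)

/-- The inclusion of cocycles along an embedding of fields is injective on classes. -/
theorem coeffMap_injective_of_field {x : CohL hD ψ E}
    (hx : coeffMap hD ι ψ (RingHom.toSemilinearMap ι) x = 0) : x = 0 := by
  obtain ⟨w, rfl⟩ := Coh.mk_surjective x
  rw [coeffMap, Coh.map_mk, Coh.mk_eq_zero] at hx
  obtain ⟨c, hc⟩ := hx
  have hc' : ∀ γ, ι (chr hD ψ γ) * c - c = ι ((w : Gamma0 L → E) γ) := by
    intro γ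
    have := congrFun (congrArg Subtype.val hc) γ
    simpa [chr_ringHomComp] using this
  rw [Coh.mk_eq_zero]
  by_cases h : ∀ γ, chr hD ψ γ = 1
  · refine ⟨0, Subtype.ext (funext fun γ => ι.injective ?_)⟩
    rw [← hc' γ, h γ]
    simp
  · push Not at h
    obtain ⟨γ₁, h1⟩ := h
    refine ⟨(w : Gamma0 L → E) γ₁ / (chr hD ψ γ₁ - 1), Subtype.ext (funext fun γ => ι.injective ?_)⟩
    have h1' : ι (chr hD ψ γ₁) - 1 ≠ 0 := by
      rw [← map_one ι, ← map_sub]
      exact fun h0 => h1 (sub_eq_zero.mp (ι.injective (by rw [h0, map_zero])))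
    have hcval : ι ((w : Gamma0 L → E) γ₁ / (chr hD ψ γ₁ - 1)) = c := by
      rw [map_div₀, map_sub, map_one, div_eq_iff h1', ← hc' γ₁]
      ring
    rw [← hc' γ, coboundary_apply, smul_eq_mul, map_sub, map_mul, hcval]

/-- A class with values in the image of `E`, suitably normalised, descends to `E` together with
its eigenvalues for the good operators and the relation `U² = 1`. -/
theorem exists_descend (z : cocycles (chr hD (ψ.ringHomComp ι)) K)
    (hval : ∀ γ, (z : Gamma0 L → K) γ ∈ ι.range)
    (hnorm : (∀ γ, chr hD ψ γ = 1) ∨ ∃ γ₁, chr hD ψ γ₁ ≠ 1 ∧ (z : Gamma0 L → K) γ₁ = 0)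
    (hz : Coh.mk (chr hD (ψ.ringHomComp ι)) K z ≠ 0) :
    ∃ x : CohL hD ψ E, x ≠ 0 ∧
      coeffMap hD ι ψ (RingHom.toSemilinearMap ι) x = Coh.mk (chr hD (ψ.ringHomComp ι)) K z ∧
      (∀ (ℓ : ℕ) (c : K), heckeT' hD (ψ.ringHomComp ι) K ℓ
          (Coh.mk (chr hD (ψ.ringHomComp ι)) K z) = c • Coh.mk (chr hD (ψ.ringHomComp ι)) K z →
        ∃ c' : E, ι c' = c ∧ heckeT' hD ψ E ℓ x = c' • x) ∧
      ∀ q : ℕ, heckeT' hD (ψ.ringHomComp ι) K q (heckeT' hD (ψ.ringHomComp ι) K q
          (Coh.mk (chr hD (ψ.ringHomComp ι)) K z)) = Coh.mk (chr hD (ψ.ringHomComp ι)) K z →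
        heckeT' hD ψ E q (heckeT' hD ψ E q x) = x := by
  choose w hw using hval
  let w' : cocycles (chr hD ψ) E := ⟨w, fun g h => ι.injective (by
    rw [map_add, smul_eq_mul, map_mul, hw, hw, hw, z.2 g h, chr_ringHomComp, smul_eq_mul])⟩
  set x := Coh.mk (chr hD ψ) E w'
  have hx : coeffMap hD ι ψ (RingHom.toSemilinearMap ι) x =
      Coh.mk (chr hD (ψ.ringHomComp ι)) K z := by
    rw [coeffMap, Coh.map_mk]
    exact congrArg _ (Subtype.ext (funext hw))
  refine ⟨x, fun h => hz (by rw [← hx, h, map_zero]), hx, fun ℓ c hc => ?_, fun q hq => ?_⟩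
  · have hTx : coeffMap hD ι ψ (RingHom.toSemilinearMap ι) (heckeT' hD ψ E ℓ x) =
        c • Coh.mk (chr hD (ψ.ringHomComp ι)) K z := by
      rw [coeffMap_heckeT', hx, hc]
    -- a representative of `T x`
    obtain ⟨v, hv⟩ := Coh.mk_surjective (heckeT' hD ψ E ℓ x)
    rw [← hv, coeffMap, Coh.map_mk, ← map_smul, ← sub_eq_zero, ← map_sub, Coh.mk_eq_zero] at hTx
    obtain ⟨b, hb⟩ := hTx
    have hb' : ∀ γ, ι (chr hD ψ γ) * b - b = ι ((v : Gamma0 L → E) γ) - c * ι (w γ) := by
      intro γ
      have := congrFun (congrArg Subtype.val hb) γ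
      simpa [chr_ringHomComp, hw] using this
    -- the eigenvalue lies in the image
    obtain ⟨c', rfl⟩ : c ∈ ι.range := by
      rcases hnorm with htriv | ⟨γ₁, h1, hz1⟩
      · have hex : ∃ γ₂, w γ₂ ≠ 0 := by
          by_contra h
          push Not at h
          exact hz (by rw [show z = 0 from Subtype.ext (funext fun γ => by rw [← hw, h]; simp),
            map_zero])
        obtain ⟨γ₂, hγ₂⟩ := hex
        refine ⟨(v : Gamma0 L → E) γ₂ / w γ₂, ?_⟩
        have := hb' γ₂
        rw [htriv, map_one, one_mul, sub_self] at this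
        rw [map_div₀, div_eq_iff (by simpa using hγ₂)]
        linear_combination -this
      · have hw1 : w γ₁ = 0 := ι.injective (by rw [hw, hz1, map_zero])
        have h1' : ι (chr hD ψ γ₁) - 1 ≠ 0 := by
          rw [← map_one ι, ← map_sub]
          exact fun h0 => h1 (sub_eq_zero.mp (ι.injective (by rw [h0, map_zero])))
        have hbval : b = ι ((v : Gamma0 L → E) γ₁ / (chr hD ψ γ₁ - 1)) := by
          rw [map_div₀, map_sub, map_one, eq_div_iff h1']
          have := hb' γ₁
          rw [hw1, map_zero, mul_zero, sub_zero] at this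
          rw [← this]
          ring
        have hex : ∃ γ₂, w γ₂ ≠ 0 := by
          by_contra h
          push Not at h
          exact hz (by rw [show z = 0 from Subtype.ext (funext fun γ => by rw [← hw, h]; simp),
            map_zero])
        obtain ⟨γ₂, hγ₂⟩ := hex
        set e := (v : Gamma0 L → E) γ₁ / (chr hD ψ γ₁ - 1)
        refine ⟨((v : Gamma0 L → E) γ₂ - (chr hD ψ γ₂ * e - e)) / w γ₂, ?_⟩
        have := hb' γ₂
        rw [hbval] at this
        rw [map_div₀, map_sub, map_sub, map_mul, div_eq_iff (by simpa using hγ₂)]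
        linear_combination -this
    refine ⟨c', rfl, sub_eq_zero.mp (coeffMap_injective_of_field hD ι ψ ?_)⟩
    rw [map_sub, LinearMap.map_smulₛₗ, coeffMap_heckeT', hx, hc, sub_self]
  · refine sub_eq_zero.mp (coeffMap_injective_of_field hD ι ψ ?_)
    rw [map_sub, coeffMap_heckeT', coeffMap_heckeT', hx, hq, sub_self]

end Fields

section Integral

variable [NeZero L] {A E : Type} [CommRing A] [IsNoetherianRing A] [Field E]

/-- A cocycle is integral up to a scalar, and eigenvalues of operators which come from `A` are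
integral over `A`. -/
theorem isIntegral_of_eigen [IsDomain A] [Algebra A E] [IsFractionRing A E]
    (ψ : DirichletCharacter A D) {x : CohL hD (ψ.ringHomComp (algebraMap A E)) E} (hx : x ≠ 0)
    {ℓ : ℕ} {c : E} (hc : heckeT' hD (ψ.ringHomComp (algebraMap A E)) E ℓ x = c • x) :
    IsIntegral A c := by
  obtain ⟨z, rfl⟩ := Coh.mk_surjective x
  let g : A →ₛₗ[algebraMap A E] E := RingHom.toSemilinearMap (algebraMap A E)
  let G : CohL hD ψ A →ₗ[A] CohL hD (ψ.ringHomComp (algebraMap A E)) E :=
    { toFun := coeffMap hD (algebraMap A E) ψ g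
      map_add' := map_add _
      map_smul' := fun a y =>
        (LinearMap.map_smulₛₗ (coeffMap hD (algebraMap A E) ψ g) a y).trans (algebraMap_smul E a _) }
  have : Module.Finite A (CohL hD ψ A) := finite_cohL hD ψ
  have hΛ : (LinearMap.range G).FG := Module.Finite.iff_fg.mp (Module.Finite.range G)
  -- a multiple of the class is integral
  have := ParHom.group_fg_SL2Z
  have : Group.FG (Gamma0 L) := Subgroup.fg_of_index_ne_zero _
  obtain ⟨s, hs, hfin⟩ := Group.fg_iff.1 this
  obtain ⟨d, hd⟩ := IsLocalization.exist_integer_multiples (nonZeroDivisors A)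
    hfin.toFinset fun γ => (z : Gamma0 L → E) γ
  have hd0 : (algebraMap A E) (d : A) ≠ 0 := fun h => nonZeroDivisors.coe_ne_zero d
    (IsFractionRing.injective A E (h.trans (map_zero (algebraMap A E)).symm))
  have hint : ∀ γ, (algebraMap A E) (d : A) * (z : Gamma0 L → E) γ ∈ (algebraMap A E).range := by
    intro γ
    have hγ : γ ∈ Subgroup.closure s := by rw [hs]; trivial
    induction hγ using Subgroup.closure_induction with
    | mem g hg =>
      obtain ⟨a, ha⟩ := hd g (hfin.mem_toFinset.mpr hg)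
      exact ⟨a, by rw [ha]; exact Algebra.smul_def _ _⟩
    | one => exact ⟨0, by rw [cocycle_one, mul_zero, map_zero]⟩
    | mul g h _ _ hg hh =>
      obtain ⟨a, ha⟩ := hg
      obtain ⟨b, hb⟩ := hh
      refine ⟨a + chr hD ψ g * b, ?_⟩
      rw [map_add, map_mul, ha, hb, z.2 g h, smul_eq_mul, chr_ringHomComp]
      ring
    | inv g _ hg =>
      obtain ⟨a, ha⟩ := hg
      refine ⟨-(chr hD ψ g⁻¹ * a), ?_⟩
      rw [map_neg, map_mul, ha, cocycle_inv, smul_eq_mul, chr_ringHomComp]
      ring
  choose w hw using hint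
  let w' : cocycles (chr hD ψ) A := ⟨w, fun g h => IsFractionRing.injective A E (by
    rw [map_add, smul_eq_mul, map_mul, hw, hw, hw, z.2 g h, smul_eq_mul, chr_ringHomComp]
    ring)⟩
  set y := (algebraMap A E) (d : A) • Coh.mk (chr hD (ψ.ringHomComp (algebraMap A E))) E z with hy
  have hyΛ : y ∈ LinearMap.range G := by
    refine ⟨Coh.mk (chr hD ψ) A w', ?_⟩
    show coeffMap hD (algebraMap A E) ψ g (Coh.mk (chr hD ψ) A w') = y
    rw [coeffMap, Coh.map_mk, hy, ← map_smul]
    exact congrArg _ (Subtype.ext (funext hw))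
  have hy0 : y ≠ 0 := smul_ne_zero hd0 hx
  have hyc : heckeT' hD (ψ.ringHomComp (algebraMap A E)) E ℓ y = c • y := by
    rw [hy, map_smul, hc, smul_comm]
  -- the multipliers of `y` into the lattice
  let m : E →ₗ[A] CohL hD (ψ.ringHomComp (algebraMap A E)) E :=
    (LinearMap.toSpanSingleton E _ y).restrictScalars A
  have hm : Function.Injective m := fun e e' h => by
    refine sub_eq_zero.mp ((smul_eq_zero.mp ?_).resolve_right hy0)
    rw [sub_smul]
    exact sub_eq_zero.mpr h
  let N : Submodule A E := (LinearMap.range G).comap m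
  have hN : N.FG := by
    refine Submodule.fg_of_fg_map_injective m hm ?_
    have : Module.Finite A (LinearMap.range G) := Module.Finite.iff_fg.mpr hΛ
    have : IsNoetherian A (LinearMap.range G) := isNoetherian_of_isNoetherianRing_of_finite A _
    exact Submodule.FG.of_le_of_isNoetherian (Submodule.map_comap_le _ _)
  have hpow : ∀ k : ℕ, c ^ k ∈ N := by
    intro k
    induction k with
    | zero => simpa [N, m] using hyΛ
    | succ k ih =>
      obtain ⟨u, hu⟩ := ih
      refine ⟨heckeT' hD ψ A ℓ u, ?_⟩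
      show coeffMap hD (algebraMap A E) ψ g (heckeT' hD ψ A ℓ u) = (c ^ (k + 1)) • y
      rw [coeffMap_heckeT']
      refine (congrArg _ (hu : coeffMap hD (algebraMap A E) ψ g u = (c ^ k) • y)).trans ?_
      show heckeT' hD (ψ.ringHomComp (algebraMap A E)) E ℓ ((c ^ k) • y) = (c ^ (k + 1)) • y
      rw [map_smul, hyc, smul_smul, ← pow_succ]
  refine IsIntegral.of_mem_of_fg (Algebra.adjoin A {c}) ?_ c (Algebra.subset_adjoin rfl)
  have : IsNoetherian A N := isNoetherian_of_fg_of_noetherian N hN
  have hle : Subalgebra.toSubmodule (Algebra.adjoin A {c}) ≤ N := by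
    rw [Algebra.adjoin_eq_span, Submodule.span_le]
    intro e he
    obtain ⟨k, rfl⟩ := Submonoid.mem_closure_singleton.mp he
    exact hpow k
  exact Submodule.FG.of_le_of_isNoetherian hle

end Integral

end Fermat.Agent.Ribet.Avoid
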