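/-
The coefficients of a congruent system: a finite extension of the base coefficients containing
the eigenvalues and the values of the character, over which the system is a twisted point.
-/
import Fermat.Agent.Ribet.Avoid.PointChar
import Fermat.Agent.Ribet.Avoid.PointDescend
import Fermat.Agent.RepLemmas.DVRExtension
import Fermat.Agent.Lifting.EDefs
import Mathlib.FieldTheory.IntermediateField.Adjoin.Basic

set_option autoImplicit false

noncomputable section

namespace Fermat.Agent.Ribet.Avoid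

open IsLocalRing Twisted

variable {s : Setup} {r n : ℕ} {d : AuxPrimes s r n}

/-- A relation satisfied by a congruent system forces the congruence of each eigenvalue. -/
theorem residue_eq_of_congr {O' : Type} [CommRing O'] [IsLocalRing O'] [Algebra s.O O']
    [Algebra.IsIntegral s.O O'] [IsLocalHom (algebraMap s.O O')] (emb : O' →+* s.K)
    (hemb : emb.comp (algebraMap s.O O') = algebraMap s.O s.K) {S : Finset ℕ} {a : ℕ → s.K}
    (hc : IsCongruent (algebraMap s.O s.K) (residue s.O) s.abar S a) (ℓ : GoodPrime S) {c : O'}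
    (hca : emb c = a ℓ.1) :
    residue O' c = ResidueField.map (algebraMap s.O O') (s.abar ℓ.1) := by
  obtain ⟨b, hb⟩ := residue_surjective (s.abar ℓ.1)
  rw [← hb, ResidueField.map_residue, ← sub_eq_zero, ← map_sub, residue_eq_zero_iff]
  set e := c - algebraMap s.O O' b with he
  by_contra hne
  obtain ⟨w, hw⟩ : IsUnit e := IsLocalRing.notMem_maximalIdeal.mp hne
  obtain ⟨f, hf, hf0⟩ := Algebra.IsIntegral.isIntegral (R := s.O) ((w⁻¹ : O'ˣ) : O')
  letI : Invertible e := ⟨((w⁻¹ : O'ˣ) : O'), by rw [← hw, Units.inv_mul],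
    by rw [← hw, Units.mul_inv]⟩
  have hR : Polynomial.eval₂ (algebraMap s.O O') e f.reverse = 0 := by
    haveI : Invertible (⅟e) := invertibleInvOf
    have h : Polynomial.eval₂ (algebraMap s.O O') (⅟e) f = 0 := hf0
    rw [← Polynomial.eval₂_reverse_eq_zero_iff] at h
    simpa using h
  set t : HeckePoly s.O S :=
    Polynomial.eval₂ MvPolynomial.C (MvPolynomial.X ℓ - MvPolynomial.C b) f.reverse with ht
  have hker : t ∈ RingHom.ker (evalSystem (algebraMap s.O s.K) a S) := by
    rw [RingHom.mem_ker, ht, Polynomial.hom_eval₂]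
    have h1 : (evalSystem (algebraMap s.O s.K) a S).comp MvPolynomial.C =
        emb.comp (algebraMap s.O O') := by
      rw [hemb]
      exact RingHom.ext fun x => by simp [evalSystem]
    have h2 : evalSystem (algebraMap s.O s.K) a S (MvPolynomial.X ℓ - MvPolynomial.C b) = emb e := by
      rw [he, map_sub, map_sub, hca, ← RingHom.comp_apply emb, hemb]
      simp [evalSystem]
    rw [h1, h2, ← Polynomial.hom_eval₂, hR, map_zero]
  have h0 := hc hker
  rw [residualIdeal, RingHom.mem_ker, ht, Polynomial.hom_eval₂] at h0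
  have h2 : evalSystem (residue s.O) s.abar S (MvPolynomial.X ℓ - MvPolynomial.C b) = 0 := by
    simp [evalSystem, hb]
  rw [h2, Polynomial.eval₂_at_zero, Polynomial.coeff_zero_reverse, hf.leadingCoeff, map_one] at h0
  exact one_ne_zero h0

/-- The coefficients of a point, with the system as a twisted point over them. -/
structure PointData (P : d.Point) : Type 1 where
  /-- the coefficients -/
  O' : Type
  [instCommRing : CommRing O']
  [instDomain : IsDomain O']
  [instDVR : IsDiscreteValuationRing O']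
  [instComplete : IsAdicComplete (maximalIdeal O') O']
  [instFinite : Finite (ResidueField O')]
  [instCharZero : CharZero O']
  [instAlgebra : Algebra s.O O']
  [instModuleFinite : Module.Finite s.O O']
  [instLocal : IsLocalHom (algebraMap s.O O')]
  /-- the embedding -/
  emb : O' →+* s.K
  emb_inj : Function.Injective emb
  emb_comp : emb.comp (algebraMap s.O O') = algebraMap s.O s.K
  /-- the character -/
  ψ : DirichletCharacter O' d.D
  emb_ψ : ψ.ringHomComp emb = d.compChar P.twisted P.u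
  /-- the eigenvalues -/
  a : ℕ → O'
  emb_a : ∀ ℓ : ℕ, ℓ.Prime → ℓ ∉ d.S → emb (a ℓ) = P.a ℓ
  point : Lifting.TwistedPoint s.p
    (s.ρbar.baseChangeAlong (ResidueField.map (algebraMap s.O O'))) d.L d.D ψ d.S a
  newAt : s.ordP = true → Lifting.SystemNewAt d.D_dvd_L (Lifting.toFrac ψ) d.S
    (fun ℓ => algebraMap O' (FractionRing O') (a ℓ)) s.p

attribute [instance] PointData.instCommRing PointData.instDomain PointData.instDVR
  PointData.instComplete PointData.instFinite PointData.instCharZero PointData.instAlgebra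
  PointData.instModuleFinite PointData.instLocal

namespace AuxPrimes

variable (d)

theorem twistValue_pow (twisted : Bool) :
    (if twisted then algebraMap s.O s.K s.ξ else 1) ^ s.p = 1 := by
  split
  · rw [← map_pow, s.ξ_pow, map_one]
  · rw [one_pow]

theorem compChar_pow (twisted : Bool) (u : Fin r → s.K) (hu : ∀ i, u i ^ s.p ^ (n + 1) = 1) :
    d.compChar twisted u ^ s.p ^ (n + 1) = 1 :=
  d.levelChar_pow _ (twistValue_pow twisted) u hu

theorem isIntegral_compChar (twisted : Bool) (u : Fin r → s.K)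
    (hu : ∀ i, u i ^ s.p ^ (n + 1) = 1) (x : ZMod d.D) :
    IsIntegral s.O (d.compChar twisted u x) := by
  by_cases hx : IsUnit x
  · refine IsIntegral.of_pow (pow_pos s.hp.out.pos (n + 1)) ?_
    rw [← MulChar.pow_apply' _ (pow_ne_zero _ s.hp.out.ne_zero), d.compChar_pow twisted u hu,
      MulChar.one_apply hx]
    exact isIntegral_one
  · rw [MulChar.map_nonunit _ hx]
    exact isIntegral_zero

theorem L_prime_mem {ℓ : ℕ} (hℓ : ℓ.Prime) (h : ℓ ∣ d.L) : ℓ ∈ d.S := by
  by_cases ho : s.ordP = true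
  · rw [d.L_eq_L₀_mul ho] at h
    rcases (Nat.Prime.dvd_mul hℓ).mp h with h | h
    · exact (d.prime_dvd_L₀ hℓ h).1
    · exact (Nat.prime_dvd_prime_iff_eq hℓ s.hp.out).mp h ▸ d.mem_S_of_mem s.hpS₀
  · have hL : d.L = d.L₀ := by simp [AuxPrimes.L, L₀, Setup.base, ho]
    rw [hL] at h
    exact (d.prime_dvd_L₀ hℓ h).1

variable {d}

/-- The eigenvector with its normalisation and the field containing its values. -/
theorem Point.exists_field (P : d.Point) :
    ∃ F : IntermediateField (FractionRing s.O) s.K, FiniteDimensional (FractionRing s.O) F ∧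
      (∀ x, d.compChar P.twisted P.u x ∈ F) ∧
      ∃ z : cocycles (chr d.D_dvd_L (d.compChar P.twisted P.u)) s.K,
        Coh.mk (chr d.D_dvd_L (d.compChar P.twisted P.u)) s.K z ≠ 0 ∧
        (∀ γ, (z : CongruenceSubgroup.Gamma0 d.L → s.K) γ ∈ F) ∧
        ((∀ γ, chr d.D_dvd_L (d.compChar P.twisted P.u) γ = 1) ∨
          ∃ γ₁, chr d.D_dvd_L (d.compChar P.twisted P.u) γ₁ ≠ 1 ∧ (z : CongruenceSubgroup.Gamma0 d.L → s.K) γ₁ = 0) ∧
        (∀ ℓ : ℕ, ℓ.Prime → ℓ ∉ d.S → heckeT' d.D_dvd_L (d.compChar P.twisted P.u) s.K ℓ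
            (Coh.mk (chr d.D_dvd_L (d.compChar P.twisted P.u)) s.K z) =
          P.a ℓ • Coh.mk (chr d.D_dvd_L (d.compChar P.twisted P.u)) s.K z) ∧
        (s.ordP = true → heckeT' d.D_dvd_L (d.compChar P.twisted P.u) s.K s.p
            (heckeT' d.D_dvd_L (d.compChar P.twisted P.u) s.K s.p
              (Coh.mk (chr d.D_dvd_L (d.compChar P.twisted P.u)) s.K z)) =
          Coh.mk (chr d.D_dvd_L (d.compChar P.twisted P.u)) s.K z) := by
  obtain ⟨X, hX, heig⟩ := P.system
  have hnew : s.ordP = true → _ := fun ho => P.sq_eq ho X hX heig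
  obtain ⟨z₀, rfl⟩ := Coh.mk_surjective X
  obtain ⟨z, hz, hnorm⟩ : ∃ z, Coh.mk (chr d.D_dvd_L (d.compChar P.twisted P.u)) s.K z = Coh.mk (chr d.D_dvd_L (d.compChar P.twisted P.u)) s.K z₀ ∧
      ((∀ γ, (chr d.D_dvd_L (d.compChar P.twisted P.u)) γ = 1) ∨ ∃ γ₁, (chr d.D_dvd_L (d.compChar P.twisted P.u)) γ₁ ≠ 1 ∧ (z : CongruenceSubgroup.Gamma0 d.L → s.K) γ₁ = 0) := by
    by_cases h : ∀ γ, (chr d.D_dvd_L (d.compChar P.twisted P.u)) γ = 1
    · exact ⟨z₀, rfl, Or.inl h⟩
    · push Not at h
      obtain ⟨γ₁, h1⟩ := h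
      refine ⟨z₀ - coboundary (chr d.D_dvd_L (d.compChar P.twisted P.u)) s.K ((z₀ : CongruenceSubgroup.Gamma0 d.L → s.K) γ₁ / ((chr d.D_dvd_L (d.compChar P.twisted P.u)) γ₁ - 1)), ?_,
        Or.inr ⟨γ₁, h1, ?_⟩⟩
      · rw [map_sub, sub_eq_self, Coh.mk_eq_zero]
        exact ⟨_, rfl⟩
      · rw [Submodule.coe_sub, Pi.sub_apply, coboundary_apply, smul_eq_mul]
        field_simp [sub_ne_zero.mpr h1]
        ring
  have := ParHom.group_fg_SL2Z
  have : Group.FG (CongruenceSubgroup.Gamma0 d.L) := Subgroup.fg_of_index_ne_zero _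
  obtain ⟨g, hg, hgfin⟩ := Group.fg_iff.1 this
  let V : Set s.K := Set.range (d.compChar P.twisted P.u) ∪ (z : CongruenceSubgroup.Gamma0 d.L → s.K) '' g
  have hVfin : V.Finite := (Set.finite_range _).union (hgfin.image _)
  let F := IntermediateField.adjoin (FractionRing s.O) V
  haveI : Finite V := hVfin.to_subtype
  have hFfin : FiniteDimensional (FractionRing s.O) F :=
    IntermediateField.finiteDimensional_adjoin fun x _ =>
      Algebra.IsIntegral.isIntegral (R := FractionRing s.O) x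
  have hchi : ∀ x, d.compChar P.twisted P.u x ∈ F := fun x =>
    IntermediateField.subset_adjoin _ _ (Or.inl ⟨x, rfl⟩)
  have hmem : ∀ γ, (z : CongruenceSubgroup.Gamma0 d.L → s.K) γ ∈ F := by
    intro γ
    have hγ : γ ∈ Subgroup.closure g := by rw [hg]; trivial
    have hchr : ∀ δ, (chr d.D_dvd_L (d.compChar P.twisted P.u)) δ ∈ F := fun δ => by rw [chr_apply]; exact pow_mem (hchi _) 2
    induction hγ using Subgroup.closure_induction with
    | mem δ hδ => exact IntermediateField.subset_adjoin _ _ (Or.inr ⟨δ, hδ, rfl⟩)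
    | one => rw [cocycle_one]; exact F.zero_mem
    | mul a b _ _ ha hb =>
      rw [z.2 a b, smul_eq_mul]
      exact F.add_mem ha (F.mul_mem (hchr a) hb)
    | inv a _ ha =>
      rw [cocycle_inv, smul_eq_mul]
      exact F.neg_mem (F.mul_mem (hchr _) ha)
  refine ⟨F, hFfin, hchi, z, ?_, hmem, hnorm, ?_, ?_⟩ <;> rw [hz]
  · exact hX
  · exact heig
  · exact hnew

/-- Every point has its coefficients. -/
theorem Point.exists_data (P : d.Point) : Nonempty (PointData P) := by
  obtain ⟨F, hF, hchi, hsys⟩ := P.exists_field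
  haveI : CharZero (FractionRing s.O) :=
    charZero_of_injective_algebraMap (IsFractionRing.injective s.O (FractionRing s.O))
  obtain ⟨hdvr, hfin, hloc, hinj, hfrac, hcompl, hres⟩ :=
    RepLemmas.integralClosure_isDVR s.O (FractionRing s.O) F
  haveI := hdvr
  haveI := hfin
  haveI := hloc
  haveI := hfrac
  haveI := hcompl
  haveI := hres inferInstance
  haveI : CharZero (integralClosure s.O F) := charZero_of_injective_algebraMap hinj
  haveI : IsScalarTower s.O F s.K := IsScalarTower.of_algebraMap_eq fun x =>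
    IsScalarTower.algebraMap_apply s.O (FractionRing s.O) s.K x
  let emb : integralClosure s.O F →+* s.K :=
    (algebraMap F s.K).comp (algebraMap (integralClosure s.O F) F)
  have hemb : Function.Injective emb :=
    (algebraMap F s.K).injective.comp Subtype.val_injective
  have hcomp : emb.comp (algebraMap s.O (integralClosure s.O F)) = algebraMap s.O s.K := by
    ext x
    exact (IsScalarTower.algebraMap_apply s.O F s.K x).symm
  have hint : ∀ x, ∃ c : integralClosure s.O F, emb c = d.compChar P.twisted P.u x := fun x =>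
    ⟨⟨⟨d.compChar P.twisted P.u x, hchi x⟩,
      (isIntegral_algHom_iff (IsScalarTower.toAlgHom s.O F s.K) (algebraMap F s.K).injective).mp
        (d.isIntegral_compChar P.twisted P.u P.hu x)⟩, rfl⟩
  choose cv hcv using hint
  let ψ : DirichletCharacter (integralClosure s.O F) d.D :=
    { toFun := cv
      map_one' := hemb (by rw [hcv, map_one, map_one])
      map_mul' := fun x y => hemb (by rw [map_mul, hcv, hcv, hcv, map_mul])
      map_nonunit' := fun x hx => hemb (by rw [hcv, MulChar.map_nonunit _ hx, map_zero]) }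
  have hψ : ψ.ringHomComp emb = d.compChar P.twisted P.u := MulChar.ext fun x => hcv _
  set E := FractionRing (integralClosure s.O F)
  set ι : E →+* s.K := IsFractionRing.lift hemb with hι
  have hιalg : ∀ c, ι (algebraMap _ E c) = emb c := fun c => IsFractionRing.lift_algebraMap hemb c
  have hrange : ∀ x ∈ F, x ∈ ι.range := by
    intro x hx
    obtain ⟨a, b, -, hab⟩ := IsFractionRing.div_surjective (A := integralClosure s.O F) (⟨x, hx⟩ : F)
    refine ⟨algebraMap _ E a / algebraMap _ E b, ?_⟩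
    rw [map_div₀, hιalg, hιalg]
    exact ((map_div₀ (algebraMap F s.K) _ _).symm.trans (congrArg _ hab))
  have hψι : (Lifting.toFrac ψ).ringHomComp ι = d.compChar P.twisted P.u := by
    rw [← hψ]
    exact MulChar.ext fun x => hιalg _
  rw [← hψι] at hsys
  obtain ⟨z, hz0, hzmem, hnorm, heig, hnew⟩ := hsys
  have hnorm' : (∀ γ, chr d.D_dvd_L (Lifting.toFrac ψ) γ = 1) ∨
      ∃ γ₁, chr d.D_dvd_L (Lifting.toFrac ψ) γ₁ ≠ 1 ∧ (z : CongruenceSubgroup.Gamma0 d.L → s.K) γ₁ = 0 := by
    rcases hnorm with h | ⟨γ₁, h1, h2⟩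
    · exact Or.inl fun γ => ι.injective (by rw [← chr_ringHomComp, h γ, map_one])
    · exact Or.inr ⟨γ₁, fun h => h1 (by rw [chr_ringHomComp, h, map_one]), h2⟩
  obtain ⟨x, hx0, -, hxeig, hxnew⟩ := exists_descend d.D_dvd_L ι (Lifting.toFrac ψ) z
    (fun γ => hrange _ (hzmem γ)) hnorm' hz0
  have hval : ∀ ℓ : ℕ, ∃ c : integralClosure s.O F, ℓ.Prime → ℓ ∉ d.S → emb c = P.a ℓ ∧
      heckeT' d.D_dvd_L (Lifting.toFrac ψ) E ℓ x = algebraMap _ E c • x := by
    intro ℓ
    by_cases h : ℓ.Prime ∧ ℓ ∉ d.S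
    · obtain ⟨c', hc', hTc⟩ := hxeig ℓ _ (heig ℓ h.1 h.2)
      have hi := isIntegral_of_eigen d.D_dvd_L ψ hx0 hTc
      obtain ⟨c, hc⟩ := IsIntegrallyClosed.isIntegral_iff.mp hi
      exact ⟨c, fun _ _ => ⟨by rw [← hιalg, hc, hc'], by rw [hc]; exact hTc⟩⟩
    · exact ⟨0, fun h1 h2 => absurd ⟨h1, h2⟩ h⟩
  choose a ha using hval
  have hmapres : ∀ ℓ : ℕ, ℓ.Prime → ℓ ∉ d.S → residue _ (a ℓ) =
      ResidueField.map (algebraMap s.O (integralClosure s.O F)) (s.abar ℓ) := fun ℓ hℓ hℓS =>
    residue_eq_of_congr emb hcomp P.congr ⟨ℓ, hℓ, hℓS⟩ (ha ℓ hℓ hℓS).1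
  have hS₀ : ∀ {ℓ : ℕ}, ℓ ∉ d.S → ℓ ∉ s.S₀ := fun h h' => h (d.mem_S_of_mem h')
  have htd : ∀ ℓ : ℕ, ℓ.Prime → ℓ ∉ d.S → ∀ A : ValuationSubring (AlgebraicClosure ℚ),
      A.LiesOverPrime ℓ → ∀ σ, A.IsFrobeniusAt σ ℓ →
        LinearMap.trace s.k s.ρbar.V (s.ρbar.ρ σ) = s.abar ℓ ∧
        LinearMap.det (s.ρbar.ρ σ) = (ℓ : s.k) := fun ℓ hℓ hℓS A hA σ hσ =>
    trace_det_of_charpoly s.ρbar.finrank_eq _ (s.hfrob ℓ hℓ (hS₀ hℓS) A hA σ hσ)
  refine ⟨{ O' := integralClosure s.O F, emb := emb, emb_inj := hemb, emb_comp := hcomp, ψ := ψ,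
            emb_ψ := hψ, a := a, emb_a := fun ℓ hℓ hℓS => (ha ℓ hℓ hℓS).1,
            point := ?_, newAt := fun ho => ⟨x, hx0, fun ℓ hℓ hℓS => (ha ℓ hℓ hℓS).2,
              hxnew s.p (hnew ho)⟩ }⟩
  exact
    { dvd := d.D_dvd_L
      squarefree := d.squarefree_L
      p_ne_two := s.hp2
      p_mem := by
        rw [← map_natCast (algebraMap s.O (integralClosure s.O F))]
        exact (map_nonunit _ _) s.hpO
      pPower := fun w => ⟨n + 1, hemb (by
        rw [map_pow, map_one, show emb (ψ w) = d.compChar P.twisted P.u w from hcv _,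
          ← MulChar.pow_apply' _ (pow_ne_zero _ s.hp.out.ne_zero),
          d.compChar_pow _ _ P.hu, MulChar.one_apply w.isUnit])⟩
      p_mem_set := d.mem_S_of_mem s.hpS₀
      level_mem_set := fun ℓ hℓ h => d.L_prime_mem hℓ h
      hasSystem := ⟨x, hx0, fun ℓ hℓ hℓS => (ha ℓ hℓ hℓS).2⟩
      absIrr := isAbsolutelyIrreducible_extend _ _ s.habs
      odd := isOdd_extend _ _ s.hodd
      residue_trace := fun ℓ hℓ hℓS A hA σ hσ => by
        rw [hmapres ℓ hℓ hℓS, trace_extend, (htd ℓ hℓ hℓS A hA σ hσ).1]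
      residue_det := fun ℓ hℓ hℓS A hA σ hσ => by
        rw [det_extend, (htd ℓ hℓ hℓS A hA σ hσ).2, map_natCast] }

end AuxPrimes

end Fermat.Agent.Ribet.Avoid
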