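/-
Taylor-Wiles primes with the tangent bound for the level lowering by Ihara avoidance.
-/
import Fermat.Agent.Ribet.Avoid.Setup
import Fermat.Agent.Ribet.Local
import Fermat.Agent.Lifting.BPlaces
import Fermat.Agent.Lifting.BGaugeLemmas
import Fermat.Agent.TW.AdjointIrreducible
import Fermat.Agent.RepLemmas.Galois
import Fermat.Agent.Datum.Roots

set_option autoImplicit false

noncomputable section

namespace Fermat.Agent.Ribet.Avoid

open Polynomial IsLocalRing

local notation "ℚbar" => AlgebraicClosure ℚ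
local notation "Γℚ" => AlgebraicClosure ℚ ≃ₐ[ℚ] AlgebraicClosure ℚ
local notation "M₂" k => Matrix (Fin 2) (Fin 2) k

variable {s : Setup} {r n : ℕ}

/-- The tangent bound at one step: classes flat or ordinary at `p`, unipotent at `M₀`, vanishing at the
Frobenius and inertia elements of `Sc` and free at the auxiliary primes. -/
def AuxPrimes.HasBound (d : AuxPrimes s r n) : Prop :=
  ∀ Z : Submodule s.k (Γℚ → Matrix (Fin 2) (Fin 2) s.k),
    Z ≤ TW.globalCocycles s.ρbar
      (s.M₀.primeFactors ∪ {s.p} ∪ s.Sc ∪ s.Aux ∪ Finset.univ.image d.q) →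
    (s.ordP = false → ∀ c ∈ Z, TW.resLoc s.p c ∈ TW.flatLocal s.p (TW.locRep s.ρbar s.p)) →
    (s.ordP = true → ∀ c ∈ Z, TW.resLoc s.p c ∈ TW.ordLocal s.p (TW.locRep s.ρbar s.p)) →
    (∀ q : ℕ, q.Prime → q ∣ s.M₀ → ∀ P : ValuationSubring ℚbar, P.LiesOverPrime q →
      ∀ g ∈ P.inertiaSubgroupIn ℚ, ∀ c ∈ Z, (c g * TW.matRep s.ρbar g).trace = 0) →
    (∀ x ∈ s.Sc, ∀ c ∈ Z, c (d.frob x) = 0 ∧ c (d.tau x) = 0) →
    FiniteDimensional s.k
        (Z ⊔ TW.adCoboundaries (TW.matRep s.ρbar) : Submodule s.k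
          (Γℚ → Matrix (Fin 2) (Fin 2) s.k)) ∧
      Module.finrank s.k
          (Z ⊔ TW.adCoboundaries (TW.matRep s.ρbar) : Submodule s.k
            (Γℚ → Matrix (Fin 2) (Fin 2) s.k)) + 3 * s.Sc.card ≤ r + 3

section algebra

variable {k : Type} [Field k]

/-- `A M A⁻¹ = q M` forces `M = 0` if `q ≠ 1` is the determinant and `tr² ≠ (q + 1)²`. -/
theorem eq_zero_of_conj_eq_smul (A M : M₂ k) (q : k) (hA : A.det = q) (hq0 : q ≠ 0)
    (hq1 : q ≠ 1) (htr : A.trace ^ 2 ≠ (q + 1) ^ 2) (h : A * M = q • (M * A)) : M = 0 := by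
  set t := A.trace with ht
  have hA2 : A * A = t • A - q • 1 := by rw [TW.sq_eq_fin_two, hA]
  have e1 : A * A * M = (q * q) • (M * (A * A)) := by
    rw [mul_assoc, h, mul_smul_comm, ← mul_assoc, h, smul_mul_assoc, smul_smul, mul_assoc]
  rw [hA2, sub_mul, mul_sub, smul_mul_assoc, mul_smul_comm, smul_mul_assoc, one_mul,
    mul_smul_comm, mul_one, h] at e1
  have hB : (q * (1 - q)) • (M * (t • A - (1 + q) • 1)) = 0 := by
    rw [Matrix.mul_sub, mul_smul_comm, mul_smul_comm, mul_one]
    linear_combination (norm := module) e1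
  have hne : q * (1 - q) ≠ 0 := mul_ne_zero hq0 (sub_ne_zero.mpr (Ne.symm hq1))
  have hdet : (t • A - (1 + q) • (1 : M₂ k)).det ≠ 0 := by
    intro h0
    apply htr
    simp only [Matrix.det_fin_two, Matrix.sub_apply, Matrix.smul_apply, smul_eq_mul,
      Matrix.one_apply_eq, Matrix.one_apply_ne (show (0 : Fin 2) ≠ 1 by decide),
      Matrix.one_apply_ne (show (1 : Fin 2) ≠ 0 by decide)] at h0
    rw [Matrix.det_fin_two] at hA
    rw [Matrix.trace_fin_two] at ht
    linear_combination -h0 + t ^ 2 * hA + (1 + q) * t * ht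
  have hu : IsUnit (t • A - (1 + q) • (1 : M₂ k)) :=
    (Matrix.isUnit_iff_isUnit_det _).mpr (isUnit_iff_ne_zero.mpr hdet)
  exact hu.mul_left_eq_zero.mp ((smul_eq_zero.mp hB).resolve_left hne)

theorem adCocycles_one {G : Type*} [Group G] {ρ : G →* M₂ k} {c : G → M₂ k}
    (hc : c ∈ TW.adCocycles ρ) : c 1 = 0 := by
  have h := ((TW.mem_adCocycles_iff ρ c).mp hc).2 1 1
  rw [mul_one, map_one, one_mul, inv_one, map_one, mul_one] at h
  exact left_eq_add.mp h

theorem adD_mem_globalFinite (ρ : ResidualGaloisRep k) {η : M₂ k} (hη : η.trace = 0) :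
    TW.adD (TW.matRep ρ) η ∈ TW.adCocycles (TW.matRep ρ) ⊓ TW.globalFiniteLevel k := by
  refine ⟨(TW.mem_adCocycles_iff _ _).mpr ⟨fun g => ?_, fun g h => ?_⟩, ?_⟩
  · rw [TW.adD_apply, Matrix.trace_sub, TW.trace_conj, hη, sub_zero]
  · simp only [TW.adD_apply, map_mul, mul_inv_rev, mul_sub, sub_mul, mul_assoc]
    abel
  · obtain ⟨L, hL, hLr⟩ := TW.matRep_factorsThroughFiniteLevel ρ
    refine ⟨L, hL, fun g s hs => ?_⟩
    have hs1 : TW.matRep ρ s = 1 := hLr s hs
    have hs2 : TW.matRep ρ s⁻¹ = 1 := by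
      have h := TW.rep_inv_mul (TW.matRep ρ) s
      rwa [hs1, mul_one] at h
    simp only [TW.adD_apply, map_mul, mul_inv_rev, hs1, hs2, mul_one, one_mul]

theorem eq_zero_of_forall_commute (ρ : ResidualGaloisRep k) (habs : ρ.IsAbsolutelyIrreducible)
    (h2 : (2 : k) ≠ 0) (M : M₂ k) (hM : M.trace = 0)
    (h : ∀ g, TW.matRep ρ g * M = M * TW.matRep ρ g) : M = 0 := by
  have key : ∀ f : Module.End k ρ.V,
      LinearMap.toMatrix (TW.residualBasis ρ) (TW.residualBasis ρ) f * M =
        M * LinearMap.toMatrix (TW.residualBasis ρ) (TW.residualBasis ρ) f := by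
    intro f
    have hf : f ∈ Submodule.span k (Set.range ρ.ρ) := by
      rw [RepLemmas.residual_span_eq_top_of_isAbsolutelyIrreducible ρ habs]; trivial
    induction hf using Submodule.span_induction with
    | mem x hx => obtain ⟨g, rfl⟩ := hx; exact h g
    | zero => simp
    | add x y _ _ hx hy => rw [map_add, add_mul, mul_add, hx, hy]
    | smul a x _ hx => rw [map_smul, smul_mul_assoc, mul_smul_comm, hx]
  have key' : ∀ X : M₂ k, X * M = M * X := fun X => by
    simpa [LinearMap.toMatrix_toLin] using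
      key (Matrix.toLin (TW.residualBasis ρ) (TW.residualBasis ρ) X)
  have e1 := key' (Matrix.single 0 1 1)
  have e2 := key' (Matrix.single 1 0 1)
  have e01 := congrFun (congrFun e2 1) 1
  have e10 := congrFun (congrFun e1 0) 0
  have e00 := congrFun (congrFun e1 0) 1
  simp [Matrix.mul_apply, Fin.sum_univ_two, Matrix.single] at e01 e10 e00
  rw [Matrix.trace_fin_two, e00] at hM
  have h00 : M 0 0 = 0 :=
    (mul_eq_zero.mp (show (2 : k) * M 0 0 = 0 by linear_combination hM)).resolve_left h2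
  ext i j
  fin_cases i <;> fin_cases j <;> simp_all

end algebra

namespace Setup

variable (s : Setup)

instance instCharP : CharP s.k s.p := (CharP.charP_iff_prime_eq_zero s.hp.out).mpr (by
  rw [← map_natCast (residue s.O), residue_eq_zero_iff]; exact s.hpO)

theorem sc_ne_p {x : ℕ} (hx : x ∈ s.Sc) : x ≠ s.p := fun h => by
  have h1 := s.hone x hx
  rw [h, ZMod.natCast_self] at h1
  exact zero_ne_one h1

theorem matRep_inertia_eq_one {q : ℕ} (hq : q.Prime) (hqp : q ≠ s.p) (hqM : ¬ q ∣ s.M₀)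
    (A : ValuationSubring ℚbar) (hA : A.LiesOverPrime q) :
    ∀ g ∈ A.inertiaSubgroupIn ℚ, TW.matRep s.ρbar g = 1 := by
  intro g hg
  have h : s.ρbar.IsUnramifiedAt q := by
    by_contra h
    exact hqM ((s.hmin q hq hqp).mpr h)
  exact (TW.matRep_eq_one_iff _ g).mpr (h A hA g hg)

theorem det_frobenius {q : ℕ} (hq : q.Prime) (hqp : q ≠ s.p) {A : ValuationSubring ℚbar}
    (hA : A.LiesOverPrime q) {φ : Γℚ} (hφ : A.IsFrobeniusAt φ q) :
    (TW.matRep s.ρbar φ).det = (q : s.k) := by
  have hμ : ∀ μ : ℚbar, μ ^ s.p ^ 1 = 1 → φ μ = μ ^ q := fun μ hμ =>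
    Datum.frobenius_apply_root hA hφ
      ((Nat.coprime_primes hq s.hp.out).mpr hqp |>.pow_right 1)
      (pow_ne_zero _ s.hp.out.ne_zero) hμ
  have h := s.hdet.2 1 φ q hμ
  rw [pow_one, CharP.cast_eq_zero s.k s.p, Ideal.span_singleton_zero, Ideal.mem_bot,
    sub_eq_zero] at h
  rw [← h]
  exact TW.det_matRep s.ρbar φ

theorem two_ne_zero : (2 : s.k) ≠ 0 := fun h => by
  have h4 := (CharP.cast_eq_zero_iff s.k s.p 2).mp (by exact_mod_cast h)
  exact s.hp2 ((Nat.prime_dvd_prime_iff_eq s.hp.out Nat.prime_two).mp h4)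

/-- At an auxiliary prime every class vanishes at the inertia generator. -/
theorem cocycle_tau_eq_zero {q : ℕ} [hqF : Fact q.Prime] (hq : q ∈ s.Aux) {φ τ : Γℚ}
    (hgen : Lifting.IsPlaceGenerators s.p q φ τ) {c : Γℚ → M₂ s.k}
    (hc : c ∈ TW.adCocycles (TW.matRep s.ρbar) ⊓ TW.globalFiniteLevel s.k) : c τ = 0 := by
  obtain ⟨-, hqp, hqM⟩ := s.hAuxPrime q hq
  obtain ⟨hco, E, hE, hlev⟩ := hc
  set R := TW.matRep s.ρbar with hR
  have hunr : ∀ g ∈ (padicPlace q).inertiaSubgroupIn ℚ, R g = 1 :=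
    s.matRep_inertia_eq_one hqF.out hqp hqM _ (Lifting.padicPlace_liesOverPrime q)
  have hc' := ((TW.mem_adCocycles_iff R c).mp hco).2
  set f := Lifting.firstOrderHom R c hco
  obtain ⟨L, hL, hLr⟩ := TW.matRep_factorsThroughFiniteLevel s.ρbar
  have hfin : ∃ E : IntermediateField ℚ ℚbar, FiniteDimensional ℚ E ∧
      ∀ g : Γℚ, (∀ x ∈ E, g x = x) → f g = 1 := by
    haveI := hL
    haveI := hE
    refine ⟨L ⊔ E, IntermediateField.finiteDimensional_sup L E, fun g hg => Units.ext ?_⟩
    have hr : R g = 1 := hLr g fun x hx => hg x ((le_sup_left : L ≤ L ⊔ E) hx)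
    have hcg : c g = 0 := by
      have := hlev 1 g fun x hx => hg x ((le_sup_right : E ≤ L ⊔ E) hx)
      rwa [one_mul, adCocycles_one hco] at this
    rw [Lifting.firstOrderHom_val, hr, hcg, zero_mul, Matrix.fromBlocks_one, Units.val_one]
  have hp : ∀ g ∈ (padicPlace q).inertiaSubgroupIn ℚ, ∃ m : ℕ, f g ^ s.p ^ m = 1 := by
    refine fun g hg => ⟨1, ?_⟩
    rw [pow_one, ← map_pow]
    refine Units.ext ?_
    rw [Lifting.firstOrderHom_val, map_pow, hunr g hg, one_pow,
      Lifting.cocycle_pow_of_eq_one hco (hunr g hg) s.p,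
      ← Nat.cast_smul_eq_nsmul s.k s.p (c g), CharP.cast_eq_zero s.k s.p, zero_smul, zero_mul,
      Matrix.fromBlocks_one, Units.val_one]
  obtain ⟨hrel, -, -⟩ := hgen.relation _ f hfin hp
  rw [← map_inv, ← map_mul, ← map_mul, ← map_pow] at hrel
  have h := congrArg Units.val hrel
  rw [Lifting.firstOrderHom_val, Lifting.firstOrderHom_val, Matrix.fromBlocks_inj] at h
  obtain ⟨hr, hcr, -, -⟩ := h
  have hτ1 : R τ = 1 := hunr τ hgen.tau_mem
  have hpow : R (τ ^ q) = 1 := by rw [map_pow, hτ1, one_pow]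
  have hτ1' : R τ⁻¹ = 1 := hunr τ⁻¹ (inv_mem hgen.tau_mem)
  rw [hr, hpow, mul_one, mul_one, Lifting.cocycle_pow_of_eq_one hco hτ1 q, hc', hc' φ τ,
    mul_inv_rev, map_mul, map_mul, hτ1, hτ1', one_mul, mul_one] at hcr
  have hinv := hc' φ φ⁻¹
  rw [mul_inv_cancel, adCocycles_one hco] at hinv
  have h2 : R φ * c τ * R φ⁻¹ = (q : s.k) • c τ := by
    rw [Nat.cast_smul_eq_nsmul, ← hcr, eq_neg_of_add_eq_zero_left hinv.symm]
    abel
  have h3 : R φ * c τ = (q : s.k) • (c τ * R φ) := by
    calc R φ * c τ = R φ * c τ * R φ⁻¹ * R φ := by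
          rw [mul_assoc (R φ * c τ), TW.rep_inv_mul, mul_one]
      _ = _ := by rw [h2, smul_mul_assoc]
  have hq0 : (q : s.k) ≠ 0 := fun h => hqp ((Nat.prime_dvd_prime_iff_eq s.hp.out hqF.out).mp
    ((CharP.cast_eq_zero_iff s.k s.p q).mp h)).symm
  have hq1 : (q : s.k) ≠ 1 := fun h => s.hAux1 q hq ((ZMod.castHom dvd_rfl s.k).injective
    (by rw [map_natCast, h, map_one]))
  refine eq_zero_of_conj_eq_smul _ _ _ (s.det_frobenius hqF.out hqp
    (Lifting.padicPlace_liesOverPrime q) hgen.frob) hq0 hq1 ?_ h3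
  rw [show (R φ).trace = LinearMap.trace s.k s.ρbar.V (s.ρbar.ρ φ) from
    (LinearMap.trace_eq_matrix_trace s.k (TW.residualBasis s.ρbar) _).symm]
  exact s.hAux q hq _ (Lifting.padicPlace_liesOverPrime q) φ hgen.frob

/-- The classes have a local image of dimension at most three at an auxiliary prime. -/
theorem finrank_map_resLoc_le {q : ℕ} [hqF : Fact q.Prime] (hq : q ∈ s.Aux)
    (V : Submodule s.k (Γℚ → M₂ s.k))
    (hV : V ≤ TW.adCocycles (TW.matRep s.ρbar) ⊓ TW.globalFiniteLevel s.k) :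
    FiniteDimensional s.k (V.map (TW.resLoc q)) ∧
      Module.finrank s.k (V.map (TW.resLoc (k := s.k) q)) ≤ 3 := by
  obtain ⟨-, hqp, hqM⟩ := s.hAuxPrime q hq
  obtain ⟨φ, τ, hgen⟩ := Lifting.exists_placeGenerators s.hp.out q hqp
  obtain ⟨g, hg⟩ := TW.exists_localGaloisToGlobal_eq q hgen.frob_mem
  let ev : V.map (TW.resLoc q) →ₗ[s.k] TW.traceFree s.k :=
    LinearMap.codRestrict _ ((LinearMap.proj g).comp (Submodule.subtype _)) fun c => by
      obtain ⟨b, hb, hbc⟩ := c.2
      rw [LinearMap.comp_apply, Submodule.subtype_apply, ← hbc, TW.mem_traceFree]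
      exact (hV hb).1.1 _
  have hev : Function.Injective ev := by
    refine (injective_iff_map_eq_zero _).mpr fun c hc => ?_
    obtain ⟨b, hb, hbc⟩ := c.2
    have h0 : c.1 g = 0 := congrArg Subtype.val hc
    rw [← hbc] at h0
    change b (localGaloisToGlobal q g) = 0 at h0
    rw [hg] at h0
    have hD := Lifting.cocycle_eq_zero_of_placeGenerators hgen s.ρbar
      (s.matRep_inertia_eq_one hqF.out hqp hqM _ (Lifting.padicPlace_liesOverPrime q)) (hV hb) h0
      (s.cocycle_tau_eq_zero hq hgen (hV hb))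
    refine Subtype.ext ?_
    rw [← hbc]
    exact funext fun x => hD _ (localGaloisToGlobal_mem_decompositionSubgroup q x)
  refine ⟨FiniteDimensional.of_injective ev hev, ?_⟩
  exact (LinearMap.finrank_le_finrank_of_injective hev).trans_eq TW.finrank_traceFree

/-- The chosen place, Frobenius and inertia generator over `x`. -/
theorem exists_placeData (x : ℕ) : ∃ (A : ValuationSubring ℚbar) (φ τ : Γℚ) (c : ℕ),
    ∀ hx : x.Prime, x ≠ s.p →
      haveI := Fact.mk hx
      A = padicPlace x ∧ Lifting.IsPlaceGenerators s.p x φ τ ∧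
        (∀ μ : ℚbar, μ ^ x = 1 → τ μ = μ ^ c) ∧ orderOf ((c : ℕ) : ZMod x) = x - 1 := by
  by_cases h : x.Prime ∧ x ≠ s.p
  · haveI := Fact.mk h.1
    obtain ⟨φ, τ, h1, h2, h3, ⟨c, hc, hord⟩, h5⟩ := Ribet.exists_tame_generators s.hp.out h.1 h.2
      (padicPlace x) (Lifting.padicPlace_liesOverPrime x)
    exact ⟨padicPlace x, φ, τ, c, fun _ _ => ⟨rfl, ⟨h1, h2, h3, h5⟩, hc, hord⟩⟩
  · exact ⟨⊤, 1, 1, 0, fun hx hxp => absurd ⟨hx, hxp⟩ h⟩

end Setup

/-- Taylor-Wiles primes with the tangent bound at every step. -/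
theorem exists_auxPrimes (s : Setup) :
    ∃ r : ℕ, 3 * s.Sc.card ≤ r ∧ ∀ n : ℕ, ∃ d : AuxPrimes s r n, d.HasBound := by
  classical
  set S0 := s.M₀.primeFactors ∪ {s.p} ∪ s.Sc ∪ s.Aux with hS0
  have hmem : ∀ q, q ∈ S0 ↔ q ∈ s.M₀.primeFactors ∨ q = s.p ∨ q ∈ s.Sc ∨ q ∈ s.Aux := fun q => by
    simp only [hS0, Finset.mem_union, Finset.mem_singleton, or_assoc]
  have hprime : ∀ q ∈ S0, q.Prime := fun q hq => by
    rcases (hmem q).mp hq with h | rfl | h | h
    · exact Nat.prime_of_mem_primeFactors h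
    · exact s.hp.out
    · exact s.hScPrime q h
    · exact (s.hAuxPrime q h).1
  have hpS0 : s.p ∈ S0 := (hmem _).mpr (Or.inr (Or.inl rfl))
  have hmemM : ∀ q, q.Prime → q ∣ s.M₀ → q ∈ S0 := fun q hq h =>
    (hmem q).mpr (Or.inl (Nat.mem_primeFactors.mpr ⟨hq, h, s.hM₀.ne_zero⟩))
  obtain ⟨r, hr⟩ := TW.exists_taylorWilesPrimes_finrank_le s.p s.hp2 s.ρbar s.habs s.hdet s.hsplit
    s.hTW S0 hpS0 hprime (fun q hq hqS => by
      by_contra hun
      exact hqS (hmemM q hq ((s.hmin q hq fun h => hqS (h ▸ hpS0)).mpr hun)))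
  choose place frob tau gen hdata using s.exists_placeData
  have key : ∀ n : ℕ, ∃ d : AuxPrimes s r n, d.HasBound := by
    intro n
    obtain ⟨qv, hinj, hqv, hdist, hW⟩ := hr n ∅
    have hnot : ∀ i, qv i ∉ S0 := fun i h => (hqv i).2.1 (Finset.mem_union_left _ h)
    let d : AuxPrimes s r n :=
      { q := qv
        inj := hinj
        prime := fun i => (hqv i).1
        notMem := fun i => ⟨fun h => hnot i (h ▸ hpS0), fun h => hnot i (hmemM _ (hqv i).1 h),
          fun h => hnot i ((hmem _).mpr (Or.inr (Or.inr (Or.inl h)))),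
          fun h => hnot i ((hmem _).mpr (Or.inr (Or.inr (Or.inr h))))⟩
        dvd := fun i => (hqv i).2.2
        distinct := hdist
        place := place
        frob := frob
        tau := tau
        gen := gen
        place_spec := by
          intro x hx
          obtain ⟨hxP, hxp⟩ : x.Prime ∧ x ≠ s.p := by
            rcases hx with hx | hx
            · exact ⟨s.hScPrime x hx, s.sc_ne_p hx⟩
            · obtain ⟨i, -, rfl⟩ := Finset.mem_image.mp hx
              exact ⟨(hqv i).1, fun h => hnot i (h ▸ hpS0)⟩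
          haveI := Fact.mk hxP
          obtain ⟨hA, hg, hc, ho⟩ := hdata x hxP hxp
          rw [hA]
          exact ⟨Lifting.padicPlace_liesOverPrime x, hg.frob, hg.frob_mem, hg.tau_mem, hc, ho,
            hg.relation⟩ }
    have hbd : ∀ Z : Submodule s.k (Γℚ → M₂ s.k),
        Z ≤ TW.globalCocycles s.ρbar (S0 ∪ Finset.univ.image qv) →
        (s.ordP = false → ∀ c ∈ Z, TW.resLoc s.p c ∈ TW.flatLocal s.p (TW.locRep s.ρbar s.p)) →
        (s.ordP = true → ∀ c ∈ Z, TW.resLoc s.p c ∈ TW.ordLocal s.p (TW.locRep s.ρbar s.p)) →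
        (∀ q : ℕ, q.Prime → q ∣ s.M₀ → ∀ P : ValuationSubring ℚbar, P.LiesOverPrime q →
          ∀ g ∈ P.inertiaSubgroupIn ℚ, ∀ c ∈ Z, (c g * TW.matRep s.ρbar g).trace = 0) →
        (∀ x ∈ s.Sc, ∀ c ∈ Z, c (frob x) = 0 ∧ c (tau x) = 0) →
        FiniteDimensional s.k
            (Z ⊔ TW.adCoboundaries (TW.matRep s.ρbar) : Submodule s.k (Γℚ → M₂ s.k)) ∧
          Module.finrank s.k
            (Z ⊔ TW.adCoboundaries (TW.matRep s.ρbar) : Submodule s.k (Γℚ → M₂ s.k))
              + 3 * s.Sc.card ≤ r + 3 := by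
      intro Z hZ hflat hord htr hzero
      set V := Z ⊔ TW.adCoboundaries (TW.matRep s.ρbar) with hVdef
      have hV : V ≤ TW.adCocycles (TW.matRep s.ρbar) ⊓ TW.globalFiniteLevel s.k := by
        refine sup_le (fun c hc => (hZ hc).1) ?_
        rintro _ ⟨η, hη, rfl⟩
        exact adD_mem_globalFinite s.ρbar (by simpa using hη)
      have hsplit' : ∀ g : TW.GalQp s.p, ∃ α β : s.k,
          (TW.locRep s.ρbar s.p g).charpoly = (X - C α) * (X - C β) := fun g => by
        obtain ⟨α, β, h⟩ := s.hsplit (localGaloisToGlobal s.p g)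
        exact ⟨α, β, (TW.charpoly_matRep s.ρbar _).trans h⟩
      have hp4 : FiniteDimensional s.k ((if s.ordP then TW.ordLocal s.p (TW.locRep s.ρbar s.p)
            else TW.flatLocal s.p (TW.locRep s.ρbar s.p)) :
              Submodule s.k (TW.GalQp s.p → M₂ s.k)) ∧
          Module.finrank s.k ((if s.ordP then TW.ordLocal s.p (TW.locRep s.ρbar s.p)
            else TW.flatLocal s.p (TW.locRep s.ρbar s.p)) :
              Submodule s.k (TW.GalQp s.p → M₂ s.k)) ≤ 4 := by
        cases s.ordP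
        · exact TW.finrank_flatLocal_le s.p _ s.hp2 (isFiniteLevel_locRep s.ρbar s.p)
            (det_locRep_eq s.ρbar s.p s.hdet) hsplit'
        · exact TW.finrank_ordLocal_le s.p _ s.hp2 (isFiniteLevel_locRep s.ρbar s.p)
            (det_locRep_eq s.ρbar s.p s.hdet)
      set L : ∀ (q : ℕ) [Fact q.Prime], Submodule s.k (TW.GalQp q → M₂ s.k) := fun q _ =>
        if q = s.p then
          (if s.ordP then TW.ordLocal q (TW.locRep s.ρbar q)
            else TW.flatLocal q (TW.locRep s.ρbar q))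
        else if q ∣ s.M₀ then TW.unipotentLocal q (TW.locRep s.ρbar q)
        else if q ∈ s.Sc then ⊥ else V.map (TW.resLoc q) with hL
      set δ : ℕ → ℤ := fun q => if q = s.p then 1 else if q ∈ s.Sc then -3 else 0 with hδ
      have hbound : ∀ (q : ℕ) [Fact q.Prime], q ∈ S0 →
          TW.adCoboundaries (TW.locRep s.ρbar q) ≤ L q ∧ FiniteDimensional s.k (L q) ∧
            (Module.finrank s.k (L q) : ℤ) ≤ 3 + δ q := by
        intro q _ hqS
        by_cases hqp : q = s.p
        · subst hqp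
          rw [show δ s.p = 1 from if_pos rfl,
            show L s.p = (if s.ordP then TW.ordLocal s.p (TW.locRep s.ρbar s.p)
              else TW.flatLocal s.p (TW.locRep s.ρbar s.p)) from if_pos rfl]
          refine ⟨?_, hp4.1, ?_⟩
          · split <;> exact le_sup_right
          · have := hp4.2; omega
        by_cases hqm : q ∣ s.M₀
        · have hns : q ∉ s.Sc := fun h => s.hScM₀ q h hqm
          rw [show L q = TW.unipotentLocal q (TW.locRep s.ρbar q) from
              (if_neg hqp).trans (if_pos hqm),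
            show δ q = 0 from (if_neg hqp).trans (if_neg hns)]
          obtain ⟨hfd, hdim⟩ := TW.finrank_unipotentLocal_le s.p q (TW.locRep s.ρbar q) s.hp2 hqp
            (isFiniteLevel_locRep s.ρbar q)
            (fun g hg => s.hunip q Fact.out hqm _ (padicPlace_liesOver q) _
              (TW.localGaloisToGlobal_mem_inertia q hg))
            (exists_locRep_ne_one s.ρbar q ((s.hmin q Fact.out hqp).mp hqm))
          exact ⟨le_sup_right, hfd, (Int.ofNat_le.mpr hdim).trans (by norm_num)⟩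
        by_cases hqs : q ∈ s.Sc
        · rw [show L q = ⊥ from ((if_neg hqp).trans (if_neg hqm)).trans (if_pos hqs),
            show δ q = -3 from (if_neg hqp).trans (if_pos hqs)]
          exact ⟨(adCoboundaries_eq_bot_of_scalar s.ρbar q
            (s.hscalar q hqs _ (padicPlace_liesOver q))).le, inferInstance, by simp⟩
        have hqA : q ∈ s.Aux := by
          rcases (hmem q).mp hqS with h | h | h | h
          · exact absurd (Nat.dvd_of_mem_primeFactors h) hqm
          · exact absurd h hqp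
          · exact absurd h hqs
          · exact h
        rw [show L q = V.map (TW.resLoc q) from
            ((if_neg hqp).trans (if_neg hqm)).trans (if_neg hqs),
          show δ q = 0 from (if_neg hqp).trans (if_neg hqs)]
        obtain ⟨hfd, hdim⟩ := s.finrank_map_resLoc_le hqA V hV
        refine ⟨?_, hfd, by omega⟩
        rintro _ ⟨η, hη, rfl⟩
        exact ⟨_, Submodule.mem_sup_right ⟨η, hη, rfl⟩, funext fun g => by
          simp [TW.resLoc, TW.locRep, map_inv]⟩
      obtain ⟨hfin, hle⟩ := hW L δ hbound Z hZ fun q _ hqS c hc => by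
        by_cases hqp : q = s.p
        · subst hqp
          rw [show L s.p = (if s.ordP then TW.ordLocal s.p (TW.locRep s.ρbar s.p)
              else TW.flatLocal s.p (TW.locRep s.ρbar s.p)) from if_pos rfl]
          cases ho : s.ordP
          · exact hflat ho c hc
          · exact hord ho c hc
        by_cases hqm : q ∣ s.M₀
        · rw [show L q = TW.unipotentLocal q (TW.locRep s.ρbar q) from
            (if_neg hqp).trans (if_pos hqm)]
          exact Submodule.mem_sup_left ⟨resLoc_mem_ctsCocycles s.ρbar q (hZ hc),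
            fun g hg => htr q Fact.out hqm _ (padicPlace_liesOver q) _
              (TW.localGaloisToGlobal_mem_inertia q hg) c hc⟩
        by_cases hqs : q ∈ s.Sc
        · rw [show L q = ⊥ from ((if_neg hqp).trans (if_neg hqm)).trans (if_pos hqs),
            Submodule.mem_bot]
          obtain ⟨-, hgen, -, -⟩ := hdata q Fact.out hqp
          obtain ⟨h1, h2⟩ := hzero q hqs c hc
          exact funext fun g => Lifting.cocycle_eq_zero_of_placeGenerators hgen s.ρbar
            (s.matRep_inertia_eq_one Fact.out hqp hqm _ (padicPlace_liesOver q)) (hZ hc).1 h1 h2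
            _ (localGaloisToGlobal_mem_decompositionSubgroup q g)
        · rw [show L q = V.map (TW.resLoc q) from
            ((if_neg hqp).trans (if_neg hqm)).trans (if_neg hqs)]
          exact ⟨c, Submodule.mem_sup_left hc, rfl⟩
      refine ⟨hfin, ?_⟩
      have hsum : ∑ q ∈ S0, δ q = 1 + -3 * (s.Sc.card : ℤ) := by
        have e : ∀ q ∈ S0, δ q = (if q = s.p then (1 : ℤ) else 0) +
            (if q ∈ s.Sc then (-3 : ℤ) else 0) := fun q _ => by
          by_cases h : q = s.p
          · have h' : q ∉ s.Sc := fun h' => s.sc_ne_p h' h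
            simp [hδ, h, h']
            exact fun h'' => absurd h'' (h ▸ h')
          · simp [hδ, h]
        rw [Finset.sum_congr rfl e, Finset.sum_add_distrib, Finset.sum_ite_eq' S0 s.p,
          if_pos hpS0, Finset.sum_ite_mem, Finset.inter_eq_right.mpr
            (fun q hq => (hmem q).mpr (Or.inr (Or.inr (Or.inl hq)))),
          Finset.sum_const, nsmul_eq_mul]
        ring
      rw [hsum] at hle
      refine Int.ofNat_le.mp ?_
      push_cast
      linarith
    exact ⟨d, hbd⟩
  refine ⟨r, ?_, key⟩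
  obtain ⟨d, hd⟩ := key 0
  obtain ⟨-, hle⟩ := hd ⊥ bot_le (fun _ c hc => by simp [(Submodule.mem_bot _).mp hc])
    (fun _ c hc => by simp [(Submodule.mem_bot _).mp hc])
    (fun q _ _ P _ g _ c hc => by simp [(Submodule.mem_bot _).mp hc])
    (fun x _ c hc => by simp [(Submodule.mem_bot _).mp hc])
  rw [bot_sup_eq] at hle
  have h3 := Lifting.finrank_adCoboundaries_of_irred (TW.matRep s.ρbar)
    (fun M hM h => eq_zero_of_forall_commute s.ρbar s.habs s.two_ne_zero M hM h)
  linarith

end Fermat.Agent.Ribet.Avoid
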