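/-
Local conditions of a representation over a ring which embeds into a finite product of local
rings: they can be checked on the factors.
-/
import Fermat.Agent.Lifting.ETransfer
import Fermat.Agent.Flat.HopfToolkit
import Fermat.Agent.OrdinaryDatum.Assembly
import Mathlib.RingTheory.DiscreteValuationRing.Basic
import Mathlib.RingTheory.AdicCompletion.Basic
import Mathlib.RingTheory.Filtration
import Mathlib.RingTheory.Ideal.Quotient.Index

set_option autoImplicit false

noncomputable section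

namespace Fermat.Agent.Ribet.Avoid

open IsLocalRing

open scoped TensorProduct

local notation "ℚbar" => AlgebraicClosure ℚ
local notation "Γℚ" => AlgebraicClosure ℚ ≃ₐ[ℚ] AlgebraicClosure ℚ

namespace Product

/-- An element of a decomposition group in inertia. -/
theorem mem_decomposition_of_mem_inertia {P : ValuationSubring ℚbar} {σ : Γℚ}
    (hσ : σ ∈ P.inertiaSubgroupIn ℚ) : σ ∈ P.decompositionSubgroup ℚ := by
  obtain ⟨τ, -, rfl⟩ := hσ
  exact τ.2

/-- The exponent of an automorphism on the `m`th roots of unity. -/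
theorem exists_exponent (σ : Γℚ) {m : ℕ} [NeZero m] :
    ∃ a : ℕ, ∀ μ : ℚbar, μ ^ m = 1 → σ μ = μ ^ a := by
  haveI : NeZero (m : ℚbar) := ⟨Nat.cast_ne_zero.2 (NeZero.ne m)⟩
  obtain ⟨ζ, hζ⟩ := HasEnoughRootsOfUnity.exists_primitiveRoot ℚbar m
  obtain ⟨a, -, ha⟩ := hζ.eq_pow_of_pow_eq_one
    (ξ := σ ζ) (by rw [← map_pow, hζ.pow_eq_one, map_one])
  refine ⟨a, fun μ hμ => ?_⟩
  obtain ⟨i, -, rfl⟩ := hζ.eq_pow_of_pow_eq_one hμ
  rw [map_pow, ← ha, ← pow_mul, ← pow_mul, mul_comm]

/-- A trace one idempotent of a plane over a local ring is the projection on the first vector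
of a basis. -/
theorem exists_basis_of_idempotent {R V : Type*} [CommRing R] [IsLocalRing R] [AddCommGroup V]
    [Module R V] (b₀ : Module.Basis (Fin 2) R V) (e : Module.End R V) (he : e * e = e)
    (htr : LinearMap.trace R V e = 1) :
    ∃ b : Module.Basis (Fin 2) R V, e (b 0) = b 0 ∧ e (b 1) = 0 := by
  obtain ⟨b, hb⟩ : ∃ b : Module.Basis (Fin 2) R V, IsUnit (LinearMap.toMatrix b b e 0 0) := by
    rw [LinearMap.trace_eq_matrix_trace R b₀, Matrix.trace_fin_two] at htr
    rcases IsLocalRing.isUnit_or_isUnit_of_add_one htr with h | h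
    · exact ⟨b₀, h⟩
    · refine ⟨b₀.reindex (Equiv.swap 0 1), ?_⟩
      rw [LinearMap.toMatrix_apply] at h ⊢
      simpa [Module.Basis.reindex_apply, Module.Basis.repr_reindex_apply] using h
  set M := LinearMap.toMatrix b b e with hM
  have hMM : M * M = M := by rw [hM, ← LinearMap.toMatrix_mul, he]
  have htr' : M 0 0 + M 1 1 = 1 := by
    rw [← Matrix.trace_fin_two, hM, ← LinearMap.trace_eq_matrix_trace, htr]
  have h00 : M 0 0 * M 0 0 + M 0 1 * M 1 0 = M 0 0 := by
    simpa [Matrix.mul_apply, Fin.sum_univ_two] using congrFun (congrFun hMM 0) 0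
  let v : Fin 2 → V := ![e (b 0), b 1 - e (b 1)]
  have hdet : b.det v = M 0 0 := by
    have hcol : ∀ i j, b.repr (e (b j)) i = M i j := fun i j => by
      rw [hM, LinearMap.toMatrix_apply]
    rw [Module.Basis.det_apply, Matrix.det_fin_two]
    simp only [Module.Basis.toMatrix_apply, v, Matrix.cons_val_zero, Matrix.cons_val_one,
      map_sub, Finsupp.sub_apply, hcol, Module.Basis.repr_self, Finsupp.single_eq_same,
      Finsupp.single_apply]
    simp
    linear_combination h00 - (M 0 0) * htr'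
  have hbasis := (Module.Basis.is_basis_iff_det b).2 (hdet ▸ hb)
  refine ⟨Module.Basis.mk hbasis.1 hbasis.2.ge, ?_, ?_⟩
  · simp only [Module.Basis.mk_apply, v, Matrix.cons_val_zero]
    rw [← Module.End.mul_apply, he]
  · simp only [Module.Basis.mk_apply, v, Matrix.cons_val_one, Matrix.cons_val_zero, map_sub]
    rw [← Module.End.mul_apply, he, sub_self]

/-- An endomorphism vanishing on jointly injective changes of coefficients vanishes. -/
theorem end_eq_zero {B : Type} [CommRing B] {ι : Type} {C : ι → Type} [∀ i, CommRing (C i)]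
    [∀ i, Algebra B (C i)] (hinj : ∀ x : B, (∀ i, algebraMap B (C i) x = 0) → x = 0)
    {V : Type} [AddCommGroup V] [Module B V] (b : Module.Basis (Fin 2) B V) (S : Module.End B V)
    (h : ∀ i, S.baseChange (C i) = 0) : S = 0 := by
  refine b.ext fun j => b.repr.injective (Finsupp.ext fun l => ?_)
  rw [LinearMap.zero_apply, map_zero, Finsupp.zero_apply]
  refine hinj _ fun i => ?_
  have e := congrArg (fun w => (b.baseChange (C i)).repr w l)
    (LinearMap.congr_fun (h i) (1 ⊗ₜ[B] b j))
  simpa [Algebra.smul_def] using e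

end Product

section Ring

variable {B : Type} [CommRing B] [IsLocalRing B] {ι : Type} {C : ι → Type} [∀ i, CommRing (C i)]
  [∀ i, IsLocalRing (C i)] (φ : ∀ i, B →+* C i) (hφ : ∀ i, IsLocalHom (φ i))
  (hinj : ∀ b, (∀ i, φ i b = 0) → b = 0) (ρ : GaloisRepAdic B)

include hinj in
/-- Strict ordinarity can be checked on a jointly injective family of local homomorphisms. -/
theorem isStrictOrdinaryAt_of_jointlyInjective [Nonempty ι] [∀ i, IsNoetherianRing (C i)] (p : ℕ) [Fact p.Prime] (hp2 : p ≠ 2)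
    (hdet : ρ.DetIsCyclotomic p)
    (h : ∀ i, (ρ.baseChangeAlong (φ i) (hφ i)).IsStrictOrdinaryAt p) :
    ρ.IsStrictOrdinaryAt p := by
  refine ⟨hdet.1, fun P hP => ?_⟩
  letI : ∀ i, Algebra B (C i) := fun i => (φ i).toAlgebra
  have hp : p.Prime := Fact.out
  haveI : NeZero p := ⟨hp.ne_zero⟩
  haveI : NeZero (p : ℚbar) := ⟨Nat.cast_ne_zero.2 hp.ne_zero⟩
  obtain ⟨ζ, hζ⟩ := HasEnoughRootsOfUnity.exists_primitiveRoot ℚbar p
  obtain ⟨σ₀, hσ₀, hmove⟩ := OrdinaryDatum.exists_inertia_apply_root_ne hp hp2 hP hζ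
  obtain ⟨a₀, ha₀⟩ := Product.exists_exponent σ₀ (m := p)
  set T₀ := ρ.ρ σ₀ with hT₀
  set d₀ := LinearMap.det T₀ with hd₀
  have hd1 : IsUnit (d₀ - 1) := by
    have hda : d₀ - (a₀ : B) ∈ maximalIdeal B := by
      have h' := hdet.2 1 σ₀ a₀ (by simpa using ha₀)
      rw [pow_one] at h'
      exact (Ideal.span_singleton_le_iff_mem _).2 hdet.1 h'
    by_contra hn
    have ha1 : ((a₀ : ℤ) - 1 : B) ∈ maximalIdeal B := by
      have h1 : d₀ - 1 ∈ maximalIdeal B := (mem_maximalIdeal _).2 hn
      have := sub_mem h1 hda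
      simpa using this
    have hdvd : (p : ℤ) ∣ (a₀ : ℤ) - 1 := by
      by_contra hnd
      obtain ⟨u, v, huv⟩ :=
        (Int.prime_iff_natAbs_prime.2 (by simpa using hp) : Prime (p : ℤ)).coprime_iff_not_dvd.2 hnd
      refine (maximalIdeal.isMaximal B).ne_top ((Ideal.eq_top_iff_one _).2 ?_)
      have h2 : ((u * (p : ℤ) + v * ((a₀ : ℤ) - 1) : ℤ) : B) ∈ maximalIdeal B := by
        push_cast
        exact add_mem (Ideal.mul_mem_left _ _ hdet.1) (Ideal.mul_mem_left _ _ (by simpa using ha1))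
      rwa [huv, Int.cast_one] at h2
    refine hmove ?_
    rw [ha₀ ζ hζ.pow_eq_one]
    have hmod : a₀ % p = 1 := by
      have h2 : (((a₀ : ℤ) - 1 : ℤ) : ZMod p) = 0 := (ZMod.intCast_zmod_eq_zero_iff_dvd _ _).2 hdvd
      push_cast at h2
      rw [← ZMod.val_natCast, sub_eq_zero.1 h2, ZMod.val_one]
    rw [pow_eq_pow_mod _ hζ.pow_eq_one, hmod, pow_one]
  -- the shape in one factor
  have hfac : ∀ i, ∃ L : Submodule (C i) (C i ⊗[B] ρ.V),
      (∃ b : Module.Basis (Fin 2) (C i) (C i ⊗[B] ρ.V), L = C i ∙ b 0) ∧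
      (∀ σ ∈ P.decompositionSubgroup ℚ, ∀ v ∈ L, (ρ.ρ σ).baseChange (C i) v ∈ L) ∧
      (∀ σ ∈ P.inertiaSubgroupIn ℚ, ∀ v, (ρ.ρ σ).baseChange (C i) v - v ∈ L) ∧
      (∀ σ ∈ P.decompositionSubgroup ℚ, ∃ x z : C i,
        (∀ w ∈ L, (ρ.ρ σ).baseChange (C i) w = x • w) ∧
        (∀ v, (ρ.ρ σ).baseChange (C i) v - z • v ∈ L) ∧
        ∀ (n a : ℕ), (∀ μ : ℚbar, μ ^ p ^ n = 1 → σ μ = μ ^ a) →
          x - (a : C i) * z ∈ Ideal.span {((p ^ n : ℕ) : C i)}) := fun i => (h i).2 P hP
  choose L hLb hLD hLI hLx using hfac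
  choose b₁ hb₁ using hLb
  let b₀ : Module.Basis (Fin 2) B ρ.V := Module.finBasisOfFinrankEq B ρ.V ρ.finrank_eq
  have hdetmap : ∀ i (S : Module.End B ρ.V),
      algebraMap B (C i) (LinearMap.det S) = LinearMap.det (S.baseChange (C i)) :=
    fun i S => (LinearMap.det_baseChange S).symm
  -- matrices in the bases adapted to the lines
  have hscal : ∀ i (S : Module.End (C i) (C i ⊗[B] ρ.V)) (x z : C i),
      (∀ w ∈ L i, S w = x • w) → (∀ v, S v - z • v ∈ L i) →
        LinearMap.det S = x * z ∧ LinearMap.trace (C i) _ S = x + z := by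
    intro i S x z hx hz
    obtain ⟨c, hc⟩ := Submodule.mem_span_singleton.1 (hb₁ i ▸ hz (b₁ i 1))
    have h0 : S (b₁ i 0) = x • b₁ i 0 :=
      hx _ (hb₁ i ▸ Submodule.mem_span_singleton_self _)
    have h1 : S (b₁ i 1) = c • b₁ i 0 + z • b₁ i 1 := by rw [hc]; abel
    rw [← LinearMap.det_toMatrix (b₁ i), LinearMap.trace_eq_matrix_trace _ (b₁ i),
      Matrix.det_fin_two, Matrix.trace_fin_two]
    simp only [LinearMap.toMatrix_apply, h0, h1, map_smul, map_add, Finsupp.smul_apply,
      Finsupp.add_apply, Module.Basis.repr_self, Finsupp.single_apply, smul_eq_mul]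
    simp
  have hT0L : ∀ i, ∀ w ∈ L i, T₀.baseChange (C i) w = algebraMap B (C i) d₀ • w := by
    intro i w hw
    obtain ⟨x, z, hx, hz, -⟩ := hLx i σ₀ (Product.mem_decomposition_of_mem_inertia hσ₀)
    have hz1 : z = 1 := by
      obtain ⟨c, hc⟩ := Submodule.mem_span_singleton.1
        (hb₁ i ▸ sub_mem (hLI i σ₀ hσ₀ (b₁ i 1)) (hz (b₁ i 1)))
      have := congrArg (fun v => (b₁ i).repr v 1) hc
      simp [Finsupp.single_apply] at this
      exact sub_eq_zero.1 this.symm
    have hdd : algebraMap B (C i) d₀ = x := by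
      rw [hd₀, hdetmap, (hscal i _ x z hx hz).1, hz1, mul_one]
    rw [hdd]
    exact hx w hw
  have htr : LinearMap.trace B ρ.V T₀ = 1 + d₀ := by
    refine sub_eq_zero.1 (hinj _ fun i => ?_)
    have h2 := (hscal i (T₀.baseChange (C i)) (algebraMap B (C i) d₀) 1 (hT0L i)
      fun v => by rw [one_smul]; exact hLI i σ₀ hσ₀ v).2
    rw [LinearMap.trace_baseChange] at h2
    show algebraMap B (C i) _ = 0
    rw [map_sub, h2, map_add, map_one, add_comm, sub_self]
  obtain ⟨u, hu⟩ := hd1.exists_left_inv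
  set e : Module.End B ρ.V := u • (T₀ - 1) with he
  have heid : ∀ i, ∀ w ∈ L i, e.baseChange (C i) w = w := by
    intro i w hw
    rw [he, LinearMap.baseChange_smul, LinearMap.smul_apply, LinearMap.baseChange_sub,
      LinearMap.sub_apply, LinearMap.baseChange_one, Module.End.one_apply, hT0L i w hw,
      ← algebraMap_smul (C i) u, ← one_smul (C i) w, smul_smul, smul_sub, ← smul_smul,
      one_smul, smul_smul, ← sub_smul, ← mul_sub_one]
    rw [show algebraMap B (C i) u * (algebraMap B (C i) d₀ - 1) = 1 by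
      rw [← map_one (algebraMap B (C i)), ← map_sub, ← map_mul, hu], one_smul]
  have heL : ∀ i v, e.baseChange (C i) v ∈ L i := by
    intro i v
    rw [he, LinearMap.baseChange_smul, LinearMap.smul_apply, LinearMap.baseChange_sub,
      LinearMap.sub_apply, LinearMap.baseChange_one, Module.End.one_apply, ← algebraMap_smul (C i) u]
    exact (L i).smul_mem _ (hLI i σ₀ hσ₀ v)
  have hee : e * e = e := by
    refine sub_eq_zero.1 (Product.end_eq_zero (C := C) hinj b₀ _ fun i => LinearMap.ext fun v => ?_)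
    rw [LinearMap.baseChange_sub, LinearMap.sub_apply, LinearMap.baseChange_mul,
      Module.End.mul_apply, heid i _ (heL i v), sub_self, LinearMap.zero_apply]
  have hetr : LinearMap.trace B ρ.V e = 1 := by
    rw [he, map_smul, map_sub, htr, LinearMap.trace_one, ρ.finrank_eq, smul_eq_mul]
    push_cast
    linear_combination hu
  obtain ⟨b, hb0, hb1⟩ := Product.exists_basis_of_idempotent b₀ e hee hetr
  have hline : ∀ v, e v = v → v ∈ B ∙ b 0 := fun v hv => by
    refine Submodule.mem_span_singleton.2 ⟨b.repr v 0, ?_⟩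
    have h' := congrArg e (b.sum_repr v)
    rw [Fin.sum_univ_two, map_add, map_smul, map_smul, hb0, hb1, smul_zero, add_zero, hv] at h'
    exact h'
  have hfix : ∀ v ∈ B ∙ b 0, e v = v := fun v hv => by
    obtain ⟨c, rfl⟩ := Submodule.mem_span_singleton.1 hv
    rw [map_smul, hb0]
  -- stability, inertia
  have hD : ∀ σ ∈ P.decompositionSubgroup ℚ, ∀ v ∈ B ∙ b 0, ρ.ρ σ v ∈ B ∙ b 0 := by
    intro σ hσ v hv
    refine hline _ ?_
    have h0 : e * ρ.ρ σ * e - ρ.ρ σ * e = 0 := by
      refine Product.end_eq_zero (C := C) hinj b₀ _ fun i => LinearMap.ext fun w => ?_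
      simp only [LinearMap.baseChange_sub, LinearMap.baseChange_mul, LinearMap.sub_apply,
        Module.End.mul_apply, heid i _ (hLD i σ hσ _ (heL i w)), sub_self, LinearMap.zero_apply]
    have h1 := LinearMap.congr_fun (sub_eq_zero.1 h0) v
    simpa [hfix v hv] using h1
  have hI : ∀ σ ∈ P.inertiaSubgroupIn ℚ, ∀ v : ρ.V, ρ.ρ σ v - v ∈ B ∙ b 0 := by
    intro σ hσ v
    refine hline _ ?_
    have h0 : e * (ρ.ρ σ - 1) - (ρ.ρ σ - 1) = 0 := by
      refine Product.end_eq_zero (C := C) hinj b₀ _ fun i => LinearMap.ext fun w => ?_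
      simp only [LinearMap.baseChange_sub, LinearMap.baseChange_mul, LinearMap.baseChange_one,
        LinearMap.sub_apply, Module.End.mul_apply, Module.End.one_apply,
        heid i _ (hLI i σ hσ w), sub_self, LinearMap.zero_apply]
    simpa using LinearMap.congr_fun (sub_eq_zero.1 h0) v
  refine ⟨B ∙ b 0, ⟨b, rfl⟩, hD, hI, fun σ hσ => ?_⟩
  set x := b.repr (ρ.ρ σ (b 0)) 0
  set z := b.repr (ρ.ρ σ (b 1)) 1
  have hσ0 : ρ.ρ σ (b 0) = x • b 0 := by
    obtain ⟨c, hc⟩ := Submodule.mem_span_singleton.1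
      (hD σ hσ _ (Submodule.mem_span_singleton_self (b 0)))
    simp [x, ← hc]
  have hσ1 : ρ.ρ σ (b 1) - z • b 1 = b.repr (ρ.ρ σ (b 1)) 0 • b 0 := by
    rw [sub_eq_iff_eq_add]
    exact (b.sum_repr _).symm.trans (Fin.sum_univ_two _)
  have hσv : ∀ v, ρ.ρ σ v - z • v ∈ B ∙ b 0 := fun v => by
    rw [← b.sum_repr v, Fin.sum_univ_two, map_add, map_smul, map_smul, hσ0, smul_add,
      smul_comm z (b.repr v 1), add_sub_add_comm, ← smul_sub (b.repr v 1), hσ1]
    exact add_mem (sub_mem (Submodule.smul_mem _ _ (Submodule.smul_mem _ _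
      (Submodule.mem_span_singleton_self _))) (Submodule.smul_mem _ _ (Submodule.smul_mem _ _
      (Submodule.mem_span_singleton_self _)))) (Submodule.smul_mem _ _ (Submodule.smul_mem _ _
      (Submodule.mem_span_singleton_self _)))
  have hdσ : LinearMap.det (ρ.ρ σ) = x * z := by
    rw [← LinearMap.det_toMatrix b, Matrix.det_fin_two]
    have e10 : LinearMap.toMatrix b b (ρ.ρ σ) 1 0 = 0 := by
      rw [LinearMap.toMatrix_apply, hσ0, map_smul, b.repr_self]
      simp
    rw [e10, mul_zero, sub_zero, LinearMap.toMatrix_apply, LinearMap.toMatrix_apply]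
  have hz2 : z ^ 2 = 1 := by
    refine sub_eq_zero.1 (hinj _ fun i => ?_)
    show algebraMap B (C i) _ = 0
    obtain ⟨xi, zi, hxi, hzi, hcong⟩ := hLx i σ hσ
    have hmem : (1 : C i) ⊗ₜ[B] b 0 ∈ L i := by
      rw [← hb0, ← LinearMap.baseChange_tmul]; exact heL i _
    have hzz : zi = algebraMap B (C i) z := by
      have h1 : (1 : C i) ⊗ₜ[B] (ρ.ρ σ (b 1) - z • b 1) ∈ L i := by
        rw [hσ1, TensorProduct.tmul_smul, ← algebraMap_smul (C i)]
        exact (L i).smul_mem _ hmem
      have h2 := hzi ((1 : C i) ⊗ₜ[B] b 1)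
      rw [LinearMap.baseChange_tmul] at h2
      rw [TensorProduct.tmul_sub, TensorProduct.tmul_smul, ← algebraMap_smul (C i) z] at h1
      have h3 := heid i _ (sub_mem h1 h2)
      rw [sub_sub_sub_cancel_left, map_sub, map_smul, map_smul, LinearMap.baseChange_tmul, hb1,
        TensorProduct.tmul_zero, smul_zero, smul_zero, sub_zero, eq_comm] at h3
      have h4 := congrArg (fun v => (b.baseChange (C i)).repr v 1) h3
      simp only [map_zero, Finsupp.zero_apply, map_sub, Finsupp.sub_apply, map_smul,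
        Finsupp.smul_apply, Module.Basis.baseChange_repr_tmul, b.repr_self, Finsupp.single_eq_same,
        smul_eq_mul, one_smul, mul_one] at h4
      exact sub_eq_zero.1 h4
    have hdi : algebraMap B (C i) (x * z) = xi * zi := by
      rw [← hdσ, hdetmap, (hscal i _ xi zi hxi hzi).1]
    have hall : ∀ n : ℕ, zi ^ 2 - 1 ∈ maximalIdeal (C i) ^ n := by
      intro n
      haveI : NeZero (p ^ (n + 1)) := ⟨pow_ne_zero _ hp.ne_zero⟩
      obtain ⟨a, ha⟩ := Product.exists_exponent σ (m := p ^ (n + 1))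
      have hpC : (p : C i) ∈ maximalIdeal (C i) :=
        Lifting.ETransfer.natCast_mem_maximalIdeal (φ i) (hφ i) hdet.1
      have hsp : Ideal.span {((p ^ (n + 1) : ℕ) : C i)} ≤ maximalIdeal (C i) ^ (n + 1) := by
        rw [Ideal.span_singleton_le_iff_mem, Nat.cast_pow]
        exact Ideal.pow_mem_pow hpC _
      have h1 : xi - (a : C i) * zi ∈ maximalIdeal (C i) ^ (n + 1) := hsp (hcong _ a ha)
      have h2 : xi * zi - (a : C i) ∈ maximalIdeal (C i) ^ (n + 1) := by
        obtain ⟨c, hc⟩ := Ideal.mem_span_singleton'.1 (hdet.2 (n + 1) σ a ha)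
        refine hsp (Ideal.mem_span_singleton'.2 ⟨algebraMap B (C i) c, ?_⟩)
        rw [← hdi, ← hdσ, ← map_natCast (algebraMap B (C i)) a, ← map_sub, ← hc, map_mul,
          map_natCast]
      have hau : IsUnit (a : C i) := by
        have hu' : IsUnit (xi * zi) := by
          rw [← hdi, ← hdσ]
          refine IsUnit.map _ (IsUnit.map LinearMap.det ?_)
          exact (Group.isUnit σ).map ρ.ρ
        by_contra hn
        exact (mem_maximalIdeal _).1 (by
          have := add_mem (Ideal.pow_le_self (Nat.succ_ne_zero n) h2) ((mem_maximalIdeal _).2 hn)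
          rwa [sub_add_cancel] at this) hu'
      have h3 : (a : C i) * (zi ^ 2 - 1) ∈ maximalIdeal (C i) ^ (n + 1) := by
        have := sub_mem h2 (Ideal.mul_mem_left _ zi h1)
        convert this using 1
        ring
      exact Ideal.pow_le_pow_right (Nat.le_succ n) ((Ideal.unit_mul_mem_iff_mem _ hau).1 h3)
    have hz0 : zi ^ 2 - 1 = 0 := by
      have hmem' : zi ^ 2 - 1 ∈ ⨅ n, maximalIdeal (C i) ^ n := (Ideal.mem_iInf).2 hall
      rwa [Ideal.iInf_pow_eq_bot_of_isLocalRing _ (maximalIdeal.isMaximal (C i)).ne_top,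
        Ideal.mem_bot] at hmem'
    rw [map_sub, map_pow, map_one, ← hzz, hz0]
  refine ⟨x, z, fun w hw => ?_, hσv, fun n a ha => ?_⟩
  · obtain ⟨c, rfl⟩ := Submodule.mem_span_singleton.1 hw
    rw [map_smul, hσ0, smul_comm]
  · have h' := hdet.2 n σ a ha
    rw [hdσ] at h'
    have := Ideal.mul_mem_left _ z h'
    convert this using 1
    linear_combination -x * hz2

end Ring

section Finite

variable {O : Type} [CommRing O] [IsDomain O] [IsDiscreteValuationRing O]
  [IsAdicComplete (maximalIdeal O) O] [Finite (ResidueField O)]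
  {B : Type} [CommRing B] [IsLocalRing B] [Algebra O B] [Module.Finite O B]
  [IsLocalHom (algebraMap O B)]
  {ι : Type} [Finite ι] {C : ι → Type} [∀ i, CommRing (C i)] [∀ i, IsLocalRing (C i)]
  [∀ i, Algebra O (C i)] [∀ i, Module.Finite O (C i)]
  (φ : ∀ i, B →ₐ[O] C i) (hφ : ∀ i, IsLocalHom (φ i : B →+* C i))
  (hinj : ∀ b, (∀ i, φ i b = 0) → b = 0) (ρ : GaloisRepAdic B)

include hinj in
/-- Flatness can be checked on a jointly injective family. -/
theorem isFlatAt_of_jointlyInjective [Nonempty ι] (p : ℕ) [Fact p.Prime]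
    (hloc : ∀ i, IsLocalHom (algebraMap O (C i)))
    (h : ∀ i, (ρ.baseChangeAlong (φ i : B →+* C i) (hφ i)).IsFlatAt p) : ρ.IsFlatAt p := by
  haveI := hloc
  refine ⟨IsLocalRing.ResidueField.finite_of_finite (R := O) inferInstance, fun I hI => ?_⟩
  -- a power of the maximal ideal of `O` inside `I`
  obtain ⟨s, hs⟩ : ∃ s : ℕ, (maximalIdeal O).map (algebraMap O B) ^ s ≤ I := by
    haveI : IsNoetherianRing B := isNoetherian_of_tower O inferInstance
    haveI : IsArtinianRing (B ⧸ I) := inferInstance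
    rcases eq_or_ne I ⊤ with rfl | hne
    · exact ⟨0, le_top⟩
    haveI : Nontrivial (B ⧸ I) := Ideal.Quotient.nontrivial_iff.2 hne
    haveI : Finite (ResidueField B) :=
      IsLocalRing.ResidueField.finite_of_finite (R := O) (S := B) inferInstance
    obtain ⟨s, hs⟩ := IsLocalRing.finite_quotient_iff.1 hI
    have hle : (maximalIdeal O).map (algebraMap O B) ≤ maximalIdeal B := by
      rw [Ideal.map_le_iff_le_comap]
      intro x hx
      rw [Ideal.mem_comap]
      exact map_nonunit (algebraMap O B) x hx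
    exact ⟨s, le_trans (Ideal.pow_right_mono hle s) hs⟩
  cases nonempty_fintype ι
  classical
  let Φ : B →ₗ[O] ∀ i, C i := LinearMap.pi fun i => (φ i).toLinearMap
  have hΦ : Function.Injective Φ := (injective_iff_map_eq_zero Φ).2 fun x hx =>
    hinj x fun i => congrFun hx i
  obtain ⟨k, hk⟩ := (maximalIdeal O).exists_pow_inf_eq_pow_smul (LinearMap.range Φ)
  set N := k + s
  haveI : Finite (O ⧸ maximalIdeal O ^ N) := by
    haveI : Finite (O ⧸ maximalIdeal O) := (inferInstance : Finite (ResidueField O))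
    exact Ideal.finite_quotient_pow (IsNoetherian.noetherian _) N
  let J : ∀ i, Ideal (C i) := fun i => (maximalIdeal O ^ N).map (algebraMap O (C i))
  haveI hJfin : ∀ i, Finite (C i ⧸ J i) := fun i =>
    Module.finite_of_finite (O ⧸ maximalIdeal O ^ N)
  let J₀ : Ideal B := ⨅ i, (J i).comap (φ i : B →+* C i)
  have hJI : J₀ ≤ I := by
    intro x hx
    have hmem : Φ x ∈ maximalIdeal O ^ N • (⊤ : Submodule O (∀ i, C i)) ⊓ LinearMap.range Φ := by
      refine ⟨?_, LinearMap.mem_range_self Φ x⟩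
      rw [← Finset.univ_sum_single (Φ x)]
      refine Submodule.sum_mem _ fun i _ => ?_
      have hi : φ i x ∈ (maximalIdeal O ^ N • (⊤ : Submodule O (C i))) := by
        rw [Ideal.smul_top_eq_map]
        exact (Ideal.mem_iInf.1 hx i)
      exact Submodule.smul_induction_on (p := fun c => Pi.single i c ∈
        maximalIdeal O ^ N • (⊤ : Submodule O (∀ i, C i))) hi
        (fun r hr c _ => by
          rw [Pi.single_smul]; exact Submodule.smul_mem_smul hr trivial)
        (fun c c' hc hc' => by rw [Pi.single_add]; exact add_mem hc hc')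
    rw [hk N (Nat.le_add_right k s), show N - k = s by omega] at hmem
    have hle : maximalIdeal O ^ s • ((maximalIdeal O ^ k • (⊤ : Submodule O (∀ i, C i))) ⊓
        LinearMap.range Φ) ≤ (maximalIdeal O ^ s • (⊤ : Submodule O B)).map Φ := by
      rw [Submodule.map_smul'', Submodule.map_top]
      exact Submodule.smul_mono le_rfl inf_le_right
    obtain ⟨y, hy, hyx⟩ := hle hmem
    rw [← hΦ hyx]
    rw [SetLike.mem_coe, Ideal.smul_top_eq_map] at hy
    exact hs (by rw [← Ideal.map_pow]; exact hy)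
  -- the models of the factors
  letI : ∀ i, Algebra B (C i) := fun i => (φ i : B →+* C i).toAlgebra
  have hmod : ∀ i, FlatModel.HasFlatModel p
      (((ρ.baseChangeAlong (φ i : B →+* C i) (hφ i))).V ⧸
        (J i • (⊤ : Submodule (C i) (ρ.baseChangeAlong (φ i : B →+* C i) (hφ i)).V)))
      (fun σ w => (ρ.baseChangeAlong (φ i : B →+* C i) (hφ i)).levelAction (J i) σ w) :=
    fun i => (h i).2 (J i) (hJfin i)
  haveI : Finite (B ⧸ J₀) := by
    let g : B ⧸ J₀ → ∀ i, C i ⧸ J i := fun x i =>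
      Ideal.quotientMap (J i) (φ i : B →+* C i) (iInf_le (fun i => (J i).comap (φ i : B →+* C i)) i) x
    refine Finite.of_injective g fun x y hxy => ?_
    obtain ⟨x, rfl⟩ := Ideal.Quotient.mk_surjective x
    obtain ⟨y, rfl⟩ := Ideal.Quotient.mk_surjective y
    rw [Ideal.Quotient.eq, Ideal.mem_iInf]
    intro i
    rw [Ideal.mem_comap, map_sub]
    exact Ideal.Quotient.eq.1 (congrFun hxy i)
  let b := Module.finBasisOfFinrankEq B ρ.V ρ.finrank_eq
  let M := ρ.V ⧸ J₀ • (⊤ : Submodule B ρ.V)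
  haveI : Module.Finite (B ⧸ J₀) M := Module.Finite.of_restrictScalars_finite B _ _
  haveI : Finite M := Module.finite_of_finite (B ⧸ J₀)
  haveI : ∀ i, Finite ((ρ.baseChangeAlong (φ i : B →+* C i) (hφ i)).V ⧸
      J i • (⊤ : Submodule (C i) (ρ.baseChangeAlong (φ i : B →+* C i) (hφ i)).V)) := fun i => by
    haveI := hJfin i
    haveI : Module.Finite (C i ⧸ J i) ((ρ.baseChangeAlong (φ i : B →+* C i) (hφ i)).V ⧸
        J i • (⊤ : Submodule (C i) (ρ.baseChangeAlong (φ i : B →+* C i) (hφ i)).V)) :=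
      Module.Finite.of_restrictScalars_finite (C i) _ _
    exact Module.finite_of_finite (C i ⧸ J i)
  have hcoord : ∀ i (v : ρ.V), (1 ⊗ₜ[B] v : C i ⊗[B] ρ.V) ∈ J i • (⊤ : Submodule (C i) _) ↔
      ∀ j, φ i (b.repr v j) ∈ J i := by
    intro i v
    constructor
    · intro hv j
      have : ((b.baseChange (C i)).repr (1 ⊗ₜ[B] v)) j ∈ J i := by
        refine Submodule.smul_induction_on (p := fun w => (b.baseChange (C i)).repr w j ∈ J i) hv
          (fun r hr w _ => ?_) fun w w' hw hw' => ?_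
        · rw [map_smul, Finsupp.smul_apply, smul_eq_mul]; exact (J i).mul_mem_right _ hr
        · rw [map_add, Finsupp.add_apply]; exact add_mem hw hw'
      rwa [Module.Basis.baseChange_repr_tmul, Algebra.smul_def, mul_one] at this
    · intro hv
      rw [← b.sum_repr v, TensorProduct.tmul_sum]
      refine Submodule.sum_mem _ fun j _ => ?_
      rw [TensorProduct.tmul_smul, ← algebraMap_smul (C i) (b.repr v j) ((1 : C i) ⊗ₜ[B] b j)]
      exact Submodule.smul_mem_smul (hv j) Submodule.mem_top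
  let f : ∀ i, M →+ ((ρ.baseChangeAlong (φ i : B →+* C i) (hφ i)).V ⧸
      J i • (⊤ : Submodule (C i) (ρ.baseChangeAlong (φ i : B →+* C i) (hφ i)).V)) := fun i =>
    QuotientAddGroup.lift (J₀ • (⊤ : Submodule B ρ.V)).toAddSubgroup
      ((Submodule.mkQ (J i • (⊤ : Submodule (C i) (C i ⊗[B] ρ.V)))).toAddMonoidHom.comp
        (TensorProduct.mk B (C i) ρ.V 1).toAddMonoidHom) (fun v hv => by
        show Submodule.Quotient.mk _ = 0
        rw [Submodule.Quotient.mk_eq_zero]
        refine (hcoord i v).2 fun j => ?_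
        have : b.repr v j ∈ J₀ := by
          refine Submodule.smul_induction_on (p := fun w => b.repr w j ∈ J₀) hv
            (fun r hr w _ => ?_) fun w w' hw hw' => ?_
          · rw [map_smul, Finsupp.smul_apply, smul_eq_mul]; exact J₀.mul_mem_right _ hr
          · rw [map_add, Finsupp.add_apply]; exact add_mem hw hw'
        exact Ideal.mem_iInf.1 this i)
  have hM : FlatModel.HasFlatModel p M (fun σ w => ρ.levelAction J₀ σ w) := by
    refine FlatModel.hasFlatModel_of_jointly_injective hmod f (fun i σ m => ?_)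
      (fun x y hxy => ?_)
    · obtain ⟨v, rfl⟩ := Submodule.Quotient.mk_surjective _ m
      exact congrArg Submodule.Quotient.mk (LinearMap.baseChange_tmul (f := ρ.ρ σ) (1 : C i) v).symm
    · obtain ⟨x, rfl⟩ := Submodule.Quotient.mk_surjective _ x
      obtain ⟨y, rfl⟩ := Submodule.Quotient.mk_surjective _ y
      rw [Submodule.Quotient.eq, ← b.sum_repr (x - y)]
      refine Submodule.sum_mem _ fun j _ => Submodule.smul_mem_smul ?_ trivial
      rw [Ideal.mem_iInf]
      intro i
      refine (hcoord i (x - y)).1 ?_ j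
      rw [TensorProduct.tmul_sub, ← Submodule.Quotient.eq]
      exact hxy i
  exact hM.of_surjective
    (QuotientAddGroup.lift (J₀ • (⊤ : Submodule B ρ.V)).toAddSubgroup
      (Submodule.mkQ (I • (⊤ : Submodule B ρ.V))).toAddMonoidHom
      (fun v hv => (Submodule.Quotient.mk_eq_zero _).2 (Submodule.smul_mono hJI le_rfl hv)))
    (fun w => by
      obtain ⟨v, rfl⟩ := Submodule.Quotient.mk_surjective _ w
      exact ⟨Submodule.Quotient.mk v, rfl⟩)
    (fun σ m => by
      obtain ⟨v, rfl⟩ := Submodule.Quotient.mk_surjective _ m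
      rfl)

end Finite

end Fermat.Agent.Ribet.Avoid
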