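/-
The congruent systems of one step form a finite family.
-/
import Fermat.Agent.Ribet.Avoid.Act
import Mathlib.LinearAlgebra.FreeModule.Finite.Matrix

set_option autoImplicit false

noncomputable section

namespace Fermat.Agent.Ribet.Avoid

open Twisted

open scoped IsMulCommutative in
/-- The systems on finite-dimensional twisted cohomology are finite in number. -/
theorem finite_hasSystem {L D : ℕ} [NeZero L] (hD : D ∣ L) {K : Type} [Field K]
    (ψ : DirichletCharacter K D) (S : Finset ℕ) :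
    {f : GoodPrime S → K | ∃ a : ℕ → K, HasSystem hD ψ S a ∧ f = fun ℓ => a ℓ.1}.Finite := by
  haveI : Module.Finite K (CohL hD ψ K) := finite_cohL hD ψ
  set A := goodAlgebra hD ψ K S
  haveI : Module.Free K A := Module.Free.of_divisionRing K A
  haveI : Finite (A →ₐ[K] K) := Cardinal.lt_aleph0_iff_finite.mp
    (lt_of_le_of_lt (cardinalMk_algHom_le_rank K A K) (by
      rw [Cardinal.lift_lt_aleph0]
      exact Module.rank_lt_aleph0 K A))
  refine Set.Finite.subset (Set.finite_range (fun χ : A →ₐ[K] K => fun ℓ : GoodPrime S =>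
    χ ⟨heckeT' hD ψ K ℓ.1, Algebra.subset_adjoin ⟨ℓ, rfl⟩⟩)) ?_
  rintro f ⟨a, ⟨x, hx, hax⟩, rfl⟩
  have hex : ∀ T : A, ∃ c : K, (T : Module.End K (CohL hD ψ K)) x = c • x := by
    rintro ⟨T, hT⟩
    induction hT using Algebra.adjoin_induction with
    | mem y hy => obtain ⟨ℓ, rfl⟩ := hy; exact ⟨a ℓ.1, hax ℓ.1 ℓ.2.1 ℓ.2.2⟩
    | algebraMap c => exact ⟨c, rfl⟩
    | add y z _ _ hy hz =>
      obtain ⟨c, hc⟩ := hy; obtain ⟨c', hc'⟩ := hz
      exact ⟨c + c', by simp only at hc hc' ⊢; rw [LinearMap.add_apply, hc, hc', add_smul]⟩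
    | mul y z _ _ hy hz =>
      obtain ⟨c, hc⟩ := hy; obtain ⟨c', hc'⟩ := hz
      exact ⟨c * c', by
        simp only at hc hc' ⊢
        rw [Module.End.mul_apply, hc', map_smul, hc, smul_smul, mul_comm]⟩
  choose χ hχ using hex
  have huniq : ∀ (T : A) (c : K), (T : Module.End K (CohL hD ψ K)) x = c • x → χ T = c :=
    fun T c h => smul_left_injective K hx ((hχ T).symm.trans h)
  let χ' : A →ₐ[K] K :=
    { toFun := χ
      map_one' := huniq _ _ (one_smul K x).symm
      map_mul' := fun T U => huniq _ _ (by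
        show (T : Module.End K (CohL hD ψ K)) ((U : Module.End K (CohL hD ψ K)) x) = _
        rw [hχ U, map_smul, hχ T, smul_smul, mul_comm])
      map_zero' := huniq _ _ (zero_smul K x).symm
      map_add' := fun T U => huniq _ _ (by
        show (T : Module.End K (CohL hD ψ K)) x + (U : Module.End K (CohL hD ψ K)) x = _
        rw [hχ U, hχ T, add_smul])
      commutes' := fun c => huniq _ _ rfl }
  exact ⟨χ', funext fun ℓ => huniq _ _ (hax ℓ.1 ℓ.2.1 ℓ.2.2)⟩

namespace AuxPrimes

variable {s : Setup} {r n : ℕ} (d : AuxPrimes s r n)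

theorem finite_points :
    {x : Bool × (Fin r → s.K) × (GoodPrime d.S → s.K) | ∃ P : d.Point,
      x = (P.twisted, P.u, fun ℓ => P.a ℓ.1)}.Finite := by
  have hroots : {u : Fin r → s.K | ∀ i, u i ^ s.p ^ (n + 1) = 1}.Finite := by
    refine (Set.Finite.pi fun _ => (Polynomial.finite_setOf_isRoot
      (Polynomial.X_pow_sub_C_ne_zero (pow_pos s.hp.out.pos (n + 1)) (1 : s.K)))).subset ?_
    intro u hu i _
    simp [hu i]
  refine (Set.Finite.subset (Set.Finite.biUnion' (s := Set.univ ×ˢ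
      {u : Fin r → s.K | ∀ i, u i ^ s.p ^ (n + 1) = 1}) ((Set.toFinite _).prod hroots)
      (t := fun bu _ => (fun f => (bu.1, bu.2, f)) ''
        {f : GoodPrime d.S → s.K | ∃ a : ℕ → s.K,
          HasSystem d.D_dvd_L (d.compChar bu.1 bu.2) d.S a ∧ f = fun ℓ => a ℓ.1})
      fun bu _ => (finite_hasSystem d.D_dvd_L _ d.S).image _) ?_)
  rintro x ⟨P, rfl⟩
  simp only [Set.mem_iUnion, Set.mem_image]
  exact ⟨(P.twisted, P.u), ⟨Set.mem_univ _, P.hu⟩, _, ⟨P.a, P.system, rfl⟩, rfl⟩

end AuxPrimes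

end Fermat.Agent.Ribet.Avoid
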