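/-
The Galois representation of a congruent system and its local properties.
-/
import Fermat.Agent.Ribet.Avoid.Setup
import Fermat.Agent.Ribet.Avoid.PointCoeff
import Fermat.Agent.Ribet.Avoid.PointFinite
import Fermat.Agent.Lifting.EConditions
import Fermat.Agent.Lifting.GFlat
import Fermat.Agent.Ribet.Inertia
import Fermat.Prelude.Def_GaloisRep_Flat
import Fermat.Prelude.Def_GaloisRep_StrictOrdinary

set_option autoImplicit false

noncomputable section

namespace Fermat.Agent.Ribet.Avoid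

open Polynomial IsLocalRing Twisted

local notation "ℚbar" => AlgebraicClosure ℚ
local notation "Γℚ" => AlgebraicClosure ℚ ≃ₐ[ℚ] AlgebraicClosure ℚ

variable {s : Setup} {r n : ℕ} {d : AuxPrimes s r n}

/-- The representation of a point, with the properties used by the tangent and coordinate
arguments. -/
structure PointRep (P : d.Point) : Type 1 where
  /-- the coefficients -/
  O' : Type
  [instCommRing : CommRing O']
  [instDomain : IsDomain O']
  [instDVR : IsDiscreteValuationRing O']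
  [instComplete : IsAdicComplete (maximalIdeal O') O']
  [instFinite : Finite (ResidueField O')]
  [instCharZero : CharZero O']
  [instAlgebra : Algebra s.O O']
  [instModuleFinite : Module.Finite s.O O']
  [instLocal : IsLocalHom (algebraMap s.O O')]
  /-- the embedding -/
  emb : O' →+* s.K
  emb_inj : Function.Injective emb
  emb_comp : emb.comp (algebraMap s.O O') = algebraMap s.O s.K
  /-- the representation -/
  ρ : GaloisRepAdic O'
  frob : ∀ ℓ : ℕ, ℓ.Prime → ℓ ∉ d.S → ∀ A : ValuationSubring ℚbar, A.LiesOverPrime ℓ →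
    ∀ σ : Γℚ, A.IsFrobeniusAt σ ℓ →
      emb (LinearMap.trace O' ρ.V (ρ.ρ σ)) = P.a ℓ ∧ LinearMap.det (ρ.ρ σ) = (ℓ : O')
  residual : ∀ σ : Γℚ, residue O' (LinearMap.trace O' ρ.V (ρ.ρ σ)) =
    ResidueField.map (algebraMap s.O O') (LinearMap.trace s.k s.ρbar.V (s.ρbar.ρ σ))
  det : ρ.DetIsCyclotomic s.p
  flat : s.ordP = false → ρ.IsFlatAt s.p
  ordinary : s.ordP = true → ρ.IsStrictOrdinaryAt s.p
  unip : ∀ q : ℕ, q.Prime → q ∣ s.M₀ → ρ.IsUnipotentOnInertiaAt q
  unramified : ∀ q : ℕ, q.Prime → q ≠ s.p → ¬ q ∣ d.L → ρ.IsUnramifiedAt q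
  tau_sc : ∀ x ∈ s.Sc, LinearMap.trace O' ρ.V (ρ.ρ (d.tau x)) =
    if P.twisted then algebraMap s.O O' (s.ξ + s.ξ ^ (s.p - 1)) else 2
  tau_aux : ∀ i, emb (LinearMap.trace O' ρ.V (ρ.ρ (d.tau (d.q i)))) = P.u i + (P.u i)⁻¹

attribute [instance] PointRep.instCommRing PointRep.instDomain PointRep.instDVR
  PointRep.instComplete PointRep.instFinite PointRep.instCharZero PointRep.instAlgebra
  PointRep.instModuleFinite PointRep.instLocal

theorem PointData.compChar_sum {P : d.Point} (C : PointData P) (e : ℤ) :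
    C.emb (C.ψ (e : ZMod d.D) + C.ψ⁻¹ (e : ZMod d.D)) =
      d.compChar P.twisted P.u (e : ZMod d.D) +
        (d.compChar P.twisted P.u (e : ZMod d.D))⁻¹ := by
  rw [map_add, ← MulChar.inv_apply_eq_inv', ← C.emb_ψ, MulChar.ringHomComp_inv,
    MulChar.ringHomComp_apply, MulChar.ringHomComp_apply]

theorem trace_of_charpoly_split {R : Type} [CommRing R] [Nontrivial R] {V : Type}
    [AddCommGroup V] [Module R V] [Module.Free R V] [Module.Finite R V]
    (hV : Module.finrank R V = 2) (f : Module.End R V) {v w : R}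
    (h : LinearMap.charpoly f = (X - C v) * (X - C w)) : LinearMap.trace R V f = v + w :=
  (trace_det_of_charpoly hV f (t := v + w) (e := v * w)
    (h.trans (by simp only [map_add, map_mul]; ring))).1

/-- The residual representation over a larger field is unramified away from `M₀ p`. -/
theorem isUnramifiedAt_residual {k' : Type} [Field k'] (φ : s.k →+* k') {q : ℕ} (hq : q.Prime)
    (hqp : q ≠ s.p) (hqM : ¬ q ∣ s.M₀) : (s.ρbar.baseChangeAlong φ).IsUnramifiedAt q := by
  intro A hA σ hσ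
  have h : s.ρbar.IsUnramifiedAt q := by
    by_contra h
    exact hqM ((s.hmin q hq hqp).mpr h)
  letI : Algebra s.k k' := φ.toAlgebra
  show (s.ρbar.ρ σ).baseChange k' = 1
  rw [h A hA σ hσ]
  exact LinearMap.baseChange_one s.k s.ρbar.V

/-- Every congruent system has its representation. -/
theorem exists_pointRep (P : d.Point) : Nonempty (PointRep P) := by
  obtain ⟨C⟩ := P.exists_data
  obtain ⟨ρ, hρ, hdet, hequiv, -⟩ := C.point.exists_rep
  have htd := fun ℓ hℓ hℓS A hA σ hσ =>
    trace_det_of_charpoly ρ.finrank_eq (ρ.ρ σ) (hρ ℓ hℓ hℓS A hA σ hσ)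
  have hres : s.ordP = true → (GaloisRepAdic.ofResidualGaloisRep
      (s.ρbar.baseChangeAlong (ResidueField.map (algebraMap s.O C.O')))).IsOrdinaryAt s.p :=
    fun h => Lifting.isOrdinaryAt_residual (ResidueField.map (algebraMap s.O C.O')) s.ρbar _
      ⟨ResidualGaloisRep.Equiv.refl _⟩ (s.hordP h)
  have hScD : ∀ {w : ℕ}, w ∈ s.Sc → w.Prime ∧ w ∣ d.D := fun {w} hw =>
    ⟨s.hScPrime w hw, d.sc_dvd_D hw⟩
  refine ⟨{ O' := C.O', emb := C.emb, emb_inj := C.emb_inj, emb_comp := C.emb_comp, ρ := ρ,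
            frob := fun ℓ hℓ hℓS A hA σ hσ => ⟨by
              rw [(htd ℓ hℓ hℓS A hA σ hσ).1, C.emb_a ℓ hℓ hℓS], (htd ℓ hℓ hℓS A hA σ hσ).2⟩,
            residual := ?_, det := hdet, flat := ?_, ordinary := ?_, unip := ?_,
            unramified := fun q hq hqp hqL => C.point.isUnramifiedAt hρ hq hqL hqp,
            tau_sc := ?_, tau_aux := ?_ }⟩
  · intro σ
    obtain ⟨e⟩ := hequiv
    have h1 : LinearMap.trace _ _ (ρ.residual.ρ σ) = residue C.O' (LinearMap.trace C.O' ρ.V (ρ.ρ σ)) :=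
      LinearMap.trace_baseChange (ρ.ρ σ) (ResidueField C.O')
    rw [← h1, ← trace_extend (ResidueField.map (algebraMap s.O C.O')) s.ρbar σ]
    have h2 : e.toLinearEquiv.conj (ρ.residual.ρ σ) =
        (s.ρbar.baseChangeAlong (ResidueField.map (algebraMap s.O C.O'))).ρ σ :=
      LinearMap.ext fun x => by
        rw [LinearEquiv.conj_apply_apply, e.map_apply, LinearEquiv.apply_symm_apply]
    rw [← h2, LinearMap.trace_conj']
  · intro h
    refine C.point.isFlatAt hρ fun hdvd => ?_
    have hL : d.L = d.L₀ := by simp [AuxPrimes.L, AuxPrimes.L₀, Setup.base, h]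
    rw [hL] at hdvd
    exact (d.prime_dvd_L₀ s.hp.out hdvd).2 rfl
  · intro h
    refine C.point.isStrictOrdinaryAt hρ ?_ (hres h) (C.newAt h)
    rw [d.L_eq_L₀_mul h]
    exact dvd_mul_left _ _
  · intro q hq hqM
    have hqL : q ∣ d.L := hqM.trans ((dvd_mul_right _ _).trans ((dvd_mul_right _ _).trans
      (dvd_mul_right _ _)))
    refine C.point.isUnipotentOnInertiaAt hρ hq hqL (fun hqD => ?_) fun h => s.hpM₀ (h ▸ hqM)
    rcases (Nat.Prime.dvd_mul hq).mp hqD with h | h
    · obtain ⟨y, hy, hxy⟩ := (Prime.dvd_finsetProd_iff hq.prime _).mp h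
      exact s.hScM₀ y hy ((Nat.prime_dvd_prime_iff_eq hq (s.hScPrime y hy)).mp hxy ▸ hqM)
    · obtain ⟨i, -, hi⟩ := (Prime.dvd_finsetProd_iff hq.prime _).mp h
      exact (d.notMem i).2.1 ((Nat.prime_dvd_prime_iff_eq hq (d.prime i)).mp hi ▸ hqM)
  · intro x hx
    obtain ⟨hA, -, -, hτ, hcyc, hord, -⟩ := d.place_spec x (Or.inl hx)
    obtain ⟨e, he, hex, he1, hey⟩ := d.exists_int_gen (hScD hx).1 (hScD hx).2 _ hord
    have hxp : x ≠ s.p := fun h => s.p_not_mem_Sc (h ▸ hx)
    rw [trace_of_charpoly_split ρ.finrank_eq _ (C.point.charpoly_inertia hρ (hScD hx).1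
      (hScD hx).2 hxp (isUnramifiedAt_residual _ (hScD hx).1 hxp (s.hScM₀ x hx))
      _ hA _ hτ _ hcyc e hex he1)]
    refine C.emb_inj ?_
    rw [C.compChar_sum, AuxPrimes.compChar, d.levelChar_apply_sc _
      (AuxPrimes.twistValue_pow P.twisted) _ hx e he hex
      (fun w hw hwx => hey w (hScD hw).1 (hScD hw).2 hwx)
      (fun i => hey _ (d.prime i) (d.q_dvd_D i) fun h => (d.notMem i).2.2.1 (h ▸ hx))]
    rcases P.twisted with _ | _
    · simp only [Bool.false_eq_true, if_false, inv_one, map_ofNat]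
      norm_num
    · simp only [if_true]
      rw [← RingHom.comp_apply C.emb, C.emb_comp, map_add, map_pow]
      congr 1
      refine inv_eq_of_mul_eq_one_right ?_
      rw [← pow_succ', Nat.sub_add_cancel s.hp.out.one_le, ← map_pow, s.ξ_pow, map_one]
  · intro i
    obtain ⟨hA, -, -, hτ, hcyc, hord, -⟩ :=
      d.place_spec (d.q i) (Or.inr (Finset.mem_image_of_mem _ (Finset.mem_univ i)))
    obtain ⟨e, he, hex, he1, hey⟩ := d.exists_int_gen (d.prime i) (d.q_dvd_D i) _ hord
    rw [trace_of_charpoly_split ρ.finrank_eq _ (C.point.charpoly_inertia hρ (d.prime i)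
      (d.q_dvd_D i) (d.notMem i).1
      (isUnramifiedAt_residual _ (d.prime i) (d.notMem i).1 (d.notMem i).2.1) _ hA _ hτ _ hcyc e hex he1)]
    rw [C.compChar_sum, AuxPrimes.compChar, d.levelChar_apply_q _ _ P.hu i e he hex
      (fun w hw => hey w (hScD hw).1 (hScD hw).2 fun h => (d.notMem i).2.2.1 (h ▸ hw))
      (fun j hj => hey _ (d.prime j) (d.q_dvd_D j) fun h => hj (d.inj h))]

/-- The congruent systems of one step form a finite family. -/
theorem finite_systems :
    {x : Bool × (Fin r → s.K) × (GoodPrime d.S → s.K) | ∃ P : d.Point,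
      x = (P.twisted, P.u, fun ℓ => P.a ℓ.1)}.Finite :=
  d.finite_points

end Fermat.Agent.Ribet.Avoid
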