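/-
Relations between the coordinates of the representation of one point at a scalar prime.
-/
import Fermat.Agent.Ribet.Avoid.Points
import Fermat.Agent.Ribet.Avoid.AuxPrimes
import Fermat.Agent.Datum.Comparison
import Fermat.Agent.Datum.Roots
import Fermat.Agent.TW.AdjointBasic
import Mathlib.NumberTheory.Basic
import Mathlib.Algebra.CharP.Lemmas

set_option autoImplicit false

noncomputable section

namespace Fermat.Agent.Ribet.Avoid

open IsLocalRing

local notation "ℚbar" => AlgebraicClosure ℚ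
local notation "Γℚ" => AlgebraicClosure ℚ ≃ₐ[ℚ] AlgebraicClosure ℚ

section algebra

variable {A : Type*} [CommRing A] {p : ℕ}

/-- `1 + e` has `p`-power order if `p` and `e` are nilpotent. -/
theorem exists_one_add_pow_prime_pow_eq_one (hp : p.Prime) (hpn : IsNilpotent (p : A)) {e : A}
    (he : IsNilpotent e) : ∃ k : ℕ, (1 + e) ^ p ^ k = 1 := by
  obtain ⟨b, hb⟩ := hpn
  obtain ⟨a, ha⟩ := he
  have hle : a ≤ p ^ a := (Nat.lt_pow_self hp.one_lt).le
  have hea : e ^ p ^ a = 0 := by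
    rw [← Nat.sub_add_cancel hle, pow_add, ha, mul_zero]
  obtain ⟨r, hr⟩ := exists_add_pow_prime_pow_eq hp 1 e a
  have hdvd : (p : A) ∣ (1 + e) ^ p ^ a - 1 :=
    ⟨e * r, by rw [hr, hea, one_pow]; ring⟩
  obtain ⟨c, hc⟩ := dvd_sub_pow_of_dvd_sub hdvd b
  refine ⟨a + b, ?_⟩
  rw [pow_add, pow_mul]
  rw [one_pow, pow_succ, hb, zero_mul, zero_mul] at hc
  exact sub_eq_zero.mp hc

/-- A `2 × 2` matrix with determinant `1` and trace `2` up to nilpotents has `p`-power order. -/
theorem exists_pow_prime_pow_eq_one_of_unipotent (hp : p.Prime) (hpn : IsNilpotent (p : A))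
    (M : Matrix (Fin 2) (Fin 2) A) (hdet : M.det = 1) (htr : IsNilpotent (M.trace - 2)) :
    ∃ k : ℕ, M ^ p ^ k = 1 := by
  have h2 : (M - 1) ^ 2 = (M.trace - 2) • M := by
    have h := TW.sq_eq_fin_two M
    rw [hdet] at h
    rw [sq, sub_mul, mul_sub, mul_sub, one_mul, one_mul, mul_one, h]
    module
  have hE : IsNilpotent (M - 1) := by
    obtain ⟨j, hj⟩ := htr
    exact ⟨2 * j, by rw [pow_mul, h2, smul_pow, hj, zero_smul]⟩
  set φ : Polynomial ℤ →+* Matrix (Fin 2) (Fin 2) A :=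
    (Polynomial.aeval (R := ℤ) (M - 1)).toRingHom with hφ
  set ψ := RingHom.kerLift φ
  have hinj : Function.Injective ψ := RingHom.kerLift_injective φ
  have hX : ψ (Ideal.Quotient.mk _ Polynomial.X) = M - 1 := by
    rw [RingHom.kerLift_mk, hφ]
    simp
  have hp' : IsNilpotent (p : Polynomial ℤ ⧸ RingHom.ker φ) := by
    refine (IsNilpotent.map_iff hinj).mp ?_
    rw [map_natCast]
    have := hpn.map (algebraMap A (Matrix (Fin 2) (Fin 2) A))
    rwa [map_natCast] at this
  obtain ⟨k, hk⟩ := exists_one_add_pow_prime_pow_eq_one hp hp'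
    ((IsNilpotent.map_iff hinj).mp (hX.symm ▸ hE))
  refine ⟨k, ?_⟩
  have := congrArg ψ hk
  rwa [map_pow, map_add, map_one, hX, add_sub_cancel] at this

/-- A matrix with eigenvalues two distinct `p`th roots of unity has order dividing `p`. -/
theorem pow_eq_one_of_trace_eq [IsDomain A] (M : Matrix (Fin 2) (Fin 2) A) {a a' : A}
    (hdet : M.det = 1) (htr : M.trace = a + a') (haa : a * a' = 1) (ha : a ^ p = 1)
    (ha' : a' ^ p = 1) (hne : a ≠ a') : M ^ p = 1 := by
  have h := TW.sq_eq_fin_two M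
  rw [hdet, htr, ← haa] at h
  have key : ∀ k : ℕ, (a - a') • M ^ k = a ^ k • (M - a' • 1) - a' ^ k • (M - a • 1) := by
    intro k
    induction k with
    | zero => rw [pow_zero, pow_zero, pow_zero, one_smul, one_smul]; module
    | succ k ih =>
      rw [pow_succ' M k, ← mul_smul_comm, ih, mul_sub, mul_smul_comm, mul_smul_comm, mul_sub,
        mul_sub, mul_smul_comm, mul_smul_comm, mul_one, h]
      module
  have hk := key p
  rw [ha, ha', one_smul, one_smul] at hk
  have h1 : (a - a') • (M ^ p - 1) = 0 := by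
    rw [smul_sub, hk]
    module
  exact sub_eq_zero.mp ((smul_eq_zero.mp h1).resolve_left (sub_ne_zero.mpr hne))

end algebra

variable {s : Setup} {r n : ℕ} {d : AuxPrimes s r n} {P : d.Point} (R : PointRep P) {x : ℕ}

/-- A value of the cyclotomic character is the determinant. -/
theorem PointRep.det_eq_natCast (σ : Γℚ) (a : ℕ)
    (h : ∀ (m : ℕ) (μ : ℚbar), μ ^ s.p ^ m = 1 → σ μ = μ ^ a) :
    LinearMap.det (R.ρ.ρ σ) = (a : R.O') := by
  rw [← sub_eq_zero]
  refine IsHausdorff.haus (inferInstance : IsHausdorff (maximalIdeal R.O') R.O') _ fun m => ?_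
  rw [SModEq.zero, smul_eq_mul, Ideal.mul_top]
  refine (Ideal.span_singleton_le_iff_mem (maximalIdeal R.O' ^ m)).mpr ?_ (R.det.2 m σ a (h m))
  rw [Nat.cast_pow]
  exact Ideal.pow_mem_pow R.det.1 m

theorem PointRep.det_eq_one_of_mem_inertia (hx : x ∈ s.Sc) {A : ValuationSubring ℚbar}
    (hA : A.LiesOverPrime x) {g : Γℚ} (hg : g ∈ A.inertiaSubgroupIn ℚ) :
    LinearMap.det (R.ρ.ρ g) = 1 := by
  rw [R.det_eq_natCast g 1 fun m μ hμ => ?_, Nat.cast_one]
  rw [pow_one]
  exact Datum.inertia_apply_root hA hg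
    (((Nat.coprime_primes (s.hScPrime x hx) s.hp.out).mpr (s.sc_ne_p hx)).pow_right m)
    (pow_ne_zero _ s.hp.out.ne_zero) hμ

/-- The inertia element has determinant `1`. -/
theorem PointRep.det_tau (hx : x ∈ s.Sc) : LinearMap.det (R.ρ.ρ (d.tau x)) = 1 := by
  obtain ⟨hA, -, -, hτ, -⟩ := d.place_spec x (Or.inl hx)
  exact R.det_eq_one_of_mem_inertia hx hA hτ

/-- The Frobenius element has determinant `x`. -/
theorem PointRep.det_frob (hx : x ∈ s.Sc) : LinearMap.det (R.ρ.ρ (d.frob x)) = (x : R.O') := by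
  obtain ⟨hA, hφ, -⟩ := d.place_spec x (Or.inl hx)
  exact R.det_eq_natCast _ _ fun m μ hμ => Datum.frobenius_apply_root hA hφ
    (((Nat.coprime_primes (s.hScPrime x hx) s.hp.out).mpr (s.sc_ne_p hx)).pow_right m)
    (pow_ne_zero _ s.hp.out.ne_zero) hμ

/-- The trace of an inertia element at a scalar prime is residually `2`. -/
theorem PointRep.trace_sub_two_mem (hx : x ∈ s.Sc) {A : ValuationSubring ℚbar}
    (hA : A.LiesOverPrime x) {g : Γℚ} (hg : g ∈ A.inertiaSubgroupIn ℚ) :
    LinearMap.trace R.O' R.ρ.V (R.ρ.ρ g) - 2 ∈ maximalIdeal R.O' := by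
  have h1 : s.ρbar.ρ g = 1 := (TW.matRep_eq_one_iff _ g).mp
    (s.matRep_inertia_eq_one (s.hScPrime x hx) (s.sc_ne_p hx) (s.hScM₀ x hx) A hA g hg)
  have h := R.residual g
  rw [h1, LinearMap.trace_one, s.ρbar.finrank_eq, map_natCast, Nat.cast_ofNat] at h
  rw [← residue_eq_zero_iff, map_sub, h, map_ofNat, sub_self]

theorem PointRep.repMod_trace (I : Ideal R.O') (g : Γℚ) :
    (Datum.repMod R.ρ I g).trace = Ideal.Quotient.mk I (LinearMap.trace R.O' R.ρ.V (R.ρ.ρ g)) := by
  rw [LinearMap.trace_eq_matrix_trace R.O' (Datum.repBasis R.ρ)]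
  exact (AddMonoidHom.map_trace (Ideal.Quotient.mk I).toAddMonoidHom _).symm

theorem PointRep.repMod_det (I : Ideal R.O') (g : Γℚ) :
    (Datum.repMod R.ρ I g).det = Ideal.Quotient.mk I (LinearMap.det (R.ρ.ρ g)) := by
  rw [← LinearMap.det_toMatrix (Datum.repBasis R.ρ)]
  exact (RingHom.map_det (Ideal.Quotient.mk I) _).symm

/-- The tame relation holds exactly. -/
theorem PointRep.frob_tau_relation (hx : x ∈ s.Sc) :
    R.ρ.ρ (d.frob x * d.tau x * (d.frob x)⁻¹) = R.ρ.ρ (d.tau x ^ x) := by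
  obtain ⟨hA, -, -, -, -, -, hrel⟩ := d.place_spec x (Or.inl hx)
  apply (LinearMap.toMatrixAlgEquiv (Datum.repBasis R.ρ)).injective
  refine Matrix.ext fun i j => ?_
  rw [← sub_eq_zero]
  refine IsHausdorff.haus (inferInstance : IsHausdorff (maximalIdeal R.O') R.O') _ fun m => ?_
  rw [SModEq.zero, smul_eq_mul, Ideal.mul_top]
  haveI : Finite (R.O' ⧸ maximalIdeal R.O') := inferInstanceAs (Finite (ResidueField R.O'))
  haveI : Finite (R.O' ⧸ maximalIdeal R.O' ^ (m + 1)) :=
    Ideal.finite_quotient_pow (IsNoetherian.noetherian (maximalIdeal R.O')) (m + 1)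
  set I := maximalIdeal R.O' ^ (m + 1) with hI
  have hnil : ∀ z ∈ maximalIdeal R.O', IsNilpotent (Ideal.Quotient.mk I z) := fun z hz =>
    ⟨m + 1, by rw [← map_pow, Ideal.Quotient.eq_zero_iff_mem]; exact Ideal.pow_mem_pow hz _⟩
  let f : Γℚ →* (Matrix (Fin 2) (Fin 2) (R.O' ⧸ I))ˣ := (Datum.repMod R.ρ I).toHomUnits
  have hf : ∀ g, (f g : Matrix (Fin 2) (Fin 2) (R.O' ⧸ I)) = Datum.repMod R.ρ I g := fun g => rfl
  obtain ⟨L, hL, hfix⟩ := Datum.exists_level_repMod R.ρ (I := I) (m := m + 1) le_rfl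
  obtain ⟨h, -, -⟩ := hrel _ f ⟨L, hL, fun g hg => Units.ext (hfix g hg)⟩ fun g hg => by
    obtain ⟨k, hk⟩ := exists_pow_prime_pow_eq_one_of_unipotent s.hp.out
      (by simpa using hnil _ R.det.1) (Datum.repMod R.ρ I g)
      (by rw [R.repMod_det, R.det_eq_one_of_mem_inertia hx hA hg, map_one])
      (by
        rw [R.repMod_trace, ← map_ofNat (Ideal.Quotient.mk I) 2, ← map_sub]
        exact hnil _ (R.trace_sub_two_mem hx hA hg))
    exact ⟨k, Units.ext (by rw [Units.val_pow_eq_pow_val, hf, hk, Units.val_one])⟩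
  rw [← map_inv, ← map_mul, ← map_mul, ← map_pow] at h
  have h' := congrArg Units.val h
  rw [hf, hf] at h'
  replace h' := congrFun (congrFun h' i) j
  exact Ideal.pow_le_pow_right m.le_succ (Ideal.Quotient.eq.mp h')

/-- In the twisted case the two elements commute. -/
theorem PointRep.commute_tau_frob (hP : P.twisted = true) (hx : x ∈ s.Sc) :
    Commute (R.ρ.ρ (d.frob x)) (R.ρ.ρ (d.tau x)) := by
  set b := Datum.repBasis R.ρ
  have hinjK : Function.Injective (algebraMap s.O s.K) := by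
    rw [IsScalarTower.algebraMap_eq s.O (FractionRing s.O) s.K]
    exact (algebraMap (FractionRing s.O) s.K).injective.comp
      (IsFractionRing.injective s.O (FractionRing s.O))
  have hinj : Function.Injective (algebraMap s.O R.O') := by
    refine Function.Injective.of_comp (f := R.emb) ?_
    rw [← RingHom.coe_comp, R.emb_comp]
    exact hinjK
  set a := algebraMap s.O R.O' s.ξ
  set a' := algebraMap s.O R.O' (s.ξ ^ (s.p - 1))
  have hp1 : 1 < s.p := s.hp.out.one_lt
  have haa : a * a' = 1 := by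
    rw [← map_mul, ← pow_succ', Nat.sub_add_cancel hp1.le, s.ξ_pow, map_one]
  have ha : a ^ s.p = 1 := by rw [← map_pow, s.ξ_pow, map_one]
  have ha' : a' ^ s.p = 1 := by rw [← map_pow, pow_right_comm, s.ξ_pow, one_pow, map_one]
  have hne : a ≠ a' := fun h => by
    have h' : s.ξ ^ 1 = s.ξ ^ (s.p - 1) := by rw [pow_one]; exact hinj h
    have := s.hξ.pow_inj hp1 (by omega) h'
    exact s.hp2 (by omega)
  have hpow : R.ρ.ρ (d.tau x) ^ s.p = 1 := by
    apply (LinearMap.toMatrixAlgEquiv b).injective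
    rw [map_pow, map_one]
    refine pow_eq_one_of_trace_eq _ ((LinearMap.det_toMatrix b _).trans (R.det_tau hx)) ?_ haa ha
      ha' hne
    refine (LinearMap.trace_eq_matrix_trace R.O' b _).symm.trans ?_
    rw [R.tau_sc x hx, if_pos hP, map_add]
  obtain ⟨j, hj⟩ : s.p ∣ x - 1 := by
    rw [← ZMod.natCast_eq_zero_iff, Nat.cast_sub (s.hScPrime x hx).one_le, s.hone x hx,
      Nat.cast_one, sub_self]
  have hxτ : R.ρ.ρ (d.tau x) ^ x = R.ρ.ρ (d.tau x) := by
    have hx1 := (s.hScPrime x hx).one_le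
    calc R.ρ.ρ (d.tau x) ^ x = R.ρ.ρ (d.tau x) ^ (s.p * j + 1) := by congr 1; omega
      _ = _ := by rw [pow_succ, pow_mul, hpow, one_pow, one_mul]
  have h := congrArg (· * R.ρ.ρ (d.frob x)) (R.frob_tau_relation hx)
  simp only [map_pow, hxτ] at h
  rw [← map_mul, inv_mul_cancel_right, map_mul] at h
  exact h

end Fermat.Agent.Ribet.Avoid
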