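/-
The ring of traces of all congruent systems of one step and its Galois representation.
-/
import Fermat.Agent.Ribet.Avoid.Points
import Fermat.Agent.Ribet.Avoid.AuxPrimes
import Fermat.Agent.Lifting.EDatum
import Fermat.Agent.Lifting.EClosed
import Fermat.Prelude.Thm_IsLocalRing_isAdicComplete_of_module_finite

set_option autoImplicit false

noncomputable section

namespace Fermat.Agent.Ribet.Avoid

open IsLocalRing Polynomial

local notation "ℚbar" => AlgebraicClosure ℚ
local notation "Γℚ" => AlgebraicClosure ℚ ≃ₐ[ℚ] AlgebraicClosure ℚ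

variable {s : Setup} {r n : ℕ}

theorem PointRep.algebraMap_injective {d : AuxPrimes s r n} {P : d.Point} (R : PointRep P) :
    Function.Injective (algebraMap s.O R.O') := by
  refine Function.Injective.of_comp (f := R.emb) ?_
  rw [← RingHom.coe_comp, R.emb_comp, IsScalarTower.algebraMap_eq s.O (FractionRing s.O) s.K]
  exact (algebraMap (FractionRing s.O) s.K).injective.comp (IsFractionRing.injective s.O _)

/-- Residual absolute irreducibility is kept by a local change of coefficients. -/
theorem residual_absIrr_baseChangeAlong {A B : Type} [CommRing A] [IsLocalRing A] [CommRing B]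
    [IsLocalRing B] (φ : A →+* B) (hφ : IsLocalHom φ) (ρ : GaloisRepAdic A)
    (h : ρ.residual.IsAbsolutelyIrreducible) :
    (ρ.baseChangeAlong φ hφ).residual.IsAbsolutelyIrreducible := by
  letI : Algebra A B := φ.toAlgebra
  let b := Module.finBasisOfFinrankEq A ρ.V ρ.finrank_eq
  let b1 : Module.Basis (Fin 2) B (ρ.baseChangeAlong φ hφ).V := Algebra.TensorProduct.basis B b
  let b2 : Module.Basis (Fin 2) (ResidueField B) (ρ.baseChangeAlong φ hφ).residual.V :=
    Algebra.TensorProduct.basis (ResidueField B) b1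
  refine RepLemmas.isAbsolutelyIrreducible_of_span_eq_top _
    ((RepLemmas.span_range_toMatrixHom_eq_top_iff b2 _).1 ?_)
  have h1 := RepLemmas.map_span_eq_top ((residue B).comp φ) _
    ((RepLemmas.span_range_toMatrixHom_eq_top_iff b ρ.ρ).2
      (RepLemmas.span_eq_top_of_residual_isAbsolutelyIrreducible ρ h))
  have h2 : ∀ σ, RepLemmas.toMatrixHom b2 (ρ.baseChangeAlong φ hφ).residual.ρ σ =
      (RepLemmas.toMatrixHom b ρ.ρ σ).map ((residue B).comp φ) := fun σ => by
    show LinearMap.toMatrix b2 b2 (((ρ.ρ σ).baseChange B).baseChange (ResidueField B)) = _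
    refine (Deform.toMatrix_baseChange_endo (ResidueField B) b1 _).trans ?_
    rw [show LinearMap.toMatrix b1 b1 ((ρ.ρ σ).baseChange B) = _ from
      Deform.toMatrix_baseChange_endo B b (ρ.ρ σ), Matrix.map_map]
    rfl
  rw [show (RepLemmas.toMatrixHom b2 (ρ.baseChangeAlong φ hφ).residual.ρ : _ → _) =
    fun σ => (RepLemmas.toMatrixHom b ρ.ρ σ).map ((residue B).comp φ) from funext h2]
  exact h1

namespace AuxPrimes

variable (d : AuxPrimes s r n)

/-- The finitely many systems of the step. -/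
def Idx : Type :=
  {x : Bool × (Fin r → s.K) × (GoodPrime d.S → s.K) //
    ∃ P : d.Point, x = (P.twisted, P.u, fun ℓ => P.a ℓ.1)}

instance : Finite d.Idx := (finite_systems (d := d)).to_subtype

variable {d}

/-- The point chosen for an index. -/
def Idx.pt (i : d.Idx) : d.Point := i.2.choose

/-- Its representation. -/
def Idx.rep (i : d.Idx) : PointRep i.pt := (exists_pointRep i.pt).some

theorem exists_idx (P : d.Point) : ∃ i : d.Idx,
    i.pt.twisted = P.twisted ∧ i.pt.u = P.u ∧ i.pt.eval = P.eval := by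
  let i : d.Idx := ⟨_, P, rfl⟩
  have h : ((P.twisted, P.u, fun ℓ : GoodPrime d.S => P.a ℓ.1) :
      Bool × (Fin r → s.K) × (GoodPrime d.S → s.K)) =
      (i.pt.twisted, i.pt.u, fun ℓ : GoodPrime d.S => i.pt.a ℓ.1) := i.2.choose_spec
  simp only [Prod.mk.injEq] at h
  refine ⟨i, h.1.symm, h.2.1.symm, ?_⟩
  rw [Point.eval, Point.eval, evalSystem, evalSystem, h.2.2]

variable (d)

/-- The product of the coefficient rings of all systems. -/
abbrev Factors : Type := ∀ i : d.Idx, i.rep.O'

theorem exists_frobAt (ℓ : GoodPrime d.S) :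
    ∃ x : ValuationSubring ℚbar × Γℚ, x.1.LiesOverPrime ℓ.1 ∧ x.1.IsFrobeniusAt x.2 ℓ.1 := by
  obtain ⟨A, hA⟩ := Galois.exists_liesOverPrime ℓ.2.1
  obtain ⟨σ, hσ⟩ := Galois.exists_isFrobeniusAt ℓ.2.1 hA
  exact ⟨(A, σ), hA, hσ⟩

/-- The traces of Frobenius at every system. -/
def toFactors : HeckePoly s.O d.S →ₐ[s.O] d.Factors :=
  MvPolynomial.aeval fun ℓ i =>
    LinearMap.trace i.rep.O' i.rep.ρ.V (i.rep.ρ.ρ (d.exists_frobAt ℓ).choose.2)

/-- The ring of traces. -/
abbrev TraceRing : Type := ↥(d.toFactors.range)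

/-- Evaluation in the ring of traces. -/
def toTraceRing : HeckePoly s.O d.S →ₐ[s.O] d.TraceRing := d.toFactors.rangeRestrict

theorem toTraceRing_surjective : Function.Surjective d.toTraceRing :=
  d.toFactors.rangeRestrict_surjective

variable {d}

/-- The projection to one system. -/
def Idx.proj (i : d.Idx) : d.TraceRing →ₐ[s.O] i.rep.O' :=
  (Pi.evalAlgHom s.O (fun j : d.Idx => j.rep.O') i).comp d.toFactors.range.val

theorem Idx.proj_apply (i : d.Idx) (f : HeckePoly s.O d.S) :
    i.proj (d.toTraceRing f) = d.toFactors f i := rfl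

theorem Idx.emb_proj (i : d.Idx) (f : HeckePoly s.O d.S) :
    i.rep.emb (i.proj (d.toTraceRing f)) = i.pt.eval f := by
  have h : (i.rep.emb.comp (i.proj : d.TraceRing →+* i.rep.O')).comp
      (d.toTraceRing : HeckePoly s.O d.S →+* d.TraceRing) = i.pt.eval := by
    refine MvPolynomial.ringHom_ext (fun c => ?_) fun ℓ => ?_
    · simp only [RingHom.comp_apply, RingHom.coe_coe, Point.eval, evalSystem,
        MvPolynomial.eval₂Hom_C]
      rw [← MvPolynomial.algebraMap_eq, AlgHom.commutes, AlgHom.commutes, ← RingHom.comp_apply,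
        i.rep.emb_comp]
    · simp only [RingHom.comp_apply, RingHom.coe_coe, Point.eval, evalSystem,
        MvPolynomial.eval₂Hom_X']
      rw [i.proj_apply, toFactors, MvPolynomial.aeval_X]
      obtain ⟨hA, hσ⟩ := (d.exists_frobAt ℓ).choose_spec
      exact (i.rep.frob ℓ.1 ℓ.2.1 ℓ.2.2 _ hA _ hσ).1
  exact DFunLike.congr_fun h f

theorem eq_zero_of_proj (x : d.TraceRing) (h : ∀ i : d.Idx, i.proj x = 0) : x = 0 :=
  Subtype.ext (funext h)

theorem trace_residual_frob {ℓ : ℕ} (hℓ : ℓ.Prime) (hℓS : ℓ ∉ d.S) {A : ValuationSubring ℚbar}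
    (hA : A.LiesOverPrime ℓ) {σ : Γℚ} (hσ : A.IsFrobeniusAt σ ℓ) :
    LinearMap.trace s.k s.ρbar.V (s.ρbar.ρ σ) = s.abar ℓ ∧
      LinearMap.det (s.ρbar.ρ σ) = (ℓ : s.k) := by
  obtain ⟨ht, hd⟩ := CondLevel.trace_det_of_charpoly_eq
    (Module.finBasisOfFinrankEq s.k s.ρbar.V s.ρbar.finrank_eq) _
    (s.hfrob ℓ hℓ (fun h => hℓS (d.mem_S_of_mem h)) A hA σ hσ)
  exact ⟨ht, hd⟩

theorem Idx.residue_proj (i : d.Idx) (f : HeckePoly s.O d.S) :
    residue i.rep.O' (i.proj (d.toTraceRing f)) =
      ResidueField.map (algebraMap s.O i.rep.O') (evalSystem (residue s.O) s.abar d.S f) := by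
  have h : ((residue i.rep.O').comp (i.proj : d.TraceRing →+* i.rep.O')).comp
      (d.toTraceRing : HeckePoly s.O d.S →+* d.TraceRing) =
        (ResidueField.map (algebraMap s.O i.rep.O')).comp (evalSystem (residue s.O) s.abar d.S) := by
    refine MvPolynomial.ringHom_ext (fun c => ?_) fun ℓ => ?_
    · simp only [RingHom.comp_apply, RingHom.coe_coe, evalSystem, MvPolynomial.eval₂Hom_C]
      rw [← MvPolynomial.algebraMap_eq, AlgHom.commutes, AlgHom.commutes, ResidueField.map_residue]
    · simp only [RingHom.comp_apply, RingHom.coe_coe, evalSystem, MvPolynomial.eval₂Hom_X']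
      rw [i.proj_apply, toFactors, MvPolynomial.aeval_X]
      obtain ⟨hA, hσ⟩ := (d.exists_frobAt ℓ).choose_spec
      rw [i.rep.residual, (trace_residual_frob ℓ.2.1 ℓ.2.2 hA hσ).1]
  exact DFunLike.congr_fun h f

variable [Nonempty d.Idx]

variable (d) in
theorem exists_resTraceRing : ∃ χ : d.TraceRing →+* s.k,
    ∀ f, χ (d.toTraceRing f) = evalSystem (residue s.O) s.abar d.S f := by
  refine ⟨RingHom.liftOfSurjective (d.toTraceRing : HeckePoly s.O d.S →+* d.TraceRing)
    d.toTraceRing_surjective ⟨evalSystem (residue s.O) s.abar d.S, fun f hf => ?_⟩,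
    fun f => RingHom.liftOfRightInverse_comp_apply _ _ _ _ f⟩
  let i : d.Idx := Classical.arbitrary _
  have h0 : d.toTraceRing f = 0 := hf
  have h := i.residue_proj f
  rw [h0, map_zero, map_zero] at h
  exact (map_eq_zero _).mp h.symm

variable (d) in
/-- The residual character of the ring of traces. -/
def resTraceRing : d.TraceRing →ₐ[s.O] s.k :=
  { (exists_resTraceRing d).choose with
    commutes' := fun c => by
      show (exists_resTraceRing d).choose (algebraMap s.O d.TraceRing c) = _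
      rw [← d.toTraceRing.commutes c, (exists_resTraceRing d).choose_spec,
        MvPolynomial.algebraMap_eq, evalSystem, MvPolynomial.eval₂Hom_C, ResidueField.algebraMap_eq] }

theorem resTraceRing_apply (f : HeckePoly s.O d.S) :
    d.resTraceRing (d.toTraceRing f) = evalSystem (residue s.O) s.abar d.S f :=
  (exists_resTraceRing d).choose_spec f

theorem Idx.residue_proj' (i : d.Idx) (x : d.TraceRing) :
    residue i.rep.O' (i.proj x) = ResidueField.map (algebraMap s.O i.rep.O') (d.resTraceRing x) := by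
  obtain ⟨f, rfl⟩ := d.toTraceRing_surjective x
  rw [i.residue_proj, resTraceRing_apply]

instance : Nontrivial d.TraceRing := (d.resTraceRing : d.TraceRing →+* s.k).domain_nontrivial

theorem isUnit_traceRing_iff (x : d.TraceRing) : IsUnit x ↔ d.resTraceRing x ≠ 0 := by
  refine ⟨fun h => (h.map d.resTraceRing).ne_zero, fun h => ?_⟩
  have hall : IsUnit (x : d.Factors) := Pi.isUnit_iff.2 fun i => by
    refine (residue_ne_zero_iff_isUnit _).1 ?_
    rw [show (x : d.Factors) i = i.proj x from rfl, i.residue_proj' x]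
    exact (_root_.map_ne_zero _).2 h
  haveI : Algebra.IsIntegral d.TraceRing d.Factors := ⟨fun y =>
    (Algebra.IsIntegral.isIntegral (R := s.O) y).tower_top⟩
  haveI : IsLocalHom (algebraMap d.TraceRing d.Factors) :=
    RingHom.IsIntegral.isLocalHom Algebra.IsIntegral.isIntegral Subtype.val_injective
  exact isUnit_of_map_unit (algebraMap d.TraceRing d.Factors) x hall

instance : IsLocalRing d.TraceRing := IsLocalRing.of_nonunits_add fun a b ha hb hab => by
  rw [isUnit_traceRing_iff, map_add] at hab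
  rw [mem_nonunits_iff, isUnit_traceRing_iff, not_not] at ha hb
  rw [ha, hb, add_zero] at hab
  exact hab rfl

theorem mem_maximalIdeal_traceRing {x : d.TraceRing} :
    x ∈ maximalIdeal d.TraceRing ↔ d.resTraceRing x = 0 := by
  rw [IsLocalRing.mem_maximalIdeal, mem_nonunits_iff, isUnit_traceRing_iff, not_not]

instance : Module.Finite s.O d.TraceRing :=
  Module.Finite.of_injective d.toFactors.range.val.toLinearMap Subtype.val_injective

instance : IsNoetherianRing d.TraceRing := IsNoetherianRing.of_finite s.O _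

instance : IsLocalHom (algebraMap s.O d.TraceRing) := ⟨fun c hc => by
  rw [isUnit_traceRing_iff, AlgHom.commutes, ResidueField.algebraMap_eq] at hc
  exact (residue_ne_zero_iff_isUnit c).1 hc⟩

instance : IsAdicComplete (maximalIdeal d.TraceRing) d.TraceRing :=
  IsLocalRing.isAdicComplete_of_module_finite (𝒪 := s.O)

theorem isLocalHom_proj (i : d.Idx) : IsLocalHom (i.proj : d.TraceRing →+* i.rep.O') :=
  ⟨fun x hx => by
    rw [isUnit_traceRing_iff]
    intro h
    have h1 := i.residue_proj' x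
    rw [h, map_zero] at h1
    exact (residue_ne_zero_iff_isUnit _).2 hx h1⟩

theorem traceRing_residue_surjective :
    Function.Surjective (residue d.TraceRing ∘ algebraMap s.O d.TraceRing) := by
  intro y
  obtain ⟨x, rfl⟩ := residue_surjective y
  obtain ⟨c, hc⟩ := residue_surjective (d.resTraceRing x)
  refine ⟨c, Ideal.Quotient.eq.2 ?_⟩
  rw [mem_maximalIdeal_traceRing, map_sub, AlgHom.commutes, ResidueField.algebraMap_eq, hc,
    sub_self]

theorem residue_traceRing (x : d.TraceRing) : residue d.TraceRing x =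
    ResidueField.map (algebraMap s.O d.TraceRing) (d.resTraceRing x) := by
  obtain ⟨c, hc⟩ := residue_surjective (d.resTraceRing x)
  rw [← hc, ResidueField.map_residue]
  refine Ideal.Quotient.eq.2 ?_
  rw [mem_maximalIdeal_traceRing, map_sub, AlgHom.commutes, ResidueField.algebraMap_eq, hc,
    sub_self]

/-- The residual representation over the residue field of the ring of traces. -/
abbrev resRep (d : AuxPrimes s r n) [Nonempty d.Idx] :
    ResidualGaloisRep (ResidueField d.TraceRing) :=
  s.ρbar.baseChangeAlong (ResidueField.map (algebraMap s.O d.TraceRing))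

theorem exists_rhoT : ∃ ρ : GaloisRepAdic d.TraceRing, ρ.residual.IsEquiv (resRep d) ∧
    (∀ (i : d.Idx) σ, i.proj (LinearMap.trace d.TraceRing ρ.V (ρ.ρ σ)) =
      LinearMap.trace i.rep.O' i.rep.ρ.V (i.rep.ρ.ρ σ)) ∧
    (∀ (i : d.Idx) σ, i.proj (LinearMap.det (ρ.ρ σ)) = LinearMap.det (i.rep.ρ.ρ σ)) ∧
    ∀ (ℓ : GoodPrime d.S) (A : ValuationSubring ℚbar), A.LiesOverPrime ℓ.1 → ∀ σ : Γℚ,
      A.IsFrobeniusAt σ ℓ.1 →
        LinearMap.trace d.TraceRing ρ.V (ρ.ρ σ) = d.toTraceRing (MvPolynomial.X ℓ) := by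
  classical
  let κ : s.k →+* ResidueField d.TraceRing := ResidueField.map (algebraMap s.O d.TraceRing)
  have hκ : Function.Surjective κ := fun y => by
    obtain ⟨x, rfl⟩ := residue_surjective y
    exact ⟨_, (residue_traceRing x).symm⟩
  let a : ℕ → d.TraceRing := fun ℓ =>
    if h : ℓ.Prime ∧ ℓ ∉ d.S then d.toTraceRing (MvPolynomial.X ⟨ℓ, h⟩) else 0
  have h2 : IsUnit (2 : d.TraceRing) := by
    rw [← map_ofNat (algebraMap s.O d.TraceRing) 2]
    refine IsUnit.map _ ((residue_ne_zero_iff_isUnit (2 : s.O)).1 ?_)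
    rw [map_ofNat]
    exact s.two_ne_zero
  have hodd : (resRep d).IsOdd := fun c hc hc1 => by
    letI : Algebra s.k (ResidueField d.TraceRing) := κ.toAlgebra
    show LinearMap.det ((s.ρbar.ρ c).baseChange (ResidueField d.TraceRing)) = -1
    rw [LinearMap.det_baseChange, s.hodd c hc hc1, map_neg, map_one]
  have habs : (resRep d).IsAbsolutelyIrreducible :=
    Lifting.isAbsolutelyIrreducible_baseChangeAlong κ hκ s.ρbar s.habs
  have hpow : ∀ (i : d.Idx), ∃ e : ℕ, maximalIdeal i.rep.O' ^ e ≤
      (maximalIdeal s.O).map (algebraMap s.O i.rep.O') := fun i =>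
    Lifting.exists_pow_le_map_maximalIdeal i.rep.algebraMap_injective
  choose e he using hpow
  obtain ⟨E, hE⟩ : ∃ E : ℕ, ∀ i, e i ≤ E := ⟨⨆ i, e i, fun i => le_ciSup (Finite.bddAbove_range e) i⟩
  have hmem : ∀ (m : ℕ) (y : d.Factors), (∀ i, y i ∈ maximalIdeal i.rep.O' ^ (E * m)) →
      y ∈ maximalIdeal s.O ^ m • (⊤ : Submodule s.O d.Factors) := by
    intro m y hy
    haveI := Fintype.ofFinite d.Idx
    rw [← Finset.univ_sum_single y]
    refine Submodule.sum_mem _ fun i _ => ?_
    have h1 : y i ∈ maximalIdeal s.O ^ m • (⊤ : Submodule s.O i.rep.O') := by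
      rw [Ideal.smul_top_eq_map, Submodule.restrictScalars_mem, Ideal.map_pow]
      have h3 := hy i
      rw [pow_mul] at h3
      exact Ideal.pow_right_mono ((Ideal.pow_le_pow_right (hE i)).trans (he i)) m h3
    have h2 := Submodule.mem_map_of_mem
      (f := LinearMap.single s.O (fun j : d.Idx => j.rep.O') i) h1
    rw [Submodule.map_smul''] at h2
    exact Submodule.smul_mono le_rfl le_top h2
  obtain ⟨ρ, hρ, hres, htr, hdet⟩ := Lifting.exists_rep_of_family h2 (resRep d) habs hodd
    (fun i : d.Idx => i.rep.O') (fun i => (i.proj : d.TraceRing →+* i.rep.O'))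
    eq_zero_of_proj
    (fun m => by
      obtain ⟨c, hc⟩ := Ideal.exists_pow_inf_eq_pow_smul (maximalIdeal s.O)
        (N := Subalgebra.toSubmodule d.toFactors.range)
      refine ⟨E * (m + c), fun x hx => ?_⟩
      have hxM : (x : d.Factors) ∈ maximalIdeal s.O ^ (m + c) • (⊤ : Submodule s.O d.Factors) ⊓
          Subalgebra.toSubmodule d.toFactors.range := ⟨hmem _ _ hx, x.2⟩
      rw [hc (m + c) (Nat.le_add_left c m), Nat.add_sub_cancel] at hxM
      have hle : maximalIdeal s.O ^ c • (⊤ : Submodule s.O d.Factors) ⊓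
          Subalgebra.toSubmodule d.toFactors.range ≤
            (⊤ : Submodule s.O d.TraceRing).map d.toFactors.range.val.toLinearMap :=
        fun z hz => ⟨⟨z, hz.2⟩, trivial, rfl⟩
      have h1 := Submodule.smul_mono (le_refl (maximalIdeal s.O ^ m)) hle hxM
      rw [← Submodule.map_smul'', Ideal.smul_top_eq_map] at h1
      obtain ⟨x', hx', hxx⟩ := h1
      rw [show x = x' from (Subtype.ext hxx).symm]
      have h3 : ((maximalIdeal s.O) ^ m).map (algebraMap s.O d.TraceRing) ≤
          maximalIdeal d.TraceRing ^ m := by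
        rw [Ideal.map_pow]
        exact Ideal.pow_right_mono
          (show (maximalIdeal s.O).map (algebraMap s.O d.TraceRing) ≤ maximalIdeal d.TraceRing from
            Ideal.map_le_iff_le_comap.2 fun b hb => map_nonunit (algebraMap s.O d.TraceRing) b hb) m
      exact h3 hx')
    (fun y hy => by
      have hy' : (y : d.Factors) ∈ Subalgebra.toSubmodule d.toFactors.range := by
        refine Lifting.mem_of_forall_mem_sup_pow _ y fun m => ?_
        obtain ⟨x, hx⟩ := hy (E * m)
        rw [show y = (x : d.Factors) - ((x : d.Factors) - y) by abel]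
        exact Submodule.sub_mem _ (Submodule.mem_sup_left x.2)
          (Submodule.mem_sup_right (hmem _ _ hx))
      exact ⟨⟨y, hy'⟩, fun i => rfl⟩)
    (fun i => i.rep.ρ) a d.S
    (fun i ℓ hℓ hℓS A hA σ hσ => by
      obtain ⟨ht, hd⟩ := i.rep.frob ℓ hℓ hℓS A hA σ hσ
      rw [CondLevel.charpoly_eq_of_trace_det (Deform.repBasis i.rep.ρ), hd]
      congr 4
      show _ = i.proj (a ℓ)
      refine i.rep.emb_inj ?_
      rw [show a ℓ = _ from dif_pos ⟨hℓ, hℓS⟩, i.emb_proj, ht, Point.eval, evalSystem,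
        MvPolynomial.eval₂Hom_X'])
    (fun ℓ hℓ hℓS A hA σ hσ => by
      letI : Algebra s.k (ResidueField d.TraceRing) := κ.toAlgebra
      obtain ⟨h1, h3⟩ := trace_residual_frob hℓ hℓS hA hσ
      refine ⟨?_, ?_⟩
      · rw [show a ℓ = _ from dif_pos ⟨hℓ, hℓS⟩, residue_traceRing, resTraceRing_apply,
          evalSystem, MvPolynomial.eval₂Hom_X']
        show κ (s.abar ℓ) = LinearMap.trace _ _ ((s.ρbar.ρ σ).baseChange (ResidueField d.TraceRing))
        rw [LinearMap.trace_baseChange, h1]
        rfl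
      · show LinearMap.det ((s.ρbar.ρ σ).baseChange (ResidueField d.TraceRing)) = _
        rw [LinearMap.det_baseChange, h3, map_natCast])
  refine ⟨ρ, hres, htr, hdet, fun ℓ A hA σ hσ => ?_⟩
  have h1 := hρ ℓ.1 ℓ.2.1 ℓ.2.2 A hA σ hσ
  rw [(CondLevel.trace_det_of_charpoly_eq (Deform.repBasis ρ) _ h1).1]
  exact dif_pos (show ℓ.1.Prime ∧ ℓ.1 ∉ d.S from ℓ.2)

variable (d) in
/-- The representation over the ring of traces. -/
def rhoT : GaloisRepAdic d.TraceRing := (exists_rhoT (d := d)).choose

theorem rhoT_residual : d.rhoT.residual.IsEquiv (resRep d) :=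
  (exists_rhoT (d := d)).choose_spec.1

theorem proj_trace_rhoT (i : d.Idx) (σ : Γℚ) :
    i.proj (LinearMap.trace d.TraceRing d.rhoT.V (d.rhoT.ρ σ)) =
      LinearMap.trace i.rep.O' i.rep.ρ.V (i.rep.ρ.ρ σ) :=
  (exists_rhoT (d := d)).choose_spec.2.1 i σ

theorem proj_det_rhoT (i : d.Idx) (σ : Γℚ) :
    i.proj (LinearMap.det (d.rhoT.ρ σ)) = LinearMap.det (i.rep.ρ.ρ σ) :=
  (exists_rhoT (d := d)).choose_spec.2.2.1 i σ

theorem trace_rhoT_frob (ℓ : GoodPrime d.S) (A : ValuationSubring ℚbar)
    (hA : A.LiesOverPrime ℓ.1) (σ : Γℚ) (hσ : A.IsFrobeniusAt σ ℓ.1) :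
    LinearMap.trace d.TraceRing d.rhoT.V (d.rhoT.ρ σ) = d.toTraceRing (MvPolynomial.X ℓ) :=
  (exists_rhoT (d := d)).choose_spec.2.2.2 ℓ A hA σ hσ

theorem residual_absIrr_rhoT : d.rhoT.residual.IsAbsolutelyIrreducible :=
  Lifting.isAbsolutelyIrreducible_of_equiv rhoT_residual
    (Lifting.isAbsolutelyIrreducible_baseChangeAlong _ (fun y => by
      obtain ⟨x, rfl⟩ := residue_surjective y
      exact ⟨_, (residue_traceRing x).symm⟩) s.ρbar s.habs)

/-- The specialisation at each system is its representation. -/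
theorem rhoT_baseChange (i : d.Idx) : i.rep.ρ.IsEquiv
    (d.rhoT.baseChangeAlong (i.proj : d.TraceRing →+* i.rep.O') (isLocalHom_proj i)) := by
  have h : ∀ σ, LinearMap.charpoly (i.rep.ρ.ρ σ) =
      LinearMap.charpoly ((d.rhoT.baseChangeAlong (i.proj : d.TraceRing →+* i.rep.O')
        (isLocalHom_proj i)).ρ σ) := fun σ => by
    rw [Lifting.ETransfer.charpoly_baseChangeAlong,
      CondLevel.charpoly_eq_of_trace_det (Deform.repBasis d.rhoT),
      CondLevel.charpoly_eq_of_trace_det (Deform.repBasis i.rep.ρ), ← proj_trace_rhoT i σ,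
      ← proj_det_rhoT i σ]
    simp [Polynomial.map_add, Polynomial.map_sub, Polynomial.map_mul, Polynomial.map_pow]
  obtain ⟨e⟩ := RepLemmas.isEquiv_of_charpoly_eq _ _
    (residual_absIrr_baseChangeAlong _ (isLocalHom_proj i) d.rhoT residual_absIrr_rhoT)
    fun σ => (h σ).symm
  exact ⟨e.symm⟩

end AuxPrimes

end Fermat.Agent.Ribet.Avoid
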