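/-
Local conditions of the representation over the ring of traces.
-/
import Fermat.Agent.Ribet.Avoid.CoordsRing
import Fermat.Agent.Ribet.Avoid.CoordsProduct

set_option autoImplicit false

noncomputable section

namespace Fermat.Agent.Ribet.Avoid

open IsLocalRing Polynomial

local notation "ℚbar" => AlgebraicClosure ℚ
local notation "Γℚ" => AlgebraicClosure ℚ ≃ₐ[ℚ] AlgebraicClosure ℚ

namespace Setup

/-- The value of the cyclotomic character in the coefficients. -/
theorem exists_cycloValue (s : Setup) (σ : Γℚ) : ∃ c : s.O, ∀ n a : ℕ,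
    (∀ μ : ℚbar, μ ^ s.p ^ n = 1 → σ μ = μ ^ a) →
      c - (a : s.O) ∈ Ideal.span {((s.p ^ n : ℕ) : s.O)} := by
  have hne : ∀ m : ℕ, NeZero (s.p ^ m) := fun m => ⟨pow_ne_zero m s.hp.out.ne_zero⟩
  let f : ℕ → ℕ := fun m => haveI := hne m; (Datum.chiMod (s.p ^ m) σ).val
  have hf : ∀ m (μ : ℚbar), μ ^ s.p ^ m = 1 → σ μ = μ ^ f m := fun m μ hμ =>
    haveI := hne m
    Datum.chiMod_spec (s.p ^ m) σ hμ
  have hcongr : ∀ m a b : ℕ, (∀ μ : ℚbar, μ ^ s.p ^ m = 1 → σ μ = μ ^ a) →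
      (∀ μ : ℚbar, μ ^ s.p ^ m = 1 → σ μ = μ ^ b) →
        ((a : s.O) - b) ∈ Ideal.span {((s.p ^ m : ℕ) : s.O)} := by
    intro m a b ha hb
    haveI := hne m
    have h : ((a : ℤ) : ZMod (s.p ^ m)) = ((b : ℤ) : ZMod (s.p ^ m)) := by
      push_cast
      exact (Datum.chiMod_eq_natCast (s.p ^ m) σ ha).symm.trans
        (Datum.chiMod_eq_natCast (s.p ^ m) σ hb)
    obtain ⟨t, ht⟩ := (ZMod.intCast_eq_intCast_iff_dvd_sub _ _ _).1 h.symm
    refine Ideal.mem_span_singleton'.2 ⟨(t : s.O), ?_⟩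
    have h2 := congrArg (fun z : ℤ => (z : s.O)) ht
    push_cast at h2 ⊢
    rw [h2, mul_comm]
  have hmono : ∀ {i j : ℕ}, i ≤ j → ∀ μ : ℚbar, μ ^ s.p ^ i = 1 → σ μ = μ ^ f j :=
    fun {i j} hij μ hμ => hf j μ (by
      obtain ⟨l, rfl⟩ := Nat.exists_eq_add_of_le hij
      rw [pow_add, pow_mul, hμ, one_pow])
  have hle : ∀ m : ℕ, Ideal.span {((s.p ^ m : ℕ) : s.O)} ≤ maximalIdeal s.O ^ m := fun m => by
    rw [Ideal.span_le, Set.singleton_subset_iff, SetLike.mem_coe, Nat.cast_pow]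
    exact Ideal.pow_mem_pow s.hpO m
  obtain ⟨c, hc⟩ := IsPrecomplete.prec (I := maximalIdeal s.O) inferInstance
    (f := fun m => (f m : s.O)) fun {i j} hij => by
      rw [SModEq.sub_mem, Ideal.smul_top_eq_map, Algebra.algebraMap_self, Ideal.map_id,
        Submodule.restrictScalars_mem]
      exact hle i (hcongr i _ _ (hf i) (hmono hij))
  refine ⟨c, fun m a ha => ?_⟩
  obtain ⟨ϖ, hϖ⟩ := IsDiscreteValuationRing.exists_irreducible s.O
  have hpne : Ideal.span {((s.p ^ m : ℕ) : s.O)} ≠ ⊥ := by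
    rw [Ne, Ideal.span_singleton_eq_bot]
    exact_mod_cast pow_ne_zero m s.hp.out.ne_zero
  obtain ⟨e, he⟩ := IsDiscreteValuationRing.ideal_eq_span_pow_irreducible hpne hϖ
  have h1 := hc (max m e)
  rw [SModEq.sub_mem, Ideal.smul_top_eq_map, Algebra.algebraMap_self, Ideal.map_id,
    Submodule.restrictScalars_mem] at h1
  have h2 : maximalIdeal s.O ^ (max m e) ≤ Ideal.span {((s.p ^ m : ℕ) : s.O)} := by
    rw [he, hϖ.maximalIdeal_eq, ← Ideal.span_singleton_pow]
    exact Ideal.pow_le_pow_right (le_max_right m e)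
  rw [show c - (a : s.O) = ((f (max m e) : s.O) - a) - ((f (max m e) : s.O) - c) by ring]
  exact Ideal.sub_mem _ (hcongr m _ _ (hmono (le_max_left m e)) ha) (h2 h1)

end Setup

variable {s : Setup} {r n : ℕ}

/-- The determinant of a point is the cyclotomic value. -/
theorem PointRep.det_eq_cycloValue {d : AuxPrimes s r n} {P : d.Point} (R : PointRep P) (σ : Γℚ)
    {c : s.O} (hc : ∀ m a : ℕ, (∀ μ : ℚbar, μ ^ s.p ^ m = 1 → σ μ = μ ^ a) →
      c - (a : s.O) ∈ Ideal.span {((s.p ^ m : ℕ) : s.O)}) :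
    LinearMap.det (R.ρ.ρ σ) = algebraMap s.O R.O' c := by
  rw [← sub_eq_zero]
  refine IsHausdorff.haus (I := maximalIdeal R.O') inferInstance _ fun m => ?_
  rw [SModEq.sub_mem, sub_zero, Ideal.smul_top_eq_map, Algebra.algebraMap_self, Ideal.map_id,
    Submodule.restrictScalars_mem]
  haveI : NeZero (s.p ^ m) := ⟨pow_ne_zero m s.hp.out.ne_zero⟩
  have ha : ∀ μ : ℚbar, μ ^ s.p ^ m = 1 → σ μ = μ ^ (Datum.chiMod (s.p ^ m) σ).val :=
    fun μ hμ => Datum.chiMod_spec (s.p ^ m) σ hμ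
  have h1 := R.det.2 m σ _ ha
  have h2 := Ideal.mem_map_of_mem (algebraMap s.O R.O') (hc m _ ha)
  rw [Ideal.map_span, Set.image_singleton, map_natCast, map_sub, map_natCast] at h2
  have h3 := Ideal.sub_mem _ h1 h2
  rw [sub_sub_sub_cancel_right] at h3
  refine (Ideal.span_le.2 ?_) h3
  rw [Set.singleton_subset_iff, SetLike.mem_coe, Nat.cast_pow]
  exact Ideal.pow_mem_pow R.det.1 m

namespace AuxPrimes

variable {d : AuxPrimes s r n} [Nonempty d.Idx]

theorem eq_of_proj {x y : d.TraceRing} (h : ∀ i : d.Idx, i.proj x = i.proj y) : x = y :=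
  sub_eq_zero.1 (eq_zero_of_proj _ fun i => by rw [map_sub, h i, sub_self])

theorem rhoT_det : d.rhoT.DetIsCyclotomic s.p := by
  refine ⟨?_, fun m σ a ha => ?_⟩
  · rw [← map_natCast (algebraMap s.O d.TraceRing)]
    exact map_nonunit (algebraMap s.O d.TraceRing) _ s.hpO
  obtain ⟨c, hc⟩ := s.exists_cycloValue σ
  rw [show LinearMap.det (d.rhoT.ρ σ) = algebraMap s.O d.TraceRing c from eq_of_proj (d := d) fun i => by
    rw [proj_det_rhoT, AlgHom.commutes, i.rep.det_eq_cycloValue σ hc]]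
  have h2 := Ideal.mem_map_of_mem (algebraMap s.O d.TraceRing) (hc m a ha)
  rwa [Ideal.map_span, Set.image_singleton, map_natCast, map_sub, map_natCast] at h2

theorem isUnramifiedAt_rhoT {q : ℕ} (hq : q.Prime) (hqp : q ≠ s.p) (hqL : ¬ q ∣ d.L) :
    d.rhoT.IsUnramifiedAt q := by
  intro A hA σ hσ
  let b := Deform.repBasis d.rhoT
  refine (LinearMap.toMatrix b b).injective ?_
  rw [LinearMap.toMatrix_one]
  refine Matrix.ext fun u v => ?_
  refine eq_of_proj (d := d) fun i => ?_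
  obtain ⟨e⟩ := rhoT_baseChange i
  have h1 := Lifting.ETransfer.isUnramifiedAt_of_equiv e
    (i.rep.unramified q hq hqp hqL) A hA σ hσ
  letI : Algebra d.TraceRing i.rep.O' := (i.proj : d.TraceRing →+* i.rep.O').toAlgebra
  have h2 := congrArg (LinearMap.toMatrix (Algebra.TensorProduct.basis i.rep.O' b)
    (Algebra.TensorProduct.basis i.rep.O' b)) h1
  have h2' := h2.trans (LinearMap.toMatrix_one (Algebra.TensorProduct.basis i.rep.O' b))
  have h3 : LinearMap.toMatrix (Algebra.TensorProduct.basis i.rep.O' b)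
      (Algebra.TensorProduct.basis i.rep.O' b) ((d.rhoT.ρ σ).baseChange i.rep.O') u v =
        (1 : Matrix (Fin 2) (Fin 2) i.rep.O') u v := congrFun (congrFun h2' u) v
  rw [LinearMap.toMatrix_baseChange, Matrix.map_apply] at h3
  refine h3.trans ?_
  by_cases huv : u = v
  · subst huv; simp
  · simp [Matrix.one_apply_ne huv]

theorem isUnipotentOnInertiaAt_rhoT {q : ℕ} (hq : q.Prime) (hqM : q ∣ s.M₀) :
    d.rhoT.IsUnipotentOnInertiaAt q := by
  intro A hA σ hσ
  have key : LinearMap.trace d.TraceRing d.rhoT.V (d.rhoT.ρ σ) = 2 ∧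
      LinearMap.det (d.rhoT.ρ σ) = 1 := by
    have h : ∀ i : d.Idx, LinearMap.charpoly (i.rep.ρ.ρ σ) =
        X ^ 2 - C (2 : i.rep.O') * X + C 1 := fun i => by
      rw [i.rep.unip q hq hqM A hA σ hσ, map_ofNat, map_one]; ring
    constructor <;> refine eq_of_proj (d := d) fun i => ?_
    · rw [proj_trace_rhoT,
        (CondLevel.trace_det_of_charpoly_eq (Deform.repBasis i.rep.ρ) _ (h i)).1, map_ofNat]
    · rw [proj_det_rhoT,
        (CondLevel.trace_det_of_charpoly_eq (Deform.repBasis i.rep.ρ) _ (h i)).2, map_one]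
  rw [CondLevel.charpoly_eq_of_trace_det (Deform.repBasis d.rhoT), key.1, key.2, map_ofNat, map_one]
  ring

theorem isFlatAt_rhoT (h : s.ordP = false) : d.rhoT.IsFlatAt s.p :=
  isFlatAt_of_jointlyInjective (fun i : d.Idx => i.proj) isLocalHom_proj eq_zero_of_proj d.rhoT
    s.p (fun i => i.rep.instLocal) fun i => by
      obtain ⟨e⟩ := rhoT_baseChange i
      exact Lifting.ETransfer.isFlatAt_of_equiv e (i.rep.flat h)

theorem isStrictOrdinaryAt_rhoT (h : s.ordP = true) : d.rhoT.IsStrictOrdinaryAt s.p :=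
  isStrictOrdinaryAt_of_jointlyInjective (fun i : d.Idx => (i.proj : d.TraceRing →+* i.rep.O'))
    isLocalHom_proj eq_zero_of_proj d.rhoT s.p s.hp2 rhoT_det fun i => by
      obtain ⟨e⟩ := rhoT_baseChange i
      exact Lifting.ETransfer.isStrictOrdinaryAt_of_equiv e (i.rep.ordinary h)

end AuxPrimes

end Fermat.Agent.Ribet.Avoid
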