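/-
Generators of the ring of traces from the tangent bound.
-/
import Fermat.Agent.Ribet.Avoid.CoordsLocal
import Fermat.Agent.TW.TangentCMain
import Fermat.Agent.Lifting.BCotangent
import Fermat.Agent.Lifting.BGaugeLemmas
import Fermat.Agent.Ribet.ThirdEngine

set_option autoImplicit false

noncomputable section

namespace Fermat.Agent.Ribet.Avoid

open IsLocalRing Polynomial

local notation "ℚbar" => AlgebraicClosure ℚ
local notation "Γℚ" => AlgebraicClosure ℚ ≃ₐ[ℚ] AlgebraicClosure ℚ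

namespace Setup

variable (s : Setup)

theorem isUnit_two : IsUnit (2 : s.O) := by
  have h : ((2 : ℕ) : s.O) ∉ maximalIdeal s.O := by
    intro h
    have hcop : Nat.Coprime 2 s.p :=
      (Nat.coprime_primes Nat.prime_two s.hp.out).mpr fun h => s.hp2 h.symm
    obtain ⟨a, b, hab⟩ := Nat.isCoprime_iff_coprime.mpr hcop
    refine (maximalIdeal.isMaximal s.O).ne_top ((Ideal.eq_top_iff_one _).mpr ?_)
    have h1 : ((a * (2 : ℕ) + b * (s.p : ℕ) : ℤ) : s.O) ∈ maximalIdeal s.O := by
      push_cast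
      exact add_mem (Ideal.mul_mem_left _ _ (by exact_mod_cast h)) (Ideal.mul_mem_left _ _ s.hpO)
    rw [hab, Int.cast_one] at h1
    exact h1
  simpa using notMem_maximalIdeal.mp h

/-- An enumeration of `Sc`. -/
def sc (i : Fin s.Sc.card) : ℕ := (s.Sc.equivFin.symm i : ℕ)

theorem sc_mem (i : Fin s.Sc.card) : s.sc i ∈ s.Sc := (s.Sc.equivFin.symm i).2

end Setup

variable {s : Setup} {r n : ℕ}

/-- A family of elements of the maximal ideal generating topologically a finite algebra generates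
it as an algebra. -/
theorem adjoin_eq_top_of_surjective_pev {O B : Type} [CommRing O] [IsLocalRing O]
    [IsNoetherianRing O] [CommRing B] [IsLocalRing B] [Algebra O B] [Module.Finite O B]
    [IsLocalHom (algebraMap O B)] [IsAdicComplete (maximalIdeal B) B] {ι : Type} [Finite ι]
    {z : ι → B} (hz : ∀ v, z v ∈ maximalIdeal B)
    (h : Function.Surjective
      (Deform.pev (maximalIdeal B) z hz : MvPowerSeries ι O →ₐ[O] B)) :
    Algebra.adjoin O (Set.range z) = ⊤ := by
  classical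
  haveI : IsNoetherianRing B := IsNoetherianRing.of_finite O B
  have hrad : maximalIdeal B ≤ ((maximalIdeal O).map (algebraMap O B)).radical := by
    rw [Ideal.radical_eq_sInf]
    refine le_sInf fun P ⟨hP, hPp⟩ => ?_
    haveI := hPp
    have hc : maximalIdeal O = P.comap (algebraMap O B) :=
      (maximalIdeal.isMaximal O).eq_of_le (Ideal.IsPrime.comap _).ne_top
        (Ideal.map_le_iff_le_comap.1 hP)
    haveI : Algebra.IsIntegral O B := Algebra.IsIntegral.of_finite O B
    have hmax : P.IsMaximal :=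
      Ideal.isMaximal_of_isIntegral_of_isMaximal_comap P (hc ▸ maximalIdeal.isMaximal O)
    rw [IsLocalRing.eq_maximalIdeal hmax]
  obtain ⟨e, he⟩ := Ideal.exists_pow_le_of_le_radical_of_fg hrad
    (maximalIdeal B).fg_of_isNoetherianRing
  refine eq_top_iff.2 fun x _ => ?_
  refine Lifting.mem_of_forall_mem_sup_pow
    (Subalgebra.toSubmodule (Algebra.adjoin O (Set.range z))) x fun m => ?_
  obtain ⟨p, rfl⟩ := h x
  have hk := Deform.mk_pev (maximalIdeal B) z hz (e * m) p
  obtain ⟨y, hy⟩ : ∃ y, Ideal.Quotient.mk (maximalIdeal B ^ (e * m))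
      (Deform.pev (maximalIdeal B) z hz p) =
        Ideal.Quotient.mk (maximalIdeal B ^ (e * m)) (MvPolynomial.aeval z y) := ⟨_, hk.trans rfl⟩
  rw [Ideal.Quotient.eq] at hy
  rw [show Deform.pev (maximalIdeal B) z hz p = MvPolynomial.aeval z y +
    (Deform.pev (maximalIdeal B) z hz p - MvPolynomial.aeval z y) by ring]
  refine Submodule.add_mem _ (Submodule.mem_sup_left ?_) (Submodule.mem_sup_right ?_)
  · rw [Subalgebra.mem_toSubmodule, Algebra.adjoin_range_eq_range_aeval]
    exact ⟨y, rfl⟩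
  · rw [Ideal.smul_top_eq_map, Submodule.restrictScalars_mem, Ideal.map_pow]
    rw [pow_mul] at hy
    exact Ideal.pow_right_mono he m hy

namespace AuxPrimes

variable {d : AuxPrimes s r n}

variable (d) in
/-- Specialisations of the representation over the ring of traces. -/
def specType [Nonempty d.Idx] :
    ∀ ⦃A : Type⦄ [CommRing A] [IsLocalRing A] [Algebra s.O A], GaloisRepAdic A → Prop :=
  fun A _ _ _ ρA => ∃ (φ : d.TraceRing →ₐ[s.O] A) (hφ : IsLocalHom (φ : d.TraceRing →+* A)),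
    (d.rhoT.baseChangeAlong (φ : d.TraceRing →+* A) hφ).IsEquiv ρA

variable [Nonempty d.Idx]

theorem algHom_eq_of_trace {A : Type} [CommRing A] [Algebra s.O A]
    (φ ψ : d.TraceRing →ₐ[s.O] A)
    (h : ∀ σ, φ (LinearMap.trace d.TraceRing d.rhoT.V (d.rhoT.ρ σ)) =
      ψ (LinearMap.trace d.TraceRing d.rhoT.V (d.rhoT.ρ σ))) : φ = ψ := by
  have h1 : φ.comp d.toTraceRing = ψ.comp d.toTraceRing := MvPolynomial.algHom_ext fun ℓ => by
    obtain ⟨hA, hσ⟩ := (d.exists_frobAt ℓ).choose_spec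
    rw [AlgHom.comp_apply, AlgHom.comp_apply, ← trace_rhoT_frob ℓ _ hA _ hσ, h]
  refine AlgHom.ext fun x => ?_
  obtain ⟨f, rfl⟩ := d.toTraceRing_surjective x
  exact DFunLike.congr_fun h1 f

variable (d) in
/-- The ring of traces as a deformation datum. -/
abbrev datum : GaloisRep.DeformationRingData s.O s.ρbar (specType d) where
  R := d.TraceRing
  residue_surjective := traceRing_residue_surjective
  absIrr := s.habs
  ρ := d.rhoT
  isOfType := ⟨AlgHom.id s.O _, IsLocalHom.of_surjective _ Function.surjective_id,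
    RepLemmas.isEquiv_of_trace_eq _ _
      (residual_absIrr_baseChangeAlong _ _ _ residual_absIrr_rhoT) fun σ =>
        Lifting.ETransfer.trace_baseChangeAlong _ _ _ σ⟩
  residual_isEquiv := rhoT_residual
  universal A _ _ _ _ _ _ _ ρA hρA _ := by
    obtain ⟨φ, hφ, hφe⟩ := hρA
    refine ⟨φ, ⟨hφ, hφe⟩, fun ψ ⟨hψ, hψe⟩ => algHom_eq_of_trace ψ φ fun σ => ?_⟩
    obtain ⟨e⟩ := hφe
    obtain ⟨e'⟩ := hψe
    have h1 := Lifting.ETransfer.trace_of_equiv e σ
    have h2 := Lifting.ETransfer.trace_of_equiv e' σ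
    rw [Lifting.ETransfer.trace_baseChangeAlong] at h1 h2
    exact h2.symm.trans h1

theorem resHom_datum (x : d.TraceRing) : TW.resHom d.datum x = d.resTraceRing x := by
  obtain ⟨c, hc⟩ := residue_surjective (d.resTraceRing x)
  have h1 : x - algebraMap s.O d.TraceRing c ∈ maximalIdeal d.TraceRing := by
    rw [mem_maximalIdeal_traceRing, map_sub, AlgHom.commutes, ResidueField.algebraMap_eq, hc,
      sub_self]
  have h2 := (TW.resHom_eq_zero_iff d.datum _).2 h1
  rw [map_sub, sub_eq_zero] at h2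
  rw [h2, ← hc]
  exact TW.resHom_algebraMap d.datum c

variable (d) in
/-- One half. -/
def half : d.TraceRing := algebraMap s.O d.TraceRing ↑(s.isUnit_two.unit⁻¹)

variable (d) in
/-- The element at a scalar prime. -/
def selElt (i : Fin s.Sc.card) (b : Bool) : Γℚ :=
  bif b then d.frob (s.sc i) else d.tau (s.sc i)

variable (d) in
/-- The coordinates of the trace zero part at the scalar primes. -/
def coordAt (v : Fin s.Sc.card × Bool × Fin 3) : d.TraceRing :=
  ![TW.univMat d.datum (d.selElt v.1 v.2.1) 0 1, TW.univMat d.datum (d.selElt v.1 v.2.1) 1 0,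
    d.half * (TW.univMat d.datum (d.selElt v.1 v.2.1) 0 0 -
      TW.univMat d.datum (d.selElt v.1 v.2.1) 1 1)] v.2.2

theorem selElt_mem (i : Fin s.Sc.card) (b : Bool) :
    d.selElt i b ∈ (d.place (s.sc i)).decompositionSubgroup ℚ := by
  obtain ⟨-, -, h3, h4, -⟩ := d.place_spec (s.sc i) (Or.inl (s.sc_mem i))
  cases b
  · exact Subgroup.map_subtype_le _ h4
  · exact h3

theorem matRep_selElt (i : Fin s.Sc.card) (b : Bool) :
    ∃ ε : s.k, ε ≠ 0 ∧ TW.matRep s.ρbar (d.selElt i b) = ε • 1 := by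
  obtain ⟨hA, -⟩ := d.place_spec (s.sc i) (Or.inl (s.sc_mem i))
  obtain ⟨ε, hε⟩ := s.hscalar (s.sc i) (s.sc_mem i) _ hA _ (selElt_mem i b)
  refine ⟨ε, fun h => ?_, hε⟩
  have h1 : TW.matRep s.ρbar (d.selElt i b) * TW.matRep s.ρbar (d.selElt i b)⁻¹ = 1 := by
    rw [← map_mul, mul_inv_cancel, map_one]
  rw [hε, h, zero_smul, zero_mul] at h1
  exact zero_ne_one (congrFun (congrFun h1 0) 0)

theorem coordAt_mem (v : Fin s.Sc.card × Bool × Fin 3) :
    d.coordAt v ∈ maximalIdeal d.TraceRing := by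
  obtain ⟨i, b, a⟩ := v
  obtain ⟨ε, -, hε⟩ := matRep_selElt (d := d) i b
  rw [← TW.univMat_map d.datum] at hε
  have h : ∀ u w, d.resTraceRing (TW.univMat d.datum (d.selElt i b) u w) =
      (ε • (1 : Matrix (Fin 2) (Fin 2) s.k)) u w := fun u w => by
    rw [← resHom_datum]
    exact congrFun (congrFun hε u) w
  rw [mem_maximalIdeal_traceRing]
  fin_cases a <;> simp [coordAt, h, map_mul, map_sub]

theorem derCocycle_selElt_eq_zero {δ : d.TraceRing → s.k}
    (hδ : δ ∈ TW.derSpace s.O (TW.resHom d.datum)) (i : Fin s.Sc.card) (b : Bool)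
    (h0 : ∀ a, δ (d.coordAt (i, b, a)) = 0) :
    TW.derCocycle d.datum δ (d.selElt i b) = 0 := by
  set σ := d.selElt i b with hσ
  set M := TW.univMat d.datum σ with hM
  obtain ⟨ε, hε0, hε⟩ := matRep_selElt (d := d) i b
  rw [← hσ] at hε
  have h01 : δ (M 0 1) = 0 := h0 0
  have h10 : δ (M 1 0) = 0 := h0 1
  have h2 : δ (d.half * (M 0 0 - M 1 1)) = 0 := h0 2
  rw [hδ.2.1, show δ d.half = 0 from hδ.2.2 _, mul_zero, add_zero,
    TW.derSpace_map_sub hδ, mul_eq_zero] at h2
  have hhalf : TW.resHom d.datum d.half ≠ 0 := by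
    rw [half, TW.resHom_algebraMap]
    exact (residue_ne_zero_iff_isUnit _).2 (Units.isUnit _)
  have heq : δ (M 0 0) = δ (M 1 1) := sub_eq_zero.1 (h2.resolve_left hhalf)
  have htr := TW.derCocycle_trace s.p rhoT_det hδ σ
  have hmul := TW.derCocycle_mul_matRep (DQ := d.datum) (δ := δ) σ
  rw [hε, mul_smul_comm, mul_one] at hmul
  have hsum : δ (M 0 0) + δ (M 1 1) = 0 := by
    have h3 := congrArg Matrix.trace hmul
    rw [Matrix.trace_smul, htr, smul_zero, Matrix.trace_fin_two] at h3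
    exact h3.symm
  rw [heq, ← two_mul, mul_eq_zero] at hsum
  have h11 : δ (M 1 1) = 0 := hsum.resolve_left s.two_ne_zero
  have hzero : M.map δ = 0 := by
    refine Matrix.ext fun u w => ?_
    fin_cases u <;> fin_cases w
    · exact heq.trans h11
    · exact h01
    · exact h10
    · exact h11
  rw [← hM, hzero, smul_eq_zero] at hmul
  exact hmul.resolve_left hε0

theorem not_dvd_L_of_notMem {q : ℕ} (hq : q.Prime) (hqp : q ≠ s.p) (hM : ¬ q ∣ s.M₀)
    (hA : q ∉ s.Aux) (hSc : q ∉ s.Sc) (hQ : q ∉ Finset.univ.image d.q) : ¬ q ∣ d.L := by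
  have hprod : ∀ T : Finset ℕ, (∀ x ∈ T, x.Prime) → q ∣ ∏ x ∈ T, x → q ∈ T := by
    intro T hT h
    obtain ⟨x, hx, hqx⟩ := (hq.prime.dvd_finset_prod_iff _).1 h
    rwa [(Nat.prime_dvd_prime_iff_eq hq (hT x hx)).1 hqx]
  intro h
  rw [L, Setup.base, D, hq.dvd_mul, hq.dvd_mul, hq.dvd_mul, hq.dvd_mul] at h
  rcases h with ((h | h) | h) | (h | h)
  · exact hM h
  · exact hA (hprod _ (fun x hx => (s.hAuxPrime x hx).1) h)
  · split at h
    · exact hqp ((Nat.prime_dvd_prime_iff_eq hq s.hp.out).1 h)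
    · exact hq.not_dvd_one h
  · exact hSc (hprod _ s.hScPrime h)
  · obtain ⟨i, -, hqi⟩ := (hq.prime.dvd_finset_prod_iff _).1 h
    exact hQ (Finset.mem_image.2
      ⟨i, Finset.mem_univ i, ((Nat.prime_dvd_prime_iff_eq hq (d.prime i)).1 hqi).symm⟩)

variable (d) in
/-- The cocycle of a tangent vector. -/
def tangentMap : (d.TraceRing →ₗ[s.O] s.k) →ₗ[s.k] (Γℚ → Matrix (Fin 2) (Fin 2) s.k) where
  toFun f := TW.derCocycle d.datum ⇑f
  map_add' f g := (TW.derCocycle d.datum).map_add ⇑f ⇑g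
  map_smul' c f := (TW.derCocycle d.datum).map_smul c ⇑f

theorem mem_derSpace {f : d.TraceRing →ₗ[s.O] s.k} (hf : Lifting.IsTangent d.resTraceRing f) :
    (f : d.TraceRing → s.k) ∈ TW.derSpace s.O (TW.resHom d.datum) :=
  ⟨map_add f, fun x y => (hf.map_mul x y).trans (by rw [resHom_datum, resHom_datum]),
    hf.map_algebraMap⟩

theorem finrank_tangentAnn_le (hd : d.HasBound) :
    Module.finrank s.k (Lifting.tangentAnn d.resTraceRing d.coordAt) + 3 * s.Sc.card ≤ r := by
  set ann := Lifting.tangentAnn d.resTraceRing d.coordAt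
  haveI : FiniteDimensional s.k (Lifting.tangentSpace d.resTraceRing) :=
    Lifting.finiteDimensional_tangentSpace
  have hle : ann ≤ Lifting.tangentSpace d.resTraceRing := fun f hf => hf.1
  haveI : FiniteDimensional s.k ann := Submodule.finiteDimensional_of_le hle
  have hdet := rhoT_det (d := d)
  have hinj : ∀ f : d.TraceRing →ₗ[s.O] s.k, f ∈ ann →
      d.tangentMap f ∈ TW.adCoboundaries (TW.matRep s.ρbar) → f = 0 := fun f hf hB => by
    have := TW.eq_zero_of_derCocycle_mem_adCoboundaries (DQ := d.datum)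
      (fun φ hφ _ => ⟨φ, hφ, ⟨GaloisRepAdic.Equiv.refl _⟩⟩) (mem_derSpace hf.1) (show TW.derCocycle d.datum ⇑f ∈ _ from hB)
    exact LinearMap.ext fun x => congrFun this x
  set Z := ann.map d.tangentMap with hZ
  obtain ⟨hfin, hbound⟩ := hd Z
    (by
      rintro _ ⟨f, hf, rfl⟩
      have hδ := mem_derSpace hf.1
      show TW.derCocycle d.datum ⇑f ∈ _
      refine ⟨⟨TW.derCocycle_mem_adCocycles s.p hdet hδ,
        TW.derCocycle_mem_globalFiniteLevel hδ⟩, fun q hq hqT A hA σ hσ => ?_⟩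
      simp only [Finset.mem_union, Finset.mem_singleton, Nat.mem_primeFactors, not_or] at hqT
      obtain ⟨⟨⟨⟨hM, hqp⟩, hSc⟩, hAux⟩, hQ⟩ := hqT
      exact TW.derCocycle_eq_zero_of_rho_eq_one hδ
        (isUnramifiedAt_rhoT hq hqp (not_dvd_L_of_notMem hq hqp
          (fun h => hM ⟨hq, h, s.hM₀.ne_zero⟩) hAux hSc hQ) A hA σ hσ))
    (fun hop => by
      rintro _ ⟨f, hf, rfl⟩
      show TW.resLoc s.p (TW.derCocycle d.datum ⇑f) ∈ _
      exact TW.resLoc_derCocycle_mem_flatLocal s.p hdet (isFlatAt_rhoT hop) (mem_derSpace hf.1))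
    (fun hop => by
      rintro _ ⟨f, hf, rfl⟩
      show TW.resLoc s.p (TW.derCocycle d.datum ⇑f) ∈ _
      exact TW.resLoc_derCocycle_mem_ordLocal s.p s.hp2 hdet (isStrictOrdinaryAt_rhoT hop)
        (mem_derSpace hf.1))
    (fun q hq hqM A hA g hg => by
      rintro _ ⟨f, hf, rfl⟩
      have hδ := mem_derSpace hf.1
      show (TW.derCocycle d.datum (⇑f) g * TW.matRep s.ρbar g).trace = 0
      rw [TW.derCocycle_mul_matRep, Matrix.trace_fin_two, Matrix.map_apply, Matrix.map_apply,
        ← hδ.1]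
      have h2 : TW.univMat d.datum g 0 0 + TW.univMat d.datum g 1 1 = 2 := by
        rw [← Matrix.trace_fin_two]
        have h3 := isUnipotentOnInertiaAt_rhoT (d := d) hq hqM A hA g hg
        have h4 := (CondLevel.trace_det_of_charpoly_eq (TW.univBasis d.datum) (t := (2 : d.TraceRing))
          (d := 1) (d.rhoT.ρ g) (by rw [h3, map_ofNat, map_one]; ring)).1
        rw [LinearMap.trace_eq_matrix_trace _ (TW.univBasis d.datum)] at h4
        exact h4
      rw [h2]
      exact TW.derSpace_map_natCast hδ 2)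
    (fun x hx => by
      rintro _ ⟨f, hf, rfl⟩
      obtain ⟨i, hi⟩ : ∃ i, s.sc i = x :=
        ⟨s.Sc.equivFin ⟨x, hx⟩, congrArg Subtype.val (s.Sc.equivFin.symm_apply_apply ⟨x, hx⟩)⟩
      subst hi
      exact ⟨derCocycle_selElt_eq_zero (mem_derSpace hf.1) i true (fun a => hf.2 (i, true, a)),
        derCocycle_selElt_eq_zero (mem_derSpace hf.1) i false (fun a => hf.2 (i, false, a))⟩)
  have hker : Function.Injective (d.tangentMap.domRestrict ann) := by
    rw [injective_iff_map_eq_zero]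
    rintro ⟨f, hf⟩ h
    exact Subtype.ext (hinj f hf ((show d.tangentMap f = 0 from h) ▸ Submodule.zero_mem _))
  have hrk : Module.finrank s.k Z = Module.finrank s.k ann := by
    rw [hZ, ← LinearMap.range_domRestrict, LinearMap.finrank_range_of_inj hker]
  have hdisj : Z ⊓ TW.adCoboundaries (TW.matRep s.ρbar) = ⊥ := by
    rw [Submodule.eq_bot_iff]
    rintro _ ⟨⟨f, hf, rfl⟩, hB⟩
    rw [hinj f hf hB, map_zero]
  have hB3 : Module.finrank s.k (TW.adCoboundaries (TW.matRep s.ρbar)) = 3 :=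
    TW.finrank_adCoboundaries_matRep s.two_ne_zero s.habs
  haveI : FiniteDimensional s.k (TW.adCoboundaries (TW.matRep s.ρbar)) :=
    Submodule.finiteDimensional_of_le (le_sup_right : _ ≤ Z ⊔ _)
  have hsum := Submodule.finrank_sup_add_finrank_inf_eq Z (TW.adCoboundaries (TW.matRep s.ρbar))
  rw [hdisj, finrank_bot, add_zero, hrk, hB3] at hsum
  omega

/-- With the tangent bound, the coordinates at the scalar primes and `r - 3 #Sc` further
elements generate the ring of traces. -/
theorem exists_generators (hd : d.HasBound) :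
    ∃ x : Fin (r - 3 * s.Sc.card) → d.TraceRing, (∀ j, x j ∈ maximalIdeal d.TraceRing) ∧
      Algebra.adjoin s.O (Set.range (Sum.elim d.coordAt x)) = ⊤ := by
  have hk := finrank_tangentAnn_le hd
  obtain ⟨x, hx, hsep⟩ := Lifting.exists_separating_elements (χ := d.resTraceRing) d.coordAt
    (r - 3 * s.Sc.card) (show Module.finrank s.k (Lifting.tangentAnn d.resTraceRing d.coordAt) ≤ _ by omega)
  refine ⟨x, hx, ?_⟩
  have hz : ∀ v, Sum.elim d.coordAt x v ∈ maximalIdeal d.TraceRing := by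
    rintro (v | j)
    · exact coordAt_mem v
    · exact hx j
  exact adjoin_eq_top_of_surjective_pev hz
    (Lifting.surjective_pev_of_tangent d.resTraceRing _ hz fun f hf h0 =>
      hsep f hf (fun v => h0 (Sum.inl v)) fun j => h0 (Sum.inr j))

end AuxPrimes

end Fermat.Agent.Ribet.Avoid
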