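/-
Systems killed by both degeneracy maps: the lifted Frobenius trace is `± (1 + q)`.
-/
import Fermat.Agent.Ribet.Avoid.Points
import Fermat.Agent.Ribet.Avoid.Kernel

set_option autoImplicit false

noncomputable section

namespace Fermat.Agent.Ribet.Avoid

open Polynomial IsLocalRing Twisted

local notation "ℚbar" => AlgebraicClosure ℚ
local notation "Γℚ" => AlgebraicClosure ℚ ≃ₐ[ℚ] AlgebraicClosure ℚ

variable {s : Setup} {r n : ℕ} {d : AuxPrimes s r n}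

/-- If there is no congruent system at the minimal level, an untwisted point is, at some prime
`x` of `Sc`, old with `tr² = (1 + x)²` or new there. -/
theorem exists_sq_trace
    (hbase : ∀ (u : Fin r → s.K) (a : ℕ → s.K), (∀ i, u i ^ s.p ^ (n + 1) = 1) →
      HasSystem d.DQ_dvd_LQ (d.auxChar u) d.S a →
        ¬ IsCongruent (algebraMap s.O s.K) (residue s.O) s.abar d.S a)
    (P : d.Point) (hP : P.twisted = false) (R : PointRep P) :
    ∃ x ∈ s.Sc, LinearMap.trace R.O' R.ρ.V (R.ρ.ρ (d.frob x)) ^ 2 = ((x : R.O') + 1) ^ 2 := by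
  classical
  set S := d.S with hS
  have hDS : ∀ q : ℕ, q.Prime → q ∣ d.D → q ∈ S := fun q hq h => by
    rcases hq.dvd_mul.mp h with h | h
    · obtain ⟨x, hx, hqx⟩ := (hq.prime.dvd_finsetProd_iff _).mp h
      exact d.mem_S_of_mem (s.hScS₀ q ((Nat.prime_dvd_prime_iff_eq hq (s.hScPrime x hx)).mp hqx ▸ hx))
    · obtain ⟨i, -, hqi⟩ := (hq.prime.dvd_finsetProd_iff _).mp h
      exact (Nat.prime_dvd_prime_iff_eq hq (d.prime i)).mp hqi ▸ d.q_mem_S i
  have hLS : ∀ q : ℕ, q.Prime → q ∣ d.L → q ∈ S := fun q hq h => by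
    rcases hq.dvd_mul.mp h with h | h
    · unfold Setup.base at h
      rcases hq.dvd_mul.mp h with h | h
      · rcases hq.dvd_mul.mp h with h | h
        · exact d.mem_S_of_mem (s.hM₀S₀ q hq h)
        · obtain ⟨x, hx, hqx⟩ := (hq.prime.dvd_finsetProd_iff _).mp h
          exact d.mem_S_of_mem (s.hAuxS₀ q
            ((Nat.prime_dvd_prime_iff_eq hq (s.hAuxPrime x hx).1).mp hqx ▸ hx))
      · by_cases ho : s.ordP = true
        · rw [if_pos ho] at h
          exact d.mem_S_of_mem ((Nat.prime_dvd_prime_iff_eq hq s.hp.out).mp h ▸ s.hpS₀)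
        · rw [if_neg ho] at h
          exact absurd h hq.not_dvd_one
    · exact hDS q hq h
  have hsys : HasSystem (d.DQ_dvd_D.trans d.D_dvd_L) (d.auxChar P.u) S P.a := by
    have h := P.system
    rw [hP, d.compChar_false] at h
    exact hasSystem_of_changeLevel _ _ _ _ _ hDS h
  -- lowering along `Sc`
  have key : ∀ T : Finset ℕ, T ⊆ s.Sc → ∀ (L : ℕ) (_ : NeZero L) (h : d.DQ ∣ L),
      L = s.base * (∏ x ∈ T, x) * d.DQ → HasSystem h (d.auxChar P.u) S P.a →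
      ∃ x ∈ s.Sc, ∃ (L' : ℕ) (_ : NeZero L') (h' : d.DQ ∣ L'), x ∣ L' ∧ L' ∣ d.L ∧
        ∃ v : CohL h' (d.auxChar P.u) s.K, v ≠ 0 ∧
          (∀ ℓ : ℕ, ℓ.Prime → ℓ ∉ S → heckeT' h' (d.auxChar P.u) s.K ℓ v = P.a ℓ • v) ∧
          heckeT' h' (d.auxChar P.u) s.K x (heckeT' h' (d.auxChar P.u) s.K x v) = v := by
    intro T
    induction T using Finset.induction_on with
    | empty =>
      intro _ L _ h hL hsys
      rw [Finset.prod_empty, mul_one] at hL
      subst hL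
      exact absurd P.congr (hbase P.u P.a P.hu hsys)
    | insert x T hxT ih =>
      intro hsub L _ h hL hsys
      obtain ⟨hx, hT⟩ := Finset.insert_subset_iff.mp hsub
      have hL' : L = s.base * (∏ y ∈ T, y) * d.DQ * x := by
        rw [hL, Finset.prod_insert hxT]; ring
      set L₀ := s.base * (∏ y ∈ T, y) * d.DQ with hL₀
      have hdvd : L ∣ d.L := by
        rw [hL, AuxPrimes.L, AuxPrimes.D, mul_assoc]
        exact mul_dvd_mul_left _ (mul_dvd_mul_right (Finset.prod_dvd_prod_of_subset _ _ _ hsub) _)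
      haveI : NeZero L₀ := ⟨fun h0 => NeZero.ne L (by rw [hL', h0, zero_mul])⟩
      have hxL₀ : ¬ x ∣ L₀ := fun hd => (s.hScPrime x hx).ne_one (Nat.isUnit_iff.mp
        ((d.squarefree_L.squarefree_of_dvd hdvd) x (hL' ▸ mul_dvd_mul_right hd x)))
      rcases descends_or_sq_eq h (Dvd.intro_left _ rfl) hL' (s.hScPrime x hx) hxL₀ _ S
          (d.mem_S_of_mem (s.hScS₀ x hx)) P.a hsys with h0 | hv
      · exact ih hT L₀ inferInstance _ rfl h0
      · exact ⟨x, hx, L, inferInstance, h, hL' ▸ dvd_mul_left x L₀, hdvd, hv⟩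
  obtain ⟨x, hx, L', hL'0, hDQ, hxL, hL'dvd, v, hv0, hv, hvU⟩ :=
    key s.Sc subset_rfl d.L inferInstance _ (by rw [AuxPrimes.L, AuxPrimes.D, mul_assoc]; rfl) hsys
  refine ⟨x, hx, ?_⟩
  have hxp := s.hScPrime x hx
  have hxDQ : ¬ x ∣ d.DQ := d.sc_not_dvd_DQ hx
  have hxne : x ≠ s.p := fun h => by
    have h1 := s.hone x hx
    rw [h, ZMod.natCast_self] at h1
    exact zero_ne_one h1
  -- reduce to a primitive nebentype
  obtain ⟨D₁, hD₁, ψ₁, hsq₁, hprim₁, hψ₁⟩ := d.isPrimitiveSq_reduced P.u P.hu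
  revert v
  rw [hψ₁]
  intro v hv0 hv hvU
  obtain ⟨e, he, hcomm⟩ := exists_coh_changeLevel hDQ hD₁ ψ₁ s.K
  have hDQS : ∀ q : ℕ, q.Prime → q ∣ d.DQ → q ∈ S := fun q hq h =>
    hDS q hq (h.trans d.DQ_dvd_D)
  have hL'sq : Squarefree L' := d.squarefree_L.squarefree_of_dvd hL'dvd
  haveI : NeZero (L' * D₁) := ⟨mul_ne_zero (NeZero.ne L') hsq₁.ne_zero⟩
  obtain ⟨ε, χ, hε, hχU, hχT⟩ := exists_hom_of_sq_eq (L := L') (hD₁.trans hDQ) hsq₁
    (by
      obtain ⟨c, hc⟩ := hD₁.trans hDQ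
      rw [hc, Nat.mul_div_cancel_left _ (Nat.pos_of_ne_zero hsq₁.ne_zero)]
      rw [hc] at hL'sq
      exact Nat.coprime_of_squarefree_mul hL'sq)
    ψ₁ hprim₁ hxp (fun h => hxDQ (h.trans hD₁)) hxL S
    (fun q hq h => hDQS q hq (h.trans hD₁)) P.a (e v)
    (fun h0 => hv0 (he (h0.trans (map_zero e).symm)))
    (by rw [← hcomm x hxp hxDQ, ← hcomm x hxp hxDQ, hvU])
    (fun ℓ hℓ hℓS => by
      rw [← hcomm ℓ hℓ (fun h => hℓS (hDQS ℓ hℓ h)), hv ℓ hℓ hℓS, map_smul])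
    (exists_ne_eisenstein s S _ (Nat.pos_of_ne_zero (NeZero.ne _)) P.a P.congr)
  -- the values lie in the coefficients of the given representation
  have hfrobex : ∀ ℓ : ℕ, ∃ b : R.O', ℓ.Prime → ℓ ∉ S → R.emb b = P.a ℓ := fun ℓ => by
    by_cases h : ℓ.Prime ∧ ℓ ∉ S
    · obtain ⟨A, hA⟩ := Galois.exists_liesOverPrime h.1
      obtain ⟨σ, hσ⟩ := Galois.exists_isFrobeniusAt h.1 hA
      exact ⟨_, fun _ _ => (R.frob ℓ h.1 h.2 A hA σ hσ).1⟩
    · exact ⟨0, fun h1 h2 => absurd ⟨h1, h2⟩ h⟩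
  choose b hb using hfrobex
  have hpR : (s.p : R.O') ∈ maximalIdeal R.O' := by
    rw [← map_natCast (algebraMap s.O R.O')]
    exact map_nonunit (algebraMap s.O R.O') (s.p : s.O) s.hpO
  have hNS : ∀ q : ℕ, q.Prime → q ∣ L' * D₁ → q ∈ S := fun q hq h =>
    (hq.dvd_mul.mp h).elim (fun h => hLS q hq (h.trans hL'dvd))
      fun h => hDQS q hq (h.trans hD₁)
  obtain ⟨O'', j1, j2, j3, j4, j5, j6, j7, j8, hinj, ρ, hgood, hbad⟩ :=
    exists_rep_of_hom hxp hxne (hxL.mul_right D₁)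
      (fun h => by
        have h1 : x ^ 2 ∣ L' := Nat.Coprime.dvd_of_dvd_mul_right
          (Nat.Coprime.pow_left 2 (hxp.coprime_iff_not_dvd.mpr fun h => hxDQ (h.trans hD₁))) h
        exact hxp.ne_one (Nat.isUnit_iff.mp (hL'sq x (by rwa [← pow_two]))))
      S (d.mem_S_of_mem s.hpS₀) hNS χ ε hε hχU hpR R.emb R.emb_inj b
      (fun ℓ hℓ hℓN hℓS => by
        have hℓS' : ℓ ∉ S := fun h => hℓS (Finset.mem_erase.mpr
          ⟨fun e => hℓN (e ▸ hxL.mul_right D₁), h⟩)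
        rw [hb ℓ hℓ hℓS', hχT ℓ hℓ hℓN hℓS])
  obtain ⟨hP1, hP2, -⟩ := d.place_spec x (Or.inl hx)
  obtain ⟨htr, -⟩ := trace_det_eq ρ (R.ρ.baseChangeAlong (algebraMap R.O' O'') j8) S
    (fun ℓ hℓ hℓS A hA τ hτ => by
      obtain ⟨h1, h2⟩ := hgood ℓ hℓ hℓS A hA τ hτ
      obtain ⟨h3, h4⟩ := R.frob ℓ hℓ hℓS A hA τ hτ
      refine ⟨?_, ?_⟩
      · rw [h1]
        refine Eq.trans ?_ (Lifting.ETransfer.trace_baseChangeAlong _ j8 R.ρ τ).symm
        exact congrArg _ (R.emb_inj ((hb ℓ hℓ hℓS).trans h3.symm))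
      · rw [h2, Lifting.ETransfer.det_baseChangeAlong, h4, map_natCast]) (d.frob x)
  have hb1 := (hbad (d.place x) hP1 (d.frob x) hP2).1
  apply hinj
  rw [map_pow, map_pow, map_add, map_natCast, map_one, ← hb1, htr]
  exact congrArg (· ^ 2) (Lifting.ETransfer.trace_baseChangeAlong _ j8 R.ρ (d.frob x)).symm


end Fermat.Agent.Ribet.Avoid
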