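/-
Coordinates on the ring of traces of all congruent systems: generators of its maximal ideal and
their relations at every point.
-/
import Fermat.Agent.Ribet.Avoid.AuxPrimes
import Fermat.Agent.Ribet.Avoid.Old
import Fermat.Agent.Ribet.Local
import Fermat.Agent.Ribet.TraceRepGalois
import Fermat.Agent.Ribet.ThirdEngine
import Fermat.Agent.Ribet.Avoid.CoordsTangent
import Fermat.Agent.Ribet.Avoid.CoordsRelations

set_option autoImplicit false

noncomputable section

namespace Fermat.Agent.Ribet.Avoid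

open Polynomial IsLocalRing Twisted

local notation "ℚbar" => AlgebraicClosure ℚ
local notation "Γℚ" => AlgebraicClosure ℚ ≃ₐ[ℚ] AlgebraicClosure ℚ

namespace Setup

variable (s : Setup)

/-- Half of the difference of the two inertia eigenvalues. -/
def δ : s.O := (s.ξ - s.ξ ^ (s.p - 1)) * ↑(s.isUnit_two.unit⁻¹)

end Setup

variable {s : Setup} {r n : ℕ} {d : AuxPrimes s r n}

/-- Hecke polynomials giving, at every point, coordinates with the relations of the engine.
`op (inl (i, false, ·))` are the coordinates of the inertia element at the `i`th prime of `Sc`,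
`op (inl (i, true, ·))` those of the Frobenius element. -/
structure Coords (d : AuxPrimes s r n) (g : ℕ) where
  /-- the coordinates -/
  op : LVar (Fin s.Sc.card) (Fin g) → HeckePoly s.O d.S
  op_mem : ∀ v, op v ∈ d.resIdeal
  /-- the inertia traces at the auxiliary primes -/
  h : Fin r → HeckePoly s.O d.S
  h_mem : ∀ j, h j ∈ Algebra.adjoin s.O (Set.range op)
  quadric : ∀ (P : d.Point), P.twisted = true → ∀ i,
    P.eval (qdOp (opS op i)) = algebraMap s.O s.K s.δ ^ 2
  parallel : ∀ (P : d.Point), P.twisted = true → ∀ i a b,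
    P.eval (opS op i a * opF op i b - opS op i b * opF op i a) = 0
  diamond : ∀ (P : d.Point) j, P.u j ^ 2 - P.eval (h j) * P.u j + 1 = 0
  killed : ∀ (P : d.Point), P.twisted = false →
    ∏ i : Fin s.Sc.card, (4 * P.eval (qdOp (opF op i)) - ((s.sc i : s.K) - 1) ^ 2) = 0

section points

/-- Minus the determinant of the trace zero part. -/
theorem qd_coord_eq {A : Type*} [CommRing A] (N : Matrix (Fin 2) (Fin 2) A) (c : A)
    (hc : 2 * c = 1) :
    N 0 1 * N 1 0 + (c * (N 0 0 - N 1 1)) ^ 2 = c ^ 2 * (N.trace ^ 2 - 4 * N.det) := by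
  rw [Matrix.trace_fin_two, Matrix.det_fin_two]
  linear_combination (-(N 0 1 * N 1 0) * (2 * c + 1)) * hc

/-- Commuting matrices have parallel trace zero parts. -/
theorem parallel_of_commute {A : Type*} [CommRing A] (N F : Matrix (Fin 2) (Fin 2) A) (c : A)
    (h : F * N = N * F) (a b : Fin 3) :
    (![N 0 1, N 1 0, c * (N 0 0 - N 1 1)] : Fin 3 → A) a *
        (![F 0 1, F 1 0, c * (F 0 0 - F 1 1)] : Fin 3 → A) b -
      (![N 0 1, N 1 0, c * (N 0 0 - N 1 1)] : Fin 3 → A) b *
        (![F 0 1, F 1 0, c * (F 0 0 - F 1 1)] : Fin 3 → A) a = 0 := by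
  have e00 := congrFun (congrFun h 0) 0
  have e01 := congrFun (congrFun h 0) 1
  have e10 := congrFun (congrFun h 1) 0
  simp only [Matrix.mul_apply, Fin.sum_univ_two] at e00 e01 e10
  fin_cases a <;> fin_cases b <;> simp
  · linear_combination -e00
  · linear_combination c * e01
  · linear_combination e00
  · linear_combination -c * e10
  · linear_combination -c * e01
  · linear_combination c * e10

namespace AuxPrimes

variable {s : Setup} {r n : ℕ} {d : AuxPrimes s r n} [Nonempty d.Idx]

theorem proj_half (i : d.Idx) : 2 * i.proj d.half = 1 := by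
  rw [half, AlgHom.commutes, ← map_ofNat (algebraMap s.O i.rep.O') 2, ← map_mul,
    IsUnit.mul_val_inv, map_one]

/-- The matrix of a point in the basis of the ring of traces. -/
def pointMat (i : d.Idx) (σ : Γℚ) : Matrix (Fin 2) (Fin 2) i.rep.O' :=
  (TW.univMat d.datum σ).map i.proj

theorem trace_pointMat (i : d.Idx) (σ : Γℚ) :
    (pointMat i σ).trace = LinearMap.trace i.rep.O' i.rep.ρ.V (i.rep.ρ.ρ σ) := by
  rw [← proj_trace_rhoT, LinearMap.trace_eq_matrix_trace _ (TW.univBasis d.datum)]
  exact (AddMonoidHom.map_trace (i.proj : d.TraceRing →+* i.rep.O').toAddMonoidHom _).symm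

theorem det_pointMat (i : d.Idx) (σ : Γℚ) :
    (pointMat i σ).det = LinearMap.det (i.rep.ρ.ρ σ) := by
  rw [← proj_det_rhoT, ← LinearMap.det_toMatrix (TW.univBasis d.datum)]
  exact (RingHom.map_det (i.proj : d.TraceRing →+* i.rep.O') _).symm

theorem commute_pointMat (i : d.Idx) {σ τ : Γℚ} (h : Commute (i.rep.ρ.ρ σ) (i.rep.ρ.ρ τ)) :
    pointMat i σ * pointMat i τ = pointMat i τ * pointMat i σ := by
  obtain ⟨e⟩ := rhoT_baseChange i
  letI : Algebra d.TraceRing i.rep.O' := (i.proj : d.TraceRing →+* i.rep.O').toAlgebra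
  let b' := Algebra.TensorProduct.basis i.rep.O' (TW.univBasis d.datum)
  have hM : ∀ g, pointMat i g = LinearMap.toMatrixAlgEquiv b'
      ((d.rhoT.baseChangeAlong (i.proj : d.TraceRing →+* i.rep.O') (isLocalHom_proj i)).ρ g) :=
    fun g => (Deform.toMatrix_baseChange_endo i.rep.O' (TW.univBasis d.datum) (d.rhoT.ρ g)).symm
  have h' : e.toLinearEquiv.conj (i.rep.ρ.ρ σ * i.rep.ρ.ρ τ) =
      e.toLinearEquiv.conj (i.rep.ρ.ρ τ * i.rep.ρ.ρ σ) := by rw [h.eq]
  rw [← map_mul i.rep.ρ.ρ, ← map_mul i.rep.ρ.ρ, Lifting.ETransfer.conj_of_equiv,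
    Lifting.ETransfer.conj_of_equiv, map_mul, map_mul] at h'
  rw [hM, hM, ← map_mul, ← map_mul]
  exact congrArg _ h'

theorem proj_coordAt (i : d.Idx) (j : Fin s.Sc.card) (b : Bool) (a : Fin 3) :
    i.proj (d.coordAt (j, b, a)) =
      (![pointMat i (d.selElt j b) 0 1, pointMat i (d.selElt j b) 1 0,
        i.proj d.half * (pointMat i (d.selElt j b) 0 0 - pointMat i (d.selElt j b) 1 1)] :
          Fin 3 → i.rep.O') a := by
  fin_cases a <;> simp [coordAt, pointMat, map_mul, map_sub]

end AuxPrimes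

end points

/-- **Coordinates.**  With the tangent bound there are coordinates in `r - 3 #Sc` free
variables. -/
theorem exists_coords (d : AuxPrimes s r n) (hd : d.HasBound)
    (hbase : ∀ (u : Fin r → s.K) (a : ℕ → s.K), (∀ i, u i ^ s.p ^ (n + 1) = 1) →
      HasSystem d.DQ_dvd_LQ (d.auxChar u) d.S a →
        ¬ IsCongruent (algebraMap s.O s.K) (residue s.O) s.abar d.S a) :
    Nonempty (Coords d (r - 3 * s.Sc.card)) := by
  by_cases hne : Nonempty d.Idx
  swap
  · have hP : ∀ P : d.Point, False := fun P => hne ⟨(AuxPrimes.exists_idx P).choose⟩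
    exact ⟨{ op := fun _ => 0, op_mem := fun _ => Ideal.zero_mem _
             h := fun _ => 0, h_mem := fun _ => Subalgebra.zero_mem _
             quadric := fun P => (hP P).elim, parallel := fun P => (hP P).elim
             diamond := fun P => (hP P).elim, killed := fun P => (hP P).elim }⟩
  haveI := hne
  classical
  obtain ⟨x, hx, hgen⟩ := AuxPrimes.exists_generators hd
  let z : LVar (Fin s.Sc.card) (Fin (r - 3 * s.Sc.card)) → d.TraceRing := Sum.elim d.coordAt x
  have hz : ∀ v, d.resTraceRing (z v) = 0 := by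
    rintro (v | j)
    · exact AuxPrimes.mem_maximalIdeal_traceRing.1 (AuxPrimes.coordAt_mem v)
    · exact AuxPrimes.mem_maximalIdeal_traceRing.1 (hx j)
  choose op hop using fun v => d.toTraceRing_surjective (z v)
  have hy : ∀ j : Fin r, ∃ f ∈ Algebra.adjoin s.O (Set.range op), d.toTraceRing f =
      LinearMap.trace d.TraceRing d.rhoT.V (d.rhoT.ρ (d.tau (d.q j))) := fun j => by
    have h : LinearMap.trace d.TraceRing d.rhoT.V (d.rhoT.ρ (d.tau (d.q j))) ∈
        (Algebra.adjoin s.O (Set.range op)).map d.toTraceRing := by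
      rw [AlgHom.map_adjoin, ← Set.range_comp]
      rw [show ⇑d.toTraceRing ∘ op = z from funext hop, hgen]
      trivial
    obtain ⟨f, hf, hfe⟩ := h
    exact ⟨f, hf, hfe⟩
  choose h hhmem hhe using hy
  have heval : ∀ (P : d.Point) (i : d.Idx), i.pt.eval = P.eval → ∀ f,
      P.eval f = i.rep.emb (i.proj (d.toTraceRing f)) := fun P i hi f => by
    rw [i.emb_proj, hi]
  have hcoord : ∀ (P : d.Point) (i : d.Idx), i.pt.eval = P.eval → ∀ j b a,
      P.eval (op (Sum.inl (j, b, a))) = i.rep.emb (i.proj (d.coordAt (j, b, a))) :=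
    fun P i hi j b a => by rw [heval P i hi, hop]; rfl
  have hqd : ∀ (P : d.Point) (i : d.Idx), i.pt.eval = P.eval → ∀ j b,
      P.eval (qdOp fun a => op (Sum.inl (j, b, a))) = i.rep.emb (i.proj d.half ^ 2 *
        ((AuxPrimes.pointMat i (d.selElt j b)).trace ^ 2 -
          4 * (AuxPrimes.pointMat i (d.selElt j b)).det)) := fun P i hi j b => by
    rw [← qd_coord_eq _ _ (AuxPrimes.proj_half i), qdOp, map_add, map_mul, map_pow,
      hcoord P i hi, hcoord P i hi, hcoord P i hi, AuxPrimes.proj_coordAt,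
      AuxPrimes.proj_coordAt, AuxPrimes.proj_coordAt]
    simp [map_add, map_mul, map_pow]
  refine ⟨{ op := op, op_mem := fun v => ?_, h := h, h_mem := hhmem, quadric := ?_,
            parallel := ?_, diamond := ?_, killed := ?_ }⟩
  · show evalSystem (residue s.O) s.abar d.S (op v) = 0
    rw [← AuxPrimes.resTraceRing_apply, hop, hz]
  · intro P hP j
    obtain ⟨i, hit, -, hie⟩ := AuxPrimes.exists_idx P
    have hmem := s.sc_mem j
    refine (hqd P i hie j false).trans ?_
    rw [AuxPrimes.trace_pointMat, AuxPrimes.det_pointMat,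
      show d.selElt j false = d.tau (s.sc j) from rfl, i.rep.det_tau hmem,
      i.rep.tau_sc _ hmem, if_pos (hit.trans hP), ← i.rep.emb_comp, RingHom.comp_apply,
      ← map_pow i.rep.emb]
    congr 1
    have hξ : algebraMap s.O i.rep.O' s.ξ * algebraMap s.O i.rep.O' (s.ξ ^ (s.p - 1)) = 1 := by
      rw [← map_mul, ← pow_succ', Nat.sub_add_cancel s.hp.out.one_le, s.ξ_pow, map_one]
    rw [Setup.δ, map_mul, map_sub, map_add,
      show i.proj d.half = algebraMap s.O i.rep.O' ↑(s.isUnit_two.unit⁻¹) from AlgHom.commutes _ _]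
    linear_combination
      (4 * algebraMap s.O i.rep.O' ↑(s.isUnit_two.unit⁻¹) ^ 2) * hξ
  · intro P hP j a b
    obtain ⟨i, hit, -, hie⟩ := AuxPrimes.exists_idx P
    have hcomm := AuxPrimes.commute_pointMat i
      (i.rep.commute_tau_frob (hit.trans hP) (s.sc_mem j))
    simp only [opS, opF, map_sub, map_mul, hcoord P i hie, AuxPrimes.proj_coordAt]
    rw [← map_mul, ← map_mul, ← map_sub, ← map_zero i.rep.emb]
    exact congrArg i.rep.emb
      (parallel_of_commute (AuxPrimes.pointMat i (d.selElt j false))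
        (AuxPrimes.pointMat i (d.selElt j true)) _ hcomm a b)
  · intro P j
    obtain ⟨i, -, hiu, hie⟩ := AuxPrimes.exists_idx P
    have hu : P.u j ≠ 0 := fun h0 => by
      have h1 := P.hu j
      rw [h0, zero_pow (pow_ne_zero _ s.hp.out.ne_zero)] at h1
      exact zero_ne_one h1
    rw [heval P i hie, hhe, AuxPrimes.proj_trace_rhoT, i.rep.tau_aux, hiu]
    field_simp
    ring
  · intro P hP
    obtain ⟨i, hit, -, hie⟩ := AuxPrimes.exists_idx P
    obtain ⟨y, hy, htr⟩ := exists_sq_trace hbase i.pt (hit.trans hP) i.rep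
    obtain ⟨j, hj⟩ : ∃ j, s.sc j = y :=
      ⟨s.Sc.equivFin ⟨y, hy⟩, congrArg Subtype.val (s.Sc.equivFin.symm_apply_apply ⟨y, hy⟩)⟩
    refine Finset.prod_eq_zero (Finset.mem_univ j) ?_
    subst hj
    rw [show (qdOp (opF op j)) = qdOp fun a => op (Sum.inl (j, true, a)) from rfl, hqd P i hie,
      AuxPrimes.trace_pointMat, AuxPrimes.det_pointMat,
      show d.selElt j true = d.frob (s.sc j) from rfl, i.rep.det_frob hy, htr,
      ← map_natCast i.rep.emb, ← map_ofNat i.rep.emb 4, ← map_one i.rep.emb, ← map_sub,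
      ← map_pow i.rep.emb]
    rw [← map_mul i.rep.emb, ← map_sub i.rep.emb, ← map_zero i.rep.emb]
    congr 1
    linear_combination
      ((2 * i.proj d.half + 1) * ((s.sc j : i.rep.O') - 1) ^ 2) * AuxPrimes.proj_half i

end Fermat.Agent.Ribet.Avoid
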