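/-
The coefficient rings `O[[y]] / m ^ n` of the patching: local, finite, images of the universal
coefficients.
-/
import Fermat.Agent.Ribet.Avoid.Universal
import Mathlib.RingTheory.Artinian.Module

set_option autoImplicit false

noncomputable section

namespace Fermat.Agent.Ribet.Avoid

open IsLocalRing

variable (s : Setup) (r : ℕ)

theorem finite_sLevel (n : ℕ) : Finite (SLevel s.O r n) := by
  set mS := maximalIdeal (Sinf s.O r)
  have hfin1 : Finite (Sinf s.O r ⧸ mS) := by
    refine Finite.of_surjective (α := ResidueField s.O) (Ideal.Quotient.lift (maximalIdeal s.O)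
      ((Ideal.Quotient.mk mS).comp (algebraMap s.O (Sinf s.O r)))
      fun a ha => Ideal.Quotient.eq_zero_iff_mem.mpr (C_mem_maximalIdeal ha)) ?_
    intro x
    obtain ⟨f, rfl⟩ := Ideal.Quotient.mk_surjective x
    refine ⟨Ideal.Quotient.mk _ (MvPowerSeries.constantCoeff f), ?_⟩
    show Ideal.Quotient.mk mS (MvPowerSeries.C (MvPowerSeries.constantCoeff f)) = _
    rw [eq_comm, Ideal.Quotient.mk_eq_mk_iff_sub_mem]
    exact varIdeal_le_maximalIdeal (Deform.sub_C_constantCoeff_mem f)
  exact Ideal.finite_quotient_pow (IsNoetherian.noetherian mS) n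

instance isArtinianRing_sLevel (n : ℕ) : IsArtinianRing (SLevel s.O r n) :=
  haveI := finite_sLevel s r n
  inferInstance

theorem isLocalRing_sLevel {n : ℕ} (hn : n ≠ 0) : IsLocalRing (SLevel s.O r n) := by
  haveI : Nontrivial (SLevel s.O r n) := Ideal.Quotient.nontrivial_iff.mpr fun h => by
    have := Ideal.pow_le_self (I := maximalIdeal (Sinf s.O r)) hn
    rw [h] at this
    exact (maximalIdeal.isMaximal _).ne_top (top_le_iff.mp this)
  exact IsLocalRing.of_surjective' _ Ideal.Quotient.mk_surjective

variable {r}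

/-- The universal coefficients map to `O[[y]] / m ^ n`. -/
def toLevel (r n : ℕ) : Univ s.O (s.p ^ (n + 1)) r →ₐ[s.O] SLevel s.O r n :=
  groupRingToSLevel (p := s.p) (N := n + 1) s.hpO (by omega)

theorem toLevel_gen (n : ℕ) (i : Fin r) :
    toLevel s r n (Univ.gen i) = diamond s.O r n i := by
  rw [toLevel, groupRingToSLevel, Univ.gen, MonoidAlgebra.lift_of]
  exact diamondChar_single _ _ (by omega) i

theorem toLevel_surjective (n : ℕ) : Function.Surjective (toLevel s r n) := by
  intro x
  obtain ⟨f, rfl⟩ := Ideal.Quotient.mk_surjective x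
  have h : Ideal.Quotient.mk (maximalIdeal (Sinf s.O r) ^ n) f =
      Ideal.Quotient.mk _ (algebraMap (MvPolynomial (Fin r) s.O) (Sinf s.O r)
        (MvPowerSeries.truncTotal n f)) := by
    rw [Ideal.Quotient.mk_eq_mk_iff_sub_mem]
    exact Ideal.pow_right_mono varIdeal_le_maximalIdeal n (Deform.sub_truncTotal_mem n f)
  rw [h]
  generalize MvPowerSeries.truncTotal n f = g
  induction g using MvPolynomial.induction_on with
  | C a =>
    refine ⟨algebraMap s.O _ a, ?_⟩
    rw [AlgHom.commutes, ← MvPolynomial.algebraMap_eq, ← IsScalarTower.algebraMap_apply]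
    rfl
  | add p q hp hq =>
    obtain ⟨u, hu⟩ := hp
    obtain ⟨v, hv⟩ := hq
    exact ⟨u + v, by simp only [map_add, hu, hv]⟩
  | mul_X p i hp =>
    obtain ⟨u, hu⟩ := hp
    refine ⟨u * (Univ.gen i - 1), ?_⟩
    rw [map_mul, map_mul, map_mul, hu, map_sub, toLevel_gen, map_one, diamond,
      MvPowerSeries.algebraMap_apply']
    simp [MvPowerSeries.algebraMap_apply', -Ideal.Quotient.mk_algebraMap]

/-- The residue field of the level ring is that of `O`. -/
def residueEquiv (n : ℕ) [IsLocalRing (SLevel s.O r n)] :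
    s.k ≃+* ResidueField (SLevel s.O r n) :=
  RingEquiv.ofBijective
    (Ideal.Quotient.lift (maximalIdeal s.O) ((residue (SLevel s.O r n)).comp (algebraMap s.O _))
      fun a ha => by
        rw [RingHom.comp_apply, residue_eq_zero_iff]
        refine (mem_maximalIdeal _).mpr fun hu => ?_
        rcases eq_or_ne n 0 with rfl | hn
        · exact (not_subsingleton (SLevel s.O r 0)) (Ideal.Quotient.subsingleton_iff.mpr (by simp))
        · have : Ideal.Quotient.mk (maximalIdeal (Sinf s.O r) ^ n)
              (algebraMap s.O (Sinf s.O r) a) ∈ maximalIdeal (SLevel s.O r n) := by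
            rw [← IsLocalRing.map_maximalIdeal_of_surjective _ Ideal.Quotient.mk_surjective]
            exact Ideal.mem_map_of_mem _ (C_mem_maximalIdeal ha)
          exact (mem_maximalIdeal _).mp this hu)
    ⟨RingHom.injective _, fun x => by
      obtain ⟨y, rfl⟩ := residue_surjective x
      obtain ⟨f, rfl⟩ := Ideal.Quotient.mk_surjective y
      refine ⟨residue s.O (MvPowerSeries.constantCoeff f), ?_⟩
      show residue (SLevel s.O r n) (algebraMap s.O _ (MvPowerSeries.constantCoeff f)) = _
      rw [← sub_eq_zero, ← map_sub, residue_eq_zero_iff,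
        ← IsLocalRing.map_maximalIdeal_of_surjective _ Ideal.Quotient.mk_surjective]
      refine Ideal.mem_map_of_mem (Ideal.Quotient.mk (maximalIdeal (Sinf s.O r) ^ n)) ?_
      rw [← neg_mem_iff, neg_sub]
      exact varIdeal_le_maximalIdeal (Deform.sub_C_constantCoeff_mem f)⟩

theorem residueEquiv_apply (n : ℕ) [IsLocalRing (SLevel s.O r n)] (a : s.O) :
    residueEquiv s (r := r) n (residue s.O a) =
      residue (SLevel s.O r n) (algebraMap s.O _ a) := rfl

theorem residue_toLevel_gen (n : ℕ) [IsLocalRing (SLevel s.O r n)] (i : Fin r) :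
    residue (SLevel s.O r n) (toLevel s r n (Univ.gen i)) = 1 := by
  rw [toLevel_gen, ← sub_eq_zero, ← map_one (residue (SLevel s.O r n)), ← map_sub,
    residue_eq_zero_iff, ← IsLocalRing.map_maximalIdeal_of_surjective _ Ideal.Quotient.mk_surjective,
    diamond, ← map_one (Ideal.Quotient.mk (maximalIdeal (Sinf s.O r) ^ n)), ← map_sub]
  refine Ideal.mem_map_of_mem _ ?_
  rw [add_sub_cancel_left]
  exact X_mem_maximalIdeal i

end Fermat.Agent.Ribet.Avoid
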