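/-
The universal coefficients form a complete local ring.
-/
import Fermat.Agent.Ribet.Avoid.Descent
import Fermat.Prelude.Thm_IsLocalRing_isAdicComplete_of_module_finite
import Mathlib.RingTheory.Ideal.GoingUp

set_option autoImplicit false

noncomputable section

namespace Fermat.Agent.Ribet.Avoid

open IsLocalRing

variable (s : Setup) (r m : ℕ)

/-- The augmentation. -/
def aug : Univ s.O (s.p ^ m) r →ₐ[s.O] s.O :=
  Univ.eval (fun _ => (1 : s.O)) fun _ => one_pow _

theorem univ_pow_sub (x : Univ s.O (s.p ^ m) r) :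
    ∃ e, x ^ s.p ^ m = algebraMap s.O _ (aug s r m x) ^ s.p ^ m + s.p * e := by
  obtain ⟨e, he⟩ := exists_pow_sub_eq (s := s) (S := ∅) (MvPolynomial.C x : HeckePoly _ ∅)
  refine ⟨MvPolynomial.constantCoeff e, ?_⟩
  have h := congrArg MvPolynomial.constantCoeff he
  simp only [map_pow, map_add, map_mul, map_natCast, MvPolynomial.map_C,
    MvPolynomial.constantCoeff_C] at h
  exact h

theorem isLocalRing_univ : IsLocalRing (Univ s.O (s.p ^ m) r) := by
  set κ := (residue s.O).comp (aug s r m).toRingHom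
  have hsurj : Function.Surjective κ := fun y => by
    obtain ⟨c, rfl⟩ := residue_surjective y
    exact ⟨algebraMap s.O _ c, congrArg _ ((aug s r m).commutes c)⟩
  refine IsLocalRing.of_unique_max_ideal ⟨RingHom.ker κ, RingHom.ker_isMaximal_of_surjective κ hsurj,
    fun Q hQ => hQ.eq_of_le (RingHom.ker_isMaximal_of_surjective κ hsurj).ne_top fun x hx => ?_⟩
  have hQO : Q.comap (algebraMap s.O (Univ s.O (s.p ^ m) r)) = maximalIdeal s.O :=
    IsLocalRing.eq_maximalIdeal (Ideal.isMaximal_comap_of_isIntegral_of_isMaximal Q)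
  have hp : (s.p : Univ s.O (s.p ^ m) r) ∈ Q := by
    have h : (s.p : s.O) ∈ Q.comap (algebraMap s.O (Univ s.O (s.p ^ m) r)) := hQO ▸ s.hpO
    rwa [Ideal.mem_comap, map_natCast] at h
  obtain ⟨e, he⟩ := univ_pow_sub s r m x
  have h1 : algebraMap s.O _ (aug s r m x) ^ s.p ^ m ∈ Q :=
    (Ideal.add_mem_iff_left _ (Ideal.mul_mem_right e _ hp)).mp
      (he ▸ Q.pow_mem_of_mem hx _ (pow_pos s.hp.out.pos m))
  have h2 : aug s r m x ∈ maximalIdeal s.O := by
    rw [← hQO, Ideal.mem_comap]
    exact hQ.isPrime.mem_of_pow_mem _ h1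
  exact (residue_eq_zero_iff _).mpr h2

instance : IsLocalRing (Univ s.O (s.p ^ m) r) := isLocalRing_univ s r m

instance : IsLocalHom (algebraMap s.O (Univ s.O (s.p ^ m) r)) :=
  ⟨fun a ha => by have h := ha.map (aug s r m); rwa [AlgHom.commutes] at h⟩

instance : IsAdicComplete (maximalIdeal (Univ s.O (s.p ^ m) r)) (Univ s.O (s.p ^ m) r) :=
  IsLocalRing.isAdicComplete_of_module_finite (𝒪 := s.O)

theorem finite_rootsOfUnityTuples :
    Finite {u : Fin r → s.K // ∀ i, u i ^ s.p ^ m = 1} := by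
  haveI : NeZero (s.p ^ m) := ⟨pow_ne_zero _ s.hp.out.ne_zero⟩
  have hfin : {x : s.K | x ^ s.p ^ m = 1}.Finite :=
    (Polynomial.nthRootsFinset (s.p ^ m) (1 : s.K)).finite_toSet.subset fun x hx => by
      simp only [Finset.mem_coe, Polynomial.mem_nthRootsFinset (pow_pos s.hp.out.pos m)]
      exact hx
  haveI := hfin.to_subtype
  exact Finite.of_injective
    (fun u : {u : Fin r → s.K // ∀ i, u i ^ s.p ^ m = 1} =>
      fun i => (⟨u.1 i, u.2 i⟩ : {x : s.K | x ^ s.p ^ m = 1}))
    fun u v h => Subtype.ext (funext fun i => congrArg Subtype.val (congrFun h i))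

end Fermat.Agent.Ribet.Avoid
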