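/-
One step of the patching: the engine data on the congruent part of twisted cohomology.
-/
import Fermat.Agent.Ribet.Avoid.LevelRing
import Fermat.Agent.Ribet.Avoid.Descent
import Fermat.Agent.Ribet.Avoid.UnivLocal
import Fermat.Agent.Ribet.Avoid.Coords

set_option autoImplicit false

noncomputable section

namespace Fermat.Agent.Ribet.Avoid

open IsLocalRing Twisted

theorem HasSystem.mono {L D : ℕ} {K : Type*} [Field K] {hD : D ∣ L}
    {ψ : DirichletCharacter K D} {S S' : Finset ℕ} (h : S ⊆ S') {a : ℕ → K}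
    (ha : HasSystem hD ψ S a) : HasSystem hD ψ S' a := by
  obtain ⟨x, hx, he⟩ := ha
  exact ⟨x, hx, fun ℓ hℓ hℓS => he ℓ hℓ fun hm => hℓS (h hm)⟩

theorem IsCongruent.mono {A B k : Type*} [CommRing A] [CommRing B] [Field k] {φ : A →+* B}
    {κ : A →+* k} {abar : ℕ → k} {S S' : Finset ℕ} (h : S ⊆ S') {a : ℕ → B}
    (ha : IsCongruent φ κ abar S a) : IsCongruent φ κ abar S' a := by
  intro t ht
  let j : GoodPrime S' → GoodPrime S := fun ℓ => ⟨ℓ.1, ℓ.2.1, fun hm => ℓ.2.2 (h hm)⟩
  have e1 : evalSystem φ a S (MvPolynomial.rename j t) = evalSystem φ a S' t :=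
    MvPolynomial.eval₂Hom_rename _ _ _ _
  have e2 : evalSystem κ abar S (MvPolynomial.rename j t) = evalSystem κ abar S' t :=
    MvPolynomial.eval₂Hom_rename _ _ _ _
  have hk : evalSystem κ abar S (MvPolynomial.rename j t) = 0 :=
    RingHom.mem_ker.mp (ha (RingHom.mem_ker.mpr (e1.trans (RingHom.mem_ker.mp ht))))
  exact RingHom.mem_ker.mpr (e2 ▸ hk)

theorem IsCongruent.restrict {A A' B k : Type*} [CommRing A] [CommRing A'] [CommRing B] [Field k]
    {φ : A →+* B} {κ : A →+* k} {abar : ℕ → k} {S : Finset ℕ} (f : A' →+* A) {a : ℕ → B}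
    (ha : IsCongruent φ κ abar S a) : IsCongruent (φ.comp f) (κ.comp f) abar S a := by
  intro t ht
  rw [← map_mem_residualIdeal]
  exact ha (by rwa [RingHom.mem_ker, evalSystem_map])

theorem ringHomComp_ringHomComp {m : ℕ} {A B C : Type*} [CommRing A] [CommRing B] [CommRing C]
    (χ : DirichletCharacter A m) (f : A →+* B) (g : B →+* C) :
    (χ.ringHomComp f).ringHomComp g = χ.ringHomComp (g.comp f) :=
  MulChar.ext fun _ => rfl

theorem map_qdOp_opF {O T M : Type} [CommRing O] [CommRing T] [Ring M] [Algebra O T]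
    [Algebra O M] (Φ : T →ₐ[O] M) {k g : ℕ} (op : LVar (Fin k) (Fin g) → T) (i : Fin k) :
    Φ (qdOp (opF op i)) = qdOp (opF (fun v => Φ (op v)) i) := by
  simp [qdOp, opF]

theorem smul_of_map_eq {O R T M : Type*} [CommRing O] [CommRing R] [Algebra O R] [CommRing T]
    [Algebra O T] [Ring M] [Algebra O M] [Module R M] [IsScalarTower O R M] (Φ : T →ₐ[O] M)
    {k : ℕ} (F : Fin k → T) {H : T} (c u : O) (t : T) (E : ℕ)
    (h : (List.ofFn F).prod ^ E = algebraMap O T u ^ E * H ^ E + algebraMap O T c * t)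
    {G : M} (hG : Φ (H ^ E) = algebraMap O R c • G) :
    ∃ A : M, (List.ofFn fun i => Φ (F i)).prod ^ E = c • A := by
  refine ⟨(u ^ E) • G + Φ t, ?_⟩
  have h' := congrArg Φ h
  rw [map_pow, map_list_prod, List.map_ofFn, map_add, map_mul, map_mul, ← map_pow (algebraMap O T),
    Φ.commutes, Φ.commutes, hG, algebraMap_smul] at h'
  rw [show (fun i => Φ (F i)) = Φ ∘ F from rfl, h', smul_add, ← Algebra.smul_def,
    ← Algebra.smul_def, smul_comm]

/-- `∏ F` and `∏ (4 F - c)` differ by a unit modulo a common divisor of the `c`. -/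
theorem exists_prod_pow_eq {B : Type*} [CommRing B] {k : ℕ} (F c : Fin k → B) (w : B)
    (hc : ∀ i, w ∣ c i) (u : B) (hu : u * 4 ^ k = 1) (E : ℕ) :
    ∃ t, (List.ofFn F).prod ^ E = u ^ E * (∏ i, (4 * F i - c i)) ^ E + w * t := by
  obtain ⟨t, ht⟩ : w ∣ (List.ofFn F).prod ^ E - u ^ E * (∏ i, (4 * F i - c i)) ^ E := by
    rw [← Ideal.mem_span_singleton, ← Ideal.Quotient.eq]
    have hmk : ∀ i, Ideal.Quotient.mk (Ideal.span {w}) (c i) = 0 := fun i =>
      Ideal.Quotient.eq_zero_iff_mem.mpr (Ideal.mem_span_singleton.mpr (hc i))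
    have hp : Ideal.Quotient.mk (Ideal.span {w}) (∏ i, (4 * F i - c i)) =
        Ideal.Quotient.mk (Ideal.span {w}) (4 ^ k * (List.ofFn F).prod) := by
      rw [List.prod_ofFn, map_prod, map_mul, map_prod, map_pow]
      simp only [map_sub, map_mul, hmk, sub_zero]
      rw [Finset.prod_mul_distrib, Finset.prod_const, Finset.card_univ, Fintype.card_fin]
    rw [map_mul, map_pow, map_pow, map_pow, hp, ← mul_pow, ← map_mul, ← mul_assoc, hu, one_mul]
  exact ⟨t, by rw [← ht]; ring⟩

namespace Setup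

variable (s : Setup)

theorem δ_mem : s.δ ∈ maximalIdeal s.O := by
  refine Ideal.mul_mem_right _ _ ?_
  have h1 : residue s.O s.ξ = 1 := by
    rw [← sub_eq_zero, ← map_one (residue s.O), ← map_sub, residue_eq_zero_iff]
    exact (mem_maximalIdeal _).mpr s.hξ1.not_isUnit
  rw [← residue_eq_zero_iff, map_sub, map_pow, h1, one_pow, sub_self]

theorem δ_ne_zero : s.δ ≠ 0 := by
  intro h
  have h' := ((s.isUnit_two.unit⁻¹).isUnit.mul_left_eq_zero).mp h
  have h2 := sub_eq_zero.mp h'
  have h3 : s.ξ ^ 2 = 1 := by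
    have hp := s.hp.out.two_le
    calc s.ξ ^ 2 = s.ξ * s.ξ ^ (s.p - 1) := by rw [← h2, sq]
      _ = s.ξ ^ s.p := by rw [← pow_succ', Nat.sub_add_cancel (by omega)]
      _ = 1 := s.ξ_pow
  exact s.not_p_dvd_two (s.hξ.dvd_of_pow_eq_one 2 h3)

theorem residue_ξ : residue s.O s.ξ = 1 := by
  rw [← sub_eq_zero, ← map_one (residue s.O), ← map_sub, residue_eq_zero_iff]
  exact (mem_maximalIdeal _).mpr s.hξ1.not_isUnit

theorem squarefree_base : Squarefree s.base := by
  have hA : ∀ T : Finset ℕ, (∀ x ∈ T, x.Prime) → Squarefree (∏ x ∈ T, x) ∧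
      ∀ y : ℕ, y.Prime → (y ∣ ∏ x ∈ T, x ↔ y ∈ T) := by
    intro T hT
    have hdiv : ∀ y : ℕ, y.Prime → (y ∣ ∏ x ∈ T, x ↔ y ∈ T) := fun y hy => by
      refine ⟨fun h => ?_, fun h => Finset.dvd_prod_of_mem _ h⟩
      obtain ⟨x, hx, hyx⟩ := (Prime.dvd_finsetProd_iff hy.prime _).mp h
      exact (Nat.prime_dvd_prime_iff_eq hy (hT x hx)).mp hyx ▸ hx
    refine ⟨?_, hdiv⟩
    clear hdiv
    induction T using Finset.induction with
    | empty => simp
    | insert a T ha ih =>
      have hT' : ∀ x ∈ T, x.Prime := fun x hx => hT x (Finset.mem_insert_of_mem hx)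
      rw [Finset.prod_insert ha]
      refine (Nat.squarefree_mul ((hT a (Finset.mem_insert_self a T)).coprime_iff_not_dvd.mpr
        fun h => ha ?_)).mpr ⟨(hT a (Finset.mem_insert_self a T)).squarefree, ih hT'⟩
      obtain ⟨x, hx, hax⟩ :=
        (Prime.dvd_finsetProd_iff (hT a (Finset.mem_insert_self a T)).prime _).mp h
      exact (Nat.prime_dvd_prime_iff_eq (hT a (Finset.mem_insert_self a T)) (hT' x hx)).mp hax ▸ hx
  obtain ⟨hsq, hdiv⟩ := hA s.Aux fun x hx => (s.hAuxPrime x hx).1
  have h12 : Squarefree (s.M₀ * ∏ x ∈ s.Aux, x) :=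
    (Nat.squarefree_mul (Nat.Coprime.prod_right fun x hx =>
      ((s.hAuxPrime x hx).1.coprime_iff_not_dvd.mpr (s.hAuxPrime x hx).2.2).symm)).mpr
      ⟨s.hM₀, hsq⟩
  rw [Setup.base]
  split
  · refine (Nat.squarefree_mul ?_).mpr ⟨h12, s.hp.out.squarefree⟩
    refine ((s.hp.out.coprime_iff_not_dvd).mpr fun h => ?_).symm
    rcases (Nat.Prime.dvd_mul s.hp.out).mp h with h | h
    · exact s.hpM₀ h
    · exact (s.hAuxPrime s.p ((hdiv s.p s.hp.out).mp h)).2.1 rfl
  · simpa using h12

theorem mem_S₀_of_dvd_base {x : ℕ} (hx : x.Prime) (h : x ∣ s.base) : x ∈ s.S₀ := by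
  rcases (Nat.Prime.dvd_mul hx).mp h with h | h
  · rcases (Nat.Prime.dvd_mul hx).mp h with h | h
    · exact s.hM₀S₀ x hx h
    · obtain ⟨y, hy, hxy⟩ := (Prime.dvd_finsetProd_iff hx.prime _).mp h
      exact (Nat.prime_dvd_prime_iff_eq hx (s.hAuxPrime y hy).1).mp hxy ▸ s.hAuxS₀ y hy
  · split at h
    · exact (Nat.prime_dvd_prime_iff_eq hx s.hp.out).mp h ▸ s.hpS₀
    · exact absurd (Nat.dvd_one.mp h) hx.ne_one

end Setup

namespace AuxPrimes

variable {s : Setup} {r n : ℕ} (d : AuxPrimes s r n)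

theorem q_not_dvd_base (i : Fin r) : ¬ d.q i ∣ s.base := by
  intro h
  have hx := d.prime i
  rcases (Nat.Prime.dvd_mul hx).mp h with h | h
  · rcases (Nat.Prime.dvd_mul hx).mp h with h | h
    · exact (d.notMem i).2.1 h
    · obtain ⟨y, hy, hxy⟩ := (Prime.dvd_finsetProd_iff hx.prime _).mp h
      exact (d.notMem i).2.2.2 ((Nat.prime_dvd_prime_iff_eq hx (s.hAuxPrime y hy).1).mp hxy ▸ hy)
  · split at h
    · exact (d.notMem i).1 ((Nat.prime_dvd_prime_iff_eq hx s.hp.out).mp h)
    · exact absurd (Nat.dvd_one.mp h) hx.ne_one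

theorem gen_pow_univ (i : Fin r) :
    (Univ.gen i : Univ s.O (s.p ^ (n + 1)) r) ^ s.p ^ (n + 1) = 1 := Univ.gen_pow i

/-- The universal character of a kind of component. -/
def univChar (tw : Bool) : DirichletCharacter (Univ s.O (s.p ^ (n + 1)) r) d.D :=
  d.levelChar (if tw then algebraMap s.O _ s.ξ else 1) Univ.gen

theorem ite_pow (tw : Bool) {A : Type*} [CommRing A] [Algebra s.O A] :
    (if tw then algebraMap s.O A s.ξ else 1) ^ s.p = 1 := by
  split
  · rw [← map_pow, s.ξ_pow, map_one]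
  · rw [one_pow]

theorem univChar_eval (tw : Bool) (u : Fin r → s.K) (hu : ∀ i, u i ^ s.p ^ (n + 1) = 1) :
    (d.univChar tw).ringHomComp (Univ.eval (O := s.O) u hu).toRingHom = d.compChar tw u := by
  haveI : Fact (1 < s.p ^ (n + 1)) := ⟨Nat.one_lt_pow (Nat.succ_ne_zero n) s.hp.out.one_lt⟩
  rw [univChar, levelChar_ringHomComp d _ _ (ite_pow tw) _ gen_pow_univ, compChar]
  simp only [AlgHom.toRingHom_eq_coe, RingHom.coe_coe, Univ.eval_gen]
  cases tw <;> simp only [Bool.false_eq_true, ↓reduceIte, map_one, AlgHom.commutes]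

theorem univChar_residue [IsLocalRing (SLevel s.O r n)] (tw : Bool) :
    (d.univChar tw).ringHomComp
      ((residue (SLevel s.O r n)).comp (toLevel s r n).toRingHom) = 1 := by
  rw [univChar, levelChar_ringHomComp d _ _ (ite_pow tw) _ gen_pow_univ]
  simp only [RingHom.comp_apply, AlgHom.toRingHom_eq_coe, RingHom.coe_coe, residue_toLevel_gen]
  cases tw
  · simpa using d.levelChar_one
  · simp only [↓reduceIte, AlgHom.commutes, ← residueEquiv_apply, s.residue_ξ, map_one]
    exact d.levelChar_one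

/-- The character of the level ring. -/
def ringChar (tw : Bool) : DirichletCharacter (SLevel s.O r n) d.D :=
  (d.univChar tw).ringHomComp (toLevel s r n).toRingHom

theorem ringChar_congr :
    MulChar.ringHomComp (R'' := SLevel s.O r n ⧸
        Ideal.span {algebraMap s.O (SLevel s.O r n) s.ϖ}) (d.ringChar true)
        (Ideal.Quotient.mk (Ideal.span {algebraMap s.O (SLevel s.O r n) s.ϖ})) =
      MulChar.ringHomComp (R'' := SLevel s.O r n ⧸
        Ideal.span {algebraMap s.O (SLevel s.O r n) s.ϖ}) (d.ringChar false)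
        (Ideal.Quotient.mk (Ideal.span {algebraMap s.O (SLevel s.O r n) s.ϖ})) := by
  rw [ringChar, ringChar, ringHomComp_ringHomComp, ringHomComp_ringHomComp, univChar, univChar,
    levelChar_ringHomComp d _ _ (ite_pow true) _ gen_pow_univ,
    levelChar_ringHomComp d _ _ (ite_pow false) _ gen_pow_univ]
  congr 1
  simp only [↓reduceIte, Bool.false_eq_true, map_one, RingHom.comp_apply,
    AlgHom.toRingHom_eq_coe, RingHom.coe_coe, AlgHom.commutes]
  rw [← map_one (Ideal.Quotient.mk (Ideal.span {algebraMap s.O (SLevel s.O r n) s.ϖ})),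
    Ideal.Quotient.eq, ← map_one (algebraMap s.O (SLevel s.O r n)), ← map_sub]
  exact Ideal.mem_span_singleton_self _

theorem mem_S_of_dvd_L {x : ℕ} (hx : x.Prime) (h : x ∣ d.L) : x ∈ d.S := by
  rcases (Nat.Prime.dvd_mul hx).mp h with h | h
  · exact d.mem_S_of_mem (s.mem_S₀_of_dvd_base hx h)
  · rcases (Nat.Prime.dvd_mul hx).mp h with h | h
    · obtain ⟨y, hy, hxy⟩ := (Prime.dvd_finsetProd_iff hx.prime _).mp h
      exact d.mem_S_of_mem ((Nat.prime_dvd_prime_iff_eq hx (s.hScPrime y hy)).mp hxy ▸ s.hScS₀ y hy)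
    · obtain ⟨j, -, hj⟩ := (Prime.dvd_finsetProd_iff hx.prime _).mp h
      exact (Nat.prime_dvd_prime_iff_eq hx (d.prime j)).mp hj ▸ d.q_mem_S j

theorem base_dvd_L : s.base ∣ d.L := dvd_mul_right _ _

theorem ϖ_dvd_natCast_sub_one {x : ℕ} (hx : x ∈ s.Sc) : s.ϖ ∣ ((x : s.O) - 1) := by
  rw [← Ideal.mem_span_singleton, ← s.irreducible_ϖ.maximalIdeal_eq]
  have h1 := s.hone x hx
  rw [← Nat.cast_one, ZMod.natCast_eq_natCast_iff] at h1
  obtain ⟨t, ht⟩ := (Nat.modEq_iff_dvd' (s.hScPrime x hx).one_le).mp h1.symm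
  rw [← Nat.cast_one, ← Nat.cast_sub (s.hScPrime x hx).one_le, ht, Nat.cast_mul]
  exact Ideal.mul_mem_right _ _ s.hpO

theorem ϖ_dvd_sc (i : Fin s.Sc.card) : s.ϖ ∣ ((s.sc i : s.O) - 1) ^ 2 :=
  dvd_pow (ϖ_dvd_natCast_sub_one (s.sc_mem i)) two_ne_zero

variable [IsLocalRing (SLevel s.O r n)]

/-- The residual system on the level ring. -/
def abarR (ℓ : ℕ) : ResidueField (SLevel s.O r n) := residueEquiv s n (s.abar ℓ)

omit [IsLocalRing (SLevel s.O r n)] in
theorem resIdeal_eq [IsLocalRing (SLevel s.O r n)] :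
    residualIdeal ((residue (SLevel s.O r n)).comp (algebraMap s.O _)) (abarR (s := s) (r := r)
      (n := n)) d.S = d.resIdeal := by
  have h : (residue (SLevel s.O r n)).comp (algebraMap s.O _) =
      (residueEquiv s (r := r) n).toRingHom.comp (residue s.O) := RingHom.ext fun a => rfl
  rw [h]
  exact residualIdeal_comp _ _ _ _

/-- The congruent part of a kind of component. -/
abbrev Part (tw : Bool) : Type :=
  LocCoh d.D_dvd_L (d.ringChar tw) (SLevel s.O r n) d.S
    (residualIdeal (residue (SLevel s.O r n)) (abarR (s := s) (r := r) (n := n)) d.S)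

/-- The rank of the congruent parts. -/
def rank : ℕ :=
  Module.finrank s.k (LocCoh (one_dvd d.L) (1 : DirichletCharacter s.k 1) s.k d.S
    (residualIdeal (RingHom.id s.k) s.abar d.S))

theorem rank_eq_residual :
    Module.finrank (ResidueField (SLevel s.O r n))
        (LocCoh d.D_dvd_L (1 : DirichletCharacter (ResidueField (SLevel s.O r n)) d.D)
          (ResidueField (SLevel s.O r n)) d.S
          (residualIdeal (RingHom.id _) (abarR (s := s) (r := r) (n := n)) d.S)) = d.rank := by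
  have hS : ∀ q : ℕ, q.Prime → q ∣ d.L → q ∈ d.S := fun q hq h => d.mem_S_of_dvd_L hq h
  rw [rank, ← finrank_locCoh_one d.D_dvd_L d.S s.abar hS,
    finrank_locCoh_equiv d.D_dvd_L (residueEquiv s (r := r) n)]
  have h1 : (1 : DirichletCharacter s.k d.D).ringHomComp
      (residueEquiv s (r := r) n).toRingHom = 1 := MulChar.ringHomComp_one _
  rw [h1]
  rfl

theorem part_free (tw : Bool) :
    Module.Finite (SLevel s.O r n) (d.Part tw) ∧ Module.Free (SLevel s.O r n) (d.Part tw) ∧
      Module.finrank (SLevel s.O r n) (d.Part tw) = d.rank := by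
  obtain ⟨h1, h2, h3⟩ := free_locCoh d.D_dvd_L d.S (s.isUnit_two' (SLevel s.O r n))
    (s.ellipticOK _ d.base_dvd_L) (d.ringChar tw) (abarR (s := s) (r := r) (n := n))
    (fun q hq h => d.mem_S_of_dvd_L hq h) (s.hasNonEisenstein (residueEquiv s (r := r) n).toRingHom d.D d.S)
  refine ⟨h1, h2, h3.trans ?_⟩
  have : (d.ringChar tw).ringHomComp (residue (SLevel s.O r n)) = 1 :=
    (MulChar.ext fun u => rfl : (d.ringChar tw).ringHomComp (residue (SLevel s.O r n)) =
      (d.univChar tw).ringHomComp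
        ((residue (SLevel s.O r n)).comp (toLevel s r n).toRingHom)).trans (d.univChar_residue tw)
  rw [this]
  exact d.rank_eq_residual

/-- A polynomial over the universal coefficients vanishing at all points of one kind is nilpotent
on that part. -/
theorem pow_eq_zero_of_points (tw : Bool) (f : HeckePoly (Univ s.O (s.p ^ (n + 1)) r) d.S)
    (hf : ∀ P : d.Point, P.twisted = tw →
      evalSystem (Univ.eval (O := s.O) P.u P.hu).toRingHom P.a d.S f = 0)
    {E : ℕ} (hE : d.rank ≤ E) :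
    locAct d.D_dvd_L (d.ringChar tw) (SLevel s.O r n) d.S
      (residualIdeal (residue (SLevel s.O r n)) (abarR (s := s) (r := r) (n := n)) d.S)
      (MvPolynomial.map (toLevel s r n).toRingHom f) ^ E = 0 := by
  haveI := finite_rootsOfUnityTuples s r (n + 1)
  have h := locAct_pow_eq_zero d.D_dvd_L d.S (toLevel s r n).toRingHom
    (toLevel_surjective s n) (s.isUnit_two' _) (s.ellipticOK _ d.base_dvd_L) (d.univChar tw)
    (abarR (s := s) (r := r) (n := n)) (fun q hq h => d.mem_S_of_dvd_L hq h)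
    (s.hasNonEisenstein (residueEquiv s (r := r) n).toRingHom d.D d.S) (J := {u : Fin r → s.K // ∀ i, u i ^ s.p ^ (n + 1) = 1})
    (fun u => (Univ.eval (O := s.O) u.1 u.2).toRingHom)
    (fun x hx => Univ.eq_zero_of_eval s.algebraMap_K_injective x fun u hu => hx ⟨u, hu⟩) f
    (fun u a ha hc => by
      rw [univChar_eval] at ha
      have hc' := hc.restrict (algebraMap s.O (Univ s.O (s.p ^ (n + 1)) r))
      have e1 : (Univ.eval (O := s.O) u.1 u.2).toRingHom.comp
          (algebraMap s.O (Univ s.O (s.p ^ (n + 1)) r)) = algebraMap s.O s.K :=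
        RingHom.ext fun c => (Univ.eval (O := s.O) u.1 u.2).commutes c
      have e2 : ((residue (SLevel s.O r n)).comp (toLevel s r n).toRingHom).comp
          (algebraMap s.O (Univ s.O (s.p ^ (n + 1)) r)) =
          (residue (SLevel s.O r n)).comp (algebraMap s.O _) :=
        RingHom.ext fun c => congrArg (residue _) ((toLevel s r n).commutes c)
      rw [e1, e2] at hc'
      unfold IsCongruent at hc'
      rw [d.resIdeal_eq] at hc'
      exact hf ⟨tw, u.1, u.2, a, ha, hc'⟩ rfl)
  rw [d.univChar_residue tw, d.rank_eq_residual] at h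
  exact pow_eq_zero_of_le hE h

/-- The action of the Hecke polynomials over `O`. -/
def actO (tw : Bool) : HeckePoly s.O d.S →ₐ[s.O] Module.End (SLevel s.O r n) (d.Part tw) :=
  ((locAct d.D_dvd_L (d.ringChar tw) (SLevel s.O r n) d.S _).restrictScalars s.O).comp
    (MvPolynomial.mapAlgHom (Algebra.ofId s.O (SLevel s.O r n)))

theorem actO_apply (tw : Bool) (f : HeckePoly s.O d.S) :
    d.actO tw f = locAct d.D_dvd_L (d.ringChar tw) (SLevel s.O r n) d.S _
      (MvPolynomial.map (toLevel s r n).toRingHom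
        (MvPolynomial.map (algebraMap s.O (Univ s.O (s.p ^ (n + 1)) r)) f)) := by
  rw [MvPolynomial.map_map, show (toLevel s r n).toRingHom.comp
    (algebraMap s.O (Univ s.O (s.p ^ (n + 1)) r)) = algebraMap s.O (SLevel s.O r n) from
      RingHom.ext fun c => (toLevel s r n).commutes c]
  rfl

theorem actO_pow_eq_zero (tw : Bool) (f : HeckePoly s.O d.S)
    (hf : ∀ P : d.Point, P.twisted = tw → P.eval f = 0) {E : ℕ} (hE : d.rank ≤ E) :
    d.actO tw f ^ E = 0 := by
  rw [actO_apply]
  refine d.pow_eq_zero_of_points tw _ (fun P hP => ?_) hE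
  rw [evalSystem_map, show (Univ.eval (O := s.O) P.u P.hu).toRingHom.comp
    (algebraMap s.O (Univ s.O (s.p ^ (n + 1)) r)) = algebraMap s.O s.K from
      RingHom.ext fun c => (Univ.eval (O := s.O) P.u P.hu).commutes c]
  exact hf P hP

set_option synthInstance.maxHeartbeats 200000 in
set_option maxHeartbeats 2000000 in
/-- The relation of the diamond operators. -/
theorem actO_diamond {g : ℕ} (C : Coords d g) {E : ℕ} (hE : d.rank ≤ E) (j : Fin r) :
    (algebraMap (SLevel s.O r n) (Module.End (SLevel s.O r n) (d.Part true))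
        (diamond s.O r n j) ^ 2 -
      d.actO true (C.h j) * algebraMap (SLevel s.O r n) _ (diamond s.O r n j) + 1) ^ E = 0 := by
  haveI : Fact (1 < s.p ^ (n + 1)) := ⟨Nat.one_lt_pow (Nat.succ_ne_zero n) s.hp.out.one_lt⟩
  set ι := MvPolynomial.map (σ := GoodPrime d.S)
    (algebraMap s.O (Univ s.O (s.p ^ (n + 1)) r))
  have h := d.pow_eq_zero_of_points true
    (MvPolynomial.C (Univ.gen j) ^ 2 - ι (C.h j) * MvPolynomial.C (Univ.gen j) + 1)
    (fun P _ => by
      have he : (Univ.eval (O := s.O) P.u P.hu).toRingHom.comp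
          (algebraMap s.O (Univ s.O (s.p ^ (n + 1)) r)) = algebraMap s.O s.K :=
        RingHom.ext fun c => (Univ.eval (O := s.O) P.u P.hu).commutes c
      rw [map_add, map_sub, map_mul, map_pow, map_one, evalSystem_map, he]
      simp only [evalSystem, MvPolynomial.eval₂Hom_C, AlgHom.toRingHom_eq_coe,
        RingHom.coe_coe, Univ.eval_gen]
      exact C.diamond P j) hE
  have hgen : MvPolynomial.map (σ := GoodPrime d.S) (toLevel s r n).toRingHom
      (MvPolynomial.C (Univ.gen j)) =
      algebraMap (SLevel s.O r n) (HeckePoly (SLevel s.O r n) d.S) (diamond s.O r n j) := by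
    rw [MvPolynomial.map_C, MvPolynomial.algebraMap_eq]
    exact congrArg _ (toLevel_gen s n j)
  rw [RingHom.map_add, RingHom.map_sub, RingHom.map_mul, RingHom.map_pow, RingHom.map_one,
    hgen] at h
  generalize hΛ : locAct d.D_dvd_L (d.ringChar true) (SLevel s.O r n) d.S
    (residualIdeal (residue (SLevel s.O r n)) (abarR (s := s) (r := r) (n := n)) d.S) = Λ at h
  rw [map_add Λ, map_sub Λ, map_mul Λ, map_pow Λ, map_one Λ, Λ.commutes, ← hΛ,
    ← actO_apply] at h
  exact h

set_option synthInstance.maxHeartbeats 200000 in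
set_option maxHeartbeats 2000000 in
/-- The product of the Frobenius quadrics is divisible by `ϖ`. -/
theorem actO_killed {g : ℕ} (C : Coords d g) {E : ℕ} (hE : d.rank ≤ E) :
    ∃ A : Module.End (SLevel s.O r n) (d.Part true),
      ((List.ofFn fun i : Fin s.Sc.card =>
        qdOp (opF (fun v => d.actO true (C.op v)) i)).prod) ^ E = s.ϖ • A := by
  classical
  set H : HeckePoly s.O d.S := ∏ i : Fin s.Sc.card,
    (4 * qdOp (opF C.op i) - MvPolynomial.C (((s.sc i : s.O) - 1) ^ 2))
  have hH := d.actO_pow_eq_zero false H (fun P hP => by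
    rw [map_prod, ← C.killed P hP]
    refine Finset.prod_congr rfl fun i _ => ?_
    rw [map_sub, map_mul, map_ofNat, Point.eval, evalSystem, MvPolynomial.eval₂Hom_C, map_pow,
      map_sub, map_natCast, map_one]) hE
  rw [← map_pow, actO_apply] at hH
  obtain ⟨G, hG⟩ := exists_smul_eq_locAct d.D_dvd_L d.S (s.isUnit_two' (SLevel s.O r n))
    (s.ellipticOK _ d.base_dvd_L) (c := algebraMap s.O (SLevel s.O r n) s.ϖ)
    (by
      rw [← residue_eq_zero_iff, ← residueEquiv_apply,
        (residue_eq_zero_iff _).mpr ((mem_maximalIdeal _).mpr s.irreducible_ϖ.not_isUnit),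
        map_zero])
    (d.ringChar true) (d.ringChar false) d.ringChar_congr
    (abarR (s := s) (r := r) (n := n)) (fun q hq h => d.mem_S_of_dvd_L hq h)
    (s.hasNonEisenstein (residueEquiv s (r := r) n).toRingHom d.D d.S) _ hH
  rw [← actO_apply] at hG
  have h4 : IsUnit ((4 : s.O) ^ s.Sc.card) := by
    refine IsUnit.pow _ ?_
    rw [show (4 : s.O) = 2 * 2 by norm_num]
    exact s.isUnit_two.mul s.isUnit_two
  obtain ⟨u, hu⟩ := h4.exists_left_inv
  obtain ⟨t, ht⟩ := exists_prod_pow_eq (fun i : Fin s.Sc.card => qdOp (opF C.op i))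
    (fun i => (MvPolynomial.C (((s.sc i : s.O) - 1) ^ 2) : HeckePoly s.O d.S))
    (MvPolynomial.C s.ϖ) (fun i => map_dvd MvPolynomial.C (ϖ_dvd_sc i)) (MvPolynomial.C u)
    (by rw [show (4 : HeckePoly s.O d.S) = MvPolynomial.C 4 from (map_ofNat _ 4).symm,
      ← MvPolynomial.C_pow, ← MvPolynomial.C_mul, hu, MvPolynomial.C_1]) E
  have hq : (fun i : Fin s.Sc.card => qdOp (opF (fun v => d.actO true (C.op v)) i)) =
      fun i => d.actO true (qdOp (opF C.op i)) := funext fun i => (map_qdOp_opF _ _ i).symm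
  rw [hq]
  exact smul_of_map_eq (R := SLevel s.O r n) (d.actO true) _ s.ϖ u t E ht hG

set_option maxHeartbeats 800000 in
/-- The engine data of the step. -/
theorem nonempty_engineLevel {g : ℕ} (C : Coords d g) {E : ℕ} (hE : d.rank ≤ E) :
    Nonempty (EngineLevel s.O s.ϖ s.δ s.Sc.card g r E d.rank n) := by
  classical
  haveI : Fact (1 < s.p ^ (n + 1)) := ⟨Nat.one_lt_pow (Nat.succ_ne_zero n) s.hp.out.one_lt⟩
  obtain ⟨hfin, hfree, hrk⟩ := d.part_free true
  let b := Module.finBasisOfFinrankEq (SLevel s.O r n) (d.Part true) hrk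
  let Φ := d.actO true
  refine ⟨EngineLevel.ofModule b (fun v => Φ (C.op v)) (fun v w => (Commute.all _ _).map Φ)
    (fun v => ?_) (fun i => ?_) (fun i a c => ?_) (fun j => ?_) ?_⟩
  · -- nilpotency modulo the maximal ideal
    obtain ⟨N, hN⟩ := exists_pow_locAct_mem d.D_dvd_L d.S (s.isUnit_two' (SLevel s.O r n))
      (s.ellipticOK _ d.base_dvd_L) (d.ringChar true) (abarR (s := s) (r := r) (n := n))
      (fun q hq h => d.mem_S_of_dvd_L hq h)
      (MvPolynomial.map (algebraMap s.O (SLevel s.O r n)) (C.op v))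
      ((map_mem_residualIdeal _ _ _ _ _).mpr (by rw [d.resIdeal_eq]; exact C.op_mem v))
    refine ⟨N, fun x => ?_⟩
    have hm := hN x
    rwa [← IsLocalRing.map_maximalIdeal_of_surjective _ Ideal.Quotient.mk_surjective] at hm
  · have h := d.actO_pow_eq_zero true (qdOp (opS C.op i) - algebraMap s.O _ (s.δ ^ 2))
      (fun P hP => by
        rw [map_sub, C.quadric P hP i, Point.eval, evalSystem, MvPolynomial.algebraMap_eq,
          MvPolynomial.eval₂Hom_C, map_pow, sub_self]) hE
    simpa only [qdOp, opS, map_sub, map_add, map_mul, map_pow, AlgHom.commutes] using h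
  · have h := d.actO_pow_eq_zero true (opS C.op i a * opF C.op i c - opS C.op i c * opF C.op i a)
      (fun P hP => C.parallel P hP i a c) hE
    simpa only [opS, opF, map_sub, map_mul] using h
  · refine ⟨Φ (C.h j), ?_, d.actO_diamond C hE j⟩
    rw [show (Set.range fun v => Φ (C.op v)) = Φ '' Set.range C.op from Set.range_comp _ _,
      ← AlgHom.map_adjoin]
    exact ⟨C.h j, C.h_mem j, rfl⟩
  · exact d.actO_killed C hE

end AuxPrimes

end Fermat.Agent.Ribet.Avoid
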