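/-
Assembly of the level lowering by Ihara avoidance.
-/
import Fermat.Agent.Ribet.Avoid.Step

set_option autoImplicit false

noncomputable section

namespace Fermat.Agent.Ribet.Avoid

open Polynomial IsLocalRing Twisted

/-- The level `base · ∏ Sc`. -/
def Setup.scLevel (s : Setup) : ℕ := s.base * ∏ x ∈ s.Sc, x

/-- **Ihara avoidance.**  A congruent system at the level `base · ∏ Sc`, `Sc` nonempty, gives one
at the level `base`. -/
theorem exists_system_base (s : Setup) [NeZero s.base] [NeZero s.scLevel] (hne : s.Sc.Nonempty)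
    (a : ℕ → s.K) (ha : HasSystem (one_dvd s.scLevel) (1 : DirichletCharacter s.K 1) s.S₀ a)
    (hcong : IsCongruent (algebraMap s.O s.K) (residue s.O) s.abar s.S₀ a) :
    ∃ (S : Finset ℕ) (b : ℕ → s.K), s.S₀ ⊆ S ∧
      HasSystem (one_dvd s.base) (1 : DirichletCharacter s.K 1) S b ∧
      IsCongruent (algebraMap s.O s.K) (residue s.O) s.abar S b := by
  classical
  by_contra hno
  push Not at hno
  obtain ⟨r, hr, hd⟩ := exists_auxPrimes s
  set B₀ : ℕ := Module.finrank s.k
    (CohL (one_dvd s.scLevel) (1 : DirichletCharacter s.k 1) s.k)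
  refine engine_false s.irreducible_ϖ s.δ_mem s.δ_ne_zero
    (k := s.Sc.card) (g := r - 3 * s.Sc.card) (r := r) (by omega)
    (2 ^ r * B₀ + 1) (2 ^ r * B₀ + 1) fun n => ?_
  rcases Nat.eq_zero_or_pos n with rfl | hn
  · haveI : Subsingleton (SLevel s.O r 0) :=
      Ideal.Quotient.subsingleton_iff.mpr (by simp)
    exact ⟨1, one_pos, Nat.le_add_left 1 _, ⟨{
      op := fun _ => 0
      comm := fun _ _ => Commute.zero_left _
      nilpotent := fun _ => ⟨0, fun a b => by
        rw [Subsingleton.elim (((0 : Matrix (Fin 1) (Fin 1) (SLevel s.O r 0)) ^ 0) a b) 0]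
        exact zero_mem _⟩
      quadric := fun _ => Subsingleton.elim _ _
      parallel := fun _ _ _ => Subsingleton.elim _ _
      diamond_integral := fun _ => ⟨0, zero_mem _, Subsingleton.elim _ _⟩
      killed := ⟨0, Subsingleton.elim _ _⟩ }⟩⟩
  haveI := isLocalRing_sLevel s (r := r) hn.ne'
  obtain ⟨d, hdb⟩ := hd n
  have hS₀ : s.S₀ ⊆ d.S := fun x hx => d.mem_S_of_mem hx
  obtain ⟨C⟩ := exists_coords d hdb (fun u b hu hb =>
    d.not_isCongruent_aux (fun {_} c hc => hno d.S c hS₀ hc) s.squarefree_base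
      (fun x hx h => d.mem_S_of_mem (s.mem_S₀_of_dvd_base hx h)) d.q_not_dvd_base u hu b hb)
  have hScB : ∀ x ∈ s.Sc, ¬ x ∣ s.base := by
    intro x hx h
    have hxp := s.hScPrime x hx
    rcases (Nat.Prime.dvd_mul hxp).mp h with h | h
    · rcases (Nat.Prime.dvd_mul hxp).mp h with h | h
      · exact s.hScM₀ x hx h
      · obtain ⟨y, hy, hxy⟩ := (Prime.dvd_finsetProd_iff hxp.prime _).mp h
        exact Finset.disjoint_left.mp s.hScAux hx
          ((Nat.prime_dvd_prime_iff_eq hxp (s.hAuxPrime y hy).1).mp hxy ▸ hy)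
    · split at h
      · have hxp' := (Nat.prime_dvd_prime_iff_eq hxp s.hp.out).mp h
        have h1 := s.hone x hx
        rw [hxp', ZMod.natCast_self] at h1
        exact zero_ne_one h1
      · exact absurd (Nat.dvd_one.mp h) hxp.ne_one
  have hsqSc : ∀ T : Finset ℕ, T ⊆ s.Sc → Squarefree (s.base * ∏ x ∈ T, x) := by
    intro T
    induction T using Finset.induction with
    | empty => intro _; simpa using s.squarefree_base
    | insert x T hxT ih =>
      intro hT
      have hx : x ∈ s.Sc := hT (Finset.mem_insert_self x T)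
      have hxp := s.hScPrime x hx
      rw [Finset.prod_insert hxT, mul_left_comm]
      refine (Nat.squarefree_mul (hxp.coprime_iff_not_dvd.mpr fun h => ?_)).mpr
        ⟨hxp.squarefree, ih fun y hy => hT (Finset.mem_insert_of_mem hy)⟩
      rcases (Nat.Prime.dvd_mul hxp).mp h with h | h
      · exact hScB x hx h
      · obtain ⟨y, hy, hxy⟩ := (Prime.dvd_finsetProd_iff hxp.prime _).mp h
        exact hxT ((Nat.prime_dvd_prime_iff_eq hxp
          (s.hScPrime y (hT (Finset.mem_insert_of_mem hy)))).mp hxy ▸ hy)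
  have hscS : ∀ x : ℕ, x.Prime → x ∣ s.scLevel → x ∈ d.S := by
    intro x hx h
    rcases (Nat.Prime.dvd_mul hx).mp h with h | h
    · exact d.mem_S_of_mem (s.mem_S₀_of_dvd_base hx h)
    · obtain ⟨y, hy, hxy⟩ := (Prime.dvd_finsetProd_iff hx.prime _).mp h
      exact d.mem_S_of_mem
        ((Nat.prime_dvd_prime_iff_eq hx (s.hScPrime y hy)).mp hxy ▸ s.hScS₀ y hy)
  have hqsc : ∀ i, ¬ d.q i ∣ s.scLevel := by
    intro i h
    rcases (Nat.Prime.dvd_mul (d.prime i)).mp h with h | h
    · exact d.q_not_dvd_base i h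
    · obtain ⟨y, hy, hxy⟩ := (Prime.dvd_finsetProd_iff (d.prime i).prime _).mp h
      exact (d.notMem i).2.2.1
        ((Nat.prime_dvd_prime_iff_eq (d.prime i) (s.hScPrime y hy)).mp hxy ▸ hy)
  have hL : d.L = s.scLevel * ∏ i : Fin r, d.q i := (mul_assoc _ _ _).symm
  have hle : d.rank ≤ 2 ^ r * B₀ := by
    have h := d.finrank_mul_prod_le (N₀ := s.scLevel) (dvd_mul_right _ _)
      (hsqSc s.Sc subset_rfl) hscS hqsc Finset.univ d.L hL
    rw [Finset.card_univ, Fintype.card_fin] at h
    exact h.trans (Nat.mul_le_mul_left _ (finrank_locCoh_le (one_dvd s.scLevel) d.S _ _))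
  have hpos : 0 < d.rank := by
    have hsys := hasSystem_of_dvd d.S (hL ▸ dvd_mul_right _ _ : s.scLevel ∣ d.L)
      (fun x hx h => d.mem_S_of_dvd_L hx h) (HasSystem.mono hS₀ ha)
    have h := finrank_pos_of_system (one_dvd d.L) d.S (s.isUnit_two' s.O)
      (s.ellipticOK s.O d.base_dvd_L) (residue s.O) residue_surjective
      (1 : DirichletCharacter s.O 1) s.abar (fun x hx h => d.mem_S_of_dvd_L hx h)
      (algebraMap s.O s.K) (a := a) (by rwa [MulChar.ringHomComp_one]) (IsCongruent.mono hS₀ hcong)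
    rwa [MulChar.ringHomComp_one] at h
  exact ⟨d.rank, hpos, hle.trans (Nat.le_add_right _ _),
    d.nonempty_engineLevel C (hle.trans (Nat.le_add_right _ _))⟩

end Fermat.Agent.Ribet.Avoid
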